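import Fermat.Agent.S56.EC.Asm
import Fermat.Agent.S55.Top.Defs

set_option autoImplicit false
set_option linter.unusedSectionVars false

/-!
# Cluster T / S56, GW-CORE, package EC: interfaces for `Stmt_KDT`, `Stmt_KDO` (Kummer-Dirichlet)

Owner-planner: helper27.  Plan: `NOTES/plan/T_EC.md` §7.

`(L, S)`: `L/ℚ` finite Galois inside `ℚ̄`, unramified outside `S ∋ p`, `ζ_p ∈ L`; `G = Gal(L/ℚ)`,
`𝔽 = ZMod p`.
* `LevHom p S L W`      level-`S` homomorphisms `G_L → W`;
* `EqLevHom p S L ρ B W` the `B`-equivariant ones with values in `W ≤ V` (`h (g σ g⁻¹) = ρ(g) h(σ)`);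
* `UmodP p S L`, `unitRep p S L`  the `𝔽[G]`-module `U = O_{L,S}ˣ / p`;
* `decL L q`, `decInf L`  the decomposition groups in `G` at `q` and at the real place;
* `dualTwistL p L ρ`     the Tate dual `V*(1)` of a representation of `G`.
-/

noncomputable section

namespace Fermat.Agent.S56.EC

open CategoryTheory groupCohomology ExtCitation Module

section defs

variable (p : ℕ) [Fact p.Prime] (S : Finset Nat.Primes)
  (L : IntermediateField ℚ (AlgebraicClosure ℚ)) [Normal ℚ L]

/-- Conjugation by `g ∈ G_ℚ` on `G_L`. -/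
def conjL (g : GQ) (σ : ↥L.fixingSubgroup) : ↥L.fixingSubgroup :=
  ⟨g * σ * g⁻¹, mem_fixingSubgroup_of_resL L (by
    rw [map_mul, map_mul, resL_eq_one L σ.2, mul_one, map_inv, mul_inv_cancel])⟩

@[simp] theorem conjL_coe (g : GQ) (σ : ↥L.fixingSubgroup) :
    ((conjL L g σ : ↥L.fixingSubgroup) : GQ) = g * σ * g⁻¹ := rfl

/-- Level-`S` homomorphisms `G_L → W`. -/
def LevHom (W : Type) [AddCommGroup W] [Module (ZMod p) W] :
    Submodule (ZMod p) (↥L.fixingSubgroup → W) where
  carrier := {h | (∀ σ τ, h (σ * τ) = h σ + h τ) ∧ S55.Top.IsLevK₁ S L h}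
  add_mem' := by
    rintro h h' ⟨ha, F, hF, hl⟩ ⟨ha', F', hF', hl'⟩
    refine ⟨fun σ τ => ?_, F ⊔ F', hF.sup hF', fun g s hs => ?_⟩
    · show h (σ * τ) + h' (σ * τ) = h σ + h' σ + (h τ + h' τ)
      rw [ha, ha']
      abel
    · show h (g * s) + h' (g * s) = h g + h' g
      rw [hl g s (IntermediateField.fixingSubgroup_antitone le_sup_left hs),
        hl' g s (IntermediateField.fixingSubgroup_antitone le_sup_right hs)]
  zero_mem' := ⟨fun _ _ => (add_zero (0 : W)).symm, ⊥, IntermediateField.isUnramifiedOutside_bot S,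
    fun _ _ _ => rfl⟩
  smul_mem' := by
    rintro c h ⟨ha, F, hF, hl⟩
    refine ⟨fun σ τ => ?_, F, hF, fun g s hs => ?_⟩
    · show c • h (σ * τ) = c • h σ + c • h τ
      rw [ha, smul_add]
    · show c • h (g * s) = c • h g
      rw [hl g s hs]

theorem mem_levHom {W : Type} [AddCommGroup W] [Module (ZMod p) W] (h : ↥L.fixingSubgroup → W) :
    h ∈ LevHom p S L W ↔ (∀ σ τ, h (σ * τ) = h σ + h τ) ∧ S55.Top.IsLevK₁ S L h := Iff.rfl

/-- The `B`-equivariant level-`S` homomorphisms `G_L → W ≤ V`: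
`h (g σ g⁻¹) = ρ(g) h(σ)` for all `g ∈ G_ℚ` with image in `B`. -/
def EqLevHom {V : Type} [AddCommGroup V] [Module (ZMod p) V]
    (ρ : Representation (ZMod p) (GalL L) V) (B : Subgroup (GalL L)) (W : Submodule (ZMod p) V) :
    Submodule (ZMod p) (↥L.fixingSubgroup → V) where
  carrier := {h | h ∈ LevHom p S L V ∧ (∀ σ, h σ ∈ W) ∧
    ∀ g : GQ, resL L g ∈ B → ∀ σ, h (conjL L g σ) = ρ (resL L g) (h σ)}
  add_mem' := by
    rintro h h' ⟨h1, h2, h3⟩ ⟨h1', h2', h3'⟩
    refine ⟨(LevHom p S L V).add_mem h1 h1', fun σ => W.add_mem (h2 σ) (h2' σ), fun g hg σ => ?_⟩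
    show h (conjL L g σ) + h' (conjL L g σ) = ρ (resL L g) (h σ + h' σ)
    rw [h3 g hg, h3' g hg, map_add]
  zero_mem' := ⟨(LevHom p S L V).zero_mem, fun _ => W.zero_mem, fun g _ σ => by
    show (0 : V) = ρ (resL L g) 0
    rw [map_zero]⟩
  smul_mem' := by
    rintro c h ⟨h1, h2, h3⟩
    refine ⟨(LevHom p S L V).smul_mem c h1, fun σ => W.smul_mem c (h2 σ), fun g hg σ => ?_⟩
    show c • h (conjL L g σ) = ρ (resL L g) (c • h σ)
    rw [h3 g hg, map_smul]

/-! ### The unit module `U = O_{L,S}ˣ / p` -/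

/-- The `S`-units of `L`, additively. -/
abbrev UnitsAdd : Type := Additive ↥(S55.CFT.TUnits ↥L S)

/-- The `p`-th powers. -/
def pPowers : AddSubgroup (UnitsAdd S L) :=
  (nsmulAddMonoidHom p : UnitsAdd S L →+ UnitsAdd S L).range

/-- `U = O_{L,S}ˣ / p`. -/
abbrev UmodP : Type := UnitsAdd S L ⧸ pPowers p S L

theorem nsmul_umodP (x : UmodP p S L) : p • x = 0 := by
  induction x using QuotientAddGroup.induction_on with
  | H u =>
    rw [← QuotientAddGroup.mk_nsmul]
    exact (QuotientAddGroup.eq_zero_iff _).2 ⟨u, rfl⟩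

instance : Module (ZMod p) (UmodP p S L) := AddCommGroup.zmodModule (nsmul_umodP p S L)

/-- The action of `Gal(L/ℚ)` on the `S`-units, additively. -/
def unitsAct (g : GalL L) : UnitsAdd S L →+ UnitsAdd S L :=
  (MulDistribMulAction.toMonoidHom (↥(S55.CFT.TUnits ↥L S)) g).toAdditive

theorem unitsAct_apply (g : GalL L) (u : ↥(S55.CFT.TUnits ↥L S)) :
    unitsAct S L g (Additive.ofMul u) = Additive.ofMul (g • u) := rfl

/-- The action of `Gal(L/ℚ)` on `U`. -/
def umodPAct (g : GalL L) : UmodP p S L →+ UmodP p S L :=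
  QuotientAddGroup.map _ _ (unitsAct S L g) (by
    rintro x ⟨y, rfl⟩
    exact ⟨unitsAct S L g y, (map_nsmul (unitsAct S L g) p y).symm⟩)

theorem umodPAct_mk (g : GalL L) (u : UnitsAdd S L) :
    umodPAct p S L g (QuotientAddGroup.mk u) = QuotientAddGroup.mk (unitsAct S L g u) := rfl

/-- `U = O_{L,S}ˣ / p` as a representation of `Gal(L/ℚ)` over `𝔽_p`. -/
def unitRep : Representation (ZMod p) (GalL L) (UmodP p S L) where
  toFun g := (umodPAct p S L g).toZModLinearMap p
  map_one' := by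
    apply LinearMap.ext
    intro x
    induction x using QuotientAddGroup.induction_on with
    | H u =>
      show umodPAct p S L 1 (QuotientAddGroup.mk u) = QuotientAddGroup.mk u
      rw [umodPAct_mk]
      congr 1
  map_mul' g h := by
    apply LinearMap.ext
    intro x
    induction x using QuotientAddGroup.induction_on with
    | H u =>
      show umodPAct p S L (g * h) (QuotientAddGroup.mk u) =
        umodPAct p S L g (umodPAct p S L h (QuotientAddGroup.mk u))
      rw [umodPAct_mk, umodPAct_mk, umodPAct_mk]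
      congr 1

/-! ### Decomposition groups and the Tate dual over `Gal(L/ℚ)` -/

/-- The decomposition group at `q` in `Gal(L/ℚ)`. -/
def decL (q : Nat.Primes) : Subgroup (GalL L) := (primeLocalToGlobal q).range.map (resL L)

/-- The decomposition group at the real place in `Gal(L/ℚ)`. -/
def decInf : Subgroup (GalL L) := archimedeanLoc.range.map (resL L)

/-- The mod `p` cyclotomic character on `Gal(L/ℚ)` (meaningful when `ζ_p ∈ L`). -/
def omegaL (b : GalL L) : (ZMod p)ˣ :=
  cycloChar p (Function.surjInv (resL_surjective L) b)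

/-- The Tate dual `V*(1)` of a representation of `Gal(L/ℚ)`:
`(b • φ)(v) = ω(b) φ(b⁻¹ v)` (a representation when `ζ_p ∈ L`; here only the operators). -/
def dualTwistOp {V : Type} [AddCommGroup V] [Module (ZMod p) V]
    (ρ : Representation (ZMod p) (GalL L) V) (b : GalL L) :
    Module.Dual (ZMod p) V →ₗ[ZMod p] Module.Dual (ZMod p) V :=
  ((omegaL p L b : (ZMod p)ˣ) : ZMod p) • (ρ.dual b)


/-- An automorphism fixing `L ∋ ζ_p` has trivial cyclotomic character. -/
theorem cycloChar_eq_one_of_resL {p : ℕ} [Fact p.Prime] {S : Finset Nat.Primes}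
    {L : IntermediateField ℚ (AlgebraicClosure ℚ)} [Normal ℚ L] (hL : IsGalLevel p S L)
    {σ : GQ} (hσ : resL L σ = 1) : cycloChar p σ = 1 := by
  have : NeZero p := ⟨(Fact.out : p.Prime).ne_zero⟩
  have : Fact (1 < p) := ⟨(Fact.out : p.Prime).one_lt⟩
  obtain ⟨-, ζ, hζL, hζ⟩ := hL
  have hfix : ∀ x ∈ L, σ x = x := fun x hx =>
    (IntermediateField.mem_fixingSubgroup_iff L σ).1 (mem_fixingSubgroup_of_resL L hσ) x hx
  have h1 := modularCyclotomicCharacter.unique (L := AlgebraicClosure ℚ)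
    (card_rootsOfUnity_eq_self p) (σ : AlgebraicClosure ℚ ≃+* AlgebraicClosure ℚ)
    (c := (1 : ZMod p)) (fun t ht => by
      rw [ZMod.val_one, pow_one]
      have ht' : (t : AlgebraicClosure ℚ) ^ p = 1 := by
        have := (mem_rootsOfUnity p t).1 ht
        rw [← Units.val_pow_eq_pow_val, this, Units.val_one]
      obtain ⟨i, -, hi⟩ := hζ.eq_pow_of_pow_eq_one ht'
      have : (t : AlgebraicClosure ℚ) ∈ L := hi ▸ pow_mem hζL i
      exact hfix _ this)
  refine Units.ext ?_
  rw [Units.val_one]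
  exact h1.symm

/-- On a Galois level, `omegaL` is the cyclotomic character. -/
theorem omegaL_resL {p : ℕ} [Fact p.Prime] {S : Finset Nat.Primes}
    {L : IntermediateField ℚ (AlgebraicClosure ℚ)} [Normal ℚ L] (hL : IsGalLevel p S L)
    (g : GQ) : omegaL p L (resL L g) = cycloChar p g := by
  unfold omegaL
  set g' := Function.surjInv (resL_surjective L) (resL L g) with hg'
  have h1 : resL L g' = resL L g := Function.surjInv_eq (resL_surjective L) _
  have h2 : resL L (g'⁻¹ * g) = 1 := by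
    rw [map_mul, map_inv, h1, inv_mul_cancel]
  have h3 := cycloChar_eq_one_of_resL hL h2
  rw [map_mul, map_inv, inv_mul_eq_one] at h3
  exact h3

/-- The subspace fixed by the operators `T b`, `b ∈ D`. -/
def fixedSub {X : Type} [AddCommGroup X] [Module (ZMod p) X] {Γ : Type} (D : Set Γ)
    (T : Γ → X →ₗ[ZMod p] X) : Submodule (ZMod p) X where
  carrier := {x | ∀ b ∈ D, T b x = x}
  add_mem' := fun {x y} hx hy b hb => by rw [map_add, hx b hb, hy b hb]
  zero_mem' := fun b _ => map_zero (T b)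
  smul_mem' := fun c x hx b hb => by rw [map_smul, hx b hb]

end defs

/-! ### Statements -/

/-- **Package SHAP-lb** (Shapiro + inflation-restriction, lower bound).  `V = Ind_B^G W`,
`p ∤ #B`: the `B`-equivariant level-`S` homomorphisms `G_L → W` inject into `H¹_S(G_ℚ, V)`
(corestriction from `G_L` to `G_ℚ` of `h`; `res ∘ cor` has `W`-component `#B · h`). -/
def Stmt_SHAPlb : Prop :=
  ∀ (p : ℕ) [Fact p.Prime], p ≠ 2 → ∀ (S : Finset Nat.Primes), pPrime p ∈ S →
    ∀ (L : IntermediateField ℚ (AlgebraicClosure ℚ)) [Normal ℚ L] [FiniteDimensional ℚ L],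
      IsGalLevel p S L →
      ∀ (V : Type) [AddCommGroup V] [Module (ZMod p) V] [FiniteDimensional (ZMod p) V]
        (ρ : Representation (ZMod p) (GalL L) V) (B : Subgroup (GalL L)) (W : Submodule (ZMod p) V),
        ¬ p ∣ Nat.card B → IND.IsInducedFrom ρ B W →
        ∃ f : ↥(EqLevHom p S L ρ B W) →ₗ[ZMod p] ↥(continuousH1S S (infl L ρ)),
          Function.Injective f

/-- **Package SHAP-ub** (Shapiro for the regular representation, upper bound):
`H¹_S(G_ℚ, 𝔽_p[G]) ↪ Hom_S(G_L, 𝔽_p)` (`S55/Top/ShapiroCore.lean`: `sh1`, `hty_one`;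
a cocycle `c : G_ℚ → (G → 𝔽_p)` goes to `σ ↦ c σ 1`). -/
def Stmt_SHAPub : Prop :=
  ∀ (p : ℕ) [Fact p.Prime], p ≠ 2 → ∀ (S : Finset Nat.Primes), pPrime p ∈ S →
    ∀ (L : IntermediateField ℚ (AlgebraicClosure ℚ)) [Normal ℚ L] [FiniteDimensional ℚ L],
      IsGalLevel p S L →
      ∃ f : ↥(continuousH1S S (infl L (IND.permRep (ZMod p) (GalL L) (GalL L)))) →ₗ[ZMod p]
          ↥(LevHom p S L (ZMod p)),
        Function.Injective f

/-- **Package KUM** (Kummer theory at level `S`).  There is an injective linear map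
`κ : O_{L,S}ˣ/p → Hom_S(G_L, 𝔽_p)` (`σ(u^{1/p}) = ζ^{κ_u(σ)} u^{1/p}`) with
`κ_{g u}(g σ g⁻¹) = ω(g) κ_u(σ)`; it is onto when `Cl_S(L) = 1`.
(Level `S`: `L(u^{1/p})/L` is unramified outside `S ∋ p`.  Onto: `L(χ) = L(a^{1/p})`, unramified
outside `S` ⟹ `p ∣ v(a)` for `v ∉ S` ⟹ `a = u c^p` since `Cl_S(L) = 1`.) -/
def Stmt_KUM : Prop :=
  ∀ (p : ℕ) [Fact p.Prime] (S : Finset Nat.Primes), pPrime p ∈ S →
    ∀ (L : IntermediateField ℚ (AlgebraicClosure ℚ)) [Normal ℚ L] [FiniteDimensional ℚ L],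
      IsGalLevel p S L →
      ∃ κ : UmodP p S L →ₗ[ZMod p] (↥L.fixingSubgroup → ZMod p),
        Function.Injective κ ∧ (∀ u, κ u ∈ LevHom p S L (ZMod p)) ∧
        (∀ (g : GQ) (u : UmodP p S L) (σ : ↥L.fixingSubgroup),
          κ (unitRep p S L (resL L g) u) (conjL L g σ) =
            ((cycloChar p g : (ZMod p)ˣ) : ZMod p) * κ u σ) ∧
        ((∀ [NumberField ↥L], S55.CFT.ClTrivial ↥L S) →
          ∀ h ∈ LevHom p S L (ZMod p), ∃ u, κ u = h)

/-- **Package UBR** (equivariant Dirichlet unit theorem, Brauer character form).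
`U = O_{L,S}ˣ/p` is finite-dimensional and for every `b ∈ Gal(L/ℚ)` of order prime to `p`
`β_U(b) + 1 = τ(ω(b)) + ∑_{q ∈ S} #Fix(b, G/D_q) + #Fix(b, G/D_∞)`.
(`0 → μ(L)/p → U → Λ/p → 0`, `Λ = O_{L,S}ˣ/tors`; `b` acts on `μ(L)/p` by `ω(b)`; the
characteristic polynomial of `b` on `Λ` is determined by the ranks of the fixed points of the
powers of `b`, i.e. by the `S`-unit ranks of the fields `L^{⟨b^e⟩}` (`S55.CFT.H12.finrank_tUnits`)
and these are the numbers of orbits of `⟨b^e⟩` on the places `⊔_v G/D_v`, minus one.) -/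
def Stmt_UBR : Prop :=
  ∀ (p : ℕ) [Fact p.Prime], p ≠ 2 → ∀ (S : Finset Nat.Primes), pPrime p ∈ S →
    ∀ (L : IntermediateField ℚ (AlgebraicClosure ℚ)) [Normal ℚ L] [FiniteDimensional ℚ L],
      IsGalLevel p S L →
      FiniteDimensional (ZMod p) (UmodP p S L) ∧
      ∀ g : GQ, ¬ p ∣ orderOf (resL L g) →
        IND.brauerFn p (Rep.of (unitRep p S L)) (resL L g) + 1 =
          WittVector.teichmuller p (algebraMap (ZMod p) (AlgebraicClosure (ZMod p))
              ((cycloChar p g : (ZMod p)ˣ) : ZMod p))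
            + ∑ q ∈ S, (Nat.card {x : GalL L ⧸ decL L q // resL L g • x = x} : IND.WK p (ZMod p))
            + (Nat.card {x : GalL L ⧸ decInf L // resL L g • x = x} : IND.WK p (ZMod p))

/-- **Package LOC0** (bookkeeping): the `H⁰`-terms of `gwDefect` for `N = infl L ρ` are the
invariants of the decomposition groups in the Tate dual over `Gal(L/ℚ)`. -/
def Stmt_LOC0 : Prop :=
  ∀ (p : ℕ) [Fact p.Prime] (S : Finset Nat.Primes), pPrime p ∈ S →
    ∀ (L : IntermediateField ℚ (AlgebraicClosure ℚ)) [Normal ℚ L] [FiniteDimensional ℚ L],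
      IsGalLevel p S L →
      ∀ (V : Type) [AddCommGroup V] [Module (ZMod p) V] [FiniteDimensional (ZMod p) V]
        (ρ : Representation (ZMod p) (GalL L) V),
        (∀ q : Nat.Primes, finrank (ZMod p) (locRep (tateDual p (infl L ρ)) q).ρ.invariants =
          finrank (ZMod p) (fixedSub p (decL L q : Set (GalL L)) (dualTwistOp p L ρ))) ∧
        finrank (ZMod p) (Rep.res archimedeanLoc (tateDual p (infl L ρ))).ρ.invariants =
          finrank (ZMod p) (fixedSub p (decInf L : Set (GalL L)) (dualTwistOp p L ρ)) ∧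
        finrank (ZMod p) (tateDual p (infl L ρ)).ρ.invariants =
          finrank (ZMod p) (fixedSub p (Set.univ : Set (GalL L)) (dualTwistOp p L ρ)) ∧
        finrank (ZMod p) (infl L ρ).ρ.invariants =
          finrank (ZMod p) (fixedSub p (Set.univ : Set (GalL L)) (fun b => ρ b))

/-- **Package KDALG** (algebra: Brauer-Nesbitt `IND.H74.stmt_BN`, permutation characters
`IND.Stmt_PERM`, Mackey).  See T_EC.md §7: with `Φ(A) = dim Hom_B(W', A)`, `W' = W*(1)`:
`Φ` is additive (`p ∤ #B`), `Φ(U) ≤ dim EqLevHom` (via `κ`), `Φ(𝔽_p(1)) = h⁰(V)`,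
`Φ(𝔽_p) = h⁰(V')`, `Φ(𝔽_p[G/D]) = h⁰(D, V')` for `V = Ind_B^G W`. -/
def Stmt_KDALG : Prop :=
  Stmt_SHAPlb → Stmt_SHAPub → Stmt_KUM → Stmt_UBR → Stmt_LOC0 → Stmt_KDT ∧ Stmt_KDO

end Fermat.Agent.S56.EC

end
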