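import Fermat.Agent.S56.IND.Defs

set_option autoImplicit false
set_option linter.style.haveILetI false
set_option linter.unusedSectionVars false

/-!
# Cluster T / S56, GW-CORE, package EC: the projector of an induced module (helper47)

Pure algebra, generic field `k` and finite group `G`.  For `V = Ind_B^G W` in the sense of
`IND.IsInducedFrom ρ B W` (`W` is `B`-stable, the translates of `W` span `V`,
`dim V = [G : B] dim W`) the module `V` is the direct sum of the translates `ρ(g) W`, `g ∈ G/B`.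
`indProj h : V →ₗ[k] V` is the projector onto `W` along the other translates:

* `indProj_of_mem`     : `e w = w` for `w ∈ W`;
* `indProj_rho_of_not_mem` : `e (ρ g w) = 0` for `g ∉ B`, `w ∈ W`;
* `indProj_mem`        : `e v ∈ W`;
* `indProj_comm`       : `e (ρ b v) = ρ b (e v)` for `b ∈ B`;
* `sum_conj_indProj`   : `∑ g, ρ g (e (ρ g⁻¹ v)) = #B • v`.

Summary: `exists_indProj`, `exists_relProj` (if `#B` is invertible in `k`, then
`s₀ = (#B)⁻¹ e` satisfies `∑ g, ρ g ∘ s₀ ∘ ρ g⁻¹ = id`: `V` is a projective `k[G]`-module).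
Used by SHAPlb and KDALG.
-/

noncomputable section

namespace Fermat.Agent.S56.EC.H47

open Fermat.Agent.S56 Module
open scoped Classical

section IndProj

variable {k : Type} [Field k] {G : Type} [Group G] [Fintype G]
variable {V : Type} [AddCommGroup V] [Module k V]

section defs

variable (ρ : Representation k G V) (B : Subgroup G) (W : Submodule k V)

/-- `(w_c) ↦ ∑ c, ρ (out c) (w c)`, `Fun(G/B, W) → V`. -/
def cosetSum : ((G ⧸ B) → W) →ₗ[k] V :=
  ∑ c : G ⧸ B, (ρ (Quotient.out c) ∘ₗ W.subtype) ∘ₗ LinearMap.proj c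

lemma cosetSum_apply (w : (G ⧸ B) → W) :
    cosetSum ρ B W w = ∑ c : G ⧸ B, ρ (Quotient.out c) (w c : V) := by
  simp [cosetSum]

lemma cosetSum_single (c : G ⧸ B) (w : W) :
    cosetSum ρ B W (Pi.single c w) = ρ (Quotient.out c) (w : V) := by
  rw [cosetSum_apply, Finset.sum_eq_single c]
  · rw [Pi.single_eq_same]
  · intro x _ hx
    rw [Pi.single_eq_of_ne hx]
    simp
  · intro h
    exact absurd (Finset.mem_univ c) h

lemma out_inv_mul_mem (g : G) : (Quotient.out (g : G ⧸ B))⁻¹ * g ∈ B := by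
  rw [← QuotientGroup.eq]
  exact QuotientGroup.out_eq' _

lemma out_one_mem : Quotient.out ((1 : G) : G ⧸ B) ∈ B := by
  have h := out_inv_mul_mem B (1 : G)
  rw [mul_one] at h
  exact (Subgroup.inv_mem_iff B).1 h

end defs

variable {ρ : Representation k G V} {B : Subgroup G} {W : Submodule k V}

/-- The translate `ρ g w` as a value of `cosetSum`. -/
lemma rho_eq_cosetSum (hB : ∀ b ∈ B, ∀ w ∈ W, ρ b w ∈ W) (g : G) (w : W) :
    ρ g (w : V) = cosetSum ρ B W (Pi.single (g : G ⧸ B)
      ⟨ρ ((Quotient.out (g : G ⧸ B))⁻¹ * g) w, hB _ (out_inv_mul_mem B g) _ w.2⟩) := by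
  rw [cosetSum_single]
  show ρ g (w : V) = ρ (Quotient.out (g : G ⧸ B)) (ρ ((Quotient.out (g : G ⧸ B))⁻¹ * g) w)
  rw [← Module.End.mul_apply, ← map_mul, mul_inv_cancel_left]

/-- Two linear maps which agree on the translates of `W` are equal. -/
lemma ext_of_induced (h : IND.IsInducedFrom ρ B W) {X : Type} [AddCommGroup X] [Module k X]
    (f f' : V →ₗ[k] X) (hff : ∀ (g : G) (w : W), f (ρ g w) = f' (ρ g w)) : f = f' := by
  have h1 : (⊤ : Submodule k V) ≤ LinearMap.eqLocus f f' := by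
    rw [← h.2.1]
    refine iSup_le fun g => ?_
    rintro _ ⟨w, hw, rfl⟩
    exact hff g ⟨w, hw⟩
  exact LinearMap.ext fun v => h1 Submodule.mem_top

lemma cosetSum_surjective (h : IND.IsInducedFrom ρ B W) :
    Function.Surjective (cosetSum ρ B W) := by
  rw [← LinearMap.range_eq_top, eq_top_iff, ← h.2.1]
  refine iSup_le fun g => ?_
  rintro _ ⟨w, hw, rfl⟩
  exact ⟨_, (rho_eq_cosetSum h.1 g ⟨w, hw⟩).symm⟩

variable [FiniteDimensional k V]

lemma cosetSum_injective (h : IND.IsInducedFrom ρ B W) :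
    Function.Injective (cosetSum ρ B W) := by
  have hdim : finrank k ((G ⧸ B) → W) = finrank k V := by
    rw [Module.finrank_pi_fintype, Finset.sum_const, Finset.card_univ, smul_eq_mul, h.2.2,
      Subgroup.index_eq_card, Nat.card_eq_fintype_card]
  exact (LinearMap.injective_iff_surjective_of_finrank_eq_finrank hdim).2
    (cosetSum_surjective h)

/-- The equivalence `Fun(G/B, W) ≃ V`. -/
def cosetEquiv (h : IND.IsInducedFrom ρ B W) : ((G ⧸ B) → W) ≃ₗ[k] V :=
  LinearEquiv.ofBijective (cosetSum ρ B W) ⟨cosetSum_injective h, cosetSum_surjective h⟩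

lemma cosetEquiv_apply (h : IND.IsInducedFrom ρ B W) (w : (G ⧸ B) → W) :
    cosetEquiv h w = cosetSum ρ B W w := rfl

/-- The projector onto `W` along the other translates of `W`. -/
def indProj (h : IND.IsInducedFrom ρ B W) : V →ₗ[k] V :=
  ((ρ (Quotient.out ((1 : G) : G ⧸ B)) ∘ₗ W.subtype) ∘ₗ
    LinearMap.proj ((1 : G) : G ⧸ B)) ∘ₗ (cosetEquiv h).symm.toLinearMap

lemma indProj_apply (h : IND.IsInducedFrom ρ B W) (v : V) :
    indProj h v = ρ (Quotient.out ((1 : G) : G ⧸ B))
      (((cosetEquiv h).symm v ((1 : G) : G ⧸ B) : W) : V) := rfl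

/-- The projector on a translate. -/
theorem indProj_rho (h : IND.IsInducedFrom ρ B W) (g : G) (w : W) :
    indProj h (ρ g (w : V)) = if g ∈ B then ρ g (w : V) else 0 := by
  have h1 : (cosetEquiv h).symm (ρ g (w : V)) = Pi.single (g : G ⧸ B)
      ⟨ρ ((Quotient.out (g : G ⧸ B))⁻¹ * g) w, h.1 _ (out_inv_mul_mem B g) _ w.2⟩ := by
    rw [LinearEquiv.symm_apply_eq, cosetEquiv_apply]
    exact rho_eq_cosetSum h.1 g w
  rw [indProj_apply, h1]
  by_cases hg : g ∈ B
  · rw [if_pos hg]
    have h2 : ((g : G) : G ⧸ B) = ((1 : G) : G ⧸ B) := by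
      rw [QuotientGroup.eq]
      simpa using B.inv_mem hg
    rw [← h2, Pi.single_eq_same]
    show ρ (Quotient.out (g : G ⧸ B)) (ρ ((Quotient.out (g : G ⧸ B))⁻¹ * g) w) = ρ g (w : V)
    rw [← Module.End.mul_apply, ← map_mul, mul_inv_cancel_left]
  · rw [if_neg hg]
    have h2 : ((1 : G) : G ⧸ B) ≠ ((g : G) : G ⧸ B) := by
      intro h3
      rw [QuotientGroup.eq] at h3
      apply hg
      simpa using h3
    rw [Pi.single_eq_of_ne h2]
    simp

theorem indProj_of_mem (h : IND.IsInducedFrom ρ B W) {w : V} (hw : w ∈ W) :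
    indProj h w = w := by
  have h1 := indProj_rho h (1 : G) ⟨w, hw⟩
  rw [if_pos B.one_mem, map_one] at h1
  exact h1

theorem indProj_rho_of_not_mem (h : IND.IsInducedFrom ρ B W) {g : G} (hg : g ∉ B) {w : V}
    (hw : w ∈ W) : indProj h (ρ g w) = 0 := by
  have h1 := indProj_rho h g ⟨w, hw⟩
  rw [if_neg hg] at h1
  exact h1

theorem indProj_mem (h : IND.IsInducedFrom ρ B W) (v : V) : indProj h v ∈ W := by
  rw [indProj_apply]
  exact h.1 _ (out_one_mem B) _ (Subtype.property _)

theorem indProj_comm (h : IND.IsInducedFrom ρ B W) {b : G} (hb : b ∈ B) (v : V) :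
    indProj h (ρ b v) = ρ b (indProj h v) := by
  have h1 : indProj h ∘ₗ ρ b = ρ b ∘ₗ indProj h := by
    refine ext_of_induced h _ _ (fun g w => ?_)
    show indProj h (ρ b (ρ g (w : V))) = ρ b (indProj h (ρ g (w : V)))
    have h2 : ρ b (ρ g (w : V)) = ρ (b * g) (w : V) := by
      rw [map_mul, Module.End.mul_apply]
    rw [h2, indProj_rho h (b * g) w, indProj_rho h g w]
    by_cases hg : g ∈ B
    · rw [if_pos hg, if_pos (B.mul_mem hb hg), h2]
    · have hbg : b * g ∉ B := fun h3 => hg (by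
        have := B.mul_mem (B.inv_mem hb) h3
        simpa using this)
      rw [if_neg hg, if_neg hbg, map_zero]
  exact LinearMap.congr_fun h1 v

/-- The relative trace of the projector is multiplication by `#B`. -/
theorem sum_conj_indProj (h : IND.IsInducedFrom ρ B W) (v : V) :
    ∑ g : G, ρ g (indProj h (ρ g⁻¹ v)) = (Nat.card B : k) • v := by
  have h1 : (∑ g : G, (ρ g ∘ₗ indProj h) ∘ₗ ρ g⁻¹) = (Nat.card B : k) • LinearMap.id := by
    refine ext_of_induced h _ _ (fun x w => ?_)
    rw [LinearMap.sum_apply, LinearMap.smul_apply, LinearMap.id_apply]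
    have h2 : ∀ g : G, ((ρ g ∘ₗ indProj h) ∘ₗ ρ g⁻¹) (ρ x (w : V)) =
        if g⁻¹ * x ∈ B then ρ x (w : V) else 0 := by
      intro g
      show ρ g (indProj h (ρ g⁻¹ (ρ x (w : V)))) = _
      have h3 : ρ g⁻¹ (ρ x (w : V)) = ρ (g⁻¹ * x) (w : V) := by
        rw [map_mul, Module.End.mul_apply]
      rw [h3, indProj_rho h (g⁻¹ * x) w]
      by_cases hg : g⁻¹ * x ∈ B
      · rw [if_pos hg, if_pos hg, ← Module.End.mul_apply, ← map_mul, mul_inv_cancel_left]
      · rw [if_neg hg, if_neg hg, map_zero]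
    rw [Finset.sum_congr rfl (fun g _ => h2 g)]
    have h4 : ∑ g : G, (if g⁻¹ * x ∈ B then ρ x (w : V) else 0) =
        ∑ y : G, (if y ∈ B then ρ x (w : V) else 0) :=
      Fintype.sum_equiv ((Equiv.inv G).trans (Equiv.mulRight x)) _ _ (fun g => rfl)
    rw [h4, Finset.sum_ite, Finset.sum_const_zero, add_zero, Finset.sum_const,
      ← Nat.cast_smul_eq_nsmul k]
    congr 2
    rw [Nat.card_eq_fintype_card, Fintype.card_subtype]
  have h5 := LinearMap.congr_fun h1 v
  rw [LinearMap.sum_apply, LinearMap.smul_apply, LinearMap.id_apply] at h5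
  exact h5

end IndProj

/-- **Projector of an induced module**, summary. -/
theorem exists_indProj {k : Type} [Field k] {G : Type} [Group G] [Finite G]
    {V : Type} [AddCommGroup V] [Module k V] [FiniteDimensional k V]
    (ρ : Representation k G V) (B : Subgroup G) (W : Submodule k V)
    (h : IND.IsInducedFrom ρ B W) :
    ∃ e : V →ₗ[k] V, (∀ w ∈ W, e w = w) ∧ (∀ g : G, g ∉ B → ∀ w ∈ W, e (ρ g w) = 0) ∧
      (∀ v, e v ∈ W) ∧ (∀ b ∈ B, ∀ v, e (ρ b v) = ρ b (e v)) ∧
      ∀ [Fintype G], ∀ v, ∑ g : G, ρ g (e (ρ g⁻¹ v)) = (Nat.card B : k) • v := by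
  letI inst0 : Fintype G := Fintype.ofFinite G
  refine ⟨indProj h, fun w hw => indProj_of_mem h hw, fun g hg w hw =>
    indProj_rho_of_not_mem h hg hw, indProj_mem h, fun b hb v => indProj_comm h hb v, ?_⟩
  intro inst v
  have h0 : inst = inst0 := Subsingleton.elim _ _
  rw [h0]
  exact @sum_conj_indProj k _ G _ inst0 V _ _ ρ B W _ h v

/-- **Relative projectivity**: a module induced from a subgroup of order invertible in `k`
carries an endomorphism `s₀` whose trace over `G` is the identity. -/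
theorem exists_relProj {k : Type} [Field k] {G : Type} [Group G] [Finite G]
    {V : Type} [AddCommGroup V] [Module k V] [FiniteDimensional k V]
    (ρ : Representation k G V) (B : Subgroup G) (W : Submodule k V)
    (h : IND.IsInducedFrom ρ B W) (hB : ((Nat.card B : ℕ) : k) ≠ 0) :
    ∃ s₀ : V →ₗ[k] V, ∀ [Fintype G], ∀ v, ∑ g : G, ρ g (s₀ (ρ g⁻¹ v)) = v := by
  obtain ⟨e, -, -, -, -, he⟩ := exists_indProj ρ B W h
  refine ⟨((Nat.card B : ℕ) : k)⁻¹ • e, ?_⟩
  intro inst v
  have h1 := he v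
  simp only [LinearMap.smul_apply, map_smul]
  rw [← Finset.smul_sum, h1, smul_smul, inv_mul_cancel₀ hB, one_smul]

end Fermat.Agent.S56.EC.H47

end
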