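/-
S56 / GW-CORE, package EC, Kummer-Dirichlet leaf SHAP-lb (helper15).

`V = Ind_B^G W`, `p ∤ #B`: the `B`-equivariant level-`S` homomorphisms `G_L → W` inject into
`H¹_S(G_ℚ, V)`.  Route (helper47): the explicit corestriction cocycle
`c_h(g) = ∑_{x ∈ G} ρ(x)⁻¹ h(t_x g t_{x ḡ}⁻¹)` for a set-theoretic section `t` of `G_ℚ → G`;
`e (c_h σ) = #B • h σ` on `G_L` for a projector `e` onto `W` killing the other translates.
-/
import Fermat.Agent.S56.EC.Defs_KD
import Fermat.Agent.S56.EC.H92_LES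
import Fermat.Agent.S56.EC.H47_IndProj

set_option autoImplicit false
set_option linter.unusedSectionVars false
set_option linter.style.haveILetI false
set_option linter.unusedVariables false

noncomputable section

namespace Fermat.Agent.S56.EC.H15

open CategoryTheory groupCohomology ExtCitation Module Fermat.Agent.S55
  Fermat.Agent.S56.H92.Snake Fermat.Agent.S56.H92.LES

section cor

variable (p : ℕ) [Fact p.Prime] (S : Finset Nat.Primes)
  (L : IntermediateField ℚ (AlgebraicClosure ℚ)) [Normal ℚ L] [FiniteDimensional ℚ L]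
  {V : Type} [AddCommGroup V] [Module (ZMod p) V]
  (ρ : Representation (ZMod p) (GalL L) V)

/-- A set-theoretic section of `G_ℚ → Gal(L/ℚ)`. -/
def tsec (x : GalL L) : GQ := Function.surjInv (resL_surjective L) x

theorem resL_tsec (x : GalL L) : resL L (tsec L x) = x :=
  Function.surjInv_eq (resL_surjective L) x

/-- The element `t_x g t_{x ḡ}⁻¹` of `G_L`. -/
def tw (x : GalL L) (g : GQ) : ↥L.fixingSubgroup :=
  ⟨tsec L x * g * (tsec L (x * resL L g))⁻¹, mem_fixingSubgroup_of_resL L (by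
    rw [map_mul, map_mul, map_inv, resL_tsec, resL_tsec, mul_inv_cancel])⟩

theorem tw_coe (x : GalL L) (g : GQ) :
    ((tw L x g : ↥L.fixingSubgroup) : GQ) = tsec L x * g * (tsec L (x * resL L g))⁻¹ := rfl

theorem tw_mul (x : GalL L) (g g' : GQ) :
    tw L x (g * g') = tw L x g * tw L (x * resL L g) g' := by
  apply Subtype.ext
  rw [Subgroup.coe_mul, tw_coe, tw_coe, tw_coe, map_mul, mul_assoc x]
  group

/-- The corestriction cochain of `h : G_L → V`. -/
def cor (h : ↥L.fixingSubgroup → V) (g : GQ) : V :=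
  ∑ x : GalL L, ρ x⁻¹ (h (tw L x g))

theorem cor_add (h h' : ↥L.fixingSubgroup → V) (g : GQ) :
    cor p L ρ (h + h') g = cor p L ρ h g + cor p L ρ h' g := by
  unfold cor
  rw [← Finset.sum_add_distrib]
  refine Finset.sum_congr rfl fun x _ => ?_
  rw [Pi.add_apply, map_add]

theorem cor_smul (a : ZMod p) (h : ↥L.fixingSubgroup → V) (g : GQ) :
    cor p L ρ (a • h) g = a • cor p L ρ h g := by
  unfold cor
  rw [Finset.smul_sum]
  refine Finset.sum_congr rfl fun x _ => ?_
  rw [Pi.smul_apply, map_smul]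

/-- The cocycle relation. -/
theorem cor_mul {h : ↥L.fixingSubgroup → V} (ha : ∀ σ τ, h (σ * τ) = h σ + h τ) (g g' : GQ) :
    cor p L ρ h (g * g') = cor p L ρ h g + ρ (resL L g) (cor p L ρ h g') := by
  unfold cor
  rw [map_sum, ← Finset.sum_add_distrib]
  have h1 : ∑ x : GalL L, ρ (resL L g) (ρ x⁻¹ (h (tw L x g')))
      = ∑ x : GalL L, ρ x⁻¹ (h (tw L (x * resL L g) g')) := by
    symm
    refine Fintype.sum_equiv (Equiv.mulRight (resL L g)) _ _ fun x => ?_
    show ρ x⁻¹ (h (tw L (x * resL L g) g'))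
      = ρ (resL L g) (ρ (x * resL L g)⁻¹ (h (tw L (x * resL L g) g')))
    rw [← Module.End.mul_apply, ← map_mul, mul_inv_rev, mul_inv_cancel_left]
  rw [Finset.sum_add_distrib, h1, ← Finset.sum_add_distrib]
  refine Finset.sum_congr rfl fun x _ => ?_
  rw [tw_mul, ha, map_add]

/-- Level: `c_h` is level-`S` constant when `h` is. -/
theorem cor_level (hL : L.IsUnramifiedOutside S) {h : ↥L.fixingSubgroup → V}
    (hl : S55.Top.IsLevK₁ S L h) : IsLevelConstantS₁ S (cor p L ρ h) := by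
  obtain ⟨F, hF, hh⟩ := hl
  obtain ⟨F', hle, hF', hn⟩ := H48.exists_normal_level S (F ⊔ L) (hF.sup hL)
  refine ⟨F', hF', fun g s hs => ?_⟩
  have hsL : s ∈ L.fixingSubgroup :=
    IntermediateField.fixingSubgroup_antitone (le_sup_right.trans hle) hs
  have hs1 : resL L s = 1 := resL_eq_one L hsL
  unfold cor
  refine Finset.sum_congr rfl fun x _ => ?_
  congr 1
  set y := tsec L (x * resL L g) with hy
  have hc : y * s * y⁻¹ ∈ F'.fixingSubgroup := hn.conj_mem s hs y
  have hcL : y * s * y⁻¹ ∈ L.fixingSubgroup :=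
    IntermediateField.fixingSubgroup_antitone (le_sup_right.trans hle) hc
  have hcF : y * s * y⁻¹ ∈ F.fixingSubgroup :=
    IntermediateField.fixingSubgroup_antitone (le_sup_left.trans hle) hc
  have e1 : tw L x (g * s) = tw L x g * ⟨y * s * y⁻¹, hcL⟩ := by
    apply Subtype.ext
    rw [Subgroup.coe_mul, tw_coe, tw_coe, map_mul, hs1, mul_one, ← hy]
    show tsec L x * (g * s) * y⁻¹ = tsec L x * g * y⁻¹ * (y * s * y⁻¹)
    group
  rw [e1]
  exact hh _ _ hcF

/-- On `G_L` the corestriction cochain is `∑_x ρ(x)⁻¹ h(t_x σ t_x⁻¹)`. -/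
theorem tw_of_mem (x : GalL L) (σ : ↥L.fixingSubgroup) :
    tw L x (σ : GQ) = conjL L (tsec L x) σ := by
  apply Subtype.ext
  rw [tw_coe, conjL_coe, resL_eq_one L σ.2, mul_one]

end cor

section main

variable (p : ℕ) [Fact p.Prime] (S : Finset Nat.Primes)
  (L : IntermediateField ℚ (AlgebraicClosure ℚ)) [Normal ℚ L] [FiniteDimensional ℚ L]
  {V : Type} [AddCommGroup V] [Module (ZMod p) V]
  (ρ : Representation (ZMod p) (GalL L) V)

theorem infl_ρ_apply (g : GQ) (v : V) :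
    (infl L ρ).ρ g (show (infl L ρ : Rep.{0} (ZMod p) GQ) from v) = ρ (resL L g) v := rfl

theorem lev_infl (hL : IsGalLevel p S L) : Lev S (infl L ρ) :=
  ⟨L, hL.1, fun s hs m => by
    show ρ (resL L s) m = m
    rw [resL_eq_one L hs, map_one]
    rfl⟩

/-- The corestriction cochain as an element of `C¹_S(N)`. -/
def corCochain (hL : IsGalLevel p S L) (h : ↥(LevHom p S L V)) :
    ↥(levelCochainsS₁ S (infl L ρ)) :=
  ⟨(cor p L ρ (h : ↥L.fixingSubgroup → V) : GQ → V), cor_level p S L ρ hL.1 h.2.2⟩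

theorem corCochain_coe (hL : IsGalLevel p S L) (h : ↥(LevHom p S L V)) (g : GQ) :
    ((corCochain p S L ρ hL h : ↥(levelCochainsS₁ S (infl L ρ))) : GQ → infl L ρ) g
      = cor p L ρ (h : ↥L.fixingSubgroup → V) g := rfl

theorem corCochain_mem_ker (hL : IsGalLevel p S L) (h : ↥(LevHom p S L V)) :
    corCochain p S L ρ hL h ∈ LinearMap.ker (d1 S (infl L ρ) (lev_infl p S L ρ hL)) := by
  rw [LinearMap.mem_ker]
  apply Subtype.ext
  rw [d1_coe]
  funext x
  have hc := cor_mul p L ρ h.2.1 x.1 x.2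
  have key : ∀ a b c : V, c = b + a → a - c + b = 0 := by
    intro a b c hcab
    rw [hcab]
    abel
  exact key _ _ _ hc

/-- `Hom_S(G_L, V) → ker d¹`, `h ↦ c_h`. -/
def corKer (hL : IsGalLevel p S L) :
    ↥(LevHom p S L V) →ₗ[ZMod p] ↥(LinearMap.ker (d1 S (infl L ρ) (lev_infl p S L ρ hL))) where
  toFun h := ⟨corCochain p S L ρ hL h, corCochain_mem_ker p S L ρ hL h⟩
  map_add' h h' := by
    apply Subtype.ext
    apply Subtype.ext
    funext g
    exact cor_add p L ρ _ _ g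
  map_smul' a h := by
    apply Subtype.ext
    apply Subtype.ext
    funext g
    exact cor_smul p L ρ a _ g

theorem corKer_coe (hL : IsGalLevel p S L) (h : ↥(LevHom p S L V)) (g : GQ) :
    (((corKer p S L ρ hL h : ↥(LinearMap.ker (d1 S (infl L ρ) (lev_infl p S L ρ hL)))) :
      ↥(levelCochainsS₁ S (infl L ρ))) : GQ → infl L ρ) g
      = cor p L ρ (h : ↥L.fixingSubgroup → V) g := rfl

/-- `Hom_S(G_L, V) → H¹_S(G_ℚ, V)`, the corestriction. -/
def corH1 (hL : IsGalLevel p S L) :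
    ↥(LevHom p S L V) →ₗ[ZMod p] ↥(continuousH1S S (infl L ρ)) :=
  ((equivH1 S (infl L ρ) (lev_infl p S L ρ hL)) :
      Hmid (d0 S (infl L ρ) (lev_infl p S L ρ hL)) (d1 S (infl L ρ) (lev_infl p S L ρ hL))
        →ₗ[ZMod p] ↥(continuousH1S S (infl L ρ)))
    ∘ₗ (Hmid.mk (d0 S (infl L ρ) (lev_infl p S L ρ hL)) (d1 S (infl L ρ) (lev_infl p S L ρ hL)))
    ∘ₗ corKer p S L ρ hL

/-- A class in the kernel of the corestriction vanishes on `G_L` as a cochain. -/
theorem cor_eq_zero_of_corH1 (hL : IsGalLevel p S L) (h : ↥(LevHom p S L V))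
    (h0 : corH1 p S L ρ hL h = 0) (σ : ↥L.fixingSubgroup) :
    cor p L ρ (h : ↥L.fixingSubgroup → V) (σ : GQ) = 0 := by
  unfold corH1 at h0
  rw [LinearMap.comp_apply, LinearMap.comp_apply] at h0
  have h1 := (LinearEquiv.map_eq_zero_iff _).1 h0
  rw [Hmid.mk_eq_zero_iff] at h1
  obtain ⟨m, hm⟩ := h1
  have h2 := congrFun (congrArg Subtype.val hm) (σ : GQ)
  rw [corKer_coe, d0_coe] at h2
  rw [← h2]
  show (infl L ρ).ρ (σ : GQ) m - m = 0
  have : (infl L ρ).ρ (σ : GQ) m = m := by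
    show ρ (resL L (σ : GQ)) m = m
    rw [resL_eq_one L σ.2, map_one]
    rfl
  rw [this, sub_self]

end main

section inj

variable (p : ℕ) [Fact p.Prime] (S : Finset Nat.Primes)
  (L : IntermediateField ℚ (AlgebraicClosure ℚ)) [Normal ℚ L] [FiniteDimensional ℚ L]
  {V : Type} [AddCommGroup V] [Module (ZMod p) V] [FiniteDimensional (ZMod p) V]
  (ρ : Representation (ZMod p) (GalL L) V) (B : Subgroup (GalL L)) (W : Submodule (ZMod p) V)

open Classical in
/-- `e (c_h σ) = #B • h σ` for equivariant `h` and the projector `e`. -/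
theorem proj_cor {h : ↥L.fixingSubgroup → V} (hW : ∀ σ, h σ ∈ W)
    (heq : ∀ g : GQ, resL L g ∈ B → ∀ σ, h (conjL L g σ) = ρ (resL L g) (h σ))
    (e : V →ₗ[ZMod p] V) (he1 : ∀ w ∈ W, e w = w)
    (he2 : ∀ g : GalL L, g ∉ B → ∀ w ∈ W, e (ρ g w) = 0) (σ : ↥L.fixingSubgroup) :
    e (cor p L ρ h (σ : GQ)) = Nat.card B • h σ := by
  unfold cor
  rw [map_sum]
  have h1 : ∀ x : GalL L, e (ρ x⁻¹ (h (tw L x (σ : GQ)))) = if x ∈ B then h σ else 0 := by
    intro x
    by_cases hx : x ∈ B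
    · have h2 : ρ x⁻¹ (ρ x (h σ)) = h σ := by
        rw [← Module.End.mul_apply, ← map_mul, inv_mul_cancel, map_one, Module.End.one_apply]
      rw [if_pos hx, tw_of_mem, heq _ (by rw [resL_tsec]; exact hx), resL_tsec, h2,
        he1 _ (hW σ)]
    · rw [if_neg hx]
      exact he2 _ (fun h' => hx (by simpa using B.inv_mem h')) _ (hW _)
  rw [Finset.sum_congr rfl fun x _ => h1 x, Finset.sum_ite, Finset.sum_const_zero, add_zero,
    Finset.sum_const]
  congr 1
  rw [Nat.card_eq_fintype_card, Fintype.card_subtype]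

/-- **Package SHAP-lb.** -/
theorem stmt_SHAPlb : Stmt_SHAPlb := by
  intro p _ hp2 S hpS L _ _ hL V _ _ _ ρ B W hpB hind
  obtain ⟨e, he1, he2, -⟩ := H47.exists_indProj ρ B W hind
  have hle : EqLevHom p S L ρ B W ≤ LevHom p S L V := fun h hh => hh.1
  refine ⟨(corH1 p S L ρ hL) ∘ₗ Submodule.inclusion hle, ?_⟩
  rw [injective_iff_map_eq_zero]
  intro h h0
  rw [LinearMap.comp_apply] at h0
  apply Subtype.ext
  funext σ
  have h1 := cor_eq_zero_of_corH1 p S L ρ hL _ h0 σ
  have h2 := proj_cor p L ρ B W (h := (h : ↥L.fixingSubgroup → V)) h.2.2.1 h.2.2.2 e he1 he2 σ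
  rw [show ((Submodule.inclusion hle h : ↥(LevHom p S L V)) : ↥L.fixingSubgroup → V)
    = (h : ↥L.fixingSubgroup → V) from rfl] at h1
  rw [h1, map_zero] at h2
  have h3 : ((Nat.card B : ℕ) : ZMod p) • (h : ↥L.fixingSubgroup → V) σ = 0 := by
    rw [Nat.cast_smul_eq_nsmul]
    exact h2.symm
  have h4 : ((Nat.card B : ℕ) : ZMod p) ≠ 0 := by
    intro h5
    exact hpB ((ZMod.natCast_eq_zero_iff _ _).1 h5)
  exact (smul_eq_zero.1 h3).resolve_left h4

end inj

end Fermat.Agent.S56.EC.H15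

end
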