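import Fermat.Agent.S56.EC.Defs_KD
import Fermat.Agent.S55.CFT.H12_EHerbrandIndex

set_option autoImplicit false
set_option linter.unusedSectionVars false

/-!
# Cluster T / S56, GW-CORE, package EC, leaf UBR (equivariant Dirichlet): interfaces

Owner: helper27.  Plan: `NOTES/plan/T_EC.md` §8.

`E = O_{L,S}ˣ` (additively `UnitsAdd S L`), `Λ = E / torsion` (`ULat S L`, a free `ℤ`-module of
finite rank) with the action `latAct S L b` of `b ∈ Gal(L/ℚ)`.

* `Stmt_RED`    : for `b` of order prime to `p`: `β_U(b) = τ(ω(b)) + tr(b | Λ)`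
                  (`0 → μ(L)/p → U → Λ/p → 0`; lift lemma `IND.H74.lift_trace`);
* `Stmt_TR`     : `tr(b | Λ) + 1 = #Fix(b, places of L over S) + #Fix(b, infinite places of L)`
                  (equivariant Dirichlet unit theorem, as a trace identity);
* `Stmt_BRIDGE` : the fixed places counted on `Gal(L/ℚ) / D_v`.
Assembly: `stmt_UBR_of` (in `EC/H27_UbrAsm.lean`).
-/

noncomputable section

namespace Fermat.Agent.S56.EC

open CategoryTheory ExtCitation Module NumberField IsDedekindDomain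

section defs

variable (S : Finset Nat.Primes) (L : IntermediateField ℚ (AlgebraicClosure ℚ))

/-- A finite extension of `ℚ` inside `ℚ̄` is a number field. -/
theorem numberFieldL [FiniteDimensional ℚ L] : NumberField ↥L := { }

variable [Normal ℚ L]

/-- The action of `Gal(L/ℚ)` on the `S`-units, `ℤ`-linearly. -/
def unitsActZ (g : GalL L) : UnitsAdd S L →ₗ[ℤ] UnitsAdd S L :=
  (unitsAct S L g).toIntLinearMap

/-- The torsion of the `S`-units (the roots of unity of `L`). -/
abbrev unitsTors : Submodule ℤ (UnitsAdd S L) := Submodule.torsion ℤ (UnitsAdd S L)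

theorem unitsActZ_tors (g : GalL L) :
    unitsTors S L ≤ (unitsTors S L).comap (unitsActZ S L g) := by
  intro x hx
  obtain ⟨a, ha⟩ := hx
  refine ⟨a, ?_⟩
  have ha' : (a : ℤ) • x = 0 := ha
  show (a : ℤ) • unitsActZ S L g x = 0
  rw [← map_smul, ha', map_zero]

/-- The lattice `Λ = O_{L,S}ˣ / torsion`. -/
abbrev ULat : Type := UnitsAdd S L ⧸ unitsTors S L

/-- The action of `Gal(L/ℚ)` on `Λ`. -/
def latAct (g : GalL L) : ULat S L →ₗ[ℤ] ULat S L :=
  (unitsTors S L).mapQ (unitsTors S L) (unitsActZ S L g) (unitsActZ_tors S L g)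

theorem latAct_mk (g : GalL L) (u : UnitsAdd S L) :
    latAct S L g (Submodule.Quotient.mk u) = Submodule.Quotient.mk (unitsActZ S L g u) := rfl

variable [FiniteDimensional ℚ L]

/-- The primes of `L` over `S` which are mapped into themselves by `b`. -/
def fixF (b : GalL L) : Set (HeightOneSpectrum (𝓞 ↥L)) :=
  {w | (∃ q ∈ S, (((q : ℕ) : ℤ) : 𝓞 ↥L) ∈ w.asIdeal) ∧
    ∀ x : 𝓞 ↥L, x ∈ w.asIdeal → ∃ y : 𝓞 ↥L, y ∈ w.asIdeal ∧ (y : ↥L) = b (x : ↥L)}

/-- The infinite places of `L` fixed by `b`. -/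
def fixI (b : GalL L) : Set (InfinitePlace ↥L) :=
  {w | ∀ x : ↥L, w (b x) = w x}

end defs

/-- **UBR-RED** (reduction mod `p` of the unit lattice).  `U = O_{L,S}ˣ/p` is finite-dimensional,
`Λ` is free of finite rank, and for `b` of order prime to `p`
`β_U(b) = τ(ω(b)) + tr(b | Λ)`.
(`T ⊂ U` the image of the torsion `μ(L)`: one-dimensional, `b` acts by `ω(b)`; `U/T ≅ Λ/pΛ`;
`IND.H74.brauer_add`; `IND.H74.lift_trace` for the matrix of `b` on `Λ` over the Witt vectors.) -/
def Stmt_RED : Prop :=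
  ∀ (p : ℕ) [Fact p.Prime], p ≠ 2 → ∀ (S : Finset Nat.Primes), pPrime p ∈ S →
    ∀ (L : IntermediateField ℚ (AlgebraicClosure ℚ)) [Normal ℚ L] [FiniteDimensional ℚ L],
      IsGalLevel p S L →
      FiniteDimensional (ZMod p) (UmodP p S L) ∧
      ∀ g : GQ, ¬ p ∣ orderOf (resL L g) →
        IND.brauerFn p (Rep.of (unitRep p S L)) (resL L g) =
          WittVector.teichmuller p (algebraMap (ZMod p) (AlgebraicClosure (ZMod p))
              ((cycloChar p g : (ZMod p)ˣ) : ZMod p))
            + ((LinearMap.trace ℤ (ULat S L) (latAct S L (resL L g)) : ℤ) : IND.WK p (ZMod p))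

/-- **UBR-TR** (equivariant Dirichlet unit theorem, trace form).  For every `b ∈ Gal(L/ℚ)`:
`tr(b | Λ) + 1 = #{primes of L over S fixed by b} + #{infinite places of L fixed by b}`.
(`ord : Λ/Λ_u ↪ ℤ^{primes over S}` of full rank, `Log : Λ_u ↪ ℝ^{infinite places}` a lattice in
the hyperplane `∑ = 0`; both equivariant; the trace of a permutation is the number of fixed
points.) -/
def Stmt_TR : Prop :=
  ∀ (S : Finset Nat.Primes) (L : IntermediateField ℚ (AlgebraicClosure ℚ)) [Normal ℚ L]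
    [FiniteDimensional ℚ L] (b : GalL L),
    LinearMap.trace ℤ (ULat S L) (latAct S L b) + 1 =
      (Nat.card (fixF S L b) : ℤ) + (Nat.card (fixI L b) : ℤ)

/-- **UBR-BRIDGE** (places as cosets of decomposition groups).  The primes of `L` over `q` form
the `Gal(L/ℚ)`-set `G/D_q`, `D_q = decL L q` the image of the local Galois group; the infinite
places form `G/D_∞`.  (`S55.CFT.GS.H6` `urPl`, `urPl_eq`, `urPl_surj`, `ur_exists_local`;
`Lib.LocalGlobalDense.exists_local_lift_field`; Mathlib `InfinitePlace` under `Gal`.) -/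
def Stmt_BRIDGE : Prop :=
  ∀ (S : Finset Nat.Primes) (L : IntermediateField ℚ (AlgebraicClosure ℚ)) [Normal ℚ L]
    [FiniteDimensional ℚ L] (b : GalL L),
    Nat.card (fixF S L b) = ∑ q ∈ S, Nat.card {x : GalL L ⧸ decL L q // b • x = x} ∧
    Nat.card (fixI L b) = Nat.card {x : GalL L ⧸ decInf L // b • x = x}

/-- Assembly of `Stmt_UBR`. -/
theorem stmt_UBR_of (hR : Stmt_RED) (hT : Stmt_TR) (hB : Stmt_BRIDGE) : Stmt_UBR := by
  intro p _ hp2 S hpS L _ _ hL
  obtain ⟨hfin, hred⟩ := hR p hp2 S hpS L hL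
  refine ⟨hfin, fun g hg => ?_⟩
  have h1 := hred g hg
  have h2 := hT S L (resL L g)
  obtain ⟨h3, h4⟩ := hB S L (resL L g)
  have h5 : ((LinearMap.trace ℤ (ULat S L) (latAct S L (resL L g)) : ℤ) : IND.WK p (ZMod p)) + 1 =
      ∑ q ∈ S, (Nat.card {x : GalL L ⧸ decL L q // resL L g • x = x} : IND.WK p (ZMod p))
        + (Nat.card {x : GalL L ⧸ decInf L // resL L g • x = x} : IND.WK p (ZMod p)) := by
    have h6 : ((LinearMap.trace ℤ (ULat S L) (latAct S L (resL L g)) + 1 : ℤ) :
        IND.WK p (ZMod p)) = (((Nat.card (fixF S L (resL L g)) : ℤ) +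
          (Nat.card (fixI L (resL L g)) : ℤ) : ℤ) : IND.WK p (ZMod p)) := by
      rw [h2]
    rw [h3, h4] at h6
    push_cast at h6
    exact h6
  rw [h1, add_assoc, h5, add_assoc]

end Fermat.Agent.S56.EC

end
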