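/-
Cluster T / S56, package EC, leaf UBR-RED (helper9): abstract part.

`E` a finitely generated abelian group, `P = pE`, `U = E / P` (an `𝔽_p`-vector space),
`f : E → E` an automorphism of finite order `m` prime to `p`, `φ` the induced endomorphism of `U`.
If the torsion of `E` is cyclic generated by `z ∉ pE` and `f z = a z`, then the Brauer character
of `φ` is `τ(a mod p) + tr(f | E / torsion)`.
-/
import Fermat.Agent.S56.IND.H74_PERM
import Fermat.Agent.S56.IND.H74_BR

set_option autoImplicit false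
set_option linter.unusedSectionVars false
set_option linter.style.haveILetI false
set_option linter.unusedVariables false

noncomputable section

namespace Fermat.Agent.S56.EC.H9

open Polynomial Module

section fin

variable (p : ℕ) [Fact p.Prime] {E : Type} [AddCommGroup E] [Module.Finite ℤ E]
  (P : AddSubgroup E) [Module (ZMod p) (E ⧸ P)]

/-- `E / P` is finite-dimensional over `𝔽_p`. -/
theorem finiteDimensional_quot : FiniteDimensional (ZMod p) (E ⧸ P) := by
  haveI : Module.Finite ℤ (E ⧸ P) :=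
    Module.Finite.of_surjective (QuotientAddGroup.mk' P).toIntLinearMap
      (QuotientAddGroup.mk'_surjective P)
  exact Module.Finite.of_restrictScalars_finite ℤ (ZMod p) (E ⧸ P)

end fin

section scalar

variable {k : Type} [Field k] {W : Type} [AddCommGroup W] [Module k W]

/-- The characteristic polynomial of a scalar on a line. -/
theorem charpoly_smul_id_of_finrank_one (h : Module.finrank k W = 1) (c : k)
    (ψ : W →ₗ[k] W) (hψ : ∀ w, ψ w = c • w) :
    haveI : FiniteDimensional k W := Module.finite_of_finrank_eq_succ h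
    ψ.charpoly = X - C c := by
  haveI : FiniteDimensional k W := Module.finite_of_finrank_eq_succ h
  let b : Basis (Fin 1) k W := Module.finBasisOfFinrankEq k W h
  have h1 : LinearMap.toMatrix b b ψ = Matrix.diagonal (fun _ : Fin 1 => c) := by
    ext i j
    rw [LinearMap.toMatrix_apply, hψ, map_smul]
    have hi : i = 0 := Subsingleton.elim _ _
    have hj : j = 0 := Subsingleton.elim _ _
    subst hi hj
    simp
  rw [← LinearMap.charpoly_toMatrix ψ b, h1, Matrix.charpoly_diagonal]
  simp

end scalar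


section main

variable (p : ℕ) [Fact p.Prime] {E : Type} [AddCommGroup E] [Module.Finite ℤ E]
  (P : AddSubgroup E) [Module (ZMod p) (E ⧸ P)] [FiniteDimensional (ZMod p) (E ⧸ P)]

/-- The reduction of the coordinates of `E / torsion` modulo `p`. -/
def coordRed {ι : Type} (b : Basis ι ℤ (E ⧸ Submodule.torsion ℤ E)) : E →+ (ι → ZMod p) where
  toFun u := fun i => ((b.repr (Submodule.Quotient.mk u) i : ℤ) : ZMod p)
  map_zero' := by
    funext i
    simp
  map_add' u v := by
    funext i
    simp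

theorem coordRed_apply {ι : Type} (b : Basis ι ℤ (E ⧸ Submodule.torsion ℤ E)) (u : E) (i : ι) :
    coordRed p b u i = ((b.repr (Submodule.Quotient.mk u) i : ℤ) : ZMod p) := rfl

theorem coordRed_nsmul {ι : Type} (b : Basis ι ℤ (E ⧸ Submodule.torsion ℤ E)) (v : E) :
    coordRed p b (p • v) = 0 := by
  rw [map_nsmul]
  funext i
  simp

theorem coordRed_torsion {ι : Type} (b : Basis ι ℤ (E ⧸ Submodule.torsion ℤ E)) (t : E)
    (ht : t ∈ Submodule.torsion ℤ E) : coordRed p b t = 0 := by
  funext i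
  rw [coordRed_apply, (Submodule.Quotient.mk_eq_zero _).2 ht]
  simp

theorem coordRed_surjective {ι : Type} [Fintype ι]
    (b : Basis ι ℤ (E ⧸ Submodule.torsion ℤ E)) :
    Function.Surjective (coordRed p (E := E) b) := by
  intro c
  haveI : NeZero p := ⟨(Fact.out : p.Prime).ne_zero⟩
  obtain ⟨u, hu⟩ := Submodule.Quotient.mk_surjective (Submodule.torsion ℤ E)
    (b.equivFun.symm (fun i => ((c i).val : ℤ)))
  refine ⟨u, ?_⟩
  funext i
  have h3 : (b.repr (b.equivFun.symm (fun i => ((c i).val : ℤ)))) i = ((c i).val : ℤ) := by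
    rw [← b.equivFun_apply, LinearEquiv.apply_symm_apply]
  rw [coordRed_apply, hu, h3]
  simp

theorem coordRed_eq_zero {ι : Type} [Fintype ι]
    (b : Basis ι ℤ (E ⧸ Submodule.torsion ℤ E)) (u : E) (hu : coordRed p b u = 0) :
    ∃ v : E, u - p • v ∈ Submodule.torsion ℤ E := by
  have h1 : ∀ i, ∃ n : ℤ, b.repr (Submodule.Quotient.mk u) i = (p : ℤ) * n := by
    intro i
    have h2 := congrFun hu i
    rw [coordRed_apply, Pi.zero_apply, ZMod.intCast_zmod_eq_zero_iff_dvd] at h2
    exact h2
  choose n hn using h1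
  obtain ⟨v, hv⟩ := Submodule.Quotient.mk_surjective (Submodule.torsion ℤ E)
    (b.equivFun.symm n)
  refine ⟨v, ?_⟩
  rw [← Submodule.Quotient.mk_eq_zero, Submodule.Quotient.mk_sub, sub_eq_zero]
  apply b.repr.injective
  ext i
  have h3 : (b.repr (b.equivFun.symm n)) i = n i := by
    rw [← b.equivFun_apply, LinearEquiv.apply_symm_apply]
  rw [hn i, ← natCast_zsmul, Submodule.Quotient.mk_smul, hv, map_smul, Finsupp.smul_apply, h3,
    smul_eq_mul]

/-- **Abstract RED.** -/
theorem brauer_lattice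
    (hP : ∀ u : E, u ∈ P ↔ ∃ v : E, p • v = u)
    (f : E →ₗ[ℤ] E) (hf : Submodule.torsion ℤ E ≤ (Submodule.torsion ℤ E).comap f)
    (φ : (E ⧸ P) →ₗ[ZMod p] (E ⧸ P))
    (hφ : ∀ u : E, φ (QuotientAddGroup.mk u) = QuotientAddGroup.mk (f u))
    (m : ℕ) (hm : 0 < m) (hpm : ¬ p ∣ m) (hfm : f ^ m = 1)
    (z : E) (hz : z ∈ Submodule.torsion ℤ E)
    (hgen : ∀ t ∈ Submodule.torsion ℤ E, ∃ n : ℤ, t = n • z)
    (hzP : z ∉ P) (a : ℤ) (ha : f z = a • z) :
    (((LinearMap.charpoly φ).aroots (AlgebraicClosure (ZMod p))).map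
        (WittVector.teichmuller p)).sum
      = WittVector.teichmuller p (algebraMap (ZMod p) (AlgebraicClosure (ZMod p)) (a : ZMod p))
        + ((LinearMap.trace ℤ (E ⧸ Submodule.torsion ℤ E)
            ((Submodule.torsion ℤ E).mapQ (Submodule.torsion ℤ E) f hf) : ℤ) :
              IND.WK p (ZMod p)) := by
  classical
  have hp : p.Prime := Fact.out
  -- the lattice
  let ι := Module.Free.ChooseBasisIndex ℤ (E ⧸ Submodule.torsion ℤ E)
  let bΛ : Basis ι ℤ (E ⧸ Submodule.torsion ℤ E) :=
    Module.Free.chooseBasis ℤ (E ⧸ Submodule.torsion ℤ E)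
  set fΛ : (E ⧸ Submodule.torsion ℤ E) →ₗ[ℤ] (E ⧸ Submodule.torsion ℤ E) :=
    (Submodule.torsion ℤ E).mapQ (Submodule.torsion ℤ E) f hf with hfΛ
  set A : Matrix ι ι ℤ := LinearMap.toMatrix bΛ bΛ fΛ with hAdef
  have hfΛm : fΛ ^ m = 1 := by
    rw [hfΛ, ← Submodule.mapQ_pow]
    apply LinearMap.ext
    intro x
    induction x using Submodule.Quotient.induction_on with
    | H u =>
      rw [Submodule.mapQ_apply, hfm]
      rfl
  have hA : A ^ m = 1 := by
    have h1 := LinearMap.toMatrix_pow bΛ fΛ m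
    rw [hfΛm, LinearMap.toMatrix_one] at h1
    exact h1
  have htr : LinearMap.trace ℤ (E ⧸ Submodule.torsion ℤ E) fΛ = A.trace :=
    LinearMap.trace_eq_matrix_trace ℤ bΛ fΛ
  -- the line `W` spanned by the class of `z`
  set w₀ : E ⧸ P := QuotientAddGroup.mk z with hw₀def
  have hw₀ : w₀ ≠ 0 := fun h => hzP ((QuotientAddGroup.eq_zero_iff z).1 h)
  have hφw₀ : φ w₀ = (a : ZMod p) • w₀ := by
    rw [hw₀def, hφ, ha, QuotientAddGroup.mk_zsmul, Int.cast_smul_eq_zsmul]
  set W : Submodule (ZMod p) (E ⧸ P) := Submodule.span (ZMod p) {w₀} with hWdef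
  have hφW : ∀ w ∈ W, φ w = (a : ZMod p) • w := by
    intro w hw
    obtain ⟨c, rfl⟩ := Submodule.mem_span_singleton.1 hw
    rw [map_smul, hφw₀, smul_comm]
  have hW : W ≤ W.comap φ := by
    intro w hw
    rw [Submodule.mem_comap, hφW w hw]
    exact W.smul_mem _ hw
  have hfinW : Module.finrank (ZMod p) W = 1 := finrank_span_singleton hw₀
  have hch1 : (φ.restrict hW).charpoly = X - C (a : ZMod p) := by
    refine charpoly_smul_id_of_finrank_one hfinW (a : ZMod p) (φ.restrict hW) (fun w => ?_)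
    apply Subtype.ext
    rw [LinearMap.coe_restrict_apply, hφW w.1 w.2]
    rfl
  -- the quotient `U / W`
  let ψ₀ : (E ⧸ P) →+ (ι → ZMod p) := QuotientAddGroup.lift P (coordRed p bΛ) (by
    intro u hu
    obtain ⟨v, rfl⟩ := (hP u).1 hu
    exact coordRed_nsmul p bΛ v)
  have hψ₀ : ∀ u : E, ψ₀ (QuotientAddGroup.mk u) = coordRed p bΛ u := fun u => rfl
  let ψ₀L : (E ⧸ P) →ₗ[ZMod p] (ι → ZMod p) := ψ₀.toZModLinearMap p
  have hψ₀L : ∀ x, ψ₀L x = ψ₀ x := fun x => rfl
  have hWker : W ≤ LinearMap.ker ψ₀L := by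
    rw [hWdef, Submodule.span_le]
    intro w hw
    rw [Set.mem_singleton_iff] at hw
    subst hw
    show ψ₀L w₀ = 0
    rw [hψ₀L, hw₀def, hψ₀]
    exact coordRed_torsion p bΛ z hz
  let ψ : ((E ⧸ P) ⧸ W) →ₗ[ZMod p] (ι → ZMod p) := W.liftQ ψ₀L hWker
  have hψ : ∀ u : E, ψ (Submodule.Quotient.mk (QuotientAddGroup.mk u)) = coordRed p bΛ u :=
    fun u => rfl
  have hψinj : Function.Injective ψ := by
    rw [← LinearMap.ker_eq_bot, eq_bot_iff]
    intro x hx
    induction x using Submodule.Quotient.induction_on with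
    | H y =>
      induction y using QuotientAddGroup.induction_on with
      | H u =>
        rw [LinearMap.mem_ker, hψ] at hx
        obtain ⟨v, hv⟩ := coordRed_eq_zero p bΛ u hx
        obtain ⟨n, hn⟩ := hgen _ hv
        rw [Submodule.mem_bot, Submodule.Quotient.mk_eq_zero]
        have h1 : (QuotientAddGroup.mk u : E ⧸ P) = (n : ZMod p) • w₀ := by
          have h2 : u = n • z + p • v := by
            rw [← hn]
            abel
          rw [h2, QuotientAddGroup.mk_add, hw₀def, QuotientAddGroup.mk_zsmul,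
            Int.cast_smul_eq_zsmul,
            (QuotientAddGroup.eq_zero_iff (p • v)).2 ((hP _).2 ⟨v, rfl⟩), add_zero]
        rw [h1]
        exact W.smul_mem _ (Submodule.mem_span_singleton_self w₀)
  have hψsurj : Function.Surjective ψ := by
    intro c
    obtain ⟨u, hu⟩ := coordRed_surjective p bΛ c
    exact ⟨Submodule.Quotient.mk (QuotientAddGroup.mk u), by rw [hψ, hu]⟩
  let e : ((E ⧸ P) ⧸ W) ≃ₗ[ZMod p] (ι → ZMod p) := LinearEquiv.ofBijective ψ ⟨hψinj, hψsurj⟩
  have he : ∀ x, e x = ψ x := fun x => rfl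
  set Ā : Matrix ι ι (ZMod p) := A.map (Int.castRingHom (ZMod p)) with hĀ
  have hconj : e.conj (W.mapQ W φ hW) = Matrix.toLin' Ā := by
    apply LinearMap.ext
    intro y
    obtain ⟨x, rfl⟩ := e.surjective y
    rw [LinearEquiv.conj_apply_apply, LinearEquiv.symm_apply_apply]
    induction x using Submodule.Quotient.induction_on with
    | H y =>
      induction y using QuotientAddGroup.induction_on with
      | H u =>
        rw [Submodule.mapQ_apply, hφ, he, he, hψ, hψ]
        funext i
        rw [Matrix.toLin'_apply, coordRed_apply]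
        have h1 : Submodule.Quotient.mk (f u) = fΛ (Submodule.Quotient.mk u) := rfl
        rw [h1, ← LinearMap.toMatrix_mulVec_repr bΛ bΛ fΛ]
        have h2 := RingHom.map_mulVec (Int.castRingHom (ZMod p)) A
          (bΛ.repr (Submodule.Quotient.mk u)) i
        exact h2
  have hch2 : (W.mapQ W φ hW).charpoly = Ā.charpoly := by
    rw [← LinearEquiv.charpoly_conj e, hconj, Matrix.charpoly_toLin']
  -- the characteristic polynomial of `φ`
  have hch : φ.charpoly = (X - C (a : ZMod p)) * Ā.charpoly := by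
    rw [IND.H74.charpoly_eq_restrict_mul_mapQ W φ hW, hch1, hch2]
  -- the roots
  haveI : NeZero m := ⟨hm.ne'⟩
  haveI : NeZero ((m : ℕ) : ZMod p) := ⟨by
    intro h
    exact hpm ((CharP.cast_eq_zero_iff (ZMod p) p m).mp h)⟩
  obtain ⟨ζ₀, hζ₀⟩ :=
    HasEnoughRootsOfUnity.exists_primitiveRoot (AlgebraicClosure (ZMod p)) m
  have hPm : (A.map (Int.castRingHom (IND.WK p (ZMod p)))) ^ m = 1 := by
    have h := congrArg (RingHom.mapMatrix (m := ι) (Int.castRingHom (IND.WK p (ZMod p)))) hA
    rw [map_pow, map_one] at h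
    exact h
  have key := IND.H74.lift_trace
    (WittVector.constantCoeff (p := p) (R := AlgebraicClosure (ZMod p)))
    (WittVector.teichmuller p) (fun x => WittVector.teichmuller_coeff_zero p x)
    (A.map (Int.castRingHom (IND.WK p (ZMod p)))) m hPm ζ₀ hζ₀
  have hmap : (A.map (Int.castRingHom (IND.WK p (ZMod p)))).map
      (WittVector.constantCoeff (p := p) (R := AlgebraicClosure (ZMod p))) =
      Ā.map (algebraMap (ZMod p) (AlgebraicClosure (ZMod p))) := by
    ext i j
    simp [hĀ]
  have htrP : (A.map (Int.castRingHom (IND.WK p (ZMod p)))).trace =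
      ((A.trace : ℤ) : IND.WK p (ZMod p)) := by
    exact (AddMonoidHom.map_trace (Int.castRingHom (IND.WK p (ZMod p))) A).symm
  have hne : (X - C (a : ZMod p)) * Ā.charpoly ≠ 0 :=
    mul_ne_zero (X_sub_C_ne_zero (a : ZMod p)) (Matrix.charpoly_monic Ā).ne_zero
  have hroots : Ā.charpoly.aroots (AlgebraicClosure (ZMod p)) =
      (Ā.map (algebraMap (ZMod p) (AlgebraicClosure (ZMod p)))).charpoly.roots := by
    rw [Polynomial.aroots_def, Matrix.charpoly_map Ā (algebraMap (ZMod p) _)]
  rw [hch, aroots_mul hne, Multiset.map_add, Multiset.sum_add, aroots_X_sub_C,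
    Multiset.map_singleton, Multiset.sum_singleton, htr, ← htrP, ← key, hmap, hroots]

end main

end Fermat.Agent.S56.EC.H9

end
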