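/-
Cluster T / S56, package EC, leaf UBR-RED (helper9): the concrete part.
`Stmt_RED` from the abstract lemma `H9.brauer_lattice` and two inputs on the `S`-units:
* `Stmt_RedPow`  : the action of `b` on the `S`-units has order dividing `orderOf b`;
* `Stmt_RedTors` : the torsion of the `S`-units is cyclic, generated by a non-`p`-th power.
-/
import Fermat.Agent.S56.EC.Defs_UBR
import Fermat.Agent.S56.EC.H9_RedAbs

set_option autoImplicit false
set_option linter.unusedSectionVars false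
set_option linter.style.haveILetI false
set_option linter.unusedVariables false

noncomputable section

namespace Fermat.Agent.S56.EC.H9

open CategoryTheory ExtCitation Module NumberField

local notation "Qbar" => AlgebraicClosure ℚ

/-- **RED-POW**: the action of `b` on the `S`-units is killed by the order of `b`. -/
def Stmt_RedPow : Prop :=
  ∀ (S : Finset Nat.Primes) (L : IntermediateField ℚ (AlgebraicClosure ℚ)) [Normal ℚ L]
    [FiniteDimensional ℚ L] (b : GalL L), (unitsActZ S L b) ^ orderOf b = 1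

/-- **RED-TORS**: the torsion of the `S`-units is cyclic, generated by an element which is not a
`p`-th power. -/
def Stmt_RedTors : Prop :=
  ∀ (p : ℕ) [Fact p.Prime] (S : Finset Nat.Primes)
    (L : IntermediateField ℚ (AlgebraicClosure ℚ)) [Normal ℚ L] [FiniteDimensional ℚ L],
    IsGalLevel p S L →
    ∃ z : UnitsAdd S L, z ∈ unitsTors S L ∧ (∀ t ∈ unitsTors S L, ∃ n : ℤ, t = n • z) ∧
      z ∉ pPowers p S L

section char

variable (p : ℕ) [Fact p.Prime]

/-- The action of the global Galois group on `p`-th roots of unity. -/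
theorem cycloChar_pow (σ : Qbar ≃ₐ[ℚ] Qbar) {ζ₀ : Qbar} (hζ₀ : ζ₀ ^ p = 1) :
    σ ζ₀ = ζ₀ ^ ((cycloChar p σ : (ZMod p)ˣ) : ZMod p).val := by
  haveI : NeZero p := ⟨(Fact.out : p.Prime).ne_zero⟩
  have h0 : ζ₀ ≠ 0 := by
    rintro rfl
    rw [zero_pow (NeZero.ne p)] at hζ₀
    exact zero_ne_one hζ₀
  let u : Qbarˣ := Units.mk0 ζ₀ h0
  have hu : u ∈ rootsOfUnity p Qbar := by
    rw [mem_rootsOfUnity]
    apply Units.ext
    simpa [u] using hζ₀
  have h1 := modularCyclotomicCharacter.spec (L := Qbar) (n := p) (card_rootsOfUnity_eq_self p)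
    (σ : Qbar ≃+* Qbar) hu
  exact h1

variable (S : Finset Nat.Primes) (L : IntermediateField ℚ (AlgebraicClosure ℚ)) [Normal ℚ L]
  [FiniteDimensional ℚ L]

/-- The class of `ζ_p` in the `S`-units. -/
theorem exists_zeta (hL : IsGalLevel p S L) :
    ∃ w : UnitsAdd S L, w ≠ 0 ∧ p • w = 0 ∧
      ∀ g : GQ, unitsActZ S L (resL L g) w = ((cycloChar p g : (ZMod p)ˣ) : ZMod p).val • w := by
  have hp : p.Prime := Fact.out
  obtain ⟨-, ζ, hζL, hζ⟩ := hL
  let ζL : ↥L := ⟨ζ, hζL⟩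
  have hζLp : ζL ^ p = 1 := Subtype.ext (by simpa using hζ.pow_eq_one)
  have hζL0 : ζL ≠ 0 := by
    intro h
    rw [h, zero_pow hp.ne_zero] at hζLp
    exact zero_ne_one hζLp
  let uζ : (↥L)ˣ := Units.mk0 ζL hζL0
  have huζp : uζ ^ p = 1 := by
    apply Units.ext
    simpa [uζ] using hζLp
  have hint : ∀ v : (↥L)ˣ, v ^ p = 1 → IsIntegral ℤ (v : ↥L) := by
    intro v hv
    refine IsIntegral.of_pow hp.pos ?_
    rw [← Units.val_pow_eq_pow_val, hv, Units.val_one]
    exact isIntegral_one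
  have huζ : uζ ∈ S55.CFT.TUnits ↥L S := by
    refine ⟨0, ?_, ?_⟩
    · rw [pow_zero, one_mul]
      exact hint uζ huζp
    · rw [pow_zero, one_mul]
      exact hint uζ⁻¹ (by rw [inv_pow, huζp, inv_one])
  refine ⟨Additive.ofMul ⟨uζ, huζ⟩, ?_, ?_, ?_⟩
  · intro h
    have h1 : (⟨uζ, huζ⟩ : S55.CFT.TUnits ↥L S) = 1 := h
    have h2 : ζ = 1 := by
      have h3 := congrArg (fun x : S55.CFT.TUnits ↥L S => (((x : (↥L)ˣ) : ↥L) : Qbar)) h1
      simpa [uζ, ζL] using h3
    exact hζ.ne_one hp.one_lt h2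
  · have h1 : (⟨uζ, huζ⟩ : S55.CFT.TUnits ↥L S) ^ p = 1 := Subtype.ext huζp
    show Additive.ofMul ((⟨uζ, huζ⟩ : S55.CFT.TUnits ↥L S) ^ p) = 0
    rw [h1]
    rfl
  · intro g
    have h1 : (resL L g) • (⟨uζ, huζ⟩ : S55.CFT.TUnits ↥L S) =
        (⟨uζ, huζ⟩ : S55.CFT.TUnits ↥L S) ^ ((cycloChar p g : (ZMod p)ˣ) : ZMod p).val := by
      apply Subtype.ext
      apply Units.ext
      apply Subtype.ext
      show ((resL L g ζL : ↥L) : Qbar) = ((ζL ^ ((cycloChar p g : (ZMod p)ˣ) : ZMod p).val : ↥L) : Qbar)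
      have h2 : ((resL L g ζL : ↥L) : Qbar) = g ζ := AlgEquiv.restrictNormal_commutes g L ζL
      rw [h2, cycloChar_pow p g hζ.pow_eq_one]
      simp [ζL]
    show Additive.ofMul ((resL L g) • (⟨uζ, huζ⟩ : S55.CFT.TUnits ↥L S)) = _
    rw [h1]
    rfl

end char


section glue

/-- `Stmt_RED` from the two inputs on the `S`-units. -/
theorem stmt_RED_of (hPow : Stmt_RedPow) (hTors : Stmt_RedTors) : Stmt_RED := by
  intro p _ hp2 S hpS L _ _ hL
  have hp : p.Prime := Fact.out
  haveI := numberFieldL L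
  haveI : Module.Finite ℤ (UnitsAdd S L) := S55.CFT.H12.finite_tUnits ↥L S
  have hfd : FiniteDimensional (ZMod p) (UmodP p S L) :=
    finiteDimensional_quot p (pPowers p S L)
  refine ⟨hfd, fun g hg => ?_⟩
  haveI := hfd
  rw [IND.brauerFn_of]
  obtain ⟨z, hz, hgen, hzP⟩ := hTors p S L hL
  obtain ⟨a, ha⟩ := hgen _ (unitsActZ_tors S L (resL L g) hz)
  -- the character
  obtain ⟨w, hw0, hwp, hwg⟩ := exists_zeta p S L hL
  have hwt : w ∈ unitsTors S L := by
    refine (Submodule.mem_torsion_iff w).2 ⟨⟨(p : ℤ), ?_⟩, ?_⟩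
    · exact mem_nonZeroDivisors_of_ne_zero (by exact_mod_cast hp.ne_zero)
    · show (p : ℤ) • w = 0
      rw [natCast_zsmul]
      exact hwp
  obtain ⟨j, hj⟩ := hgen w hwt
  have h1 : unitsActZ S L (resL L g) w = a • w := by
    rw [hj, map_smul]
    show j • unitsActZ S L (resL L g) z = a • j • z
    have ha' : unitsActZ S L (resL L g) z = a • z := ha
    rw [ha', smul_comm]
  have h2 : (a - (((cycloChar p g : (ZMod p)ˣ) : ZMod p).val : ℤ)) • w = 0 := by
    rw [sub_smul, ← h1, hwg g, natCast_zsmul, sub_self]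
  have h3 : (p : ℤ) ∣ a - (((cycloChar p g : (ZMod p)ˣ) : ZMod p).val : ℤ) := by
    by_contra hnd
    have hcop : IsCoprime (p : ℤ) (a - (((cycloChar p g : (ZMod p)ˣ) : ZMod p).val : ℤ)) :=
      (Nat.prime_iff_prime_int.mp hp).coprime_iff_not_dvd.mpr hnd
    obtain ⟨x, y, hxy⟩ := hcop
    apply hw0
    have h4 : w = (x * (p : ℤ) + y * (a - (((cycloChar p g : (ZMod p)ˣ) : ZMod p).val : ℤ))) • w := by
      rw [hxy, one_smul]
    have h6 : (x * (p : ℤ) + y * (a - (((cycloChar p g : (ZMod p)ˣ) : ZMod p).val : ℤ))) • w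
        = 0 := by
      rw [add_zsmul, mul_zsmul, mul_zsmul, h2, natCast_zsmul, hwp,
        smul_zero, smul_zero, add_zero]
    exact h4.trans h6
  have hχ : (a : ZMod p) = ((cycloChar p g : (ZMod p)ˣ) : ZMod p) := by
    haveI : NeZero p := ⟨hp.ne_zero⟩
    have h5 : ((((cycloChar p g : (ZMod p)ˣ) : ZMod p).val : ℤ) : ZMod p) = (a : ZMod p) :=
      (ZMod.intCast_eq_intCast_iff_dvd_sub _ _ p).2 h3
    rw [← h5]
    simp
  have hP : ∀ u : UnitsAdd S L, u ∈ pPowers p S L ↔ ∃ v : UnitsAdd S L, p • v = u :=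
    fun u => Iff.rfl
  have key := brauer_lattice p (pPowers p S L) hP (unitsActZ S L (resL L g))
    (unitsActZ_tors S L (resL L g)) (unitRep p S L (resL L g)) (fun u => rfl)
    (orderOf (resL L g)) (orderOf_pos _) hg (hPow S L (resL L g)) z hz hgen hzP a ha
  rw [hχ] at key
  exact key

end glue

end Fermat.Agent.S56.EC.H9

end
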