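import Fermat.Agent.S56.EC.Defs_UBR
import Fermat.Agent.S56.EC.H9_Red

set_option autoImplicit false
set_option linter.style.haveILetI false
set_option linter.unusedSectionVars false
set_option linter.unusedVariables false

/-!
# Cluster T / S56, GW-CORE, package EC, leaf UBR-RED: concrete inputs (C5), (C6a) (helper92)

For `E = O_{L,S}ˣ` (additively `UnitsAdd S L`):
* `unitsActZ_pow_orderOf` (C5): `(unitsActZ S L b) ^ orderOf b = 1`;
* `exists_tors_gen` (C6a): the torsion of `E` (the roots of unity of `L`) is cyclic, with a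
  generator `z` which is not a `p`-th power (`ζ_p ∈ L`).
The abstract part of RED is `H9.brauer_lattice` (helper9, `EC/H9_RedAbs.lean`).
-/

noncomputable section

namespace Fermat.Agent.S56.EC.RED.H92

open Module

section act

variable (S : Finset Nat.Primes) (L : IntermediateField ℚ (AlgebraicClosure ℚ)) [Normal ℚ L]

theorem unitsActZ_apply (g : GalL L) (u : UnitsAdd S L) :
    unitsActZ S L g u = unitsAct S L g u := rfl

theorem unitsAct_one (u : UnitsAdd S L) : unitsAct S L 1 u = u := by
  induction u using Additive.rec with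
  | ofMul u => rw [unitsAct_apply, one_smul]

theorem unitsAct_mul (g h : GalL L) (u : UnitsAdd S L) :
    unitsAct S L (g * h) u = unitsAct S L g (unitsAct S L h u) := by
  induction u using Additive.rec with
  | ofMul u => rw [unitsAct_apply, unitsAct_apply, unitsAct_apply, mul_smul]

theorem unitsActZ_one : unitsActZ S L 1 = 1 := by
  ext u
  rw [unitsActZ_apply, unitsAct_one]
  rfl

theorem unitsActZ_mul (g h : GalL L) :
    unitsActZ S L (g * h) = unitsActZ S L g * unitsActZ S L h := by
  ext u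
  rw [unitsActZ_apply, unitsAct_mul]
  rfl

theorem unitsActZ_pow (g : GalL L) (n : ℕ) : unitsActZ S L (g ^ n) = unitsActZ S L g ^ n := by
  induction n with
  | zero => rw [pow_zero, pow_zero, unitsActZ_one]
  | succ n ih => rw [pow_succ, pow_succ, unitsActZ_mul, ih]

/-- **(C5)** -/
theorem unitsActZ_pow_orderOf (b : GalL L) : unitsActZ S L b ^ orderOf b = 1 := by
  rw [← unitsActZ_pow, pow_orderOf_eq_one, unitsActZ_one]

end act

section tors

variable (S : Finset Nat.Primes) (L : IntermediateField ℚ (AlgebraicClosure ℚ)) [Normal ℚ L]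
  [FiniteDimensional ℚ L]

theorem finite_unitsAdd : Module.Finite ℤ (UnitsAdd S L) := by
  haveI : NumberField ↥L := numberFieldL L
  exact S55.CFT.H12.finite_tUnits ↥L S

/-- The torsion of the `S`-units is finite. -/
theorem finite_unitsTors : Finite ↥(unitsTors S L) := by
  haveI := finite_unitsAdd S L
  haveI : IsNoetherian ℤ (UnitsAdd S L) := isNoetherian_of_isNoetherianRing_of_finite ℤ _
  haveI : Module.Finite ℤ ↥(unitsTors S L) := Module.IsNoetherian.finite ℤ _
  exact Module.finite_of_fg_torsion ↥(unitsTors S L) Submodule.torsion_isTorsion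

/-- The torsion of the `S`-units, multiplicatively, into `L`. -/
def torsToL : Multiplicative ↥(unitsTors S L) →* ↥L where
  toFun t := (((Additive.toMul (Multiplicative.toAdd t).1 : ↥(S55.CFT.TUnits ↥L S)) : (↥L)ˣ) : ↥L)
  map_one' := rfl
  map_mul' _ _ := rfl

theorem torsToL_injective : Function.Injective (torsToL S L) := by
  intro s t h
  have h1 : (Additive.toMul (Multiplicative.toAdd s).1 : ↥(S55.CFT.TUnits ↥L S)) =
      Additive.toMul (Multiplicative.toAdd t).1 := Subtype.ext (Units.ext h)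
  have h2 : (Multiplicative.toAdd s).1 = (Multiplicative.toAdd t).1 := h1
  exact Multiplicative.toAdd.injective (Subtype.ext h2)

/-- The torsion of the `S`-units is cyclic. -/
theorem exists_gen_unitsTors :
    ∃ z ∈ unitsTors S L, ∀ t ∈ unitsTors S L, ∃ n : ℤ, t = n • z := by
  haveI := finite_unitsTors S L
  haveI : Finite (Multiplicative ↥(unitsTors S L)) := ‹Finite ↥(unitsTors S L)›
  have hc : IsCyclic (Multiplicative ↥(unitsTors S L)) :=
    isCyclic_of_injective_ringHom (torsToL S L) (torsToL_injective S L)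
  have hc' : IsAddCyclic ↥(unitsTors S L) := isCyclic_multiplicative_iff.mp hc
  obtain ⟨g, hg⟩ := hc'.exists_generator
  refine ⟨g.1, g.2, fun t ht => ?_⟩
  obtain ⟨n, hn⟩ := AddSubgroup.mem_zmultiples_iff.mp (hg ⟨t, ht⟩)
  refine ⟨n, ?_⟩
  have := congrArg Subtype.val hn
  simpa using this.symm

/-- **(C6a)** The torsion of the `S`-units is cyclic, with a generator which is not a `p`-th
power (`ζ_p ∈ L`). -/
theorem exists_tors_gen (p : ℕ) [Fact p.Prime] (hL : IsGalLevel p S L) :
    ∃ z : UnitsAdd S L, z ∈ unitsTors S L ∧ (∀ t ∈ unitsTors S L, ∃ n : ℤ, t = n • z) ∧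
      z ∉ pPowers p S L := by
  have hp : p.Prime := Fact.out
  obtain ⟨z, hz, hgen⟩ := exists_gen_unitsTors S L
  refine ⟨z, hz, hgen, ?_⟩
  rintro ⟨v, hv⟩
  have hv' : p • v = z := hv
  -- `v` is torsion
  have hvt : v ∈ unitsTors S L := by
    obtain ⟨a, ha⟩ := hz
    have ha' : (a : ℤ) • z = 0 := ha
    have hap : (a : ℤ) * (p : ℤ) ∈ nonZeroDivisors ℤ :=
      mem_nonZeroDivisors_of_ne_zero
        (mul_ne_zero (nonZeroDivisors.ne_zero a.2) (by exact_mod_cast hp.ne_zero))
    refine ⟨⟨_, hap⟩, ?_⟩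
    show ((a : ℤ) * (p : ℤ)) • v = 0
    rw [mul_smul, natCast_zsmul, hv', ha']
  obtain ⟨i, hi⟩ := hgen v hvt
  -- the class of `ζ_p`
  obtain ⟨w, hw0, hwp, -⟩ := H9.exists_zeta p S L hL
  have hwt : w ∈ unitsTors S L := by
    refine ⟨⟨(p : ℤ), mem_nonZeroDivisors_of_ne_zero (by exact_mod_cast hp.ne_zero)⟩, ?_⟩
    show (p : ℤ) • w = 0
    rw [natCast_zsmul, hwp]
  obtain ⟨j, hj⟩ := hgen w hwt
  have h1 : ((p : ℤ) * i) • z = z := by
    rw [mul_smul, ← hi, natCast_zsmul, hv']
  have h2 : ((p : ℤ) * i) • w = w := by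
    rw [hj, smul_comm, h1]
  have h3 : ((p : ℤ) * i) • w = 0 := by
    rw [mul_comm, mul_smul, natCast_zsmul, hwp, smul_zero]
  exact hw0 (h2.symm.trans h3)

end tors

/-- **RED-POW.** -/
theorem stmt_RedPow : H9.Stmt_RedPow := by
  intro S L _ _ b
  exact unitsActZ_pow_orderOf S L b

/-- **RED-TORS.** -/
theorem stmt_RedTors : H9.Stmt_RedTors := by
  intro p _ S L _ _ hL
  exact exists_tors_gen S L p hL

/-- **UBR-RED.** -/
theorem stmt_RED : Stmt_RED := H9.stmt_RED_of stmt_RedPow stmt_RedTors

end Fermat.Agent.S56.EC.RED.H92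

end
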