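import Fermat.Agent.S56.EC.H27_TrFinal
import Fermat.Agent.S56.EC.H92_RedUnits

set_option autoImplicit false

/-!
# EC / UBR (helper27): `stmt_UBR : Stmt_UBR`

The Brauer character of `O_{L,S}ˣ/p` (equivariant Dirichlet unit theorem):
`RED` (helper9, helper92) + `TR` (helper27, helper15) + `BRIDGE` (helper31).
-/

namespace Fermat.Agent.S56.EC.H27

/-- **Package UBR.** -/
theorem stmt_UBR : Stmt_UBR := stmt_UBR_of_RED RED.H92.stmt_RED

end Fermat.Agent.S56.EC.H27
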