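import Fermat.Agent.S56.GW.Defs2
import Fermat.Agent.S56.GWC.Defs
import Fermat.Agent.S56.IND.Defs
import Fermat.Agent.S55.CFT.Global

set_option autoImplicit false

/-!
# Cluster T / S56, GW-CORE, package EC (Tate's global Euler characteristic): interfaces

Owner-planner: helper27.  Plan: `NOTES/plan/T_EC.md`.  Target: `Stmt_EC` (`S56/GW/Defs2.lean`).

Notation: `ecDefect S N = h¹_S(N) - h²_S(N) - h⁰(N) - (dim N - h⁰(ℝ, N))`  (`Stmt_EC ⟺ 0 ≤ ecDefect`),
`gwDefect S N = h¹_S(N) + h⁰(N') - ∑_{q ∈ S} h⁰(ℚ_q, N') - h⁰(ℝ, N') - h⁰(N)`  (`N' = N*(1)`).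

Layer 1 (assembly `EC/Asm.lean`):
  `Stmt_EC  ⟸ Stmt_RSEC + Stmt_ECp`                                  (restriction of scalars)
  `Stmt_ECp ⟸ Stmt_LEVEL + Stmt_GOOD + Stmt_DESC + Stmt_ADD + IND.Stmt_IND + Stmt_BASE`
Layer 2:
  `Stmt_ADD  ⟸ Stmt_ADDH + GWC.Stmt_H3S + Stmt_fin2p + Stmt_fin_glob`
  `Stmt_BASE ⟸ Stmt_COMPL + Stmt_ADD + Stmt_T + Stmt_O`
  `Stmt_T    ⟸ Stmt_KDT + Stmt_PT2lb`,   `Stmt_O ⟸ Stmt_KDO + Stmt_PT2ub + Stmt_SHA0`
-/

noncomputable section

namespace Fermat.Agent.S56.EC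

open CategoryTheory groupCohomology ExtCitation Module

/-! ### The defects -/

section defs

variable {k : Type} [Field k]

/-- `dim N - h⁰(ℝ, N)`. -/
def archDefect (N : Rep.{0} k GQ) : ℤ :=
  (finrank k N : ℤ) - finrank k (Rep.res archimedeanLoc N).ρ.invariants

/-- `h¹_S(N) - h²_S(N) - h⁰(N) - (dim N - h⁰(ℝ, N))`. -/
def ecDefect (S : Finset Nat.Primes) (N : Rep.{0} k GQ) : ℤ :=
  (finrank k (continuousH1S S N) : ℤ) - finrank k (continuousH2S S N)
    - finrank k N.ρ.invariants - archDefect N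

/-- `h¹_S(N) + h⁰(N') - ∑_{q ∈ S} h⁰(ℚ_q, N') - h⁰(ℝ, N') - h⁰(N)`, `N' = N*(1)`. -/
def gwDefect (p : ℕ) [Fact p.Prime] [CharP k p] (S : Finset Nat.Primes) (N : Rep.{0} k GQ) : ℤ :=
  (finrank k (continuousH1S S N) : ℤ) + finrank k (tateDual p N).ρ.invariants
    - (∑ q ∈ S, (finrank k (locRep (tateDual p N) q).ρ.invariants : ℤ))
    - finrank k (Rep.res archimedeanLoc (tateDual p N)).ρ.invariants
    - finrank k N.ρ.invariants

end defs

/-! ### Galois levels -/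

section levels

/-- The finite Galois group `Gal(L/ℚ)`. -/
abbrev GalL (L : IntermediateField ℚ (AlgebraicClosure ℚ)) : Type := (↥L ≃ₐ[ℚ] ↥L)

/-- The restriction `G_ℚ → Gal(L/ℚ)` (`L/ℚ` normal). -/
def resL (L : IntermediateField ℚ (AlgebraicClosure ℚ)) [Normal ℚ L] : GQ →* GalL L :=
  AlgEquiv.restrictNormalHom L

variable {k : Type} [Field k]

/-- Inflation of a representation of `Gal(L/ℚ)` to `G_ℚ`. -/
def infl (L : IntermediateField ℚ (AlgebraicClosure ℚ)) [Normal ℚ L] {V : Type} [AddCommGroup V]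
    [Module k V] (ρ : Representation k (GalL L) V) : Rep.{0} k GQ :=
  Rep.of (ρ.comp (resL L))

/-- `L` is a Galois level for `(p, S)`: unramified outside `S` and `ζ_p ∈ L`
(normality and finiteness are instance arguments). -/
def IsGalLevel (p : ℕ) (S : Finset Nat.Primes) (L : IntermediateField ℚ (AlgebraicClosure ℚ)) :
    Prop :=
  L.IsUnramifiedOutside S ∧ ∃ ζ : AlgebraicClosure ℚ, ζ ∈ L ∧ IsPrimitiveRoot ζ p

/-- `(L, S)` is a good pair: `L` is a Galois level for `(p, S)`, `Cl_S(L) = 1`, and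
`Ш¹_S(𝔽_p[G_ℚ/G_L]') = 0` (no unramified `ℤ/p`-extension of `L` in which all places over `S`
split). -/
def IsGoodPair (p : ℕ) [Fact p.Prime] (S : Finset Nat.Primes)
    (L : IntermediateField ℚ (AlgebraicClosure ℚ)) : Prop :=
  IsGalLevel p S L ∧ (∀ [NumberField ↥L], S55.CFT.ClTrivial ↥L S) ∧
    sha₁ S (tateDual p (S55.permRep (ZMod p) L)) = ⊥

end levels

/-! ### Layer 1 -/

/-- **EC over `𝔽_p`**, in the form `0 ≤ ecDefect`. -/
def Stmt_ECp : Prop :=
  ∀ (p : ℕ) [Fact p.Prime], p ≠ 2 → ∀ (S : Finset Nat.Primes), pPrime p ∈ S →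
    ∀ (N : Rep.{0} (ZMod p) GQ) [FiniteDimensional (ZMod p) N], S55.Lev S N →
      0 ≤ ecDefect S N

/-- **Package RSEC** (restriction of scalars `k → 𝔽_p`): `N` over `k` is an `𝔽_p[G_ℚ]`-module
`N₀` on the same type; `continuousH1S`, `continuousH2S`, the invariants are the same sets for
`N` and `N₀`, so every `finrank` over `𝔽_p` is `[k : 𝔽_p]` times the `finrank` over `k`.
(Same bridge as `GWC.Stmt_RS`, T_GWC.md §3, steps 1-3 and 5.) -/
def Stmt_RSEC : Prop := Stmt_ECp → Stmt_EC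

/-- **Package FIN2**: `H²_S(N)` is finite-dimensional (from `GWC.Stmt_PT2e` for `X = N'` and
`N'' ≅ N`, or by dévissage). -/
def Stmt_fin2p : Prop :=
  ∀ (p : ℕ) [Fact p.Prime], p ≠ 2 → ∀ (S : Finset Nat.Primes), pPrime p ∈ S →
    ∀ (N : Rep.{0} (ZMod p) GQ) [FiniteDimensional (ZMod p) N], S55.Lev S N →
      Module.Finite (ZMod p) (continuousH2S S N)

/-- **Package LEVEL**: a finite-dimensional module of level `S ∋ p` is trivial on `G_L` for a
Galois level `L` (Galois closure of the level field, with `ζ_p` adjoined; compare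
`S55.H13` E3 and `S55.Stmt_levChar`). -/
def Stmt_LEVEL : Prop :=
  ∀ (p : ℕ) [Fact p.Prime] (S : Finset Nat.Primes), pPrime p ∈ S →
    ∀ (N : Rep.{0} (ZMod p) GQ) [FiniteDimensional (ZMod p) N], S55.Lev S N →
      ∃ L : IntermediateField ℚ (AlgebraicClosure ℚ), Normal ℚ L ∧ FiniteDimensional ℚ L ∧
        IsGalLevel p S L ∧ ∀ s ∈ L.fixingSubgroup, N.ρ s = 1

/-- **Package GOOD**: every Galois level `L` for `(p, S)` is part of a good pair `(L, S')`,
`S ⊆ S'`.  (`Cl_{S'}(L) = 1`: `S55.CFT.H56.clTrivial_of_clSet_subset`.  `Ш¹ = 0`: `Ш¹_S` is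
finite-dimensional and shrinks when `S` grows; a class `χ ≠ 0` is killed by adding a prime `ℓ`
with a Frobenius on which `χ ≠ 0` (`Lib.FrobDensity.stmt_FD_NF`); or Hilbert 94 from
`S55.CFT.Stmt_EHerbrand` + `H12.isMulCoboundary₁_tUnits`.) -/
def Stmt_GOOD : Prop :=
  ∀ (p : ℕ) [Fact p.Prime], p ≠ 2 → ∀ (S : Finset Nat.Primes), pPrime p ∈ S →
    ∀ (L : IntermediateField ℚ (AlgebraicClosure ℚ)) [Normal ℚ L] [FiniteDimensional ℚ L],
      IsGalLevel p S L → ∃ S' : Finset Nat.Primes, S ⊆ S' ∧ IsGoodPair p S' L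

/-- **Package DESC** (monotonicity in `S`): `ecDefect S' N ≤ ecDefect S N` for `S ⊆ S'`, `N` of
level `S`; i.e. `h¹_{S'} - h¹_S ≤ h²_{S'} - h²_S`.  Route: see T_EC.md §DESC (five-term sequence
for `G_{S'} → G_S`, tame inertia at `q ∈ S' \ S`, `β¹mono` at level `S'`, `H²_ur = 0`). -/
def Stmt_DESC : Prop :=
  ∀ (p : ℕ) [Fact p.Prime], p ≠ 2 → ∀ (S S' : Finset Nat.Primes), pPrime p ∈ S → S ⊆ S' →
    ∀ (N : Rep.{0} (ZMod p) GQ) [FiniteDimensional (ZMod p) N], S55.Lev S N →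
      ecDefect S' N ≤ ecDefect S N

/-- **Package ADD** (exact additivity of the Euler characteristic). -/
def Stmt_ADD : Prop :=
  ∀ (p : ℕ) [Fact p.Prime], p ≠ 2 → ∀ (S : Finset Nat.Primes), pPrime p ∈ S →
    ∀ (N₁ N N₂ : Rep.{0} (ZMod p) GQ) [FiniteDimensional (ZMod p) N₁]
      [FiniteDimensional (ZMod p) N] [FiniteDimensional (ZMod p) N₂]
      (i : N₁ ⟶ N) (π : N ⟶ N₂), S55.IsSES i π →
      S55.Lev S N₁ → S55.Lev S N → S55.Lev S N₂ →
      ecDefect S N = ecDefect S N₁ + ecDefect S N₂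

/-- **Package BASE** (the equivariant base case): over a good pair `(L, S)`, the Euler
characteristic formula holds for every module induced from a cyclic subgroup of `Gal(L/ℚ)` of
order prime to `p`. -/
def Stmt_BASE : Prop :=
  ∀ (p : ℕ) [Fact p.Prime], p ≠ 2 → ∀ (S : Finset Nat.Primes), pPrime p ∈ S →
    ∀ (L : IntermediateField ℚ (AlgebraicClosure ℚ)) [Normal ℚ L] [FiniteDimensional ℚ L],
      IsGoodPair p S L →
      ∀ (V : Type) [AddCommGroup V] [Module (ZMod p) V] [FiniteDimensional (ZMod p) V]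
        (ρ : Representation (ZMod p) (GalL L) V) (B : Subgroup (GalL L)) (W : Submodule (ZMod p) V),
        IsCyclic B → ¬ p ∣ Nat.card B → IND.IsInducedFrom ρ B W → ecDefect S (infl L ρ) = 0

/-! ### Layer 2: additivity -/

/-- **Package SUPERADD** (no `H³` needed): for `0 → N₁ → N → N₂ → 0` of level `S` with all
`H¹_S`, `H²_S` finite-dimensional, `ecDefect N₁ + ecDefect N₂ ≤ ecDefect N`.
(Long exact sequence in degrees `0..2`, exact up to `H²_S(N)`; `h⁰(ℝ, ·)` is additive, `p` odd.) -/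
def Stmt_superadd : Prop :=
  ∀ (k : Type) [Field k], (2 : k) ≠ 0 → ∀ (S : Finset Nat.Primes)
    (N₁ N N₂ : Rep.{0} k GQ) [FiniteDimensional k N₁] [FiniteDimensional k N]
      [FiniteDimensional k N₂] (i : N₁ ⟶ N) (π : N ⟶ N₂), S55.IsSES i π →
      S55.Lev S N₁ → S55.Lev S N → S55.Lev S N₂ →
      Module.Finite k (continuousH1S S N₁) → Module.Finite k (continuousH1S S N) →
      Module.Finite k (continuousH1S S N₂) → Module.Finite k (continuousH2S S N₁) →
      Module.Finite k (continuousH2S S N) → Module.Finite k (continuousH2S S N₂) →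
      ecDefect S N₁ + ecDefect S N₂ ≤ ecDefect S N

/-- **Package ADDH** (additivity from `H³_S(N₁) = 0`): as `Stmt_superadd`, with equality. -/
def Stmt_ADDH : Prop :=
  ∀ (k : Type) [Field k], (2 : k) ≠ 0 → ∀ (S : Finset Nat.Primes)
    (N₁ N N₂ : Rep.{0} k GQ) [FiniteDimensional k N₁] [FiniteDimensional k N]
      [FiniteDimensional k N₂] (i : N₁ ⟶ N) (π : N ⟶ N₂), S55.IsSES i π →
      S55.Lev S N₁ → S55.Lev S N → S55.Lev S N₂ → GWC.H3S S N₁ →
      Module.Finite k (continuousH1S S N₁) → Module.Finite k (continuousH1S S N) →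
      Module.Finite k (continuousH1S S N₂) → Module.Finite k (continuousH2S S N₁) →
      Module.Finite k (continuousH2S S N) → Module.Finite k (continuousH2S S N₂) →
      ecDefect S N = ecDefect S N₁ + ecDefect S N₂

/-! ### Layer 2: the base case -/

/-- **Package COMPL** (pure algebra; Maschke).  `G` finite, `B ≤ G` of order invertible in `k`,
`f` additive.  If `f ≤ 0` on the regular representation and `0 ≤ f` on every module induced from
`B`, then `f = 0` on every module induced from `B`.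
(`W ⊕ W' ≅ k[B]^n` as `B`-modules, so `Ind W ⊕ Ind W' ≅ k[G]^n`.) -/
def Stmt_COMPL : Prop :=
  ∀ (k : Type) [Field k] (G : Type) [Group G] [Finite G] (f : Rep.{0} k G → ℤ),
    IND.IsAdditiveFn k G f → ∀ B : Subgroup G, ((Nat.card B : ℕ) : k) ≠ 0 →
    f (Rep.of (IND.permRep k G G)) ≤ 0 →
    (∀ (V : Type) [AddCommGroup V] [Module k V] [FiniteDimensional k V]
      (ρ : Representation k G V) (W : Submodule k V), IND.IsInducedFrom ρ B W →
      0 ≤ f (Rep.of ρ)) →
    ∀ (V : Type) [AddCommGroup V] [Module k V] [FiniteDimensional k V]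
      (ρ : Representation k G V) (W : Submodule k V), IND.IsInducedFrom ρ B W →
      f (Rep.of ρ) = 0

/-- **Package T** (total count): over a good pair, `ecDefect ≤ 0` for the regular
representation `𝔽_p[Gal(L/ℚ)]`. -/
def Stmt_T : Prop :=
  ∀ (p : ℕ) [Fact p.Prime], p ≠ 2 → ∀ (S : Finset Nat.Primes), pPrime p ∈ S →
    ∀ (L : IntermediateField ℚ (AlgebraicClosure ℚ)) [Normal ℚ L] [FiniteDimensional ℚ L],
      IsGoodPair p S L → ecDefect S (infl L (IND.permRep (ZMod p) (GalL L) (GalL L))) ≤ 0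

/-- **Package O** (one-sided equivariant inequality): over a good pair, `0 ≤ ecDefect` for
every module induced from a cyclic subgroup of order prime to `p`. -/
def Stmt_O : Prop :=
  ∀ (p : ℕ) [Fact p.Prime], p ≠ 2 → ∀ (S : Finset Nat.Primes), pPrime p ∈ S →
    ∀ (L : IntermediateField ℚ (AlgebraicClosure ℚ)) [Normal ℚ L] [FiniteDimensional ℚ L],
      IsGoodPair p S L →
      ∀ (V : Type) [AddCommGroup V] [Module (ZMod p) V] [FiniteDimensional (ZMod p) V]
        (ρ : Representation (ZMod p) (GalL L) V) (B : Subgroup (GalL L)) (W : Submodule (ZMod p) V),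
        IsCyclic B → ¬ p ∣ Nat.card B → IND.IsInducedFrom ρ B W → 0 ≤ ecDefect S (infl L ρ)

/-! ### Layer 3: duality inputs (exports of the PT2 lane) and Kummer-Dirichlet -/

/-- **PT2lb** (`= Stmt_PT2` over `𝔽_p` for `M = N'`, `M' ≅ N`): lower bound for `h²`,
`ш¹_S(N') + ∑_q h⁰(ℚ_q, N') ≤ h²_S(N) + h⁰(N')`. -/
def Stmt_PT2lb : Prop :=
  ∀ (p : ℕ) [Fact p.Prime], p ≠ 2 → ∀ (S : Finset Nat.Primes), pPrime p ∈ S →
    ∀ (N : Rep.{0} (ZMod p) GQ) [FiniteDimensional (ZMod p) N], S55.Lev S N →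
      finrank (ZMod p) (sha₁ S (tateDual p N)) +
          ∑ q ∈ S, finrank (ZMod p) (locRep (tateDual p N) q).ρ.invariants ≤
        finrank (ZMod p) (continuousH2S S N) + finrank (ZMod p) (tateDual p N).ρ.invariants

/-- **PT2ub** (`β¹epi` + cone sequence; export of `GWC.Stmt_B1`, `Stmt_DUALCOUNT`,
`Stmt_CONE1`): upper bound for `h²`,
`h²_S(N) + h⁰(N') ≤ ш¹_S(N') + ∑_q h⁰(ℚ_q, N')`. -/
def Stmt_PT2ub : Prop :=
  ∀ (p : ℕ) [Fact p.Prime], p ≠ 2 → ∀ (S : Finset Nat.Primes), pPrime p ∈ S →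
    ∀ (N : Rep.{0} (ZMod p) GQ) [FiniteDimensional (ZMod p) N], S55.Lev S N →
      finrank (ZMod p) (continuousH2S S N) + finrank (ZMod p) (tateDual p N).ρ.invariants ≤
        finrank (ZMod p) (sha₁ S (tateDual p N)) +
          ∑ q ∈ S, finrank (ZMod p) (locRep (tateDual p N) q).ρ.invariants

/-- **Package SHA0**: over a good pair, `Ш¹_S(N') = 0` for every `N` inflated from
`Gal(L/ℚ)` and induced from a subgroup of order prime to `p`.
(`N ⊕ N^c ≅ 𝔽_p[G]^n`, so `N'` is a retract of `(𝔽_p[G_ℚ/G_L]')^n`; `sha₁` is functorial.) -/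
def Stmt_SHA0 : Prop :=
  ∀ (p : ℕ) [Fact p.Prime], p ≠ 2 → ∀ (S : Finset Nat.Primes), pPrime p ∈ S →
    ∀ (L : IntermediateField ℚ (AlgebraicClosure ℚ)) [Normal ℚ L] [FiniteDimensional ℚ L],
      IsGoodPair p S L →
      ∀ (V : Type) [AddCommGroup V] [Module (ZMod p) V] [FiniteDimensional (ZMod p) V]
        (ρ : Representation (ZMod p) (GalL L) V) (B : Subgroup (GalL L)) (W : Submodule (ZMod p) V),
        ¬ p ∣ Nat.card B → IND.IsInducedFrom ρ B W → sha₁ S (tateDual p (infl L ρ)) = ⊥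

/-- **Package KDT** (Kummer + Dirichlet, total count; no duality, no `H²`).  Over a good pair
`gwDefect ≤ 0` for the regular representation: with `P = 𝔽_p[Gal(L/ℚ)]`,
`h¹_S(G_L, 𝔽_p) = h¹_S(P) ≤ dim O_{L,S}ˣ/p = #{places of L over S} + [L:ℚ]/2`
(every level-`S` character of `G_L` is a Kummer character of an `S`-unit, as `Cl_S(L) = 1`;
Dirichlet's unit theorem `S55.CFT.H12.stmt_SUnitRank`), `h⁰(P) = h⁰(P') = 1`,
`h⁰(ℚ_q, P') = #{places of L over q}`, `h⁰(ℝ, P') = [L:ℚ]/2`. -/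
def Stmt_KDT : Prop :=
  ∀ (p : ℕ) [Fact p.Prime], p ≠ 2 → ∀ (S : Finset Nat.Primes), pPrime p ∈ S →
    ∀ (L : IntermediateField ℚ (AlgebraicClosure ℚ)) [Normal ℚ L] [FiniteDimensional ℚ L],
      IsGoodPair p S L → gwDefect p S (infl L (IND.permRep (ZMod p) (GalL L) (GalL L))) ≤ 0

/-- **Package KDO** (equivariant Kummer + Dirichlet, one-sided; no duality, no `H²`).  Over a
good pair, `0 ≤ gwDefect` for every module `N = Ind_B^G W`, `B` cyclic of order prime to `p`: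
`h¹_S(N) ≥ dim (O_{L,S}ˣ/p ⊗ W(-1))^B` (Shapiro, inflation-restriction for the `p'`-group `B`,
Kummer classes of `S`-units, equivariantly) and
`dim (O_{L,S}ˣ/p ⊗ W(-1))^B = h⁰(N) - h⁰(N') + ∑_q h⁰(ℚ_q, N') + h⁰(ℝ, N')`
(equivariant Dirichlet: the characteristic polynomial of a generator `b` of `B` on
`O_{L,S}ˣ/p` is that on `μ_p ⊕ 𝔽_p[places over S ∪ ∞]` divided by `X - 1`). -/
def Stmt_KDO : Prop :=
  ∀ (p : ℕ) [Fact p.Prime], p ≠ 2 → ∀ (S : Finset Nat.Primes), pPrime p ∈ S →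
    ∀ (L : IntermediateField ℚ (AlgebraicClosure ℚ)) [Normal ℚ L] [FiniteDimensional ℚ L],
      IsGoodPair p S L →
      ∀ (V : Type) [AddCommGroup V] [Module (ZMod p) V] [FiniteDimensional (ZMod p) V]
        (ρ : Representation (ZMod p) (GalL L) V) (B : Subgroup (GalL L)) (W : Submodule (ZMod p) V),
        IsCyclic B → ¬ p ∣ Nat.card B → IND.IsInducedFrom ρ B W → 0 ≤ gwDefect p S (infl L ρ)

end Fermat.Agent.S56.EC

end
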