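/-
S56 / GW-CORE, package EC, leaf COMPL (helper4), part 2: the main argument.

`compl_main`: `f` additive on finite-dimensional `k[G]`-modules, `f (k[G]) ≤ 0` and `0 ≤ f` on
every module induced from `B`  ⟹  `f = 0` on every module induced from `B`.
NO Maschke and no hypothesis on `#B` is needed: for `V` induced from the `B`-stable `W`,
`X = Fun(G, W) → V`, `φ ↦ ∑ x, ρ x (φ x)` is onto, its kernel is induced from `B` (from the
functions supported on `B`), and `f X = dim W · f (k[G])`.
-/
import Fermat.Agent.S56.EC.H4_ComplAux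

set_option autoImplicit false
set_option linter.unusedSectionVars false

noncomputable section

namespace Fermat.Agent.S56.EC.H4

open Fermat.Agent.S56.IND Module
open scoped Classical

variable {k : Type} [Field k] {G : Type} [Group G] [Fintype G]
variable {V : Type} [AddCommGroup V] [Module k V]

/-- `φ ↦ ∑ x, ρ x (φ x)`, `Fun(G, W) → V`. -/
def sumMap (ρ : Representation k G V) (W : Submodule k V) : (G → W) →ₗ[k] V :=
  ∑ x : G, (ρ x ∘ₗ W.subtype) ∘ₗ LinearMap.proj x

lemma sumMap_apply (ρ : Representation k G V) (W : Submodule k V) (φ : G → W) :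
    sumMap ρ W φ = ∑ x : G, ρ x (φ x : V) := by
  simp [sumMap]

lemma sumMap_funRep (ρ : Representation k G V) (W : Submodule k V) (g : G) (φ : G → W) :
    sumMap ρ W (funRep k G W g φ) = ρ g (sumMap ρ W φ) := by
  rw [sumMap_apply, sumMap_apply, map_sum]
  refine Fintype.sum_equiv (Equiv.mulLeft g⁻¹) _ _ fun x => ?_
  simp only [funRep_apply, Equiv.coe_mulLeft]
  rw [← Module.End.mul_apply, ← map_mul, mul_inv_cancel_left]

lemma sumMap_single (ρ : Representation k G V) (W : Submodule k V) (g : G)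
    (w : W) : sumMap ρ W (Pi.single g w) = ρ g (w : V) := by
  rw [sumMap_apply, Finset.sum_eq_single g]
  · rw [Pi.single_eq_same]
  · intro x _ hx
    rw [Pi.single_eq_of_ne hx]
    simp
  · intro h
    exact absurd (Finset.mem_univ g) h

section induced

variable {ρ : Representation k G V} {B : Subgroup G} {W : Submodule k V}
  (h : IsInducedFrom ρ B W)

include h

lemma sumMap_surjective : Function.Surjective (sumMap ρ W) := by
  classical
  rw [← LinearMap.range_eq_top, eq_top_iff, ← h.2.1]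
  refine iSup_le fun g => ?_
  rintro _ ⟨w, hw, rfl⟩
  exact ⟨Pi.single g ⟨w, hw⟩, sumMap_single ρ W g ⟨w, hw⟩⟩

/-- The functions supported on `B`. -/
def XB (B : Subgroup G) (W : Submodule k V) : Submodule k (G → W) where
  carrier := {φ | ∀ x, x ∉ B → φ x = 0}
  add_mem' := fun {a b} ha hb x hx => by rw [Pi.add_apply, ha x hx, hb x hx, add_zero]
  zero_mem' := fun _ _ => rfl
  smul_mem' := fun c a ha x hx => by rw [Pi.smul_apply, ha x hx, smul_zero]

omit h in
lemma mem_XB {φ : G → W} : φ ∈ XB B W ↔ ∀ x, x ∉ B → φ x = 0 := Iff.rfl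

/-- On the functions supported on `B`, `sumMap` takes values in `W`. -/
lemma sumMap_mem_of_mem_XB {φ : G → W} (hφ : φ ∈ XB B W) : sumMap ρ W φ ∈ W := by
  rw [sumMap_apply]
  refine Submodule.sum_mem _ fun x _ => ?_
  by_cases hx : x ∈ B
  · exact h.1 x hx _ (φ x).2
  · rw [hφ x hx]
    simp

/-- The map `(w_c) ↦ ∑ c, ρ (out c) (w c)`, `Fun(G/B, W) → V`. -/
def cosetMap (ρ : Representation k G V) (B : Subgroup G) (W : Submodule k V) :
    ((G ⧸ B) → W) →ₗ[k] V :=
  ∑ c : G ⧸ B, (ρ (Quotient.out c) ∘ₗ W.subtype) ∘ₗ LinearMap.proj c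

omit h in
lemma cosetMap_apply (w : (G ⧸ B) → W) :
    cosetMap ρ B W w = ∑ c : G ⧸ B, ρ (Quotient.out c) (w c : V) := by
  simp [cosetMap]

lemma cosetMap_surjective : Function.Surjective (cosetMap ρ B W) := by
  classical
  rw [← LinearMap.range_eq_top, eq_top_iff, ← h.2.1]
  refine iSup_le fun g => ?_
  rintro _ ⟨w, hw, rfl⟩
  -- `g = out c * b`
  set c : G ⧸ B := (g : G ⧸ B) with hc
  have hb : (Quotient.out c)⁻¹ * g ∈ B := by
    rw [← QuotientGroup.eq, hc]
    exact QuotientGroup.out_eq' _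
  refine ⟨Pi.single c ⟨ρ ((Quotient.out c)⁻¹ * g) w, h.1 _ hb _ hw⟩, ?_⟩
  rw [cosetMap_apply, Finset.sum_eq_single c]
  · rw [Pi.single_eq_same]
    show ρ (Quotient.out c) (ρ ((Quotient.out c)⁻¹ * g) w) = ρ g w
    rw [← Module.End.mul_apply, ← map_mul, mul_inv_cancel_left]
  · intro x _ hx
    rw [Pi.single_eq_of_ne hx]
    simp
  · intro h'
    exact absurd (Finset.mem_univ c) h'

lemma cosetMap_injective [FiniteDimensional k V] : Function.Injective (cosetMap ρ B W) := by
  classical
  have hdim : finrank k ((G ⧸ B) → W) = finrank k V := by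
    rw [Module.finrank_pi_fintype, Finset.sum_const, Finset.card_univ, smul_eq_mul, h.2.2,
      Subgroup.index_eq_card, Nat.card_eq_fintype_card]
  exact (LinearMap.injective_iff_surjective_of_finrank_eq_finrank hdim).2
    (cosetMap_surjective h)

/-- The part of `φ` on the coset `c`, moved to `B`. -/
def piece (B : Subgroup G) (W : Submodule k V) (φ : G → W) (c : G ⧸ B) : G → W :=
  fun y => if y ∈ B then φ (Quotient.out c * y) else 0

omit h in
lemma piece_mem_XB (φ : G → W) (c : G ⧸ B) : piece B W φ c ∈ XB B W := by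
  intro x hx
  simp [piece, hx]

omit h in
lemma out_inv_mul_mem_iff (c : G ⧸ B) (x : G) : (Quotient.out c)⁻¹ * x ∈ B ↔ c = (x : G ⧸ B) := by
  rw [← QuotientGroup.eq]
  constructor
  · intro h'
    rw [← h']
    exact (QuotientGroup.out_eq' c).symm
  · intro h'
    rw [← h']
    exact QuotientGroup.out_eq' c

omit h in
lemma funRep_piece (φ : G → W) (c : G ⧸ B) (x : G) :
    funRep k G W (Quotient.out c) (piece B W φ c) x = if c = (x : G ⧸ B) then φ x else 0 := by
  simp only [funRep_apply, piece, out_inv_mul_mem_iff, mul_inv_cancel_left]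

omit h in
/-- The decomposition of a function according to the cosets of `B`. -/
lemma sum_funRep_piece (φ : G → W) :
    ∑ c : G ⧸ B, funRep k G W (Quotient.out c) (piece B W φ c) = φ := by
  funext x
  rw [Finset.sum_apply]
  simp only [funRep_piece]
  rw [Finset.sum_ite_eq' Finset.univ (x : G ⧸ B) (fun _ => φ x)]
  simp

/-- The pieces of an element of the kernel of `sumMap` lie in the kernel. -/
lemma sumMap_piece_eq_zero [FiniteDimensional k V] {φ : G → W} (hφ : sumMap ρ W φ = 0)
    (c : G ⧸ B) : sumMap ρ W (piece B W φ c) = 0 := by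
  let w : (G ⧸ B) → W := fun c => ⟨sumMap ρ W (piece B W φ c),
    sumMap_mem_of_mem_XB h (piece_mem_XB φ c)⟩
  have h0 : cosetMap ρ B W w = 0 := by
    rw [cosetMap_apply]
    have : ∀ c : G ⧸ B, ρ (Quotient.out c) (w c : V)
        = sumMap ρ W (funRep k G W (Quotient.out c) (piece B W φ c)) := fun c =>
      (sumMap_funRep ρ W _ _).symm
    simp only [this]
    rw [← map_sum, sum_funRep_piece, hφ]
  have h1 : w = 0 := cosetMap_injective h (by rw [h0, map_zero])
  have := congrFun h1 c
  exact congrArg Subtype.val this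

/-- The kernel of `sumMap` on the functions supported on `B`. -/
def KB (ρ : Representation k G V) (B : Subgroup G) (W : Submodule k V) : Submodule k (G → W) :=
  LinearMap.ker (sumMap ρ W) ⊓ XB B W

/-- `(ψ_c) ↦ ∑ c, out c • ψ_c`. -/
def glue (ρ : Representation k G V) (B : Subgroup G) (W : Submodule k V) :
    ((G ⧸ B) → KB ρ B W) →ₗ[k] (G → W) :=
  ∑ c : G ⧸ B, ((funRep k G W (Quotient.out c)) ∘ₗ (KB ρ B W).subtype) ∘ₗ LinearMap.proj c

omit h in
lemma glue_apply (ψ : (G ⧸ B) → KB ρ B W) :
    glue ρ B W ψ = ∑ c : G ⧸ B, funRep k G W (Quotient.out c) (ψ c : G → W) := by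
  simp [glue]

omit h in
lemma glue_apply_apply (ψ : (G ⧸ B) → KB ρ B W) (x : G) :
    glue ρ B W ψ x = (ψ (x : G ⧸ B) : G → W) ((Quotient.out (x : G ⧸ B))⁻¹ * x) := by
  rw [glue_apply, Finset.sum_apply, Finset.sum_eq_single (x : G ⧸ B)]
  · rfl
  · intro c _ hc
    rw [funRep_apply]
    refine (ψ c).2.2 _ ?_
    rw [out_inv_mul_mem_iff]
    exact hc
  · intro h'
    exact absurd (Finset.mem_univ _) h'

omit h in
lemma mk_out_mul (c : G ⧸ B) {y : G} (hy : y ∈ B) : ((Quotient.out c * y : G) : G ⧸ B) = c := by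
  rw [QuotientGroup.mk_mul_of_mem _ hy]
  exact QuotientGroup.out_eq' c

omit h in
lemma glue_apply_out_mul (ψ : (G ⧸ B) → KB ρ B W) (c : G ⧸ B) {y : G} (hy : y ∈ B) :
    glue ρ B W ψ (Quotient.out c * y) = (ψ c : G → W) y := by
  rw [glue_apply, Finset.sum_apply, Finset.sum_eq_single c]
  · rw [funRep_apply, inv_mul_cancel_left]
  · intro c' _ hc'
    rw [funRep_apply]
    refine (ψ c').2.2 _ ?_
    rw [out_inv_mul_mem_iff, mk_out_mul c hy]
    exact hc'
  · intro h'
    exact absurd (Finset.mem_univ _) h'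

omit h in
lemma glue_injective : Function.Injective (glue ρ B W) := by
  rw [injective_iff_map_eq_zero]
  intro ψ hψ
  funext c
  apply Subtype.ext
  funext y
  show (ψ c : G → W) y = 0
  by_cases hy : y ∈ B
  · rw [← glue_apply_out_mul ψ c hy, hψ]
    rfl
  · exact (ψ c).2.2 y hy

omit h in
lemma range_glue_le : LinearMap.range (glue ρ B W) ≤ LinearMap.ker (sumMap ρ W) := by
  rintro _ ⟨ψ, rfl⟩
  rw [LinearMap.mem_ker, glue_apply, map_sum]
  refine Finset.sum_eq_zero fun c _ => ?_
  rw [sumMap_funRep, LinearMap.mem_ker.1 (ψ c).2.1, map_zero]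

lemma range_glue [FiniteDimensional k V] :
    LinearMap.range (glue ρ B W) = LinearMap.ker (sumMap ρ W) := by
  refine le_antisymm range_glue_le ?_
  intro φ hφ
  rw [LinearMap.mem_ker] at hφ
  refine ⟨fun c => ⟨piece B W φ c, ?_, piece_mem_XB φ c⟩, ?_⟩
  · exact LinearMap.mem_ker.2 (sumMap_piece_eq_zero h hφ c)
  · rw [glue_apply]
    exact sum_funRep_piece φ

lemma finrank_ker_sumMap [FiniteDimensional k V] :
    finrank k (LinearMap.ker (sumMap ρ W)) = B.index * finrank k (KB ρ B W) := by
  rw [← range_glue h, LinearMap.finrank_range_of_inj glue_injective, Module.finrank_pi_fintype,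
    Finset.sum_const, Finset.card_univ, smul_eq_mul, Subgroup.index_eq_card,
    Nat.card_eq_fintype_card]

omit h in
lemma ker_stable (ρ : Representation k G V) (W : Submodule k V) (g : G) :
    LinearMap.ker (sumMap ρ W) ≤ (LinearMap.ker (sumMap ρ W)).comap (funRep k G W g) := by
  intro φ hφ
  rw [Submodule.mem_comap, LinearMap.mem_ker, sumMap_funRep, LinearMap.mem_ker.1 hφ, map_zero]

/-- The kernel of `sumMap` is induced from `B`. -/
lemma isInducedFrom_ker [FiniteDimensional k V] :
    IsInducedFrom ((funRep k G W).subrepresentation (LinearMap.ker (sumMap ρ W)) (ker_stable ρ W))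
      B ((KB ρ B W).comap (LinearMap.ker (sumMap ρ W)).subtype) := by
  refine ⟨?_, ?_, ?_⟩
  · intro b hb w hw
    rw [Submodule.mem_comap] at hw ⊢
    refine ⟨(ker_stable ρ W b) hw.1, ?_⟩
    intro x hx
    show (w : G → W) (b⁻¹ * x) = 0
    refine hw.2 _ fun hbx => hx ?_
    have := B.mul_mem hb hbx
    rwa [mul_inv_cancel_left] at this
  · rw [eq_top_iff]
    rintro ⟨φ, hφ⟩ -
    have hφ0 : sumMap ρ W φ = 0 := LinearMap.mem_ker.1 hφ
    have hpiece : ∀ c : G ⧸ B, piece B W φ c ∈ LinearMap.ker (sumMap ρ W) := fun c =>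
      LinearMap.mem_ker.2 (sumMap_piece_eq_zero h hφ0 c)
    have hsum : (⟨φ, hφ⟩ : LinearMap.ker (sumMap ρ W)) = ∑ c : G ⧸ B,
        ((funRep k G W).subrepresentation (LinearMap.ker (sumMap ρ W)) (ker_stable ρ W))
          (Quotient.out c) ⟨piece B W φ c, hpiece c⟩ := by
      apply Subtype.ext
      rw [Submodule.coe_sum]
      exact (sum_funRep_piece φ).symm
    rw [hsum]
    refine Submodule.sum_mem _ fun c _ => ?_
    refine Submodule.mem_iSup_of_mem (Quotient.out c) ?_
    refine Submodule.mem_map_of_mem ?_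
    rw [Submodule.mem_comap]
    exact ⟨hpiece c, piece_mem_XB φ c⟩
  · rw [finrank_ker_sumMap h]
    congr 1
    exact (LinearEquiv.finrank_eq
      (Submodule.comapSubtypeEquivOfLe (inf_le_left : KB ρ B W ≤ _))).symm

end induced

/-- **COMPL**, main form. -/
theorem compl_main {k : Type} [Field k] {G : Type} [Group G] [Finite G]
    {f : Rep.{0} k G → ℤ} (hf : IsAdditiveFn k G f) (B : Subgroup G)
    (hperm : f (Rep.of (permRep k G G)) ≤ 0)
    (hpos : ∀ (V : Type) [AddCommGroup V] [Module k V] [FiniteDimensional k V]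
      (ρ : Representation k G V) (W : Submodule k V), IsInducedFrom ρ B W → 0 ≤ f (Rep.of ρ))
    (V : Type) [AddCommGroup V] [Module k V] [FiniteDimensional k V]
    (ρ : Representation k G V) (W : Submodule k V) (h : IsInducedFrom ρ B W) :
    f (Rep.of ρ) = 0 := by
  cases nonempty_fintype G
  have h1 := hf.add (funRep k G W) (LinearMap.ker (sumMap ρ W)) (ker_stable ρ W)
  have h2 : f (Rep.of ((funRep k G W).quotient (LinearMap.ker (sumMap ρ W)) (ker_stable ρ W)))
      = f (Rep.of ρ) := by
    refine hf.iso _ _ ((sumMap ρ W).quotKerEquivOfSurjective (sumMap_surjective h)) ?_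
    intro g v
    obtain ⟨v, rfl⟩ := Submodule.Quotient.mk_surjective _ v
    exact sumMap_funRep ρ W g v
  have h3 : f (Rep.of (funRep k G W)) = (finrank k W : ℕ) * f (Rep.of (permRep k G G)) :=
    f_funRep hf _ W rfl
  have h4 := hpos _ _ _ (isInducedFrom_ker h)
  have h5 := hpos V ρ W h
  have h6 : ((finrank k W : ℕ) : ℤ) * f (Rep.of (permRep k G G)) ≤ 0 :=
    mul_nonpos_of_nonneg_of_nonpos (Int.natCast_nonneg _) hperm
  rw [h2] at h1
  linarith

end Fermat.Agent.S56.EC.H4
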