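/-
S56 / GW-CORE, package EC, leaf COMPL (helper4): `stmt_COMPL : Stmt_COMPL`.
(The hypothesis `#B` invertible in `k` is not used: see `H4_ComplMain`.)
-/
import Fermat.Agent.S56.EC.Defs
import Fermat.Agent.S56.EC.H4_ComplMain

set_option autoImplicit false

namespace Fermat.Agent.S56.EC.H4

/-- **COMPL**. -/
theorem stmt_COMPL : Stmt_COMPL := by
  intro k _ G _ _ f hf B _ hperm hpos V _ _ _ ρ W h
  exact compl_main hf B hperm hpos V ρ W h

end Fermat.Agent.S56.EC.H4
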