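/-
S56 / GW-CORE, package EC, leaf LEVEL (helper4): `stmt_LEVEL : Stmt_LEVEL`.
`L` = the normal closure (helper48's `S55.H48.exists_normal_level`) of `F · ℚ(ζ_p)`, `F` a level field.
-/
import Fermat.Agent.S56.EC.Defs
import Fermat.Agent.S55.H48_NC

set_option autoImplicit false

namespace Fermat.Agent.S56.EC.H4

open Fermat.Agent.Lib.FrobIntegers ExtCitation

/-- **LEVEL**: a module of level `S ∋ p` is trivial on `G_L` for a Galois level `L`. -/
theorem stmt_LEVEL : Stmt_LEVEL := by
  intro p _ S hpS N _ hN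
  have hp : p.Prime := Fact.out
  have := qbar_isAlgebraic
  have := qbar_isGalois
  obtain ⟨F, hF, htriv⟩ := hN
  -- the cyclotomic field
  obtain ⟨ζ, hζ⟩ := S55.H48.exists_primitiveRoot p
  have hF' : (IntermediateField.adjoin ℚ ({ζ} : Set (AlgebraicClosure ℚ))).IsUnramifiedOutside S := by
    refine ⟨IntermediateField.adjoin.finiteDimensional
      (Algebra.IsIntegral.isIntegral (R := ℚ) ζ), ?_⟩
    intro q hq A hA g hg
    have hqp : (q : ℕ) ≠ p := by
      intro h
      apply hq
      have : q = pPrime p := Subtype.ext h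
      rw [this]
      exact hpS
    have hfix : g ζ = ζ := S55.H48.inertia_fix_root hp q.2 hqp A hA g hg ζ hζ.pow_eq_one
    rw [IntermediateField.mem_fixingSubgroup_iff]
    exact S55.H48.fixes_adjoin g ζ hfix
  obtain ⟨L, hle, hL, hnorm⟩ := S55.H48.exists_normal_level S _ (hF.sup hF')
  have := hL.1
  have hgal : IsGalois ℚ L := (InfiniteGalois.normal_iff_isGalois L).1 hnorm
  refine ⟨L, hgal.to_normal, hL.1, ⟨hL, ζ, ?_, hζ⟩, ?_⟩
  · exact hle (le_sup_right (a := F)
      (IntermediateField.mem_adjoin_simple_self ℚ ζ))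
  · intro s hs
    have hsF : s ∈ F.fixingSubgroup :=
      IntermediateField.fixingSubgroup_antitone (le_sup_left.trans hle) hs
    exact LinearMap.ext fun m => htriv s hsF m

end Fermat.Agent.S56.EC.H4
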