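/-
S56 / GW-CORE, package EC, leaf SHA0 (helper4), part 1: pure algebra.

`G` finite, `B ≤ G` with `#B` invertible in `k`, `V` induced from the `B`-stable `W`.  For a basis
`w_j` of `W` the maps
  `aMap j : Fun(G, k) → V`, `ψ ↦ ∑ x, ψ x • ρ x w_j`,
  `bMap j : V → Fun(G, k)`, `v ↦ (x ↦ #B⁻¹ w_j^*(pr_W (ρ x⁻¹ v)))`
are equivariant (for `permRep k G G` and `ρ`) and `∑ j, aMap j ∘ bMap j = id`.
Here `pr_W : V → W` is the projection along the other translates of `W`.
-/
import Fermat.Agent.S56.EC.H4_ComplMain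

set_option autoImplicit false
set_option linter.unusedSectionVars false

noncomputable section

namespace Fermat.Agent.S56.EC.H4

open Fermat.Agent.S56.IND Module
open scoped Classical

variable {k : Type} [Field k] {G : Type} [Group G] [Fintype G]
variable {V : Type} [AddCommGroup V] [Module k V] [FiniteDimensional k V]

section induced

variable {ρ : Representation k G V} {B : Subgroup G} {W : Submodule k V}
  (h : IsInducedFrom ρ B W)

/-- `Fun(G/B, W) ≃ V`. -/
def cosetEquiv : ((G ⧸ B) → W) ≃ₗ[k] V :=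
  LinearEquiv.ofBijective (cosetMap ρ B W) ⟨cosetMap_injective h, cosetMap_surjective h⟩

lemma cosetEquiv_apply (w : (G ⧸ B) → W) : cosetEquiv h w = cosetMap ρ B W w := rfl

lemma out_one_mem (B : Subgroup G) : Quotient.out ((1 : G) : G ⧸ B) ∈ B := by
  have h1 := (out_inv_mul_mem_iff (B := B) ((1 : G) : G ⧸ B) 1).2 rfl
  rw [mul_one] at h1
  exact (Subgroup.inv_mem_iff B).1 h1

/-- The action of `b ∈ B` on `W`. -/
def actB (b : G) (hb : b ∈ B) : W →ₗ[k] W :=
  (ρ b).restrict (fun w hw => h.1 b hb w hw)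

lemma actB_coe (b : G) (hb : b ∈ B) (w : W) : ((actB h b hb w : W) : V) = ρ b (w : V) := rfl

/-- The projection `V → W` along the other translates of `W`. -/
def prW : V →ₗ[k] W :=
  actB h _ (out_one_mem B) ∘ₗ LinearMap.proj ((1 : G) : G ⧸ B) ∘ₗ (cosetEquiv h).symm.toLinearMap

lemma rho_eq_cosetEquiv_single (y : G) (w : W) :
    ρ y (w : V) = cosetEquiv h (Pi.single ((y : G) : G ⧸ B)
      (actB h ((Quotient.out ((y : G) : G ⧸ B))⁻¹ * y)
        ((out_inv_mul_mem_iff _ _).2 rfl) w)) := by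
  rw [cosetEquiv_apply, cosetMap_apply, Finset.sum_eq_single ((y : G) : G ⧸ B)]
  · rw [Pi.single_eq_same, actB_coe, ← Module.End.mul_apply, ← map_mul, mul_inv_cancel_left]
  · intro x _ hx
    rw [Pi.single_eq_of_ne hx]
    simp
  · intro h'
    exact absurd (Finset.mem_univ _) h'

lemma prW_rho_of_mem {y : G} (hy : y ∈ B) (w : W) : ((prW h (ρ y (w : V)) : W) : V) = ρ y w := by
  have hc : ((y : G) : G ⧸ B) = ((1 : G) : G ⧸ B) := by
    rw [QuotientGroup.eq]
    simpa using hy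
  have h1 : (cosetEquiv h).symm (ρ y (w : V)) = Pi.single ((y : G) : G ⧸ B)
      (actB h ((Quotient.out ((y : G) : G ⧸ B))⁻¹ * y) ((out_inv_mul_mem_iff _ _).2 rfl) w) := by
    rw [rho_eq_cosetEquiv_single h y w, LinearEquiv.symm_apply_apply]
  have h2 : prW h (ρ y (w : V)) = actB h _ (out_one_mem B)
      ((cosetEquiv h).symm (ρ y (w : V)) ((1 : G) : G ⧸ B)) := rfl
  rw [h2, h1, actB_coe, ← hc, Pi.single_eq_same, actB_coe, ← Module.End.mul_apply, ← map_mul,
    mul_inv_cancel_left]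

lemma prW_rho_of_not_mem {y : G} (hy : y ∉ B) (w : W) : prW h (ρ y (w : V)) = 0 := by
  have hc : ((1 : G) : G ⧸ B) ≠ ((y : G) : G ⧸ B) := by
    intro hc
    apply hy
    have := QuotientGroup.eq.1 hc
    simpa using this
  have h1 : (cosetEquiv h).symm (ρ y (w : V)) = Pi.single ((y : G) : G ⧸ B)
      (actB h ((Quotient.out ((y : G) : G ⧸ B))⁻¹ * y) ((out_inv_mul_mem_iff _ _).2 rfl) w) := by
    rw [rho_eq_cosetEquiv_single h y w, LinearEquiv.symm_apply_apply]
  have h2 : prW h (ρ y (w : V)) = actB h _ (out_one_mem B)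
      ((cosetEquiv h).symm (ρ y (w : V)) ((1 : G) : G ⧸ B)) := rfl
  rw [h2, h1, Pi.single_eq_of_ne hc, map_zero]

/-- The averaging operator `v ↦ ∑ x, ρ x (pr_W (ρ x⁻¹ v))`. -/
def avgOp : V →ₗ[k] V :=
  ∑ x : G, ρ x ∘ₗ W.subtype ∘ₗ prW h ∘ₗ ρ x⁻¹

lemma avgOp_apply (v : V) : avgOp h v = ∑ x : G, ρ x ((prW h (ρ x⁻¹ v) : W) : V) := by
  simp [avgOp]

lemma card_filter_mem (B : Subgroup G) :
    (Finset.univ.filter (fun y : G => y ∈ B)).card = Nat.card B := by
  rw [Nat.card_eq_fintype_card, Fintype.card_subtype]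

lemma avgOp_rho (g : G) (w : W) : avgOp h (ρ g (w : V)) = (Nat.card B : k) • ρ g (w : V) := by
  rw [avgOp_apply]
  have h1 : ∀ x : G, ρ x ((prW h (ρ x⁻¹ (ρ g (w : V))) : W) : V)
      = if x⁻¹ * g ∈ B then ρ g (w : V) else 0 := by
    intro x
    rw [← Module.End.mul_apply, ← map_mul]
    by_cases hx : x⁻¹ * g ∈ B
    · rw [if_pos hx, prW_rho_of_mem h hx, ← Module.End.mul_apply, ← map_mul,
        mul_inv_cancel_left]
    · rw [if_neg hx, prW_rho_of_not_mem h hx]
      simp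
  rw [Finset.sum_congr rfl (fun x _ => h1 x)]
  have h2 : ∑ x : G, (if x⁻¹ * g ∈ B then ρ g (w : V) else 0)
      = ∑ y : G, (if y ∈ B then ρ g (w : V) else 0) :=
    Fintype.sum_equiv ((Equiv.inv G).trans (Equiv.mulRight g)) _ _ (fun x => by simp)
  rw [h2, ← Finset.sum_filter, Finset.sum_const, card_filter_mem, Nat.cast_smul_eq_nsmul]

lemma avgOp_eq : avgOp h = (Nat.card B : k) • LinearMap.id := by
  have htop : (⊤ : Submodule k V) ≤ LinearMap.eqLocus (avgOp h)
      ((Nat.card B : k) • LinearMap.id) := by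
    rw [← h.2.1]
    refine iSup_le fun g => ?_
    rintro _ ⟨w, hw, rfl⟩
    exact avgOp_rho h g ⟨w, hw⟩
  exact LinearMap.ext fun v => htop (Submodule.mem_top (x := v))

variable {ι : Type} [Fintype ι] (bW : Basis ι k W)

/-- `ψ ↦ ∑ x, ψ x • ρ x w_j`. -/
def aMap (ρ : Representation k G V) {W : Submodule k V} (bW : Basis ι k W) (j : ι) :
    (G → k) →ₗ[k] V :=
  ∑ x : G, (LinearMap.proj x : (G → k) →ₗ[k] k).smulRight (ρ x (bW j : V))

omit [FiniteDimensional k V] in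
lemma aMap_apply (j : ι) (ψ : G → k) : aMap ρ bW j ψ = ∑ x : G, ψ x • ρ x (bW j : V) := by
  simp [aMap]

omit [FiniteDimensional k V] in
lemma aMap_perm (j : ι) (g : G) (ψ : G → k) :
    aMap ρ bW j (permRep k G G g ψ) = ρ g (aMap ρ bW j ψ) := by
  rw [aMap_apply, aMap_apply, map_sum]
  refine Fintype.sum_equiv (Equiv.mulLeft g⁻¹) _ _ fun x => ?_
  simp only [permRep_apply, Equiv.coe_mulLeft, smul_eq_mul, map_smul]
  rw [← Module.End.mul_apply, ← map_mul, mul_inv_cancel_left]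

/-- `v ↦ (x ↦ #B⁻¹ w_j^* (pr_W (ρ x⁻¹ v)))`. -/
def bMap (j : ι) : V →ₗ[k] (G → k) :=
  LinearMap.pi fun x => ((Nat.card B : k)⁻¹) • (bW.coord j ∘ₗ prW h ∘ₗ ρ x⁻¹)

lemma bMap_apply (j : ι) (v : V) (x : G) :
    bMap h bW j v x = (Nat.card B : k)⁻¹ * bW.coord j (prW h (ρ x⁻¹ v)) := rfl

lemma bMap_rho (j : ι) (g : G) (v : V) :
    bMap h bW j (ρ g v) = permRep k G G g (bMap h bW j v) := by
  funext x
  rw [permRep_apply, bMap_apply, bMap_apply, ← Module.End.mul_apply, ← map_mul, smul_eq_mul,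
    mul_inv_rev, inv_inv]

theorem sum_aMap_bMap (hB : ((Nat.card B : ℕ) : k) ≠ 0) (v : V) :
    ∑ j : ι, aMap ρ bW j (bMap h bW j v) = v := by
  have h1 : ∀ j : ι, aMap ρ bW j (bMap h bW j v)
      = ∑ x : G, (Nat.card B : k)⁻¹ • ρ x ((bW.coord j (prW h (ρ x⁻¹ v))) • (bW j : V)) := by
    intro j
    rw [aMap_apply]
    refine Finset.sum_congr rfl fun x _ => ?_
    rw [bMap_apply, map_smul, mul_smul]
  rw [Finset.sum_congr rfl (fun j _ => h1 j), Finset.sum_comm]
  have h2 : ∀ x : G, ∑ j : ι, (Nat.card B : k)⁻¹ •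
      ρ x ((bW.coord j (prW h (ρ x⁻¹ v))) • (bW j : V))
      = (Nat.card B : k)⁻¹ • ρ x ((prW h (ρ x⁻¹ v) : W) : V) := by
    intro x
    rw [← Finset.smul_sum, ← map_sum]
    congr 2
    have h3 := bW.sum_repr (prW h (ρ x⁻¹ v))
    have h4 := congrArg (W.subtype) h3
    rw [map_sum] at h4
    simpa using h4
  rw [Finset.sum_congr rfl (fun x _ => h2 x), ← Finset.smul_sum, ← avgOp_apply, avgOp_eq,
    LinearMap.smul_apply, LinearMap.id_apply, smul_smul, inv_mul_cancel₀ hB, one_smul]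

end induced

end Fermat.Agent.S56.EC.H4
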