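/-
S56 / GW-CORE, package EC, leaf SHA0 (helper4), part 2: `sha₁` and joint retracts.

If `∑ j, r j ∘ u j = id_A` for finitely many morphisms `u j : A ⟶ B`, `r j : B ⟶ A` and
`sha₁ S B = ⊥`, then `sha₁ S A = ⊥`  (`2` invertible: the archimedean place).
-/
import Fermat.Agent.S55.H48_E5Bridge
import Fermat.Agent.S55.H48_E2

set_option autoImplicit false
set_option linter.unusedSectionVars false

open CategoryTheory Module groupCohomology ExtCitation

noncomputable section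

namespace Fermat.Agent.S56.EC.H4

open Fermat.Agent.S55

variable {k : Type} [Field k] (S : Finset Nat.Primes)

/-- Locally trivial level-`S` cocycles are pushed forward by morphisms. -/
lemma isSha1_push {A B : Rep.{0} k GQ} (u : A ⟶ B) {b : GQ → A} (hb : H48.IsSha1 S A b) :
    H48.IsSha1 S B (fun g => u.hom (b g)) := by
  refine ⟨H48.isZ1S_push u hb.1, fun q => ?_⟩
  obtain ⟨m, hm⟩ := hb.2 q
  refine ⟨u.hom m, ?_⟩
  rw [dZeroL_comp]
  funext t
  exact congrArg (fun f => u.hom (f t)) hm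

/-- `sha₁ = ⊥` in terms of cocycles. -/
lemma exists_dZero_of_sha1_eq_bot (h2 : (2 : k) ≠ 0) {B : Rep.{0} k GQ} (hB : sha₁ S B = ⊥)
    {b : GQ → B} (hb : H48.IsSha1 S B b) : ∃ m : B, b = dZero B m := by
  obtain ⟨c, hc⟩ := H48.exists_mem_of_isSha1 S B h2 hb
  have h0 : H48.shaπ1 S B c = 0 := by
    apply Subtype.ext
    have h1 : ((H48.shaπ1 S B c : ↥(sha₁ S B)) : H1 B) ∈ (⊥ : Submodule k (H1 B)) :=
      hB ▸ (H48.shaπ1 S B c).2
    exact (Submodule.mem_bot _).1 h1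
  obtain ⟨m, hm⟩ := (H48.shaπ1_eq_zero_iff S B c).1 h0
  exact ⟨m, hc.symm.trans hm⟩

/-- **Joint retracts**: `sha₁` vanishes on `A` if `id_A = ∑ j, r j ∘ u j` with
`u j : A ⟶ B`, `r j : B ⟶ A` and `sha₁` vanishes on `B`. -/
theorem sha1_eq_bot_of_joint_retract (h2 : (2 : k) ≠ 0) {A B : Rep.{0} k GQ} {J : Type}
    [Fintype J] (u : J → (A ⟶ B)) (r : J → (B ⟶ A))
    (hur : ∀ a : A, ∑ j, (r j).hom ((u j).hom a) = a) (hB : sha₁ S B = ⊥) :
    sha₁ S A = ⊥ := by
  rw [eq_bot_iff]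
  intro x hx
  obtain ⟨c, hc⟩ := H48.shaπ1_surjective S A ⟨x, hx⟩
  have hsha := H48.isSha1_of_mem S A c
  have hm : ∀ j : J, ∃ m : B, (fun g => (u j).hom (((c.1 : cocycles₁ A) : GQ → A) g))
      = dZero B m := fun j =>
    exists_dZero_of_sha1_eq_bot S h2 hB (isSha1_push S (u j) hsha)
  choose m hm using hm
  have h0 : H48.shaπ1 S A c = 0 := by
    rw [H48.shaπ1_eq_zero_iff]
    refine ⟨∑ j, (r j).hom (m j), ?_⟩
    funext g
    have h1 : ((c.1 : cocycles₁ A) : GQ → A) g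
        = ∑ j, (r j).hom ((u j).hom (((c.1 : cocycles₁ A) : GQ → A) g)) := (hur _).symm
    rw [h1]
    have h3 : ∀ j : J, (r j).hom ((u j).hom (((c.1 : cocycles₁ A) : GQ → A) g))
        = dZero A ((r j).hom (m j)) g := by
      intro j
      have h4 : (u j).hom (((c.1 : cocycles₁ A) : GQ → A) g) = dZero B (m j) g :=
        congrFun (hm j) g
      rw [h4, dZero_comp]
    rw [Finset.sum_congr rfl (fun j _ => h3 j)]
    simp only [dZero, map_sum, Finset.sum_sub_distrib]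
  have hx0 : (⟨x, hx⟩ : ↥(sha₁ S A)) = 0 := hc.symm.trans h0
  rw [Submodule.mem_bot]
  exact congrArg Subtype.val hx0

end Fermat.Agent.S56.EC.H4
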