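/-
S56 / GW-CORE, package EC, leaf SHA0 (helper4), part 3: the statement.

Over a good pair `(L, S)`, `Ш¹_S((Ind_B W)') = 0` for `B ≤ Gal(L/ℚ)` of order prime to `p`:
the identity of `V = Ind_B W` is a finite sum `∑ j, a_j ∘ b_j` with `b_j : V → 𝔽_p[G_ℚ/G_L]`,
`a_j : 𝔽_p[G_ℚ/G_L] → V` equivariant (`H4_Sha0Alg`); dualise and use `H4_Sha0Ret`.
-/
import Fermat.Agent.S56.EC.Defs
import Fermat.Agent.S56.EC.H4_Sha0Alg
import Fermat.Agent.S56.EC.H4_Sha0Ret
import Fermat.Agent.S55.Top.FunRep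
import Fermat.Agent.S55.Top.PlaceEx

set_option autoImplicit false
set_option linter.unusedSectionVars false

open CategoryTheory Module groupCohomology ExtCitation

noncomputable section

namespace Fermat.Agent.S56.EC.H4

open Fermat.Agent.S56.IND Fermat.Agent.S55 Fermat.Agent.S55.Top
open scoped Classical

section galois

variable (L : IntermediateField ℚ (AlgebraicClosure ℚ)) [Normal ℚ L]

theorem resL_eq_one' {s : GQ} (hs : s ∈ L.fixingSubgroup) : resL L s = 1 := by
  apply AlgEquiv.ext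
  intro x
  apply Subtype.ext
  have h := AlgEquiv.restrictNormal_commutes s L x
  have h2 : s (x : AlgebraicClosure ℚ) = x := hs x
  show ((AlgEquiv.restrictNormal s L x : L) : AlgebraicClosure ℚ) = x
  rw [← h2]
  exact h

theorem mem_fix_of_resL_eq_one {s : GQ} (hs : resL L s = 1) : s ∈ L.fixingSubgroup := by
  rw [IntermediateField.mem_fixingSubgroup_iff]
  intro x hx
  have h := AlgEquiv.restrictNormal_commutes s L ⟨x, hx⟩
  have h1 : AlgEquiv.restrictNormal s L ⟨x, hx⟩ = (⟨x, hx⟩ : L) :=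
    congrArg (fun f : GalL L => f ⟨x, hx⟩) hs
  rw [h1] at h
  exact h.symm

/-- `G_ℚ/G_L → Gal(L/ℚ)`. -/
def phiL : XK L → GalL L :=
  Quotient.lift (fun g : GQ => resL L g) (fun a b hab => by
    have h1 : a⁻¹ * b ∈ L.fixingSubgroup := QuotientGroup.leftRel_apply.1 hab
    have h3 : resL L (a⁻¹ * b) = 1 := resL_eq_one' L h1
    rw [map_mul, map_inv, inv_mul_eq_one] at h3
    exact h3)

lemma phiL_mk (g : GQ) : phiL L ((g : GQ) : XK L) = resL L g := rfl

lemma phiL_smul (g : GQ) (c : XK L) : phiL L (g • c) = resL L g * phiL L c := by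
  induction c using QuotientGroup.induction_on with
  | H a =>
    rw [MulAction.Quotient.smul_mk, phiL_mk, phiL_mk, smul_eq_mul, map_mul]

lemma phiL_injective : Function.Injective (phiL L) := by
  intro c d
  induction c using QuotientGroup.induction_on with
  | H a =>
    induction d using QuotientGroup.induction_on with
    | H b =>
      intro h
      rw [phiL_mk, phiL_mk] at h
      rw [QuotientGroup.eq]
      have h3 : resL L (a⁻¹ * b) = 1 := by
        rw [map_mul, map_inv, inv_mul_eq_one]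
        exact h
      exact mem_fix_of_resL_eq_one L h3

lemma phiL_surjective : Function.Surjective (phiL L) := by
  intro x
  have : Normal ℚ (AlgebraicClosure ℚ) := h49_qbar_normal
  obtain ⟨g, hg⟩ := AlgEquiv.restrictNormalHom_surjective (F := ℚ) (K₁ := L)
    (AlgebraicClosure ℚ) x
  exact ⟨(g : XK L), hg⟩

/-- `G_ℚ/G_L ≃ Gal(L/ℚ)`. -/
def phiEquiv : XK L ≃ GalL L := Equiv.ofBijective (phiL L) ⟨phiL_injective L, phiL_surjective L⟩

lemma phiEquiv_apply (c : XK L) : phiEquiv L c = phiL L c := rfl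

lemma phiEquiv_symm_mul (g : GQ) (x : GalL L) :
    (phiEquiv L).symm (resL L g * x) = g • (phiEquiv L).symm x := by
  apply (phiEquiv L).injective
  rw [Equiv.apply_symm_apply, phiEquiv_apply, phiL_smul, ← phiEquiv_apply,
    Equiv.apply_symm_apply]

variable {k : Type} [Field k] [Fintype (GalL L)]
variable {V : Type} [AddCommGroup V] [Module k V] [FiniteDimensional k V]
variable {ρ : Representation k (GalL L) V} {B : Subgroup (GalL L)} {W : Submodule k V}
  (h : IsInducedFrom ρ B W) {ι : Type} [Fintype ι] (bW : Basis ι k W)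

/-- `a_j : Fun(G_ℚ/G_L, k) → V`. -/
def aLin (ρ : Representation k (GalL L) V) {W : Submodule k V} (bW : Basis ι k W) (j : ι) :
    (XK L → k) →ₗ[k] V :=
  aMap ρ bW j ∘ₗ LinearMap.funLeft k k (phiEquiv L).symm

lemma aLin_apply (j : ι) (ψ : XK L → k) :
    aLin L ρ bW j ψ = aMap ρ bW j (fun x => ψ ((phiEquiv L).symm x)) := rfl

/-- `b_j : V → Fun(G_ℚ/G_L, k)`. -/
def bLin (j : ι) : V →ₗ[k] (XK L → k) :=
  LinearMap.funLeft k k (phiL L) ∘ₗ bMap h bW j

lemma bLin_apply (j : ι) (v : V) (c : XK L) : bLin L h bW j v c = bMap h bW j v (phiL L c) := rfl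

/-- `a_j` as a morphism of representations of `G_ℚ`. -/
def aHom (ρ : Representation k (GalL L) V) {W : Submodule k V} (bW : Basis ι k W) (j : ι) :
    FX k L ⟶ infl L ρ :=
  Rep.ofHom ⟨aLin L ρ bW j, fun g => by
    apply LinearMap.ext
    intro ψ
    show aLin L ρ bW j (fun x => ψ (g⁻¹ • x)) = ρ (resL L g) (aLin L ρ bW j ψ)
    rw [aLin_apply, aLin_apply, ← aMap_perm]
    congr 1
    funext x
    rw [permRep_apply, smul_eq_mul, ← map_inv, phiEquiv_symm_mul]⟩

lemma aHom_hom_apply (j : ι) (ψ : FX k L) : (aHom L ρ bW j).hom ψ = aLin L ρ bW j ψ := rfl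

/-- `b_j` as a morphism of representations of `G_ℚ`. -/
def bHom (j : ι) : infl L ρ ⟶ FX k L :=
  Rep.ofHom ⟨bLin L h bW j, fun g => by
    apply LinearMap.ext
    intro v
    funext c
    show bLin L h bW j (ρ (resL L g) v) c = bLin L h bW j v (g⁻¹ • c)
    rw [bLin_apply, bLin_apply, bMap_rho, permRep_apply, phiL_smul, map_inv, smul_eq_mul]⟩

lemma bHom_hom_apply (j : ι) (v : infl L ρ) : (bHom L h bW j).hom v = bLin L h bW j v := rfl

lemma aLin_bLin (j : ι) (v : V) : aLin L ρ bW j (bLin L h bW j v) = aMap ρ bW j (bMap h bW j v) := by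
  rw [aLin_apply]
  congr 1
  funext x
  rw [bLin_apply, ← phiEquiv_apply, Equiv.apply_symm_apply]

end galois

lemma permToFun_funToPerm {k : Type} [Field k] (K : IntermediateField ℚ (AlgebraicClosure ℚ))
    [Finite (XK K)] (ψ : FX k K) :
    (permToFun (k := k) (K := K)).hom ((funToPerm (k := k) (K := K)).hom ψ) = ψ := by
  show (Finsupp.linearEquivFunOnFinite k k (XK K)) ((MonoidAlgebra.coeffLinearEquiv k)
    ((MonoidAlgebra.coeffLinearEquiv k).symm
      ((Finsupp.linearEquivFunOnFinite k k (XK K)).symm ψ))) = ψ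
  rw [LinearEquiv.apply_symm_apply, LinearEquiv.apply_symm_apply]

theorem two_ne_zero_zmod' (p : ℕ) [Fact p.Prime] (hp2 : p ≠ 2) : (2 : ZMod p) ≠ 0 := by
  intro h
  have h1 : ((2 : ℕ) : ZMod p) = 0 := by exact_mod_cast h
  rw [ZMod.natCast_eq_zero_iff] at h1
  have hp : p.Prime := Fact.out
  exact hp2 ((Nat.prime_dvd_prime_iff_eq hp Nat.prime_two).1 h1)

/-- **Package SHA0**. -/
theorem stmt_SHA0 : Stmt_SHA0 := by
  intro p _ hp2 S hpS L _ _ hgood V _ _ _ ρ B W hpB hind
  cases nonempty_fintype (GalL L)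
  have hfin : Finite (XK L) := finite_XK hgood.1.1
  have hB : ((Nat.card B : ℕ) : ZMod p) ≠ 0 := by
    rw [Ne, ZMod.natCast_eq_zero_iff]
    exact hpB
  let bW : Basis (Fin (finrank (ZMod p) W)) (ZMod p) W := Module.finBasis (ZMod p) W
  refine sha1_eq_bot_of_joint_retract S (two_ne_zero_zmod' p hp2)
    (A := tateDual p (infl L ρ)) (B := tateDual p (S55.permRep (ZMod p) L))
    (fun j => dHom (cycloK p (ZMod p)) (permToFun ≫ aHom L ρ bW j))
    (fun j => dHom (cycloK p (ZMod p)) (bHom L hind bW j ≫ funToPerm)) ?_ hgood.2.2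
  intro φ
  apply Md_ext
  intro v
  have h1 : ∀ j : Fin (finrank (ZMod p) W),
      ev (cycloK p (ZMod p)) (infl L ρ) v
        ((dHom (cycloK p (ZMod p)) (bHom L hind bW j ≫ funToPerm)).hom
          ((dHom (cycloK p (ZMod p)) (permToFun ≫ aHom L ρ bW j)).hom φ))
      = ev (cycloK p (ZMod p)) (infl L ρ) (aMap ρ bW j (bMap hind bW j v)) φ := by
    intro j
    rw [dHom_hom_apply, dHom_hom_apply, ev_dMap, ev_dMap]
    congr 1
    show (aHom L ρ bW j).hom ((permToFun (k := ZMod p) (K := L)).hom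
      ((funToPerm (k := ZMod p) (K := L)).hom ((bHom L hind bW j).hom v))) = _
    rw [permToFun_funToPerm, bHom_hom_apply, aHom_hom_apply]
    exact aLin_bLin L hind bW j v
  have h2 : ev (cycloK p (ZMod p)) (infl L ρ) v
      (∑ j, (dHom (cycloK p (ZMod p)) (bHom L hind bW j ≫ funToPerm)).hom
          ((dHom (cycloK p (ZMod p)) (permToFun ≫ aHom L ρ bW j)).hom φ))
      = ∑ j, ev (cycloK p (ZMod p)) (infl L ρ) v
        ((dHom (cycloK p (ZMod p)) (bHom L hind bW j ≫ funToPerm)).hom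
          ((dHom (cycloK p (ZMod p)) (permToFun ≫ aHom L ρ bW j)).hom φ)) :=
    map_sum (LinearMap.applyₗ (R := ZMod p) (M₂ := ZMod p) (v : V) :
      Module.Dual (ZMod p) V →ₗ[ZMod p] ZMod p) _ _
  rw [h2, Finset.sum_congr rfl (fun j _ => h1 j)]
  have h3 : ∑ j, ev (cycloK p (ZMod p)) (infl L ρ) (aMap ρ bW j (bMap hind bW j v)) φ
      = ev (cycloK p (ZMod p)) (infl L ρ) (∑ j, aMap ρ bW j (bMap hind bW j v)) φ :=
    (map_sum (show Module.Dual (ZMod p) V from φ) _ _).symm
  rw [h3]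
  exact congrArg (fun x : V => ev (cycloK p (ZMod p)) (infl L ρ) x φ)
    (sum_aMap_bMap hind bW hB v)

end Fermat.Agent.S56.EC.H4
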