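import Fermat.Agent.S55.CFT.H19_ValSeq
import Fermat.Agent.S55.CFT.GS.H6_CD
import Fermat.Agent.S55.CFT.GS.H01_UR_U

set_option autoImplicit false
set_option linter.style.haveILetI false
set_option linter.unusedSectionVars false

/-!
# Cluster T / S56, GW-CORE, package EC, leaf KUM (helper50): the bridge for the `S`-units

`L ⊆ ℚ̄` a number field, unramified outside `S`.  The `S`-units `TUnits ↥L S` of `S55/CFT/Global.lean`
(integrality) against the places of `ℚ̄` (valuation subrings):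

* `val_eq_one_of_mem_tUnits` : an `S`-unit of `L` is a unit at every place of `ℚ̄` over `q ∉ S`;
* `dvd_valFun_of_root`       : if `a ∈ Lˣ` has a `p`-th root in `Ω = ℚ_S` then `p ∣ ord_w a` for
                               all primes `w` of `L` outside `S`;
* `exists_div_pow_mem_tUnits`: hence `a = u c^p` with `u` an `S`-unit, `c ∈ Lˣ`, if `Cl_S(L) = 1`;
* `mem_tUnits_of_pow_mem`    : `t^n ∈ O_{L,S}ˣ ⟹ t ∈ O_{L,S}ˣ`.
-/

open scoped NumberField

noncomputable section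

namespace Fermat.Agent.S56.EC.H50

open Fermat.Agent.S55 Fermat.Agent.S55.Top Fermat.Agent.S55.CFT Fermat.Agent.S55.CFT.GS
  Fermat.Agent.Lib.FrobExists Fermat.Agent.Lib.Minkowski Fermat.Agent.Lib.UnramVal
  IsDedekindDomain WithZero

local notation "Qb" => AlgebraicClosure ℚ

variable {S : Finset Nat.Primes} {L : IntermediateField ℚ Qb} [FiniteDimensional ℚ L]

theorem numberField_L : NumberField ↥L := ⟨⟩

attribute [local instance] numberField_L

/-- The prime of `L` under a place of `ℚ̄` over `q ∉ S` is not over `S`. -/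
theorem vBelow_notMem_primesT {q : Nat.Primes} (hq : q ∉ S) (A : ValuationSubring Qb)
    (hA : A.LiesOverPrime (q : ℕ)) : vBelow L (q : ℕ) q.2 A hA ∉ H12.primesT ↥L S := by
  intro hv
  obtain ⟨q', hq'S, hq'⟩ := (H12.mem_primesT_iff_exists ↥L S _).mp hv
  have hq'' : (((q' : ℕ) : 𝓞 ↥L)) ∈ (vBelow L (q : ℕ) q.2 A hA).asIdeal := by
    simpa using hq'
  have hqmem : (((q : ℕ) : 𝓞 ↥L)) ∈ (vBelow L (q : ℕ) q.2 A hA).asIdeal :=
    natCast_mem_primeBelow L A (q : ℕ) hA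
  have hne : (q : ℕ) ≠ (q' : ℕ) := by
    intro h
    apply hq
    have : q = q' := Subtype.ext h
    rw [this]; exact hq'S
  have hcop : Nat.Coprime (q : ℕ) (q' : ℕ) := (Nat.coprime_primes q.2 q'.2).mpr hne
  have hprime := (vBelow L (q : ℕ) q.2 A hA).isPrime
  apply hprime.ne_top
  rw [Ideal.eq_top_iff_one]
  have hbez : ((q : ℕ) : ℤ) * Nat.gcdA q q' + ((q' : ℕ) : ℤ) * Nat.gcdB q q' = 1 := by
    have := Nat.gcd_eq_gcd_ab (q : ℕ) (q' : ℕ)
    rw [hcop.gcd_eq_one] at this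
    exact_mod_cast this.symm
  have h1 : (((((q : ℕ) : ℤ) * Nat.gcdA q q' + ((q' : ℕ) : ℤ) * Nat.gcdB q q' : ℤ))
      : 𝓞 ↥L) = 1 := by
    rw [hbez, Int.cast_one]
  rw [← h1]
  push_cast
  exact Ideal.add_mem _ (Ideal.mul_mem_right _ _ hqmem) (Ideal.mul_mem_right _ _ hq'')

/-- An `S`-unit of `L` is a unit at every place of `ℚ̄` over a prime outside `S`. -/
theorem val_eq_one_of_mem_tUnits {u : (↥L)ˣ} (hu : u ∈ TUnits ↥L S) (q : Nat.Primes) (hq : q ∉ S)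
    (A : ValuationSubring Qb) (hA : A.LiesOverPrime (q : ℕ)) :
    A.valuation (((u : (↥L)ˣ) : ↥L) : Qb) = 1 := by
  apply val_eq_one_of_valuation_eq_one L (q : ℕ) q.2 A hA (u : ↥L)
  exact (H12.mem_tUnits_iff ↥L S u).mp hu _ (vBelow_notMem_primesT hq A hA)

/-- A prime of `L` outside `S` is the prime under a place of `ℚ̄` over some `q ∉ S`. -/
theorem exists_place_of_primeOut (w : HeightOneSpectrum (𝓞 ↥L)) (hw : w ∉ H12.primesT ↥L S) :
    ∃ (q : Nat.Primes) (_ : q ∉ S) (A : ValuationSubring Qb) (hA : A.LiesOverPrime (q : ℕ)),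
      vBelow L (q : ℕ) q.2 A hA = w := by
  obtain ⟨A, hA⟩ := H01.exists_place_over L w
  obtain ⟨q, hqp, hq⟩ := H01.exists_prime_mem w
  have hqS : (⟨q, hqp⟩ : Nat.Primes) ∉ S := by
    intro hqS
    apply hw
    rw [H12.mem_primesT_iff_exists]
    exact ⟨⟨q, hqp⟩, hqS, by simpa using hq⟩
  have hAq : A.LiesOverPrime q := by
    have h1 : ((q : ℕ) : 𝓞 ↥L) ∈ primeBelow L A := by rw [hA]; exact hq
    rw [mem_primeBelow, map_natCast] at h1
    exact A.mem_nonunits_iff.mpr h1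
  exact ⟨⟨q, hqp⟩, hqS, A, hAq, HeightOneSpectrum.ext hA⟩

/-- If `a ∈ Lˣ` has a `p`-th root in `Ω` then `p` divides the orders of `a` outside `S`. -/
theorem dvd_valFun_of_root (hL : L.IsUnramifiedOutside S) {p : ℕ} (hp : p ≠ 0) (a : (↥L)ˣ)
    {t : Qb} (ht : InOm S t) (hta : t ^ p = (((a : (↥L)ˣ) : ↥L) : Qb)) (w : H19.PrimeOut ↥L S) :
    (p : ℤ) ∣ H19.valFun ↥L S a w := by
  obtain ⟨q, hqS, A, hA, hv⟩ := exists_place_of_primeOut w.1 w.2
  have ha0 : ((a : (↥L)ˣ) : ↥L) ≠ 0 := a.ne_zero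
  have ht0 : t ≠ 0 := by
    rintro rfl
    rw [zero_pow hp] at hta
    exact ha0 (Subtype.ext hta.symm)
  have h1 := H6.isOrd_of_mem hL q hqS A hA (a : ↥L) ha0
  obtain ⟨k, hk⟩ := H6.exists_isOrd S q hqS A hA t ht0 ht
  have h2 := hk.pow p
  rw [hta] at h2
  have h3 := H6.IsOrd.unique q.2 hA h1 h2
  rw [hv] at h3
  rw [H19.valFun_apply]
  have h4 : log (w.1.valuation ↥L ((a : (↥L)ˣ) : ↥L)) = -H6.ordAt w.1 ((a : (↥L)ˣ) : ↥L) := by
    unfold H6.ordAt
    rw [neg_neg]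
  rw [h4, h3]
  exact ⟨-k, by ring⟩

theorem valFun_pow (a : (↥L)ˣ) (n : ℕ) :
    H19.valFun ↥L S (a ^ n) = n • H19.valFun ↥L S a := by
  induction n with
  | zero => rw [pow_zero, zero_smul, H19.valFun_one]
  | succ n ih => rw [pow_succ, H19.valFun_mul, ih, succ_nsmul]

theorem valFun_inv (a : (↥L)ˣ) : H19.valFun ↥L S a⁻¹ = -H19.valFun ↥L S a := by
  have h := H19.valFun_mul ↥L S a a⁻¹
  rw [mul_inv_cancel, H19.valFun_one] at h
  exact eq_neg_of_add_eq_zero_right h.symm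

/-- If `Cl_S(L) = 1` and `a ∈ Lˣ` has a `p`-th root in `Ω`, then `a = u c^p` with `u ∈ O_{L,S}ˣ`. -/
theorem exists_div_pow_mem_tUnits (hL : L.IsUnramifiedOutside S) (hcl : ClTrivial ↥L S) {p : ℕ}
    (hp : p ≠ 0) (a : (↥L)ˣ) {t : Qb} (ht : InOm S t) (hta : t ^ p = (((a : (↥L)ˣ) : ↥L) : Qb)) :
    ∃ c : (↥L)ˣ, a / c ^ p ∈ TUnits ↥L S := by
  classical
  set f : H19.PrimeOut ↥L S →₀ ℤ :=
    Finsupp.mapRange (fun n : ℤ => n / (p : ℤ)) (by simp) (H19.valFun ↥L S a) with hf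
  obtain ⟨c, hc⟩ := H19.valFun_surjective ↥L S hcl f
  refine ⟨c, ?_⟩
  rw [← H19.valFun_eq_zero_iff, div_eq_mul_inv, H19.valFun_mul, valFun_inv, valFun_pow, hc]
  ext w
  rw [Finsupp.add_apply, Finsupp.neg_apply, Finsupp.smul_apply, hf, Finsupp.mapRange_apply,
    Finsupp.zero_apply, nsmul_eq_mul]
  have hdvd := dvd_valFun_of_root hL hp a ht hta w
  rw [Int.mul_ediv_cancel' hdvd, add_neg_cancel]

/-- `tⁿ ∈ O_{L,S}ˣ ⟹ t ∈ O_{L,S}ˣ`. -/
theorem mem_tUnits_of_pow_mem {t : (↥L)ˣ} {n : ℕ} (hn : n ≠ 0) (h : t ^ n ∈ TUnits ↥L S) :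
    t ∈ TUnits ↥L S := by
  rw [← H19.valFun_eq_zero_iff] at h ⊢
  rw [valFun_pow] at h
  ext w
  have h1 := DFunLike.congr_fun h w
  rw [Finsupp.smul_apply, Finsupp.zero_apply, nsmul_eq_mul] at h1
  rcases mul_eq_zero.mp h1 with h2 | h2
  · exact absurd (by exact_mod_cast h2) hn
  · rw [h2]; rfl

end Fermat.Agent.S56.EC.H50

end
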