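import Fermat.Agent.S56.EC.Defs_KD
import Fermat.Agent.S56.EC.H50_KumBridge
import Fermat.Agent.S55.CFT.GS.H24_KumUnr
import Fermat.Agent.S55.CFT.GS.H6_H90

set_option autoImplicit false
set_option linter.style.haveILetI false
set_option linter.unusedSectionVars false
set_option linter.unusedVariables false

/-!
# Cluster T / S56, GW-CORE, package EC, leaf KUM (helper50): Kummer theory at level `S`

`L/ℚ` finite Galois inside `ℚ̄`, unramified outside `S ∋ p`, `ζ_p ∈ L`.  The Kummer map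
`κ : O_{L,S}ˣ / p → Hom_S(G_L, 𝔽_p)`, `σ(u^{1/p}) = ζ^{κ_u(σ)} u^{1/p}`: injective, equivariant,
onto if `Cl_S(L) = 1`.  Built on helper24's `kum` (`S55/CFT/GS/H24_KummerH1.lean`), helper6's
Hilbert 90 at level `S`, helper19's valuation sequence and the bridge `H50_KumBridge.lean`.
-/

open scoped NumberField

noncomputable section

namespace Fermat.Agent.S56.EC.H50

open Fermat.Agent.S55 Fermat.Agent.S55.Top Fermat.Agent.S55.CFT Fermat.Agent.S55.CFT.GS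
  ExtCitation

local notation "Qb" => AlgebraicClosure ℚ

attribute [local instance] numberField_L

section kum

variable {p : ℕ} [Fact p.Prime] {S : Finset Nat.Primes} {L : IntermediateField ℚ Qb}
  {ζ : Qbˣ} (hζ : IsPrimitiveRoot ζ p)

/-- The Kummer character only depends on the `p`-th power. -/
theorem kum_congr (hζL : ζ ∈ H24.KxS L) {t t' : Qbˣ} (ht : t ^ p ∈ H24.KxS L)
    (h : t' ^ p = t ^ p) : (H24.kum hζ t' : ↥L.fixingSubgroup → ZMod p) = H24.kum hζ t := by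
  have hz : (t' / t) ^ p = 1 := by rw [div_pow, h, div_self']
  obtain ⟨a, ha⟩ := H24.exists_zp hζ hz
  have hzL : t' / t ∈ H24.KxS L := by
    rw [← ha]
    exact (H24.KxS L).pow_mem hζL _
  have hzp : (t' / t) ^ p ∈ H24.KxS L := (H24.KxS L).pow_mem hzL p
  have h1 : t' = t * (t' / t) := by rw [mul_div_cancel]
  rw [h1, H24.kum_mul hζ ht hzp, (H24.kum_eq_zero_iff hζ hzp).mpr hzL, add_zero]

/-- The action of `G_ℚ` on `p`-th roots of unity. -/
theorem map_zeta_eq {ξ : Qbˣ} (hξ : ξ ^ p = 1) (g : GQ) :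
    g (ξ : Qb) = (ξ : Qb) ^ ((cycloChar p g : (ZMod p)ˣ) : ZMod p).val := by
  haveI : NeZero p := ⟨(Fact.out : p.Prime).ne_zero⟩
  have hu : ξ ∈ rootsOfUnity p Qb := by
    rw [mem_rootsOfUnity]
    exact hξ
  exact modularCyclotomicCharacter.spec (L := Qb) (n := p) (card_rootsOfUnity_eq_self p)
    (g : Qb ≃+* Qb) hu

end kum

section conj

variable {p : ℕ} [Fact p.Prime] {S : Finset Nat.Primes} {L : IntermediateField ℚ Qb}
  [Normal ℚ L] {ζ : Qbˣ} (hζ : IsPrimitiveRoot ζ p)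

theorem resL_coe (g : GQ) (x : ↥L) : ((resL L g x : ↥L) : Qb) = g (x : Qb) :=
  AlgEquiv.restrictNormal_commutes g L x

/-- `G_ℚ` maps `L` into `L`. -/
theorem map_mem_L (g : GQ) {x : Qb} (hx : x ∈ L) : g x ∈ L := by
  have h := resL_coe (L := L) g ⟨x, hx⟩
  rw [← h]
  exact Subtype.mem _

theorem smul_mem_KxS (g : GQ) {a : Qbˣ} (ha : a ∈ H24.KxS L) : g • a ∈ H24.KxS L :=
  map_mem_L (L := L) g ha

/-- Conjugation of the Kummer character. -/
theorem kum_conj (hζL : ζ ∈ H24.KxS L) {t : Qbˣ} (ht : t ^ p ∈ H24.KxS L) (g : GQ)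
    (σ : ↥L.fixingSubgroup) :
    H24.kum hζ (g • t) (conjL L g σ) =
      ((cycloChar p g : (ZMod p)ˣ) : ZMod p) * H24.kum hζ t σ := by
  have htg : (g • t) ^ p ∈ H24.KxS L := by
    rw [← smul_pow']
    exact smul_mem_KxS g ht
  rw [H24.kum_eq_iff hζ htg]
  have hk := H24.kum_spec hζ ht σ
  have h1 : (conjL L g σ) • (g • t) = g • (σ • t) := by
    apply Units.ext
    show (g * (σ : GQ) * g⁻¹) (g (t : Qb)) = g ((σ : GQ) (t : Qb))
    rw [AlgEquiv.mul_apply, AlgEquiv.mul_apply]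
    congr 2
    exact (g.symm_apply_apply (t : Qb))
  have h2 : g • ζ = ζ ^ ((cycloChar p g : (ZMod p)ˣ) : ZMod p).val := by
    apply Units.ext
    rw [Units.val_pow_eq_pow_val]
    exact map_zeta_eq hζ.pow_eq_one g
  rw [h1, ← smul_div', ← hk, smul_pow', h2]
  have h3 := H24.zp_nsmul (ζ := ζ) hζ.pow_eq_one
    ((cycloChar p g : (ZMod p)ˣ) : ZMod p).val (H24.kum hζ t σ)
  rw [ZMod.natCast_zmod_val] at h3
  rw [h3, ← pow_mul, ← pow_mul, mul_comm]

end conj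

section roots

variable (p : ℕ) [Fact p.Prime] (L : IntermediateField ℚ Qb)

/-- The embedding `Lˣ → ℚ̄ˣ`. -/
def phiL : (↥L)ˣ →* Qbˣ := Units.map ((algebraMap ↥L Qb : ↥L →+* Qb) : ↥L →* Qb)

theorem phiL_coe (x : (↥L)ˣ) : ((phiL L x : Qbˣ) : Qb) = ((x : ↥L) : Qb) := rfl

theorem phiL_injective : Function.Injective (phiL L) :=
  Units.map_injective (algebraMap ↥L Qb).injective

theorem phiL_mem (x : (↥L)ˣ) : phiL L x ∈ H24.KxS L := (x : ↥L).2

theorem exists_phiL_eq {a : Qbˣ} (ha : a ∈ H24.KxS L) : ∃ x : (↥L)ˣ, phiL L x = a := by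
  have h0 : (⟨(a : Qb), ha⟩ : ↥L) ≠ 0 := fun h => a.ne_zero (congrArg Subtype.val h)
  exact ⟨Units.mk0 ⟨(a : Qb), ha⟩ h0, Units.ext rfl⟩

set_option synthInstance.maxHeartbeats 400000 in
theorem phiL_smul [Normal ℚ L] (g : GQ) (u : (↥L)ˣ) : phiL L (resL L g • u) = g • phiL L u := by
  apply Units.ext
  exact resL_coe g (u : ↥L)

/-- A `p`-th root. -/
theorem exists_root (a : Qbˣ) : ∃ t : Qbˣ, t ^ p = a := by
  have hp : p.Prime := Fact.out
  obtain ⟨t, ht⟩ := IsAlgClosed.exists_pow_nat_eq (a : Qb) hp.pos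
  have ht0 : t ≠ 0 := by
    rintro rfl
    rw [zero_pow hp.ne_zero] at ht
    exact a.ne_zero ht.symm
  exact ⟨Units.mk0 t ht0, Units.ext (by rw [Units.val_pow_eq_pow_val]; exact ht)⟩

/-- A chosen `p`-th root of `u ∈ Lˣ`. -/
def rt (u : (↥L)ˣ) : Qbˣ := (exists_root p (phiL L u)).choose

theorem rt_pow (u : (↥L)ˣ) : rt p L u ^ p = phiL L u := (exists_root p (phiL L u)).choose_spec

end roots

section kumL

variable {p : ℕ} [Fact p.Prime] {S : Finset Nat.Primes} {L : IntermediateField ℚ Qb}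
  {ζ : Qbˣ} (hζ : IsPrimitiveRoot ζ p)

/-- The Kummer character of `u ∈ Lˣ`. -/
def kumL (u : (↥L)ˣ) : ↥L.fixingSubgroup → ZMod p := H24.kum hζ (rt p L u)

theorem pow_mem_of_eq {t : Qbˣ} {u : (↥L)ˣ} (ht : t ^ p = phiL L u) : t ^ p ∈ H24.KxS L := by
  rw [ht]; exact phiL_mem L u

theorem kumL_eq (hζL : ζ ∈ H24.KxS L) (u : (↥L)ˣ) {t : Qbˣ} (ht : t ^ p = phiL L u) :
    kumL hζ u = H24.kum hζ t :=
  kum_congr hζ hζL (pow_mem_of_eq ht) ((rt_pow p L u).trans ht.symm)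

theorem kumL_mul (hζL : ζ ∈ H24.KxS L) (u v : (↥L)ˣ) :
    kumL hζ (u * v) = kumL hζ u + kumL hζ v := by
  have h : (rt p L u * rt p L v) ^ p = phiL L (u * v) := by
    rw [mul_pow, rt_pow, rt_pow, map_mul]
  rw [kumL_eq hζ hζL (u * v) h,
    H24.kum_mul hζ (pow_mem_of_eq (rt_pow p L u)) (pow_mem_of_eq (rt_pow p L v))]
  rfl

theorem kumL_eq_zero_iff (hζL : ζ ∈ H24.KxS L) (u : (↥L)ˣ) :
    kumL hζ u = 0 ↔ ∃ c : (↥L)ˣ, c ^ p = u := by
  constructor
  · intro h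
    have h1 := (H24.kum_eq_zero_iff hζ (pow_mem_of_eq (rt_pow p L u))).mp h
    obtain ⟨c, hc⟩ := exists_phiL_eq L h1
    refine ⟨c, phiL_injective L ?_⟩
    rw [map_pow, hc, rt_pow]
  · rintro ⟨c, rfl⟩
    have h : (phiL L c) ^ p = phiL L (c ^ p) := by rw [map_pow]
    rw [kumL_eq hζ hζL (c ^ p) h]
    exact (H24.kum_eq_zero_iff hζ (pow_mem_of_eq h)).mpr (phiL_mem L c)

theorem kumL_map_mul (hζL : ζ ∈ H24.KxS L) (u : (↥L)ˣ) (σ τ : ↥L.fixingSubgroup) :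
    kumL hζ u (σ * τ) = kumL hζ u σ + kumL hζ u τ := by
  have h := H24.kum_tOne hζ (pow_mem_of_eq (rt_pow p L u)) hζL
  have h1 := congrFun h (σ, τ)
  simp only [tOne, Pi.zero_apply] at h1
  unfold kumL
  linear_combination -h1

theorem kumL_level (hpS : pPrime p ∈ S) (hLS : L.IsUnramifiedOutside S)
    [FiniteDimensional ℚ L] {u : (↥L)ˣ} (hu : u ∈ TUnits ↥L S) :
    IsLevK₁ S L (kumL hζ u) := by
  refine H24.kum_level hζ (pow_mem_of_eq (rt_pow p L u)) ?_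
  exact H24.inOm_root hpS hLS (u := phiL L u) (phiL_mem L u)
    (fun q hq A hA => val_eq_one_of_mem_tUnits hu q hq A hA) (rt_pow p L u)

set_option synthInstance.maxHeartbeats 400000 in
theorem kumL_conj [Normal ℚ L] (hζL : ζ ∈ H24.KxS L) (g : GQ) (u : (↥L)ˣ)
    (σ : ↥L.fixingSubgroup) :
    kumL hζ (resL L g • u) (conjL L g σ) =
      ((cycloChar p g : (ZMod p)ˣ) : ZMod p) * kumL hζ u σ := by
  have h : (g • rt p L u) ^ p = phiL L (resL L g • u) := by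
    rw [← smul_pow', rt_pow, phiL_smul]
  rw [kumL_eq hζ hζL _ h]
  exact kum_conj hζ hζL (pow_mem_of_eq (rt_pow p L u)) g σ

end kumL

section main

variable {p : ℕ} [Fact p.Prime] {S : Finset Nat.Primes} {L : IntermediateField ℚ Qb}
  [Normal ℚ L] {ζ : Qbˣ} (hζ : IsPrimitiveRoot ζ p)

theorem kumL_one (hζL : ζ ∈ H24.KxS L) : kumL hζ (1 : (↥L)ˣ) = 0 :=
  (kumL_eq_zero_iff hζ hζL 1).mpr ⟨1, one_pow p⟩

/-- The Kummer map on the `S`-units. -/
def kap0 (S : Finset Nat.Primes) (hζL : ζ ∈ H24.KxS L) :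
    UnitsAdd S L →+ (↥L.fixingSubgroup → ZMod p) where
  toFun u := kumL hζ ((Additive.toMul u : ↥(TUnits ↥L S)) : (↥L)ˣ)
  map_zero' := kumL_one hζ hζL
  map_add' u v := kumL_mul hζ hζL _ _

theorem kap0_apply (hζL : ζ ∈ H24.KxS L) (u : UnitsAdd S L) :
    kap0 hζ S hζL u = kumL hζ ((Additive.toMul u : ↥(TUnits ↥L S)) : (↥L)ˣ) := rfl

theorem pPowers_le_ker (hζL : ζ ∈ H24.KxS L) : pPowers p S L ≤ (kap0 hζ S hζL).ker := by
  rintro x ⟨y, rfl⟩
  rw [AddMonoidHom.mem_ker, kap0_apply]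
  exact (kumL_eq_zero_iff hζ hζL _).mpr ⟨((Additive.toMul y : ↥(TUnits ↥L S)) : (↥L)ˣ), rfl⟩

/-- The Kummer map `κ : O_{L,S}ˣ / p → (G_L → 𝔽_p)`. -/
def kap (S : Finset Nat.Primes) (hζL : ζ ∈ H24.KxS L) :
    UmodP p S L →ₗ[ZMod p] (↥L.fixingSubgroup → ZMod p) :=
  (QuotientAddGroup.lift (pPowers p S L) (kap0 hζ S hζL)
    (pPowers_le_ker hζ hζL)).toZModLinearMap p

theorem kap_mk (hζL : ζ ∈ H24.KxS L) (u : UnitsAdd S L) :
    kap hζ S hζL (QuotientAddGroup.mk u) =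
      kumL hζ ((Additive.toMul u : ↥(TUnits ↥L S)) : (↥L)ˣ) := rfl

end main

/-- **Package KUM.** -/
theorem stmt_KUM : Stmt_KUM := by
  intro p _ S hpS L _ _ hL
  have hp : p.Prime := Fact.out
  obtain ⟨hLS, ζ₀, hζ₀L, hζ₀⟩ := id hL
  have hζ₀0 : ζ₀ ≠ 0 := hζ₀.ne_zero hp.ne_zero
  obtain ⟨ζ, rfl⟩ : ∃ ζ : Qbˣ, (ζ : Qb) = ζ₀ := ⟨Units.mk0 ζ₀ hζ₀0, rfl⟩
  have hζ : IsPrimitiveRoot ζ p := IsPrimitiveRoot.coe_units_iff.mp hζ₀
  have hζL : ζ ∈ H24.KxS L := hζ₀L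
  refine ⟨kap hζ S hζL, ?_, ?_, ?_, ?_⟩
  · -- injectivity
    rw [injective_iff_map_eq_zero]
    intro x hx
    induction x using QuotientAddGroup.induction_on with
    | H u =>
      rw [kap_mk] at hx
      obtain ⟨c, hc⟩ := (kumL_eq_zero_iff hζ hζL _).mp hx
      have hcT : c ∈ TUnits ↥L S :=
        mem_tUnits_of_pow_mem hp.ne_zero (by rw [hc]; exact (Additive.toMul u).2)
      rw [QuotientAddGroup.eq_zero_iff]
      refine ⟨Additive.ofMul ⟨c, hcT⟩, ?_⟩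
      apply Additive.toMul.injective
      apply Subtype.ext
      exact hc
  · -- level `S` homomorphisms
    intro x
    induction x using QuotientAddGroup.induction_on with
    | H u =>
      rw [kap_mk]
      exact ⟨kumL_map_mul hζ hζL _, kumL_level hζ hpS hLS (Additive.toMul u).2⟩
  · -- equivariance
    intro g x σ
    induction x using QuotientAddGroup.induction_on with
    | H u =>
      exact kumL_conj hζ hζL g _ σ
  · -- surjectivity
    intro hcl h hh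
    have hZ : h ∈ Z1K (ZMod p) S L := by
      refine ⟨?_, hh.2⟩
      funext ⟨σ, τ⟩
      show h τ - h (σ * τ) + h σ = 0
      rw [hh.1 σ τ]
      ring
    obtain ⟨t, ht, hkt⟩ := H24.exists_kum_eq hζ H6.stmt_GS_H90 hLS hζL hZ
    have ht1 : InOm S (t : Qb) := (H24.mem_RS.mp ht).1
    have ht2 : t ^ p ∈ H24.KxS L := (H24.mem_RS.mp ht).2
    obtain ⟨a, ha⟩ := exists_phiL_eq L ht2
    have hta : (t : Qb) ^ p = (((a : (↥L)ˣ) : ↥L) : Qb) := by
      rw [← phiL_coe, ha, Units.val_pow_eq_pow_val]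
    obtain ⟨c, hc⟩ := exists_div_pow_mem_tUnits hLS hcl hp.ne_zero a ht1 hta
    refine ⟨QuotientAddGroup.mk (Additive.ofMul ⟨a / c ^ p, hc⟩), ?_⟩
    rw [kap_mk]
    have hroot : (t / phiL L c) ^ p = phiL L (a / c ^ p) := by
      rw [div_pow, map_div, map_pow, ha]
    have hcp : ((phiL L c)⁻¹) ^ p ∈ H24.KxS L :=
      (H24.KxS L).pow_mem ((H24.KxS L).inv_mem (phiL_mem L c)) p
    show kumL hζ (a / c ^ p) = h
    rw [kumL_eq hζ hζL _ hroot, div_eq_mul_inv, H24.kum_mul hζ ht2 hcp,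
      (H24.kum_eq_zero_iff hζ hcp).mpr ((H24.KxS L).inv_mem (phiL_mem L c)), add_zero, hkt]

end Fermat.Agent.S56.EC.H50

end
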