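/-
S56 / GW-CORE, package EC, leaf GOOD (helper54), part 1: the module `P' = 𝔽_p[G_ℚ/G_L]*(1)`.
Triviality on `G_L`, smoothness, finiteness, and the vanishing of `H¹(Gal(L/ℚ), P')`
(a cocycle of `P'` vanishing on `G_L` is a coboundary: explicit contracting homotopy).
-/
import Fermat.Agent.S56.EC.Defs
import Fermat.Agent.S56.H13_Unr
import Fermat.Agent.S56.H47_Basic
import Fermat.Agent.S55.H13_E3

set_option autoImplicit false
set_option linter.unusedSectionVars false
set_option linter.style.haveILetI false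
set_option linter.unusedVariables false

noncomputable section

namespace Fermat.Agent.S56.EC.H54

open CategoryTheory groupCohomology ExtCitation Module Fermat.Agent.S56

/-- The module `P' = 𝔽_p[G_ℚ/G_L]*(1)`. -/
abbrev PD (p : ℕ) [Fact p.Prime] (L : IntermediateField ℚ (AlgebraicClosure ℚ)) :
    Rep.{0} (ZMod p) GQ :=
  tateDual p (S55.permRep (ZMod p) L)

section base

variable (p : ℕ) [Fact p.Prime] (L : IntermediateField ℚ (AlgebraicClosure ℚ))

theorem fixingSubgroup_normal [hn : _root_.Normal ℚ L] : L.fixingSubgroup.Normal := by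
  have := S55.H48.qbar_isGalois
  rw [InfiniteGalois.normal_iff_isGalois]
  exact @IsGalois.mk _ _ _ _ _ inferInstance hn

theorem finite_quot_fixing [FiniteDimensional ℚ L] : Finite (GQ ⧸ L.fixingSubgroup) :=
  (S55.H13.fixedField_of_le L L.fixingSubgroup le_rfl).2.2

theorem smul_coset_eq [Normal ℚ L] (s : GQ) (hs : s ∈ L.fixingSubgroup)
    (x : GQ ⧸ L.fixingSubgroup) : s • x = x := by
  have hn := fixingSubgroup_normal L
  induction x using QuotientGroup.induction_on with
  | H g =>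
    show ((s * g : GQ) : GQ ⧸ L.fixingSubgroup) = (g : GQ ⧸ L.fixingSubgroup)
    rw [QuotientGroup.eq]
    have h1 : (s * g)⁻¹ * g = g⁻¹ * s⁻¹ * g := by group
    rw [h1]
    have := hn.conj_mem s⁻¹ (inv_mem hs) g⁻¹
    rwa [inv_inv] at this

theorem ofMulAction_eq_self [Normal ℚ L] (s : GQ) (hs : s ∈ L.fixingSubgroup)
    (v : MonoidAlgebra (ZMod p) (GQ ⧸ L.fixingSubgroup)) :
    (Representation.ofMulAction (ZMod p) GQ (GQ ⧸ L.fixingSubgroup)) s v = v := by
  induction v using MonoidAlgebra.induction_linear with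
  | zero => rw [map_zero]
  | add f g hf hg => rw [map_add, hf, hg]
  | single x a =>
    rw [Representation.ofMulAction_single, smul_coset_eq L s hs]

/-- The permutation module is trivial on `G_L`. -/
theorem permRep_ρ_eq_one [Normal ℚ L] (s : GQ) (hs : s ∈ L.fixingSubgroup) :
    (S55.permRep (ZMod p) L).ρ s = 1 :=
  LinearMap.ext fun v => ofMulAction_eq_self p L s hs v

/-- All `p`-th roots of unity lie in a field containing a primitive one. -/
theorem root_mem_of_primitive {ζ : AlgebraicClosure ℚ} (hζ : IsPrimitiveRoot ζ p) (hζL : ζ ∈ L)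
    (t : AlgebraicClosure ℚ) (ht : t ^ p = 1) : t ∈ L := by
  haveI : NeZero p := ⟨(Fact.out : p.Prime).ne_zero⟩
  obtain ⟨i, -, rfl⟩ := hζ.eq_pow_of_pow_eq_one ht
  exact pow_mem hζL i

/-- `P'` is trivial on `G_L`. -/
theorem pd_ρ_eq_one [Normal ℚ L] (hL : ∃ ζ : AlgebraicClosure ℚ, ζ ∈ L ∧ IsPrimitiveRoot ζ p)
    (s : GQ) (hs : s ∈ L.fixingSubgroup) : (PD p L).ρ s = 1 := by
  obtain ⟨ζ, hζL, hζ⟩ := hL
  refine H47.tateDual_ρ_eq_one p _ s (permRep_ρ_eq_one p L s hs) ?_
  refine H47.cycloK_eq_one_of_fix p _ s fun t ht => ?_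
  exact (IntermediateField.mem_fixingSubgroup_iff L s).1 hs t (root_mem_of_primitive p L hζ hζL t ht)

theorem pd_smooth [Normal ℚ L] [FiniteDimensional ℚ L]
    (hL : ∃ ζ : AlgebraicClosure ℚ, ζ ∈ L ∧ IsPrimitiveRoot ζ p) : IsSmoothRep (PD p L) :=
  fun m => ⟨L, inferInstance, fun s hs => by rw [pd_ρ_eq_one p L hL s hs]; rfl⟩

theorem pd_unram [Normal ℚ L] {T : Finset Nat.Primes} (hT : L.IsUnramifiedOutside T)
    (hL : ∃ ζ : AlgebraicClosure ℚ, ζ ∈ L ∧ IsPrimitiveRoot ζ p) (q : Nat.Primes) (hq : q ∉ T) :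
    IsUnramifiedRepAt (PD p L) (q : ℕ) :=
  fun A hA g hg => pd_ρ_eq_one p L hL g (hT.2 q hq A hA hg)

theorem permRep_finiteDimensional [FiniteDimensional ℚ L] :
    FiniteDimensional (ZMod p) (S55.permRep (ZMod p) L) := by
  haveI := finite_quot_fixing L
  exact Module.Finite.of_basis (MonoidAlgebra.basis (GQ ⧸ L.fixingSubgroup) (ZMod p))

theorem pd_finiteDimensional [FiniteDimensional ℚ L] : FiniteDimensional (ZMod p) (PD p L) := by
  haveI := permRep_finiteDimensional p L
  show FiniteDimensional (ZMod p) (Module.Dual (ZMod p) (S55.permRep (ZMod p) L))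
  infer_instance

end base

/-! ### Vanishing of `H¹(Gal(L/ℚ), P')` -/

section shapiro

variable (p : ℕ) [Fact p.Prime] (L : IntermediateField ℚ (AlgebraicClosure ℚ))

/-- The value of a functional in `P'` on a basis vector. -/
def evalAt (f : PD p L) (x : GQ ⧸ L.fixingSubgroup) : ZMod p :=
  (show Module.Dual (ZMod p) (MonoidAlgebra (ZMod p) (GQ ⧸ L.fixingSubgroup)) from f)
    (MonoidAlgebra.single x 1)

theorem evalAt_add (f g : PD p L) (x : GQ ⧸ L.fixingSubgroup) :
    evalAt p L (f + g) x = evalAt p L f x + evalAt p L g x := rfl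

theorem evalAt_sub (f g : PD p L) (x : GQ ⧸ L.fixingSubgroup) :
    evalAt p L (f - g) x = evalAt p L f x - evalAt p L g x := rfl

theorem evalAt_ext (f g : PD p L) (h : ∀ x, evalAt p L f x = evalAt p L g x) : f = g := by
  refine (MonoidAlgebra.basis (GQ ⧸ L.fixingSubgroup) (ZMod p)).ext fun x => ?_
  rw [MonoidAlgebra.basis_apply]
  exact h x

theorem evalAt_ρ (g : GQ) (f : PD p L) (x : GQ ⧸ L.fixingSubgroup) :
    evalAt p L ((PD p L).ρ g f) x = (cycloK p (ZMod p) g : ZMod p) * evalAt p L f (g⁻¹ • x) := by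
  show (cycloK p (ZMod p) g : ZMod p) •
    (show Module.Dual (ZMod p) (MonoidAlgebra (ZMod p) (GQ ⧸ L.fixingSubgroup)) from f)
      ((Representation.ofMulAction (ZMod p) GQ (GQ ⧸ L.fixingSubgroup)) g⁻¹
        (MonoidAlgebra.single x 1)) = _
  rw [Representation.ofMulAction_single, smul_eq_mul]
  rfl

/-- The primitive of a cocycle vanishing on `G_L`. -/
def primitive (c : cocycles₁ (PD p L)) : PD p L :=
  show Module.Dual (ZMod p) (MonoidAlgebra (ZMod p) (GQ ⧸ L.fixingSubgroup)) from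
    (MonoidAlgebra.basis (GQ ⧸ L.fixingSubgroup) (ZMod p)).constr (ZMod p)
      (fun x => - evalAt p L (c (Quotient.out x)) x)

theorem evalAt_primitive (c : cocycles₁ (PD p L)) (x : GQ ⧸ L.fixingSubgroup) :
    evalAt p L (primitive p L c) x = - evalAt p L (c (Quotient.out x)) x := by
  unfold evalAt primitive
  rw [← MonoidAlgebra.basis_apply (k := ZMod p) x]
  exact Basis.constr_basis _ _ _ x

/-- A cocycle vanishing on `G_L` is constant on the cosets of `G_L`. -/
theorem cocycle_coset [Normal ℚ L]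
    (c : cocycles₁ (PD p L)) (hc : ∀ s ∈ L.fixingSubgroup, c s = 0) (g h : GQ)
    (hgh : (g : GQ ⧸ L.fixingSubgroup) = (h : GQ ⧸ L.fixingSubgroup)) : c g = c h := by
  have hs : g⁻¹ * h ∈ L.fixingSubgroup := QuotientGroup.eq.1 hgh
  have h1 : h = g * (g⁻¹ * h) := by group
  rw [h1, H13.cocycle_mul, hc _ hs, map_zero, zero_add]

/-- **Shapiro vanishing**: a cocycle of `P'` vanishing on `G_L` is a coboundary. -/
theorem coboundary_of_vanish [Normal ℚ L]
    (c : cocycles₁ (PD p L)) (hc : ∀ s ∈ L.fixingSubgroup, c s = 0) :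
    ∃ m : PD p L, ∀ g : GQ, c g = (PD p L).ρ g m - m := by
  refine ⟨primitive p L c, fun g => evalAt_ext p L _ _ fun x => ?_⟩
  rw [evalAt_sub, evalAt_ρ, evalAt_primitive, evalAt_primitive]
  set y : GQ ⧸ L.fixingSubgroup := g⁻¹ • x with hy
  have hxy : ((g * Quotient.out y : GQ) : GQ ⧸ L.fixingSubgroup)
      = ((Quotient.out x : GQ) : GQ ⧸ L.fixingSubgroup) := by
    have h1 : ((g * Quotient.out y : GQ) : GQ ⧸ L.fixingSubgroup)
        = g • ((Quotient.out y : GQ) : GQ ⧸ L.fixingSubgroup) := rfl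
    rw [h1, QuotientGroup.out_eq', QuotientGroup.out_eq', hy, smul_inv_smul]
  have h2 : c (Quotient.out x) = (PD p L).ρ g (c (Quotient.out y)) + c g := by
    rw [← cocycle_coset p L c hc _ _ hxy, H13.cocycle_mul]
  rw [h2, evalAt_add, evalAt_ρ, ← hy]
  ring

end shapiro

end Fermat.Agent.S56.EC.H54

end
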