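/-
S56 / GW-CORE, package EC, leaf GOOD (helper54): `stmt_GOOD : Stmt_GOOD`.

Every Galois level `L` for `(p, S)` is part of a good pair `(L, S')`, `S ⊆ S'`:
`Cl_{S'}(L) = 1` as soon as `S' ⊇ clSet L` (helper56), and `Ш¹_{S'}(P') = 0` after adding
finitely many primes: `Ш¹_T(P')` is finite-dimensional (helper92), antitone in `T` (helper13's
leaf UNR), and a nonzero class is not locally trivial at a suitable prime `ℓ ∉ T`
(Shapiro vanishing `coboundary_of_vanish` + Frobenius density `stmt_FD2` + helper13's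
`loc_coboundary_of_pow`).
-/
import Fermat.Agent.S56.EC.H54_GoodBase
import Fermat.Agent.S56.TWS.H13_Loc
import Fermat.Agent.Lib.FrobDensity.H47_Bridge2
import Fermat.Agent.S56.GW.H92_FinGlobFinal
import Fermat.Agent.S55.CFT.H56_Admissible

set_option autoImplicit false
set_option linter.unusedSectionVars false
set_option linter.style.haveILetI false
set_option linter.unusedVariables false

noncomputable section

namespace Fermat.Agent.S56.EC.H54

open CategoryTheory groupCohomology ExtCitation Module Fermat.Agent.S56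

/-! ### `sha₁` unpacked -/

theorem mem_sha_iff {k : Type} [Field k] (T : Finset Nat.Primes) (A : Rep.{0} k GQ) (x : H1 A) :
    x ∈ sha₁ T A ↔
      x ∈ continuousH1S T A ∧ resInf A x = 0 ∧ ∀ q ∈ T, resAt A q x = 0 := by
  unfold sha₁
  rw [Submodule.mem_inf, LinearMap.mem_ker]
  constructor
  · rintro ⟨h1, h2⟩
    refine ⟨h1, ?_, fun q hq => ?_⟩
    · exact congrFun h2 (Sum.inl ())
    · exact congrFun h2 (Sum.inr ⟨q, hq⟩)
  · rintro ⟨h1, h2, h3⟩
    refine ⟨h1, funext fun v => ?_⟩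
    rcases v with u | q
    · exact h2
    · exact h3 q.1 q.2

section good

variable (p : ℕ) [Fact p.Prime] (L : IntermediateField ℚ (AlgebraicClosure ℚ))
  [Normal ℚ L] [FiniteDimensional ℚ L]

/-- `Ш¹_T(P')` is antitone in `T ⊇ S`. -/
theorem sha_antitone {S : Finset Nat.Primes} (hL : IsGalLevel p S L) {T T' : Finset Nat.Primes}
    (hST : S ⊆ T) (hTT' : T ⊆ T') : sha₁ T' (PD p L) ≤ sha₁ T (PD p L) := by
  haveI := pd_finiteDimensional p L
  intro x hx
  obtain ⟨h1, h2, h3⟩ := (mem_sha_iff T' _ x).1 hx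
  refine (mem_sha_iff T _ x).2 ⟨?_, h2, fun q hq => h3 q (hTT' hq)⟩
  exact H13.stmt_unr_of_res_zero (ZMod p) (PD p L) (pd_smooth p L hL.2) T T' hTT'
    (fun q _ hq => pd_unram p L (hL.1.mono hST) hL.2 q hq) x h1 (fun q hq _ => h3 q hq)

/-- A nonzero level-`T` class of `P'` is not locally trivial at some prime outside `T`. -/
theorem exists_prime_res_ne_zero {S : Finset Nat.Primes} (hL : IsGalLevel p S L)
    (T : Finset Nat.Primes) (x : H1 (PD p L)) (hx : x ∈ continuousH1S T (PD p L)) (hx0 : x ≠ 0) :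
    ∃ ℓ : Nat.Primes, ℓ ∉ T ∧ resAt (PD p L) ℓ x ≠ 0 := by
  obtain ⟨c, ⟨F, hF, hFc⟩, rfl⟩ := (mem_continuousH1S_iff T _ x).1 hx
  haveI : FiniteDimensional ℚ F := hF.1
  -- the cocycle does not vanish on `G_L`
  have hσ : ∃ σ ∈ L.fixingSubgroup, c σ ≠ 0 := by
    by_contra hcon
    have hcon' : ∀ s ∈ L.fixingSubgroup, c s = 0 := fun s hs => by
      by_contra h
      exact hcon ⟨s, hs, h⟩
    obtain ⟨m, hm⟩ := coboundary_of_vanish p L c hcon'
    apply hx0
    rw [H1π_eq_zero_iff]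
    exact ⟨m, funext fun g => (hm g).symm⟩
  obtain ⟨σ, hσL, hσ0⟩ := hσ
  have hF'fin : FiniteDimensional ℚ (F ⊔ L : IntermediateField ℚ (AlgebraicClosure ℚ)) :=
    inferInstance
  have hM : ∀ s ∈ (F ⊔ L).fixingSubgroup, (PD p L).ρ s = 1 := fun s hs =>
    pd_ρ_eq_one p L hL.2 s (IntermediateField.fixingSubgroup_antitone le_sup_right hs)
  have hc : ∀ g s : GQ, s ∈ (F ⊔ L).fixingSubgroup → c (g * s) = c g := fun g s hs =>
    hFc g s (IntermediateField.fixingSubgroup_antitone le_sup_left hs)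
  obtain ⟨ℓ, A, φ, j, j', hℓ, hℓT, hA, hφ, h1, h2⟩ :=
    Fermat.Agent.Lib.FrobDensity.H47.stmt_FD2 (T.image fun q : Nat.Primes => (q : ℕ))
      (F ⊔ L) hF'fin σ
  refine ⟨⟨ℓ, hℓ⟩, fun h => hℓT (Finset.mem_image.2 ⟨_, h, rfl⟩), fun h0 => ?_⟩
  obtain ⟨m, hm⟩ := TWS.H13.loc_coboundary_of_pow (PD p L) (F ⊔ L) hM c hc ⟨ℓ, hℓ⟩ A hA φ
    hφ.mem_decompositionSubgroup h0 σ j h1
  apply hσ0
  rw [hm, pd_ρ_eq_one p L hL.2 σ hσL]
  exact sub_self m

/-- Enlarging `T`, `Ш¹_T(P')` becomes zero. -/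
theorem exists_sha_eq_bot {S : Finset Nat.Primes} (hL : IsGalLevel p S L) :
    ∀ (n : ℕ) (T : Finset Nat.Primes), S ⊆ T → finrank (ZMod p) (sha₁ T (PD p L)) ≤ n →
      ∃ T' : Finset Nat.Primes, T ⊆ T' ∧ sha₁ T' (PD p L) = ⊥ := by
  haveI := pd_finiteDimensional p L
  have hfin : ∀ T : Finset Nat.Primes, Module.Finite (ZMod p) (continuousH1S T (PD p L)) :=
    fun T => H92.stmt_fin_glob (ZMod p) (PD p L) (pd_smooth p L hL.2) T
  have hfinsha : ∀ T : Finset Nat.Primes, Module.Finite (ZMod p) (sha₁ T (PD p L)) := by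
    intro T
    haveI := hfin T
    exact Submodule.finiteDimensional_of_le (inf_le_left : sha₁ T (PD p L) ≤ continuousH1S T _)
  intro n
  induction n with
  | zero =>
    intro T hST hn
    haveI := hfinsha T
    exact ⟨T, le_rfl, Submodule.finrank_eq_zero.1 (Nat.le_zero.1 hn)⟩
  | succ n ih =>
    intro T hST hn
    by_cases hbot : sha₁ T (PD p L) = ⊥
    · exact ⟨T, le_rfl, hbot⟩
    obtain ⟨x, hx, hx0⟩ := (Submodule.ne_bot_iff _).1 hbot
    obtain ⟨ℓ, hℓT, hℓ⟩ := exists_prime_res_ne_zero p L hL T x ((mem_sha_iff T _ x).1 hx).1 hx0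
    have hTT' : T ⊆ insert ℓ T := Finset.subset_insert ℓ T
    have hle : sha₁ (insert ℓ T) (PD p L) ≤ sha₁ T (PD p L) := sha_antitone p L hL hST hTT'
    have hlt : sha₁ (insert ℓ T) (PD p L) < sha₁ T (PD p L) := by
      refine lt_of_le_of_ne hle fun heq => ?_
      rw [← heq] at hx
      exact hℓ (((mem_sha_iff _ _ x).1 hx).2.2 ℓ (Finset.mem_insert_self ℓ T))
    haveI := hfinsha T
    have hrk := Submodule.finrank_lt_finrank_of_lt hlt
    obtain ⟨T', hT', hsha⟩ := ih (insert ℓ T) (hST.trans hTT') (by omega)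
    exact ⟨T', hTT'.trans hT', hsha⟩

end good

/-- **Package GOOD.** -/
theorem stmt_GOOD : Stmt_GOOD := by
  intro p _ hp2 S hpS L _ _ hL
  haveI hNF : NumberField ↥L := { }
  obtain ⟨T', hT', hsha⟩ := exists_sha_eq_bot p L hL
    (finrank (ZMod p) (sha₁ (S ∪ S55.CFT.H56.clSet ↥L) (PD p L)))
    (S ∪ S55.CFT.H56.clSet ↥L) Finset.subset_union_left le_rfl
  refine ⟨T', Finset.subset_union_left.trans hT', ⟨hL.1.mono (Finset.subset_union_left.trans hT'),
    hL.2⟩, ?_, hsha⟩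
  intro hNF'
  exact S55.CFT.H56.clTrivial_of_clSet_subset ↥L T' (Finset.subset_union_right.trans hT')

end Fermat.Agent.S56.EC.H54

end
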