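/-
S56 / GW-CORE, package EC, Kummer-Dirichlet leaf LOC0 (helper54): `stmt_LOC0 : Stmt_LOC0`.

The `H⁰`-terms of `gwDefect` for `N = infl L ρ` are the invariants of the decomposition groups
in the Tate dual over `Gal(L/ℚ)`: the submodules are equal.
-/
import Fermat.Agent.S56.EC.Defs_KD

set_option autoImplicit false
set_option linter.unusedSectionVars false
set_option linter.style.haveILetI false
set_option linter.unusedVariables false

noncomputable section

namespace Fermat.Agent.S56.EC.H54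

open CategoryTheory groupCohomology ExtCitation Module Fermat.Agent.S56

section loc0

variable (p : ℕ) [Fact p.Prime] {S : Finset Nat.Primes}
  (L : IntermediateField ℚ (AlgebraicClosure ℚ)) [Normal ℚ L]
  {V : Type} [AddCommGroup V] [Module (ZMod p) V] (ρ : Representation (ZMod p) (GalL L) V)

theorem cycloK_zmod54 (g : GQ) : ((cycloK p (ZMod p) g : (ZMod p)ˣ) : ZMod p)
    = ((cycloChar p g : (ZMod p)ˣ) : ZMod p) := by
  unfold cycloK
  rw [MonoidHom.comp_apply, Units.coe_map]
  show (ZMod.castHom (dvd_refl p) (ZMod p)) _ = _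
  rw [ZMod.castHom_self]
  rfl

/-- The Tate dual of an inflated representation acts through `dualTwistOp`. -/
theorem tateDual_infl_apply (hL : IsGalLevel p S L) (g : GQ) (φ : Module.Dual (ZMod p) V) :
    (tateDual p (infl L ρ)).ρ g φ = dualTwistOp p L ρ (resL L g) φ := by
  show ((cycloK p (ZMod p) g : (ZMod p)ˣ) : ZMod p) • (φ ∘ₗ ρ (resL L g⁻¹)) =
    ((omegaL p L (resL L g) : (ZMod p)ˣ) : ZMod p) • (φ ∘ₗ ρ (resL L g)⁻¹)
  rw [omegaL_resL hL, cycloK_zmod54, map_inv]

theorem mem_fixedSub {X : Type} [AddCommGroup X] [Module (ZMod p) X] {Γ : Type} (D : Set Γ)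
    (T : Γ → X →ₗ[ZMod p] X) (x : X) : x ∈ fixedSub p D T ↔ ∀ b ∈ D, T b x = x := Iff.rfl

/-- Invariants of a restriction of the Tate dual. -/
def invResEquiv (hL : IsGalLevel p S L) {H : Type} [Group H] (f : H →* GQ) :
    ↥((Rep.res f (tateDual p (infl L ρ))).ρ.invariants) ≃ₗ[ZMod p]
      ↥(fixedSub p ((f.range.map (resL L) : Subgroup (GalL L)) : Set (GalL L))
        (dualTwistOp p L ρ)) where
  toFun x := ⟨(x : Rep.res f (tateDual p (infl L ρ))), by
    rintro b ⟨g, ⟨t, rfl⟩, rfl⟩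
    exact (tateDual_infl_apply p L ρ hL (f t) _).symm.trans (x.2 t)⟩
  invFun y := ⟨(y : Module.Dual (ZMod p) V), by
    intro t
    exact (tateDual_infl_apply p L ρ hL (f t) _).trans
      (y.2 (resL L (f t)) ⟨f t, ⟨t, rfl⟩, rfl⟩)⟩
  map_add' _ _ := rfl
  map_smul' _ _ := rfl
  left_inv _ := rfl
  right_inv _ := rfl

/-- Invariants of the Tate dual. -/
def invEquiv (hL : IsGalLevel p S L) :
    ↥((tateDual p (infl L ρ)).ρ.invariants) ≃ₗ[ZMod p]
      ↥(fixedSub p (Set.univ : Set (GalL L)) (dualTwistOp p L ρ)) where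
  toFun x := ⟨(x : tateDual p (infl L ρ)), by
    intro b _
    obtain ⟨g, rfl⟩ := resL_surjective L b
    exact (tateDual_infl_apply p L ρ hL g _).symm.trans (x.2 g)⟩
  invFun y := ⟨(y : Module.Dual (ZMod p) V), by
    intro g
    exact (tateDual_infl_apply p L ρ hL g _).trans (y.2 (resL L g) (Set.mem_univ _))⟩
  map_add' _ _ := rfl
  map_smul' _ _ := rfl
  left_inv _ := rfl
  right_inv _ := rfl

/-- Invariants of the inflation. -/
def invInflEquiv :
    ↥((infl L ρ).ρ.invariants) ≃ₗ[ZMod p]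
      ↥(fixedSub p (Set.univ : Set (GalL L)) (fun b => ρ b)) where
  toFun x := ⟨(x : infl L ρ), by
    intro b _
    obtain ⟨g, rfl⟩ := resL_surjective L b
    exact x.2 g⟩
  invFun y := ⟨(y : V), by
    intro g
    exact y.2 (resL L g) (Set.mem_univ _)⟩
  map_add' _ _ := rfl
  map_smul' _ _ := rfl
  left_inv _ := rfl
  right_inv _ := rfl

end loc0

/-- **Package LOC0.** -/
theorem stmt_LOC0 : Stmt_LOC0 := by
  intro p _ S hpS L _ _ hL V _ _ _ ρ
  refine ⟨fun q => ?_, ?_, ?_, ?_⟩
  · exact (invResEquiv p L ρ hL (primeLocalToGlobal q)).finrank_eq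
  · exact (invResEquiv p L ρ hL archimedeanLoc).finrank_eq
  · exact (invEquiv p L ρ hL).finrank_eq
  · exact (invInflEquiv p L ρ).finrank_eq

end Fermat.Agent.S56.EC.H54

end
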