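import Fermat.Agent.S56.EC.H92_Snake
import Fermat.Agent.S55.Coh.Level
import Fermat.Agent.S55.H48_NC

set_option autoImplicit false
set_option linter.style.haveILetI false

/-!
# The long exact sequence of level-`S` cohomology in degrees `0..2`

For a short exact sequence `0 → A → B → C → 0` of representations of level `S`, the level-`S`
cochain complexes `N → C¹_S(N) → C²_S(N) → C³(N)` form a degreewise short exact sequence
(`nineHyp`), so that `H92_Snake.lean` applies.  The cohomology of these complexes is identified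
with the prelude's objects: `N.ρ.invariants`, `continuousH1S S N`, `continuousH2S S N`.

Main results (namespace `Fermat.Agent.S56.H92.LES`):
* `count` : the dimension count of the nine-term exact sequence;
* `superadd` : `h⁰(B) + h¹(A) + h¹(C) + h²(B) ≤ h⁰(A) + h⁰(C) + h¹(B) + h²(A) + h²(C)`;
* `finite_H2` : `H²_S(B)` is finite-dimensional if `H²_S(A)` and `H²_S(C)` are.
-/

noncomputable section

namespace Fermat.Agent.S56.H92.LES

open CategoryTheory groupCohomology Fermat.Agent.S55 Fermat.Agent.S56.H92.Snake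

variable {k : Type} [Field k] (S : Finset Nat.Primes)

theorem nc : NC S := fun F hF => H48.exists_normal_level S F hF

section complex

variable (N : Rep.{0} k GQ)

/-- `d⁰ : N → C¹_S(N)`. -/
def d0 (hN : Lev S N) : N →ₗ[k] ↥(levelCochainsS₁ S N) :=
  LinearMap.codRestrict (levelCochainsS₁ S N) (d₀₁ N).hom
    (fun m => isLevelConstantS₁_dZero N hN m)

/-- `d¹ : C¹_S(N) → C²_S(N)`. -/
def d1 (hN : Lev S N) : ↥(levelCochainsS₁ S N) →ₗ[k] ↥(levelCochainsS₂ S N) :=
  LinearMap.restrict (d₁₂ N).hom (fun _ hf => isLevelConstantS₂_dOne N (nc S) hN hf)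

/-- `d² : C²_S(N) → C³(N)`. -/
def d2 : ↥(levelCochainsS₂ S N) →ₗ[k] (GQ × GQ × GQ → N) :=
  (d₂₃ N).hom ∘ₗ (levelCochainsS₂ S N).subtype

theorem d0_coe (hN : Lev S N) (m : N) : ((d0 S N hN m : ↥(levelCochainsS₁ S N)) : GQ → N) =
    dZero N m := rfl

theorem d1_coe (hN : Lev S N) (f : ↥(levelCochainsS₁ S N)) :
    ((d1 S N hN f : ↥(levelCochainsS₂ S N)) : GQ × GQ → N) = dOne N (f : GQ → N) := rfl

theorem d2_apply (f : ↥(levelCochainsS₂ S N)) : d2 S N f = dTwo N (f : GQ × GQ → N) := rfl

end complex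

section maps

variable {A B : Rep.{0} k GQ} (u : A ⟶ B)

/-- The map induced on `C¹_S`. -/
def c1 : ↥(levelCochainsS₁ S A) →ₗ[k] ↥(levelCochainsS₁ S B) :=
  LinearMap.restrict (u.hom.toLinearMap.compLeft GQ) (fun _ hf => hf.comp _)

/-- The map induced on `C²_S`. -/
def c2 : ↥(levelCochainsS₂ S A) →ₗ[k] ↥(levelCochainsS₂ S B) :=
  LinearMap.restrict (u.hom.toLinearMap.compLeft (GQ × GQ)) (fun _ hf => hf.comp _)

/-- The map induced on `C³`. -/
def c3 : (GQ × GQ × GQ → A) →ₗ[k] (GQ × GQ × GQ → B) :=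
  u.hom.toLinearMap.compLeft (GQ × GQ × GQ)

theorem c1_coe (f : ↥(levelCochainsS₁ S A)) (g : GQ) :
    ((c1 S u f : ↥(levelCochainsS₁ S B)) : GQ → B) g = u.hom ((f : GQ → A) g) := rfl

theorem c2_coe (f : ↥(levelCochainsS₂ S A)) (x : GQ × GQ) :
    ((c2 S u f : ↥(levelCochainsS₂ S B)) : GQ × GQ → B) x = u.hom ((f : GQ × GQ → A) x) := rfl

theorem c3_apply (f : GQ × GQ × GQ → A) (x : GQ × GQ × GQ) : c3 u f x = u.hom (f x) := rfl

end maps

section nine

variable {A B C : Rep.{0} k GQ} (i : A ⟶ B) (π : B ⟶ C)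

/-- The level-`S` cochain complexes of a short exact sequence of level-`S` representations form
a degreewise short exact sequence. -/
theorem nineHyp (hi : Function.Injective i.hom) (hπ : Function.Surjective π.hom)
    (hex : ∀ b : B, π.hom b = 0 ↔ ∃ a : A, i.hom a = b)
    (hA : Lev S A) (hB : Lev S B) (hC : Lev S C) :
    NineHyp (d0 S A hA) (d1 S A hA) (d2 S A) (d0 S B hB) (d1 S B hB) (d2 S B)
      (d0 S C hC) (d1 S C hC) (d2 S C)
      i.hom.toLinearMap (c1 S i) (c2 S i) (c3 i)
      π.hom.toLinearMap (c1 S π) (c2 S π) (c3 π) where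
  d1B_d0B := fun x => Subtype.ext (dOne_dZero B x)
  d2B_d1B := fun x => dTwo_dOne B (x : GQ → B)
  i1_d0A := fun x => Subtype.ext (dZero_comp i x).symm
  i2_d1A := fun x => Subtype.ext (dOne_comp i (x : GQ → A)).symm
  i3_d2A := fun x => (dTwo_comp i (x : GQ × GQ → A)).symm
  p1_d0B := fun x => Subtype.ext (dZero_comp π x).symm
  p2_d1B := fun x => Subtype.ext (dOne_comp π (x : GQ → B)).symm
  p3_d2B := fun x => (dTwo_comp π (x : GQ × GQ → B)).symm
  i0_inj := hi
  ex0 := hex
  p0_surj := hπ
  i1_inj := fun f f' hff => by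
    apply Subtype.ext
    funext g
    apply hi
    exact congrFun (congrArg Subtype.val hff) g
  ex1 := fun x => by
    constructor
    · intro hx
      have hx' : ∀ g, π.hom ((x : GQ → B) g) = 0 := fun g =>
        congrFun (congrArg Subtype.val hx) g
      refine ⟨⟨Function.invFun i.hom ∘ (x : GQ → B), x.2.comp (Function.invFun i.hom)⟩, ?_⟩
      apply Subtype.ext
      funext g
      obtain ⟨a, ha⟩ := (hex _).1 (hx' g)
      show i.hom (Function.invFun i.hom ((x : GQ → B) g)) = (x : GQ → B) g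
      rw [← ha, Function.leftInverse_invFun hi a]
    · rintro ⟨a, rfl⟩
      apply Subtype.ext
      funext g
      exact (hex _).2 ⟨_, rfl⟩
  p1_surj := fun x => by
    refine ⟨⟨Function.surjInv hπ ∘ (x : GQ → C), x.2.comp (Function.surjInv hπ)⟩, ?_⟩
    apply Subtype.ext
    funext g
    exact Function.surjInv_eq hπ _
  i2_inj := fun f f' hff => by
    apply Subtype.ext
    funext g
    apply hi
    exact congrFun (congrArg Subtype.val hff) g
  ex2 := fun x => by
    constructor
    · intro hx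
      have hx' : ∀ g, π.hom ((x : GQ × GQ → B) g) = 0 := fun g =>
        congrFun (congrArg Subtype.val hx) g
      refine ⟨⟨Function.invFun i.hom ∘ (x : GQ × GQ → B), x.2.comp (Function.invFun i.hom)⟩, ?_⟩
      apply Subtype.ext
      funext g
      obtain ⟨a, ha⟩ := (hex _).1 (hx' g)
      show i.hom (Function.invFun i.hom ((x : GQ × GQ → B) g)) = (x : GQ × GQ → B) g
      rw [← ha, Function.leftInverse_invFun hi a]
    · rintro ⟨a, rfl⟩
      apply Subtype.ext
      funext g
      exact (hex _).2 ⟨_, rfl⟩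
  i3_inj := fun f f' hff => by
    funext g
    apply hi
    exact congrFun hff g

end nine

section ident

variable (N : Rep.{0} k GQ) (hN : Lev S N)

/-- `H⁰` of the level-`S` complex is the space of invariants. -/
theorem ker_d0 : LinearMap.ker (d0 S N hN) = N.ρ.invariants := by
  ext m
  rw [LinearMap.mem_ker, Representation.mem_invariants]
  constructor
  · intro h g
    have h1 : dZero N m g = 0 := congrFun (congrArg Subtype.val h) g
    exact sub_eq_zero.1 h1
  · intro h
    apply Subtype.ext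
    funext g
    show N.ρ g m - m = 0
    rw [h g, sub_self]

theorem finrank_ker_d0 :
    Module.finrank k ↥(LinearMap.ker (d0 S N hN)) = Module.finrank k ↥N.ρ.invariants := by
  rw [ker_d0]

/-- The cocycle underlying an element of `ker d¹`. -/
def toCocycles₁ : ↥(LinearMap.ker (d1 S N hN)) →ₗ[k] ↥(cocycles₁ N) :=
  LinearMap.codRestrict (cocycles₁ N)
    ((levelCochainsS₁ S N).subtype ∘ₗ (LinearMap.ker (d1 S N hN)).subtype)
    (fun z => by
      have hz : d1 S N hN (z : ↥(levelCochainsS₁ S N)) = 0 := z.2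
      have hz' : dOne N ((z : ↥(levelCochainsS₁ S N)) : GQ → N) = 0 :=
        congrArg Subtype.val hz
      exact LinearMap.mem_ker.2 hz')

theorem toCocycles₁_coe (z : ↥(LinearMap.ker (d1 S N hN))) :
    ((toCocycles₁ S N hN z : ↥(cocycles₁ N)) : GQ → N) =
      ((z : ↥(levelCochainsS₁ S N)) : GQ → N) := rfl

/-- The class map `ker d¹ → H¹(G_ℚ, N)`. -/
def classH1 : ↥(LinearMap.ker (d1 S N hN)) →ₗ[k] H1 N :=
  (H1π N).hom ∘ₗ toCocycles₁ S N hN

theorem range_classH1 : LinearMap.range (classH1 S N hN) = continuousH1S S N := by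
  ext x
  rw [LinearMap.mem_range, mem_continuousH1S_iff]
  constructor
  · rintro ⟨z, rfl⟩
    exact ⟨toCocycles₁ S N hN z, (z : ↥(levelCochainsS₁ S N)).2, rfl⟩
  · rintro ⟨c, hc, rfl⟩
    have hz : (⟨(c : GQ → N), hc⟩ : ↥(levelCochainsS₁ S N)) ∈ LinearMap.ker (d1 S N hN) := by
      rw [LinearMap.mem_ker]
      apply Subtype.ext
      exact LinearMap.mem_ker.1 c.2
    exact ⟨⟨⟨(c : GQ → N), hc⟩, hz⟩, rfl⟩

theorem ker_classH1 : LinearMap.ker (classH1 S N hN) =
    (LinearMap.range (d0 S N hN)).comap (LinearMap.ker (d1 S N hN)).subtype := by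
  ext z
  rw [LinearMap.mem_ker, Submodule.mem_comap, LinearMap.mem_range]
  show (H1π N).hom (toCocycles₁ S N hN z) = 0 ↔ _
  rw [H1π_eq_zero_iff]
  constructor
  · rintro ⟨m, hm⟩
    refine ⟨m, Subtype.ext ?_⟩
    exact hm
  · rintro ⟨m, hm⟩
    exact ⟨m, congrArg Subtype.val hm⟩

/-- `H¹` of the level-`S` complex is `continuousH1S`. -/
def equivH1 : Hmid (d0 S N hN) (d1 S N hN) ≃ₗ[k] ↥(continuousH1S S N) :=
  (Submodule.quotEquivOfEq _ _ (ker_classH1 S N hN).symm).trans
    ((classH1 S N hN).quotKerEquivRange.trans (LinearEquiv.ofEq _ _ (range_classH1 S N hN)))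

theorem finrank_H1 : Module.finrank k (Hmid (d0 S N hN) (d1 S N hN)) =
    Module.finrank k ↥(continuousH1S S N) :=
  (equivH1 S N hN).finrank_eq

/-- `ker d²` is the space of level-`S` 2-cocycles. -/
def equivZ2 : ↥(LinearMap.ker (d2 S N)) ≃ₗ[k] ↥(levelCocyclesS₂ S N) where
  toFun z := ⟨((z : ↥(levelCochainsS₂ S N)) : GQ × GQ → N),
    ⟨LinearMap.mem_ker.2 (LinearMap.mem_ker.1 z.2), (z : ↥(levelCochainsS₂ S N)).2⟩⟩
  invFun c := ⟨⟨(c : GQ × GQ → N), c.2.2⟩, LinearMap.mem_ker.2 (LinearMap.mem_ker.1 c.2.1)⟩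
  map_add' _ _ := rfl
  map_smul' _ _ := rfl
  left_inv _ := rfl
  right_inv _ := rfl

theorem map_equivZ2 :
    ((LinearMap.range (d1 S N hN)).comap (LinearMap.ker (d2 S N)).subtype).map
        (equivZ2 S N : ↥(LinearMap.ker (d2 S N)) →ₗ[k] ↥(levelCocyclesS₂ S N)) =
      (levelCoboundariesS₂ S N).comap (levelCocyclesS₂ S N).subtype := by
  ext c
  rw [Submodule.mem_map, Submodule.mem_comap, mem_levelCoboundariesS₂_iff]
  constructor
  · rintro ⟨z, hz, rfl⟩
    rw [Submodule.mem_comap, LinearMap.mem_range] at hz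
    obtain ⟨f, hf⟩ := hz
    exact ⟨(f : GQ → N), f.2, congrArg Subtype.val hf⟩
  · rintro ⟨x, hx, hxc⟩
    refine ⟨(equivZ2 S N).symm c, ?_, (equivZ2 S N).apply_symm_apply c⟩
    rw [Submodule.mem_comap, LinearMap.mem_range]
    exact ⟨⟨x, hx⟩, Subtype.ext hxc⟩

/-- `H²` of the level-`S` complex is `continuousH2S`. -/
def equivH2 : Hmid (d1 S N hN) (d2 S N) ≃ₗ[k] continuousH2S S N :=
  Submodule.Quotient.equiv _ _ (equivZ2 S N) (map_equivZ2 S N hN)

theorem finrank_H2 : Module.finrank k (Hmid (d1 S N hN) (d2 S N)) =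
    Module.finrank k (continuousH2S S N) :=
  (equivH2 S N hN).finrank_eq

end ident

section main

variable {A B C : Rep.{0} k GQ} (i : A ⟶ B) (π : B ⟶ C)
  (hi : Function.Injective i.hom) (hπ : Function.Surjective π.hom)
  (hex : ∀ b : B, π.hom b = 0 ↔ ∃ a : A, i.hom a = b)
  (hA : Lev S A) (hB : Lev S B) (hC : Lev S C)

include hi hπ hex hA hB hC

/-- The map `H²_S(B) → H²_S(C)` of the long exact sequence (on the cochain model). -/
def β2 : Hmid (d1 S B hB) (d2 S B) →ₗ[k] Hmid (d1 S C hC) (d2 S C) :=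
  (nineHyp S i π hi hπ hex hA hB hC).β2

/-- **The dimension count of the long exact sequence** of level-`S` cohomology in degrees
`0..2`. -/
theorem count [Module.Finite k B] [Module.Finite k C]
    [Module.Finite k ↥(continuousH1S S A)] [Module.Finite k ↥(continuousH1S S B)]
    [Module.Finite k ↥(continuousH1S S C)]
    [Module.Finite k (continuousH2S S A)] [Module.Finite k (continuousH2S S B)] :
    Module.finrank k ↥A.ρ.invariants + Module.finrank k ↥C.ρ.invariants +
        Module.finrank k ↥(continuousH1S S B) + Module.finrank k (continuousH2S S A) +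
        Module.finrank k (LinearMap.range (β2 S i π hi hπ hex hA hB hC)) =
      Module.finrank k ↥B.ρ.invariants + Module.finrank k ↥(continuousH1S S A) +
        Module.finrank k ↥(continuousH1S S C) + Module.finrank k (continuousH2S S B) := by
  haveI : Module.Finite k (Hmid (d0 S A hA) (d1 S A hA)) :=
    Module.Finite.equiv (equivH1 S A hA).symm
  haveI : Module.Finite k (Hmid (d0 S B hB) (d1 S B hB)) :=
    Module.Finite.equiv (equivH1 S B hB).symm
  haveI : Module.Finite k (Hmid (d0 S C hC) (d1 S C hC)) :=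
    Module.Finite.equiv (equivH1 S C hC).symm
  haveI : Module.Finite k (Hmid (d1 S A hA) (d2 S A)) :=
    Module.Finite.equiv (equivH2 S A hA).symm
  haveI : Module.Finite k (Hmid (d1 S B hB) (d2 S B)) :=
    Module.Finite.equiv (equivH2 S B hB).symm
  have c := (nineHyp S i π hi hπ hex hA hB hC).count
  have a0 := finrank_ker_d0 S A hA
  have b0 := finrank_ker_d0 S B hB
  have c0 := finrank_ker_d0 S C hC
  have a1 := finrank_H1 S A hA
  have b1 := finrank_H1 S B hB
  have c1 := finrank_H1 S C hC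
  have a2 := finrank_H2 S A hA
  have b2 := finrank_H2 S B hB
  have e : Module.finrank k (LinearMap.range (β2 S i π hi hπ hex hA hB hC)) =
      Module.finrank k (LinearMap.range (nineHyp S i π hi hπ hex hA hB hC).β2) := rfl
  omega

/-- **Superadditivity of `h¹ - h⁰ - h²`** on short exact sequences of level-`S`
representations: no `H³` input is needed. -/
theorem superadd [Module.Finite k B] [Module.Finite k C]
    [Module.Finite k ↥(continuousH1S S A)] [Module.Finite k ↥(continuousH1S S B)]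
    [Module.Finite k ↥(continuousH1S S C)]
    [Module.Finite k (continuousH2S S A)] [Module.Finite k (continuousH2S S B)]
    [Module.Finite k (continuousH2S S C)] :
    Module.finrank k ↥B.ρ.invariants + Module.finrank k ↥(continuousH1S S A) +
        Module.finrank k ↥(continuousH1S S C) + Module.finrank k (continuousH2S S B) ≤
      Module.finrank k ↥A.ρ.invariants + Module.finrank k ↥C.ρ.invariants +
        Module.finrank k ↥(continuousH1S S B) + Module.finrank k (continuousH2S S A) +
        Module.finrank k (continuousH2S S C) := by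
  haveI : Module.Finite k (Hmid (d1 S C hC) (d2 S C)) :=
    Module.Finite.equiv (equivH2 S C hC).symm
  have c := count S i π hi hπ hex hA hB hC
  have hle : Module.finrank k (LinearMap.range (β2 S i π hi hπ hex hA hB hC)) ≤
      Module.finrank k (Hmid (d1 S C hC) (d2 S C)) := Submodule.finrank_le _
  rw [finrank_H2] at hle
  omega

/-- **Additivity** when `H²_S(B) → H²_S(C)` is onto (for instance when `H³_S(A) = 0`, or when
the sequence splits). -/
theorem add_of_surjective [Module.Finite k B] [Module.Finite k C]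
    [Module.Finite k ↥(continuousH1S S A)] [Module.Finite k ↥(continuousH1S S B)]
    [Module.Finite k ↥(continuousH1S S C)]
    [Module.Finite k (continuousH2S S A)] [Module.Finite k (continuousH2S S B)]
    (hs : Function.Surjective (β2 S i π hi hπ hex hA hB hC)) :
    Module.finrank k ↥B.ρ.invariants + Module.finrank k ↥(continuousH1S S A) +
        Module.finrank k ↥(continuousH1S S C) + Module.finrank k (continuousH2S S B) =
      Module.finrank k ↥A.ρ.invariants + Module.finrank k ↥C.ρ.invariants +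
        Module.finrank k ↥(continuousH1S S B) + Module.finrank k (continuousH2S S A) +
        Module.finrank k (continuousH2S S C) := by
  have c := count S i π hi hπ hex hA hB hC
  have hr : Module.finrank k (LinearMap.range (β2 S i π hi hπ hex hA hB hC)) =
      Module.finrank k (Hmid (d1 S C hC) (d2 S C)) := by
    rw [LinearMap.range_eq_top.2 hs, finrank_top]
  rw [finrank_H2] at hr
  omega

/-- `β2` is onto as soon as every level-`S` 2-cocycle of `C` lifts, modulo level-`S`
coboundaries, to a level-`S` 2-cocycle of `B`. -/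
theorem β2_surjective_of_lift
    (hlift : ∀ c : GQ × GQ → C, dTwo C c = 0 → IsLevelConstantS₂ S c →
      ∃ b : GQ × GQ → B, dTwo B b = 0 ∧ IsLevelConstantS₂ S b ∧
        ∃ f : GQ → C, IsLevelConstantS₁ S f ∧ (fun x => π.hom (b x)) = c + dOne C f) :
    Function.Surjective (β2 S i π hi hπ hex hA hB hC) := by
  intro y
  obtain ⟨z, rfl⟩ := Hmid.mk_surjective (d1 S C hC) (d2 S C) y
  obtain ⟨b, hb0, hbl, f, hfl, hbf⟩ :=
    hlift ((z : ↥(levelCochainsS₂ S C)) : GQ × GQ → C) (LinearMap.mem_ker.1 z.2)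
      (z : ↥(levelCochainsS₂ S C)).2
  have hbz : (⟨b, hbl⟩ : ↥(levelCochainsS₂ S B)) ∈ LinearMap.ker (d2 S B) :=
    LinearMap.mem_ker.2 hb0
  refine ⟨Hmid.mk (d1 S B hB) (d2 S B) ⟨⟨b, hbl⟩, hbz⟩, ?_⟩
  have hpz : c2 S π (⟨b, hbl⟩ : ↥(levelCochainsS₂ S B)) ∈ LinearMap.ker (d2 S C) := by
    rw [LinearMap.mem_ker]
    show dTwo C (fun x => π.hom (b x)) = 0
    rw [dTwo_comp π b, hb0]
    funext x
    exact map_zero _
  have e1 : β2 S i π hi hπ hex hA hB hC (Hmid.mk (d1 S B hB) (d2 S B) ⟨⟨b, hbl⟩, hbz⟩) =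
      Hmid.mk (d1 S C hC) (d2 S C) ⟨c2 S π ⟨b, hbl⟩, hpz⟩ :=
    Hmid.map_mk (c1 S π) (c2 S π) (c3 π) (nineHyp S i π hi hπ hex hA hB hC).six1.pY_dB
      (nineHyp S i π hi hπ hex hA hB hC).six1.pZ_eB _ _ rfl
  rw [e1, Hmid.mk_eq_mk_iff]
  refine ⟨⟨f, hfl⟩, ?_⟩
  apply Subtype.ext
  show dOne C f = (fun x => π.hom (b x)) - ((z : ↥(levelCochainsS₂ S C)) : GQ × GQ → C)
  rw [hbf]
  abel

/-- `H²_S(B)` is finite-dimensional if `H²_S(A)` and `H²_S(C)` are. -/
theorem finite_H2 [Module.Finite k (continuousH2S S A)] [Module.Finite k (continuousH2S S C)] :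
    Module.Finite k (continuousH2S S B) := by
  haveI : Module.Finite k (Hmid (d1 S A hA) (d2 S A)) :=
    Module.Finite.equiv (equivH2 S A hA).symm
  haveI : Module.Finite k (Hmid (d1 S C hC) (d2 S C)) :=
    Module.Finite.equiv (equivH2 S C hC).symm
  haveI := (nineHyp S i π hi hπ hex hA hB hC).finite_H2B
  exact Module.Finite.equiv (equivH2 S B hB)

end main

end Fermat.Agent.S56.H92.LES

end
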