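/-
S56 / GW-CORE, package EC, Kummer-Dirichlet leaf SHAP-ub (helper54): `stmt_SHAPub : Stmt_SHAPub`.

`H¹_S(G_ℚ, 𝔽_p[G]) ↪ Hom_S(G_L, 𝔽_p)`, `[c] ↦ (σ ↦ c σ 1)`.
Injectivity: if `c σ 1 = 0` on `G_L` then `c = 0` on `G_L` (conjugate), and a cocycle of the
regular representation vanishing on `G_L` is a coboundary (explicit primitive).
-/
import Fermat.Agent.S56.EC.Defs_KD
import Fermat.Agent.S56.EC.H92_LES

set_option autoImplicit false
set_option linter.unusedSectionVars false
set_option linter.style.haveILetI false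
set_option linter.unusedVariables false

noncomputable section

namespace Fermat.Agent.S56.EC.H54

open CategoryTheory groupCohomology ExtCitation Module Fermat.Agent.S55
  Fermat.Agent.S56.H92.Snake Fermat.Agent.S56.H92.LES

section shapub

variable (p : ℕ) [Fact p.Prime] (S : Finset Nat.Primes)
  (L : IntermediateField ℚ (AlgebraicClosure ℚ)) [Normal ℚ L]

/-- The regular representation `𝔽_p[Gal(L/ℚ)]`, inflated to `G_ℚ`. -/
abbrev regRep : Rep.{0} (ZMod p) GQ := infl L (IND.permRep (ZMod p) (GalL L) (GalL L))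

/-- Evaluation of an element of the regular representation. -/
def ev (φ : regRep p L) (x : GalL L) : ZMod p := (show GalL L → ZMod p from φ) x

theorem ev_ext (φ ψ : regRep p L) (h : ∀ x, ev p L φ x = ev p L ψ x) : φ = ψ := funext h

theorem ev_add (φ ψ : regRep p L) (x : GalL L) :
    ev p L (φ + ψ) x = ev p L φ x + ev p L ψ x := rfl

theorem ev_sub (φ ψ : regRep p L) (x : GalL L) :
    ev p L (φ - ψ) x = ev p L φ x - ev p L ψ x := rfl

theorem ev_zero (x : GalL L) : ev p L 0 x = 0 := rfl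

theorem ev_ρ (g : GQ) (φ : regRep p L) (x : GalL L) :
    ev p L ((regRep p L).ρ g φ) x = ev p L φ ((resL L g)⁻¹ * x) := rfl

theorem regRep_ρ_of_mem (s : GQ) (hs : s ∈ L.fixingSubgroup) (φ : regRep p L) :
    (regRep p L).ρ s φ = φ := by
  refine ev_ext p L _ _ fun x => ?_
  rw [ev_ρ, resL_eq_one L hs, inv_one, one_mul]

theorem lev_regRep (hL : IsGalLevel p S L) : Lev S (regRep p L) :=
  ⟨L, hL.1, fun s hs m => regRep_ρ_of_mem p L s hs m⟩

theorem coc_mul {c : GQ → regRep p L} (hc : dOne (regRep p L) c = 0) (g h : GQ) :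
    c (g * h) = (regRep p L).ρ g (c h) + c g := by
  have h1 : dOne (regRep p L) c (g, h) = 0 := by rw [hc]; rfl
  have h2 : (regRep p L).ρ g (c h) - c (g * h) + c g = 0 := h1
  have h3 : c (g * h) = (regRep p L).ρ g (c h) - c (g * h) + c g + c (g * h) - 0 := by
    rw [h2]; abel
  rw [h3]
  abel

/-- If `c σ 1 = 0` on `G_L`, then `c = 0` on `G_L`. -/
theorem coc_vanish {c : GQ → regRep p L} (hc : dOne (regRep p L) c = 0)
    (h1 : ∀ σ : GQ, σ ∈ L.fixingSubgroup → ev p L (c σ) 1 = 0)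
    (σ : GQ) (hσ : σ ∈ L.fixingSubgroup) : c σ = 0 := by
  refine ev_ext p L _ _ fun x => ?_
  obtain ⟨g, rfl⟩ := resL_surjective L x
  have hconj : g⁻¹ * σ * g ∈ L.fixingSubgroup := by
    apply mem_fixingSubgroup_of_resL
    rw [map_mul, map_mul, resL_eq_one L hσ, mul_one, map_inv, inv_mul_cancel]
  have e1 : c (σ * g) = (regRep p L).ρ σ (c g) + c σ := coc_mul p L hc σ g
  have e2 : c (σ * g) = (regRep p L).ρ g (c (g⁻¹ * σ * g)) + c g := by
    have : σ * g = g * (g⁻¹ * σ * g) := by group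
    rw [this]
    exact coc_mul p L hc g _
  rw [regRep_ρ_of_mem p L σ hσ] at e1
  have e3 : ev p L ((regRep p L).ρ g (c (g⁻¹ * σ * g))) (resL L g) = 0 := by
    rw [ev_ρ, inv_mul_cancel]
    exact h1 _ hconj
  have e4 := congrArg (fun φ => ev p L φ (resL L g)) (e1.symm.trans e2)
  simp only [ev_add] at e4
  rw [e3, zero_add] at e4
  rw [ev_zero]
  exact add_left_cancel (a := ev p L (c g) (resL L g)) (by rw [e4, add_zero])

/-- A cocycle vanishing on `G_L` is constant on the cosets of `G_L`. -/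
theorem coc_coset {c : GQ → regRep p L} (hc : dOne (regRep p L) c = 0)
    (h0 : ∀ σ : GQ, σ ∈ L.fixingSubgroup → c σ = 0) (g h : GQ) (hgh : resL L g = resL L h) :
    c g = c h := by
  have hs : g⁻¹ * h ∈ L.fixingSubgroup := by
    apply mem_fixingSubgroup_of_resL
    rw [map_mul, map_inv, hgh, inv_mul_cancel]
  have e : h = g * (g⁻¹ * h) := by group
  rw [e, coc_mul p L hc, h0 _ hs, map_zero, zero_add]

/-- The primitive of a cocycle vanishing on `G_L`. -/
def prim (c : GQ → regRep p L) : regRep p L :=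
  show GalL L → ZMod p from
    fun x => - ev p L (c (Function.surjInv (resL_surjective L) x)) x

theorem ev_prim (c : GQ → regRep p L) (x : GalL L) :
    ev p L (prim p L c) x = - ev p L (c (Function.surjInv (resL_surjective L) x)) x := rfl

/-- **Shapiro vanishing** for the regular representation. -/
theorem coc_coboundary {c : GQ → regRep p L} (hc : dOne (regRep p L) c = 0)
    (h0 : ∀ σ : GQ, σ ∈ L.fixingSubgroup → c σ = 0) :
    ∃ m : regRep p L, dZero (regRep p L) m = c := by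
  refine ⟨prim p L c, ?_⟩
  funext g
  refine ev_ext p L _ _ fun x => ?_
  show ev p L ((regRep p L).ρ g (prim p L c) - prim p L c) x = _
  rw [ev_sub, ev_ρ, ev_prim, ev_prim]
  set y : GalL L := (resL L g)⁻¹ * x with hy
  have hxy : resL L (g * Function.surjInv (resL_surjective L) y)
      = resL L (Function.surjInv (resL_surjective L) x) := by
    rw [map_mul, Function.surjInv_eq (resL_surjective L), Function.surjInv_eq (resL_surjective L),
      hy, mul_inv_cancel_left]
  have e1 := coc_coset p L hc h0 _ _ hxy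
  rw [coc_mul p L hc] at e1
  have e2 := congrArg (fun φ => ev p L φ x) e1
  simp only [ev_add, ev_ρ] at e2
  rw [← hy] at e2
  rw [← e2]
  ring

end shapub

/-! ### The map, for a general module trivial on `G_L` with a functional -/

section gen

variable (p : ℕ) [Fact p.Prime] (S : Finset Nat.Primes)
  (L : IntermediateField ℚ (AlgebraicClosure ℚ)) [Normal ℚ L]
  (N : Rep.{0} (ZMod p) GQ) (hN : Lev S N) (e : N →ₗ[ZMod p] ZMod p)
  (htriv : ∀ s : GQ, s ∈ L.fixingSubgroup → ∀ m : N, N.ρ s m = m)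

theorem gen_coc_mul {c : GQ → N} (hc : dOne N c = 0) (g h : GQ) :
    c (g * h) = N.ρ g (c h) + c g := by
  have h1 : dOne N c (g, h) = 0 := by rw [hc]; rfl
  have h2 : N.ρ g (c h) - c (g * h) + c g = 0 := h1
  have h3 : c (g * h) = N.ρ g (c h) - c (g * h) + c g + c (g * h) - 0 := by
    rw [h2]; abel
  rw [h3]
  abel

include htriv in
/-- `ker d¹ → Hom_S(G_L, 𝔽_p)`, `c ↦ (σ ↦ e (c σ))`. -/
theorem shap₀_mem (z : ↥(LinearMap.ker (d1 S N hN))) :
    (fun σ : ↥L.fixingSubgroup => e (((z : ↥(levelCochainsS₁ S N)) : GQ → N) σ))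
      ∈ LevHom p S L (ZMod p) := by
  have hz : dOne N ((z : ↥(levelCochainsS₁ S N)) : GQ → N) = 0 :=
    congrArg Subtype.val (LinearMap.mem_ker.1 z.2)
  refine ⟨fun σ τ => ?_, ?_⟩
  · show e (((z : ↥(levelCochainsS₁ S N)) : GQ → N) ((σ : GQ) * (τ : GQ))) = _
    rw [gen_coc_mul p N hz, map_add, htriv _ σ.2, add_comm]
  · obtain ⟨F, hF, hl⟩ := (z : ↥(levelCochainsS₁ S N)).2
    refine ⟨F, hF, fun g s hs => ?_⟩
    show e (((z : ↥(levelCochainsS₁ S N)) : GQ → N) ((g : GQ) * (s : GQ))) = _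
    rw [hl _ _ hs]

/-- `ker d¹ → Hom_S(G_L, 𝔽_p)`, `c ↦ (σ ↦ e (c σ))`. -/
def shap₀ : ↥(LinearMap.ker (d1 S N hN)) →ₗ[ZMod p] ↥(LevHom p S L (ZMod p)) where
  toFun z := ⟨fun σ => e (((z : ↥(levelCochainsS₁ S N)) : GQ → N) σ),
    shap₀_mem p S L N hN e htriv z⟩
  map_add' z z' := by
    apply Subtype.ext
    funext σ
    show e ((((z + z' : ↥(LinearMap.ker (d1 S N hN))) : ↥(levelCochainsS₁ S N)) : GQ → N) σ) = _
    exact map_add e _ _
  map_smul' a z := by
    apply Subtype.ext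
    funext σ
    show e ((((a • z : ↥(LinearMap.ker (d1 S N hN))) : ↥(levelCochainsS₁ S N)) : GQ → N) σ) = _
    exact map_smul e _ _

theorem shap₀_apply (z : ↥(LinearMap.ker (d1 S N hN))) (σ : ↥L.fixingSubgroup) :
    ((shap₀ p S L N hN e htriv z : ↥(LevHom p S L (ZMod p))) : ↥L.fixingSubgroup → ZMod p) σ
      = e (((z : ↥(levelCochainsS₁ S N)) : GQ → N) σ) := rfl

/-- `H¹_S → Hom_S(G_L, 𝔽_p)` on the cochain model. -/
def shap₁ : Hmid (d0 S N hN) (d1 S N hN) →ₗ[ZMod p] ↥(LevHom p S L (ZMod p)) :=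
  Submodule.liftQ _ (shap₀ p S L N hN e htriv) (fun z hz => by
    rw [Submodule.mem_comap] at hz
    obtain ⟨m, hm⟩ := hz
    rw [LinearMap.mem_ker]
    apply Subtype.ext
    funext σ
    rw [shap₀_apply]
    have h1 : ((z : ↥(levelCochainsS₁ S N)) : GQ → N) = dZero N m :=
      (congrArg Subtype.val hm).symm
    rw [h1]
    show e (N.ρ σ m - m) = 0
    rw [htriv _ σ.2, sub_self, map_zero])

theorem shap₁_injective
    (hvan : ∀ c : GQ → N, dOne N c = 0 → (∀ σ : GQ, σ ∈ L.fixingSubgroup → e (c σ) = 0) →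
      ∃ m : N, dZero N m = c) :
    Function.Injective (shap₁ p S L N hN e htriv) := by
  rw [injective_iff_map_eq_zero]
  intro x hx
  obtain ⟨z, rfl⟩ := Hmid.mk_surjective _ _ x
  have hz : dOne N ((z : ↥(levelCochainsS₁ S N)) : GQ → N) = 0 :=
    congrArg Subtype.val (LinearMap.mem_ker.1 z.2)
  have h1 : ∀ σ : GQ, σ ∈ L.fixingSubgroup →
      e (((z : ↥(levelCochainsS₁ S N)) : GQ → N) σ) = 0 := by
    intro σ hσ
    have := congrFun (congrArg Subtype.val hx) ⟨σ, hσ⟩
    exact this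
  obtain ⟨m, hm⟩ := hvan _ hz h1
  rw [Hmid.mk_eq_zero_iff]
  exact ⟨m, Subtype.ext hm⟩

include hN htriv in
theorem exists_shap
    (hvan : ∀ c : GQ → N, dOne N c = 0 → (∀ σ : GQ, σ ∈ L.fixingSubgroup → e (c σ) = 0) →
      ∃ m : N, dZero N m = c) :
    ∃ f : ↥(continuousH1S S N) →ₗ[ZMod p] ↥(LevHom p S L (ZMod p)), Function.Injective f := by
  refine ⟨(shap₁ p S L N hN e htriv) ∘ₗ ((equivH1 S N hN).symm :
    ↥(continuousH1S S N) →ₗ[ZMod p] _), ?_⟩
  rw [LinearMap.coe_comp]
  exact (shap₁_injective p S L N hN e htriv hvan).comp (equivH1 S N hN).symm.injective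

end gen

/-- Evaluation at `1` as a linear functional. -/
def evOne (p : ℕ) [Fact p.Prime] (L : IntermediateField ℚ (AlgebraicClosure ℚ)) [Normal ℚ L] :
    regRep p L →ₗ[ZMod p] ZMod p where
  toFun φ := ev p L φ 1
  map_add' _ _ := rfl
  map_smul' _ _ := rfl

/-- **Package SHAP-ub.** -/
theorem stmt_SHAPub : Stmt_SHAPub := by
  intro p _ hp2 S hpS L _ _ hL
  exact exists_shap p S L (regRep p L) (lev_regRep p S L hL) (evOne p L)
    (fun s hs m => regRep_ρ_of_mem p L s hs m)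
    (fun c hc h1 => coc_coboundary p L hc (coc_vanish p L hc h1))

end Fermat.Agent.S56.EC.H54

end
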