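import Fermat.Agent.S56.EC.Defs
import Fermat.Agent.S56.GWC.H9_RSDual
import Fermat.Agent.S56.GW.H92_FinGlobFinal
import Fermat.Agent.S55.H48_Lev

/-!
# S56 / GW-CORE / EC, package RSEC (helper9): `Stmt_RSEC : Stmt_ECp → Stmt_EC`

Restriction of scalars `k → 𝔽_p` for Tate's Euler characteristic inequality.  `N` over `k` is
an `𝔽_p[G_ℚ]`-module `N₀ = GWC.H9.M0 p N` on the same type; `H¹_S`, `H²_S`, `H⁰`, `H⁰(ℝ, ·)` have
the same cardinality for `N` and `N₀`, hence `dim_{𝔽_p} = [k : 𝔽_p] · dim_k` for each of them.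
-/

set_option autoImplicit false
set_option linter.unusedSectionVars false
set_option linter.style.haveILetI false

noncomputable section

namespace Fermat.Agent.S56.EC.H9

open CategoryTheory groupCohomology ExtCitation Module
open Fermat.Agent Fermat.Agent.S56.GWC.H9

/-! ### `#H¹_S` as a relative index -/

section H1

variable {k : Type} [Field k] (S : Finset Nat.Primes) (X : Rep.{0} k S55.GQ)

/-- Level-`S` 1-cocycles, as a submodule of functions. -/
def subZ1S : Submodule k (S55.GQ → X) := cocycles₁ X ⊓ levelCochainsS₁ S X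

/-- 1-coboundaries, as a submodule of functions. -/
def subB1 : Submodule k (S55.GQ → X) := LinearMap.range (d₀₁ X).hom

lemma mem_subZ1S {b : S55.GQ → X} :
    b ∈ subZ1S S X ↔ S55.dOne X b = 0 ∧ IsLevelConstantS₁ S b := by
  unfold subZ1S
  rw [Submodule.mem_inf, S55.H48.mem_cocycles₁_iff_dOne]
  rfl

lemma mem_subB1 {b : S55.GQ → X} : b ∈ subB1 X ↔ ∃ m : X, S55.dZero X m = b := Iff.rfl

/-- The class map `Z¹_S → H¹_S`. -/
def classMap : ↥(subZ1S S X) →ₗ[k] ↥(continuousH1S S X) :=
  LinearMap.codRestrict (continuousH1S S X)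
    ((H1π X).hom ∘ₗ Submodule.inclusion (inf_le_left : subZ1S S X ≤ cocycles₁ X))
    (fun b => (mem_continuousH1S_iff S X _).2
      ⟨Submodule.inclusion (inf_le_left : subZ1S S X ≤ cocycles₁ X) b, b.2.2, rfl⟩)

lemma classMap_coe (b : ↥(subZ1S S X)) :
    ((classMap S X b : ↥(continuousH1S S X)) : H1 X) = (H1π X).hom ⟨b.1, b.2.1⟩ := rfl

lemma classMap_surjective : Function.Surjective (classMap S X) := by
  rintro ⟨β, hβ⟩
  obtain ⟨c, hc, rfl⟩ := (mem_continuousH1S_iff S X β).1 hβ
  exact ⟨⟨c.1, c.2, hc⟩, Subtype.ext rfl⟩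

lemma classMap_ker :
    LinearMap.ker (classMap S X) = (subB1 X).comap (subZ1S S X).subtype := by
  ext b
  rw [LinearMap.mem_ker, Submodule.mem_comap, ← Subtype.coe_inj, classMap_coe]
  refine (H1π_eq_zero_iff _).trans ?_
  rfl

/-- `#H¹_S(X) = [Z¹_S : B¹ ∩ Z¹_S]`. -/
theorem card_H1S_eq_relIndex :
    Nat.card (continuousH1S S X) =
      (subB1 X).toAddSubgroup.relIndex (subZ1S S X).toAddSubgroup := by
  have e := LinearMap.quotKerEquivOfSurjective (classMap S X) (classMap_surjective S X)
  rw [← Nat.card_congr e.toEquiv]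
  have h : Nat.card (↥(subZ1S S X) ⧸ LinearMap.ker (classMap S X)) =
      Nat.card (↥(subZ1S S X) ⧸ (subB1 X).comap (subZ1S S X).subtype) := by
    rw [classMap_ker]
  rw [h]
  rfl

end H1

/-! ### Transfer -/

section transfer

variable {k₁ k₂ : Type} [Field k₁] [Field k₂] (S : Finset Nat.Primes)
  {A : Rep.{0} k₁ S55.GQ} {B : Rep.{0} k₂ S55.GQ} (e : A ≃+ B)
  (he : ∀ (g : S55.GQ) (a : A), e (A.ρ g a) = B.ρ g (e a))

include he

/-- `#H¹_S(A) = #H¹_S(B)`. -/
theorem card_H1S_eq : Nat.card (continuousH1S S A) = Nat.card (continuousH1S S B) := by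
  rw [card_H1S_eq_relIndex, card_H1S_eq_relIndex]
  refine (relIndex_eq_of_addEquiv (AddEquiv.piCongrRight fun _ : S55.GQ => e) _ _ _ _ ?_ ?_).symm
  · intro x
    show (fun t => e (x t)) ∈ subB1 B ↔ x ∈ subB1 A
    rw [mem_subB1, mem_subB1]
    constructor
    · rintro ⟨m, hm⟩
      refine ⟨e.symm m, ?_⟩
      funext g
      apply e.injective
      have h2 := congrFun (comp_dZero e he (e.symm m)) g
      rw [AddEquiv.apply_symm_apply] at h2
      rw [h2]
      exact congrFun hm g
    · rintro ⟨m, hm⟩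
      refine ⟨e m, ?_⟩
      rw [← comp_dZero e he, hm]
  · intro x
    show (fun t => e (x t)) ∈ subZ1S S B ↔ x ∈ subZ1S S A
    rw [mem_subZ1S, mem_subZ1S, ← comp_dOne e he, comp_eq_zero_iff, levS₁_comp_iff]

/-- `#H⁰(H, A) = #H⁰(H, B)` for the restriction along any `r : H → G_ℚ`. -/
theorem card_res_invariants_eq {H : Type} [Group H] (r : H →* S55.GQ) :
    Nat.card (Rep.res r A).ρ.invariants = Nat.card (Rep.res r B).ρ.invariants := by
  refine Nat.card_congr (e.toEquiv.subtypeEquiv fun a => ?_)
  rw [Representation.mem_invariants, Representation.mem_invariants]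
  constructor
  · intro h g
    show B.ρ (r g) (e a) = e a
    rw [← he]
    exact congrArg e (h g)
  · intro h g
    apply e.injective
    show e (A.ρ (r g) a) = e a
    rw [he]
    exact h g

end transfer

/-! ### Dimensions over `𝔽_p` and over `k` -/

section dims

variable (p : ℕ) [Fact p.Prime] (k : Type) [Field k] [Finite k] [CharP k p]

/-- `[k : 𝔽_p]`. -/
def deg : ℕ :=
  letI : Algebra (ZMod p) k := ZMod.algebra k p
  finrank (ZMod p) k

lemma card_k : Nat.card k = p ^ deg p k := by
  letI : Algebra (ZMod p) k := ZMod.algebra k p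
  haveI : Module.Finite (ZMod p) k := Module.Finite.of_finite
  have h := Module.natCard_eq_pow_finrank (K := ZMod p) (V := k)
  rw [Nat.card_zmod] at h
  exact h

lemma deg_pos : 0 < deg p k := by
  rcases Nat.eq_zero_or_pos (deg p k) with h | h
  · have h1 := card_k p k
    rw [h, pow_zero] at h1
    have h2 := Finite.one_lt_card (α := k)
    omega
  · exact h

/-- If `V` (over `k`, finite) and `V₀` (over `𝔽_p`) have the same cardinality, then
`dim_{𝔽_p} V₀ = [k : 𝔽_p] · dim_k V`. -/
lemma finrank_eq_deg_mul {V V₀ : Type*} [AddCommGroup V] [Module k V] [Finite V]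
    [AddCommGroup V₀] [Module (ZMod p) V₀] (h : Nat.card V = Nat.card V₀) :
    finrank (ZMod p) V₀ = deg p k * finrank k V := by
  haveI : Finite V₀ := by
    apply Nat.finite_of_card_ne_zero
    rw [← h]
    exact Nat.card_pos.ne'
  haveI : Module.Finite k V := Module.Finite.of_finite
  haveI : Module.Finite (ZMod p) V₀ := Module.Finite.of_finite
  have h1 := Module.natCard_eq_pow_finrank (K := k) (V := V)
  have h2 := Module.natCard_eq_pow_finrank (K := ZMod p) (V := V₀)
  rw [Nat.card_zmod] at h2
  rw [card_k p k, ← pow_mul, h, h2] at h1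
  exact Nat.pow_right_injective (Fact.out : p.Prime).two_le h1

end dims

/-- **Package RSEC.** -/
theorem stmt_RSEC : Stmt_RSEC := by
  intro hECp p _ hp2 k _ _ _ N _ hsm Sg hpS hur hH2
  haveI := finiteDimensional_M0 p N
  haveI hNfin : Finite N := finite_M N
  have hHyp : S55.Hyp p Sg (M0 p N) :=
    { hp2 := hp2
      hpS := hpS
      fin := inferInstance
      hsm := fun m => hsm m
      hMur := fun q hq A hA g hg => by
        apply LinearMap.ext
        intro m
        exact congrArg (fun f : Module.End k N => f m) (hur q hq A hA g hg) }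
  have hLev := S55.H48.stmt_lev p Sg (M0 p N) hHyp
  have hE := hECp p hp2 Sg hpS (M0 p N) hLev
  have T1 : Nat.card (continuousH1S Sg N) = Nat.card (continuousH1S Sg (M0 p N)) :=
    card_H1S_eq Sg (idEquiv p N) (idEquiv_equivariant p N)
  have T2 : Nat.card (continuousH2S Sg N) = Nat.card (continuousH2S Sg (M0 p N)) :=
    card_H2S_eq Sg (idEquiv p N) (idEquiv_equivariant p N)
  have T3 : Nat.card N.ρ.invariants = Nat.card (M0 p N).ρ.invariants :=
    card_invariants_eq (idEquiv p N) (idEquiv_equivariant p N)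
  have T4 : Nat.card (Rep.res archimedeanLoc N).ρ.invariants =
      Nat.card (Rep.res archimedeanLoc (M0 p N)).ρ.invariants :=
    card_res_invariants_eq (idEquiv p N) (idEquiv_equivariant p N) archimedeanLoc
  have T5 : Nat.card N = Nat.card (M0 p N) := rfl
  haveI : Module.Finite k (continuousH1S Sg N) := H92.stmt_fin_glob k N hsm Sg
  haveI : Finite (continuousH1S Sg N) := Module.finite_of_finite k
  haveI : Finite (continuousH2S Sg N) := Module.finite_of_finite k
  have F1 := finrank_eq_deg_mul p k T1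
  have F2 := finrank_eq_deg_mul p k T2
  have F3 := finrank_eq_deg_mul p k T3
  have F4 := finrank_eq_deg_mul p k T4
  have F5 := finrank_eq_deg_mul p k T5
  unfold ecDefect archDefect at hE
  rw [F1, F2, F3, F4, F5] at hE
  push_cast at hE
  have hd : (0 : ℤ) < (deg p k : ℤ) := by exact_mod_cast deg_pos p k
  have hle : finrank k (Rep.res archimedeanLoc N).ρ.invariants ≤ finrank k N :=
    Submodule.finrank_le _
  have h1 : (deg p k : ℤ) * ((finrank k (continuousH2S Sg N) : ℤ) + finrank k N.ρ.invariants +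
      ((finrank k N : ℤ) - finrank k (Rep.res archimedeanLoc N).ρ.invariants)) ≤
      (deg p k : ℤ) * (finrank k (continuousH1S Sg N) : ℤ) := by
    linarith
  have h2 := le_of_mul_le_mul_left h1 hd
  zify [hle]
  exact h2

end Fermat.Agent.S56.EC.H9
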