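import Fermat.Agent.S56.EC.H92_Top
import Fermat.Agent.S56.EC.KDT.Final
import Fermat.Agent.S56.EC.H15_ShapLb
import Fermat.Agent.S56.EC.H54_ShapUb
import Fermat.Agent.S56.EC.H50_Kum
import Fermat.Agent.S56.EC.H27_Ubr
import Fermat.Agent.S56.EC.H54_Loc0
import Fermat.Agent.S56.EC.H4_Sha0
import Fermat.Agent.S56.EC.H4_Compl
import Fermat.Agent.S56.EC.H4_Level
import Fermat.Agent.S56.EC.H54_Good
import Fermat.Agent.S56.EC.H9_RSEC
import Fermat.Agent.S56.IND.Final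
import Fermat.Agent.S55.CFT.LOC.H5_I1
import Fermat.Agent.S55.H48_AssemblyGS

set_option autoImplicit false

/-!
# EC: Tate's global Euler characteristic formula from the leaves of the E4 lane (helper47)

`stmt_EC_top : Top.Stmt_I2 → Top.Stmt_I3 → Top.Stmt_I4 → Stmt_EC`.

All the leaves of `EC/Defs.lean` are proved (RSEC helper9; LEVEL, COMPL, SHA0 helper4; GOOD, LOC0,
SHAPub helper54; IND helper74/helper1/helper54; ADDH, DESC, H3S helper92; PT2ub/lb, fin2p helper64;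
SHAPlb helper15; KUM helper50; UBR helper27/helper9/helper92/helper15/helper31; KDALG helper74,
helper47, helper15); the inputs `B1`, `DESC`, `H3S` depend on the E4 leaves `I2`, `I3`, `I4`
(`TopQ0` follows from `I4`: helper48; `I1` is proved: helper5).
-/

noncomputable section

namespace Fermat.Agent.S56.EC.H47T

open Fermat.Agent.S55 Fermat.Agent.S56 Fermat.Agent.S56.GWC Fermat.Agent.S56.EC

/-- **EC** from the open leaves of the E4 lane. -/
theorem stmt_EC_top (h2 : Top.Stmt_I2) (h3 : Top.Stmt_I3) (h4 : Top.Stmt_I4) : Stmt_EC := by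
  have hQ : Top.Stmt_TopQ0 := Fermat.Agent.S55.H48.stmt_TopQ0_of_I4 h4
  have h1 : Top.Stmt_I1 := Fermat.Agent.S55.CFT.LOC.H5.stmt_I1
  have hB : Stmt_B1 := H92T.stmt_B1_top hQ h1 h2 h3 h4
  have hKD := KDT.stmt_KDALG H15.stmt_SHAPlb H54.stmt_SHAPub H50.stmt_KUM H27.stmt_UBR
    H54.stmt_LOC0
  exact stmt_EC_of_leaves H9.stmt_RSEC H4.stmt_LEVEL H54.stmt_GOOD
    (H92T.stmt_DESC_top hQ h1 h2 h3 h4) IND.stmt_IND Fermat.Agent.S56.H92.stmt_ADDH
    (H92T.stmt_H3S_of (GWC.H64.stmt_H3S_base_of h2)) (EC.H64.stmt_fin2p_of hB) H4.stmt_COMPL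
    hKD.1 (EC.H64.stmt_PT2lb_of hB) hKD.2 (EC.H64.stmt_PT2ub_of hB) H4.stmt_SHA0

end Fermat.Agent.S56.EC.H47T

end
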