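import Fermat.Agent.S56.EC.Defs
import Fermat.Agent.S56.GW.H27_Arch
import Fermat.Agent.S56.GW.H92_FinGlobFinal
import Fermat.Agent.S56.H13_Unr

set_option autoImplicit false

/-!
# Cluster T / S56, GW-CORE, package EC: assembly (sorry-free)

* `stmt_EC_of_leaves`: `Stmt_EC` from the leaves of `EC/Defs.lean`
* `stmt_ECp_of`, `stmt_ADD_of`, `stmt_BASE_of`, `stmt_T_of`, `stmt_O_of`: the layers
* tools: `ecDefect_congr` (isomorphism invariance from additivity), `isAdditiveFn_fEC`,
  `descend` (a module trivial on `G_L` as a representation of `Gal(L/ℚ)`), `lev_infl`.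
-/

noncomputable section

namespace Fermat.Agent.S56.EC

open CategoryTheory groupCohomology ExtCitation Module

theorem stmt_EC_of (h : Stmt_RSEC) (h' : Stmt_ECp) : Stmt_EC := h h'

theorem two_ne_zero_zmod (p : ℕ) [Fact p.Prime] (hp2 : p ≠ 2) : (2 : ZMod p) ≠ 0 :=
  H13.two_ne_zero_of p hp2 (CharP.cast_eq_zero (ZMod p) p)

section infl

variable {k : Type} [Field k] (L : IntermediateField ℚ (AlgebraicClosure ℚ)) [Normal ℚ L]

theorem resL_eq_one {s : GQ} (hs : s ∈ L.fixingSubgroup) : resL L s = 1 := by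
  apply AlgEquiv.ext
  intro x
  apply Subtype.ext
  have h := AlgEquiv.restrictNormal_commutes s L x
  have h2 : s (x : AlgebraicClosure ℚ) = x := hs x
  show ((AlgEquiv.restrictNormal s L x : L) : AlgebraicClosure ℚ) = x
  rw [← h2]
  exact h

theorem infl_ρ_apply {V : Type} [AddCommGroup V] [Module k V] (ρ : Representation k (GalL L) V)
    (g : GQ) (v : V) : (infl L ρ).ρ g v = ρ (resL L g) v := rfl

theorem lev_infl {p : ℕ} {S : Finset Nat.Primes} (hL : IsGalLevel p S L) {V : Type}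
    [AddCommGroup V] [Module k V] (ρ : Representation k (GalL L) V) : S55.Lev S (infl L ρ) := by
  refine ⟨L, hL.1, fun s hs m => ?_⟩
  rw [infl_ρ_apply, resL_eq_one L hs, map_one]
  rfl

instance finiteDimensional_infl {V : Type} [AddCommGroup V] [Module k V] [FiniteDimensional k V]
    (ρ : Representation k (GalL L) V) : FiniteDimensional k (infl L ρ) :=
  ‹FiniteDimensional k V›

end infl

/-- The Euler characteristic defect in terms of the dual archimedean term. -/
theorem ecDefect_eq (p : ℕ) [Fact p.Prime] (hp2 : p ≠ 2) (S : Finset Nat.Primes)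
    (N : Rep.{0} (ZMod p) GQ) [FiniteDimensional (ZMod p) N] :
    ecDefect S N = (finrank (ZMod p) (continuousH1S S N) : ℤ) - finrank (ZMod p) (continuousH2S S N)
      - finrank (ZMod p) N.ρ.invariants
      - finrank (ZMod p) (Rep.res archimedeanLoc (tateDual p N)).ρ.invariants := by
  have h := H27.stmt_ARCH p hp2 (ZMod p) N
  unfold ecDefect archDefect
  omega

theorem stmt_T_of (hK : Stmt_KDT) (hP : Stmt_PT2lb) : Stmt_T := by
  intro p _ hp2 S hpS L _ _ hgood
  have h1 := hK p hp2 S hpS L hgood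
  have hlev := lev_infl (k := ZMod p) L hgood.1 (IND.permRep (ZMod p) (GalL L) (GalL L))
  have h2 := hP p hp2 S hpS (infl L (IND.permRep (ZMod p) (GalL L) (GalL L))) hlev
  rw [ecDefect_eq p hp2]
  unfold gwDefect at h1
  push_cast at h1
  have h3 : (0 : ℤ) ≤ finrank (ZMod p)
      (sha₁ S (tateDual p (infl L (IND.permRep (ZMod p) (GalL L) (GalL L))))) := by positivity
  zify at h2
  linarith

theorem stmt_O_of (hK : Stmt_KDO) (hP : Stmt_PT2ub) (hS : Stmt_SHA0) : Stmt_O := by
  intro p _ hp2 S hpS L _ _ hgood V _ _ _ ρ B W hB hpB hind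
  have h1 := hK p hp2 S hpS L hgood V ρ B W hB hpB hind
  have hlev := lev_infl (k := ZMod p) L hgood.1 ρ
  have h2 := hP p hp2 S hpS (infl L ρ) hlev
  have h3 := hS p hp2 S hpS L hgood V ρ B W hpB hind
  rw [h3, finrank_bot, zero_add] at h2
  rw [ecDefect_eq p hp2]
  unfold gwDefect at h1
  zify at h2
  linarith


/-! ### Additivity -/

theorem smooth_of_lev {k : Type} [Field k] {S : Finset Nat.Primes} {M : Rep.{0} k GQ}
    (h : S55.Lev S M) : IsSmoothRep M := by
  obtain ⟨F, hF, hfix⟩ := h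
  exact fun m => ⟨F, hF.1, fun s hs => hfix s hs m⟩

theorem stmt_ADD_of (hA : Stmt_ADDH) (hH : GWC.Stmt_H3S) (hF2 : Stmt_fin2p)
    (hF1 : Stmt_fin_glob) : Stmt_ADD := by
  intro p _ hp2 S hpS N₁ N N₂ _ _ _ i π hses h1 h h2
  exact hA (ZMod p) (two_ne_zero_zmod p hp2) S N₁ N N₂ i π hses h1 h h2
    (hH p hp2 S N₁ hpS h1)
    (hF1 (ZMod p) N₁ (smooth_of_lev h1) S) (hF1 (ZMod p) N (smooth_of_lev h) S)
    (hF1 (ZMod p) N₂ (smooth_of_lev h2) S)
    (hF2 p hp2 S hpS N₁ h1) (hF2 p hp2 S hpS N h) (hF2 p hp2 S hpS N₂ h2)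

/-! ### Consequences of additivity: the zero module, isomorphism invariance -/

section congr

variable {p : ℕ} [Fact p.Prime]

/-- The zero representation. -/
def zeroRep : Rep.{0} (ZMod p) GQ := Rep.of (1 : Representation (ZMod p) GQ PUnit)

instance : FiniteDimensional (ZMod p) (zeroRep (p := p)) :=
  (inferInstance : FiniteDimensional (ZMod p) PUnit)

theorem lev_zeroRep (S : Finset Nat.Primes) : S55.Lev S (zeroRep (p := p)) :=
  ⟨⊥, IntermediateField.isUnramifiedOutside_bot S, fun _ _ _ => rfl⟩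

/-- A morphism of representations from an equivariant linear map. -/
def homOf {M N : Rep.{0} (ZMod p) GQ} (f : M →ₗ[ZMod p] N)
    (hf : ∀ g m, f (M.ρ g m) = N.ρ g (f m)) : M ⟶ N :=
  Rep.ofHom ⟨f, fun g => by
    apply LinearMap.ext
    intro m
    exact hf g m⟩

theorem homOf_hom {M N : Rep.{0} (ZMod p) GQ} (f : M →ₗ[ZMod p] N)
    (hf : ∀ g m, f (M.ρ g m) = N.ρ g (f m)) (m : M) : (homOf f hf).hom m = f m := rfl

theorem ecDefect_zeroRep (hA : Stmt_ADD) (hp2 : p ≠ 2) (S : Finset Nat.Primes)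
    (hpS : pPrime p ∈ S) : ecDefect S (zeroRep (p := p)) = 0 := by
  have h := hA p hp2 S hpS zeroRep zeroRep zeroRep
    (homOf (LinearMap.id) (fun _ _ => rfl)) (homOf (0 : PUnit →ₗ[ZMod p] PUnit) (fun _ _ => rfl))
    ⟨fun a b _ => Subsingleton.elim (α := PUnit) a b,
      fun b => ⟨PUnit.unit, Subsingleton.elim (α := PUnit) _ _⟩,
      fun m => ⟨fun _ => ⟨PUnit.unit, Subsingleton.elim (α := PUnit) _ _⟩, fun _ => rfl⟩⟩
    (lev_zeroRep S) (lev_zeroRep S) (lev_zeroRep S)
  linarith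

theorem ecDefect_congr (hA : Stmt_ADD) (hp2 : p ≠ 2) (S : Finset Nat.Primes)
    (hpS : pPrime p ∈ S) (M N : Rep.{0} (ZMod p) GQ) [FiniteDimensional (ZMod p) M]
    [FiniteDimensional (ZMod p) N] (hM : S55.Lev S M) (hN : S55.Lev S N)
    (e : M ≃ₗ[ZMod p] N) (he : ∀ g m, e (M.ρ g m) = N.ρ g (e m)) :
    ecDefect S M = ecDefect S N := by
  have h := hA p hp2 S hpS zeroRep M N
    (homOf (0 : PUnit →ₗ[ZMod p] M) (fun g m => by
      show (0 : M) = M.ρ g 0
      rw [map_zero]))
    (homOf (e : M →ₗ[ZMod p] N) he)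
    ⟨fun a b _ => Subsingleton.elim (α := PUnit) a b,
      fun b => ⟨e.symm b, e.apply_symm_apply b⟩,
      fun m => ⟨fun hm => ⟨PUnit.unit, by
          have : e m = 0 := hm
          have h0 : m = 0 := by
            rwa [LinearEquiv.map_eq_zero_iff] at this
          rw [h0]; rfl⟩,
        fun ⟨_, hm⟩ => by
          have : (0 : M) = m := hm
          rw [← this]
          exact map_zero e⟩⟩
    (lev_zeroRep S) hM hN
  rw [h, ecDefect_zeroRep hA hp2 S hpS, zero_add]

end congr


/-! ### The additive function of a Galois level -/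

section level

variable {p : ℕ} [Fact p.Prime] (L : IntermediateField ℚ (AlgebraicClosure ℚ)) [Normal ℚ L]

/-- `V ↦ ecDefect S (infl V)`. -/
def fEC (S : Finset Nat.Primes) : Rep.{0} (ZMod p) (GalL L) → ℤ :=
  fun V => ecDefect S (infl L V.ρ)

theorem fEC_of (S : Finset Nat.Primes) {V : Type} [AddCommGroup V] [Module (ZMod p) V]
    (ρ : Representation (ZMod p) (GalL L) V) : fEC L S (Rep.of ρ) = ecDefect S (infl L ρ) := rfl

theorem isAdditiveFn_fEC (hA : Stmt_ADD) (hp2 : p ≠ 2) {S : Finset Nat.Primes}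
    (hpS : pPrime p ∈ S) (hL : IsGalLevel p S L) :
    IND.IsAdditiveFn (ZMod p) (GalL L) (fEC (p := p) L S) := by
  constructor
  · intro V W _ _ _ _ _ ρ σ e he
    have : FiniteDimensional (ZMod p) W := LinearEquiv.finiteDimensional e
    rw [fEC_of, fEC_of]
    exact ecDefect_congr hA hp2 S hpS (infl L ρ) (infl L σ) (lev_infl L hL ρ) (lev_infl L hL σ) e
      (fun g m => he (resL L g) m)
  · intro V _ _ _ ρ W hW
    rw [fEC_of, fEC_of, fEC_of]
    refine hA p hp2 S hpS (infl L (ρ.subrepresentation W hW)) (infl L ρ)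
      (infl L (ρ.quotient W hW))
      (homOf (M := infl L (ρ.subrepresentation W hW)) (N := infl L ρ) W.subtype
        (fun _ _ => rfl))
      (homOf (M := infl L ρ) (N := infl L (ρ.quotient W hW)) W.mkQ (fun _ _ => rfl))
      ⟨?_, ?_, ?_⟩ (lev_infl L hL _) (lev_infl L hL _) (lev_infl L hL _)
    · exact Subtype.val_injective
    · exact Submodule.mkQ_surjective W
    · intro m
      constructor
      · intro hm
        have hm' : W.mkQ m = 0 := hm
        rw [Submodule.mkQ_apply, Submodule.Quotient.mk_eq_zero] at hm'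
        exact ⟨⟨m, hm'⟩, rfl⟩
      · rintro ⟨m₁, rfl⟩
        have hm₁ : W.subtype m₁ ∈ W := Subtype.property (p := fun x => x ∈ W) m₁
        show W.mkQ (W.subtype m₁) = 0
        rw [Submodule.mkQ_apply, Submodule.Quotient.mk_eq_zero]
        exact hm₁

end level

/-! ### The base case -/

theorem stmt_BASE_of (hC : Stmt_COMPL) (hA : Stmt_ADD) (hT : Stmt_T) (hO : Stmt_O) :
    Stmt_BASE := by
  intro p _ hp2 S hpS L _ _ hgood V _ _ _ ρ B W hB hpB hind
  have hf := isAdditiveFn_fEC (p := p) L hA hp2 hpS hgood.1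
  have hcard : ((Nat.card B : ℕ) : ZMod p) ≠ 0 := by
    intro h
    exact hpB ((ZMod.natCast_eq_zero_iff _ _).1 h)
  have h := hC (ZMod p) (GalL L) (fEC (p := p) L S) hf B hcard
    (hT p hp2 S hpS L hgood)
    (fun V' _ _ _ ρ' W' hind' => hO p hp2 S hpS L hgood V' ρ' B W' hB hpB hind')
    V ρ W hind
  exact h

/-! ### Descent of a representation to `Gal(L/ℚ)` -/

section descend

variable {p : ℕ} [Fact p.Prime] (L : IntermediateField ℚ (AlgebraicClosure ℚ)) [Normal ℚ L]

theorem resL_surjective : Function.Surjective (resL L) := by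
  have hgal : IsGalois ℚ (AlgebraicClosure ℚ) := H13.qbar_isGalois13
  have hn : Normal ℚ (AlgebraicClosure ℚ) := hgal.to_normal
  exact AlgEquiv.restrictNormalHom_surjective (AlgebraicClosure ℚ)

theorem mem_fixingSubgroup_of_resL {s : GQ} (hs : resL L s = 1) : s ∈ L.fixingSubgroup := by
  intro x
  have h := AlgEquiv.restrictNormal_commutes s L x
  have h1 : AlgEquiv.restrictNormal s L x = x := by
    have : (resL L s) x = x := by rw [hs]; rfl
    exact this
  rw [h1] at h
  exact h.symm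

theorem ρ_eq_of_resL (N : Rep.{0} (ZMod p) GQ) (hN : ∀ s ∈ L.fixingSubgroup, N.ρ s = 1)
    {a b : GQ} (h : resL L a = resL L b) : N.ρ a = N.ρ b := by
  have h1 : resL L (a⁻¹ * b) = 1 := by
    rw [map_mul, map_inv, h, inv_mul_cancel]
  have h2 := hN _ (mem_fixingSubgroup_of_resL L h1)
  have h3 : N.ρ b = N.ρ a * N.ρ (a⁻¹ * b) := by
    rw [← map_mul, mul_inv_cancel_left]
  rw [h3, h2, mul_one]

/-- The representation of `Gal(L/ℚ)` on a module which is trivial on `G_L`. -/
def descend (N : Rep.{0} (ZMod p) GQ) (hN : ∀ s ∈ L.fixingSubgroup, N.ρ s = 1) :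
    Representation (ZMod p) (GalL L) N where
  toFun g := N.ρ (Function.surjInv (resL_surjective L) g)
  map_one' := by
    have h := ρ_eq_of_resL L N hN (a := Function.surjInv (resL_surjective L) 1) (b := 1)
      (by rw [Function.surjInv_eq (resL_surjective L), map_one])
    rw [h, map_one]
  map_mul' g h := by
    rw [← map_mul]
    apply ρ_eq_of_resL L N hN
    rw [map_mul, Function.surjInv_eq (resL_surjective L), Function.surjInv_eq (resL_surjective L),
      Function.surjInv_eq (resL_surjective L)]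

theorem descend_resL (N : Rep.{0} (ZMod p) GQ) (hN : ∀ s ∈ L.fixingSubgroup, N.ρ s = 1)
    (g : GQ) : descend L N hN (resL L g) = N.ρ g := by
  show N.ρ (Function.surjInv (resL_surjective L) (resL L g)) = N.ρ g
  apply ρ_eq_of_resL L N hN
  rw [Function.surjInv_eq (resL_surjective L)]

end descend

/-! ### Layer 1 -/

theorem stmt_ECp_of (hLv : Stmt_LEVEL) (hG : Stmt_GOOD) (hD : Stmt_DESC) (hA : Stmt_ADD)
    (hI : IND.Stmt_IND) (hB : Stmt_BASE) : Stmt_ECp := by
  intro p _ hp2 S hpS N _ hN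
  obtain ⟨L, hnorm, hfd, hL, htriv⟩ := hLv p S hpS N hN
  have := hnorm
  have := hfd
  obtain ⟨S', hSS', hgood⟩ := hG p hp2 S hpS L hL
  have hpS' : pPrime p ∈ S' := hSS' hpS
  have hf := isAdditiveFn_fEC (p := p) L hA hp2 hpS' hgood.1
  have h0 := hI p (ZMod p) (GalL L) (fEC (p := p) L S') hf
    (fun V _ _ _ ρ B W hB' hpB hind => hB p hp2 S' hpS' L hgood V ρ B W hB' hpB hind)
    N (descend L N htriv)
  rw [fEC_of] at h0
  have hN' : S55.Lev S' N := by
    obtain ⟨F, hF, hfix⟩ := hN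
    exact ⟨F, hF.mono hSS', hfix⟩
  have h1 : ecDefect S' N = ecDefect S' (infl L (descend L N htriv)) :=
    ecDefect_congr hA hp2 S' hpS' N (infl L (descend L N htriv)) hN'
      (lev_infl L hgood.1 _) (LinearEquiv.refl _ _)
      (fun g m => by
        show N.ρ g m = descend L N htriv (resL L g) m
        rw [descend_resL])
  have h2 := hD p hp2 S S' hpS hSS' N hN
  rw [h1, h0] at h2
  exact h2


/-- **EC from its leaves.** -/
theorem stmt_EC_of_leaves (hRS : Stmt_RSEC) (hLv : Stmt_LEVEL) (hG : Stmt_GOOD) (hD : Stmt_DESC)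
    (hI : IND.Stmt_IND) (hAH : Stmt_ADDH) (hH3 : GWC.Stmt_H3S) (hF2 : Stmt_fin2p)
    (hC : Stmt_COMPL) (hKT : Stmt_KDT) (hPl : Stmt_PT2lb) (hKO : Stmt_KDO) (hPu : Stmt_PT2ub)
    (hS0 : Stmt_SHA0) : Stmt_EC := by
  have hA : Stmt_ADD := stmt_ADD_of hAH hH3 hF2 H92.stmt_fin_glob
  exact stmt_EC_of hRS (stmt_ECp_of hLv hG hD hA hI
    (stmt_BASE_of hC hA (stmt_T_of hKT hPl) (stmt_O_of hKO hPu hS0)))

end Fermat.Agent.S56.EC

end
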