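import Fermat.Agent.S56.EC.Defs
import Fermat.Agent.S56.GWC.Defs_INV

set_option autoImplicit false

/-!
# Cluster T / S56, GW-CORE, package EC, sub-package DESC: interfaces

Owner-planner: helper92.  Plan: `NOTES/plan/T_EC_DESC.md` (details of T_EC.md §5).
Target: `EC.Stmt_DESC` (`ecDefect S' N ≤ ecDefect S N` for `S ⊆ S'`, `N` of level `S`).

One prime at a time: `S' = insert q S`, `q ∉ S` (so `q ≠ p`).  With
`Ẽ = {f ∈ C¹_{S'} : d f ∈ C²_S} / C¹_S` and `Cok = Z²_{S'} / (B²_{S'} + Z²_S)`: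

* `Stmt_DA` (pure algebra):  `h¹_{S'} + h²_S + dim Cok = h¹_S + h²_{S'} + dim Ẽ`;
* `Stmt_DB` (tame inertia):  `dim Ẽ ≤ h⁰(ℚ_q, N')`;
* `Stmt_DC` (duality):       `h⁰(ℚ_q, N') ≤ dim Cok`   (from `GWC.Stmt_B1` and `GWC.Stmt_UR2`);
* `Stmt_DESC1`: the step `S → insert q S`;  `Stmt_DESC ⟸ Stmt_DESC1` by induction.
-/

noncomputable section

namespace Fermat.Agent.S56.EC.DESC

open CategoryTheory groupCohomology ExtCitation Module

section defs

variable {k : Type} [Field k] (S S' : Finset Nat.Primes) (N : Rep.{0} k GQ)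

/-- The 1-cochains of level `S'` whose coboundary has level `S`. -/
def preE : Submodule k (GQ → N) :=
  levelCochainsS₁ S' N ⊓ (levelCochainsS₂ S N).comap (d₁₂ N).hom

/-- `Ẽ = {f ∈ C¹_{S'} : d f ∈ C²_S} / C¹_S`. -/
abbrev Etil : Type :=
  ↥(preE S S' N) ⧸ (levelCochainsS₁ S N).comap (preE S S' N).subtype

/-- `B²_{S'} + Z²_S`, the 2-cocycles of level `S'` whose class comes from level `S`. -/
def imZ2 : Submodule k (GQ × GQ → N) :=
  levelCoboundariesS₂ S' N ⊔ levelCocyclesS₂ S N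

/-- `Cok = Z²_{S'} / (B²_{S'} + Z²_S)`, the cokernel of `H²_S → H²_{S'}`. -/
abbrev Cok2 : Type :=
  ↥(levelCocyclesS₂ S' N) ⧸ (imZ2 S S' N).comap (levelCocyclesS₂ S' N).subtype

end defs

/-- **Package DA** (pure algebra: the five-term sequence of `G_{S'} → G_S` in cochain form).
`h¹_{S'} + h²_S + dim Cok = h¹_S + h²_{S'} + dim Ẽ`. -/
def Stmt_DA : Prop :=
  ∀ (k : Type) [Field k] (S S' : Finset Nat.Primes) (N : Rep.{0} k GQ), S ⊆ S' → S55.Lev S N →
    Module.Finite k (continuousH1S S' N) → Module.Finite k (continuousH2S S N) →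
    Module.Finite k (continuousH2S S' N) → Module.Finite k (Etil S S' N) →
    finrank k (continuousH1S S' N) + finrank k (continuousH2S S N) + finrank k (Cok2 S S' N) =
      finrank k (continuousH1S S N) + finrank k (continuousH2S S' N) + finrank k (Etil S S' N)

/-- **Package DB** (tame inertia at `q`).  `dim Ẽ ≤ h⁰(ℚ_q, N')` for `S' = insert q S`. -/
def Stmt_DB : Prop :=
  ∀ (p : ℕ) [Fact p.Prime] (S : Finset Nat.Primes) (q : Nat.Primes), pPrime p ∈ S → q ∉ S →
    ∀ (N : Rep.{0} (ZMod p) GQ) [FiniteDimensional (ZMod p) N], S55.Lev S N →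
      Module.Finite (ZMod p) (Etil S (insert q S) N) ∧
        finrank (ZMod p) (Etil S (insert q S) N) ≤
          finrank (ZMod p) (locRep (tateDual p N) q).ρ.invariants

/-- **Package DC** (duality).  `h⁰(ℚ_q, N') ≤ dim Cok` for `S' = insert q S`. -/
def Stmt_DC : Prop :=
  ∀ (p : ℕ) [Fact p.Prime], p ≠ 2 → ∀ (S : Finset Nat.Primes) (q : Nat.Primes),
    pPrime p ∈ S → q ∉ S →
    ∀ (N : Rep.{0} (ZMod p) GQ) [FiniteDimensional (ZMod p) N], S55.Lev S N →
      Module.Finite (ZMod p) (continuousH2S (insert q S) N) →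
      finrank (ZMod p) (locRep (tateDual p N) q).ρ.invariants ≤
        finrank (ZMod p) (Cok2 S (insert q S) N)

/-- **DESC, one prime.** -/
def Stmt_DESC1 : Prop :=
  ∀ (p : ℕ) [Fact p.Prime], p ≠ 2 → ∀ (S : Finset Nat.Primes) (q : Nat.Primes),
    pPrime p ∈ S → q ∉ S →
    ∀ (N : Rep.{0} (ZMod p) GQ) [FiniteDimensional (ZMod p) N], S55.Lev S N →
      ecDefect (insert q S) N ≤ ecDefect S N

end Fermat.Agent.S56.EC.DESC

end
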