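import Fermat.Agent.S56.EC.H92_Top
import Fermat.Agent.S56.EC.KDT.Final
import Fermat.Agent.S56.EC.H27_Ubr
import Fermat.Agent.S56.EC.H9_RSEC
import Fermat.Agent.S56.EC.H4_Level
import Fermat.Agent.S56.EC.H4_Compl
import Fermat.Agent.S56.EC.H4_Sha0
import Fermat.Agent.S56.EC.H54_Good
import Fermat.Agent.S56.EC.H54_ShapUb
import Fermat.Agent.S56.EC.H54_Loc0
import Fermat.Agent.S56.EC.H15_ShapLb
import Fermat.Agent.S56.EC.H50_Kum
import Fermat.Agent.S56.IND.Final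

set_option autoImplicit false

/-!
# Cluster T / S56, GW-CORE, package EC (Tate's global Euler characteristic): final assembly

* `stmt_KDT`, `stmt_KDO`        : the Kummer-Dirichlet inequalities (no hypotheses);
* `stmt_EC_of_B1_H3S`           : `GWC.Stmt_B1 → GWC.Stmt_H3S → Stmt_EC`;
* `stmt_EC_top`                 : `Stmt_EC` from the leaves `TopQ0`, `I1..I4` of the S55-E4 lane.

Leaves: RSEC (helper9), LEVEL, COMPL, SHA0 (helper4), GOOD, SHAPub, LOC0, DA (helper54),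
DESC (helper92, helper1), IND (helper74, helper1, helper54), ADDH (helper92),
FIN2, PT2lb, PT2ub (helper64), SHAPlb (helper15), KUM (helper50), UBR (helper27, helper9,
helper92, helper15, helper31), KDALG (helper74, helper47, helper15), assembly (helper27).
-/

namespace Fermat.Agent.S56.EC

/-- **Package KDT ∧ KDO.** -/
theorem stmt_KD : Stmt_KDT ∧ Stmt_KDO :=
  KDT.stmt_KDALG H15.stmt_SHAPlb H54.stmt_SHAPub H50.stmt_KUM H27.stmt_UBR H54.stmt_LOC0

/-- **Package KDT.** -/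
theorem stmt_KDT : Stmt_KDT := stmt_KD.1

/-- **Package KDO.** -/
theorem stmt_KDO : Stmt_KDO := stmt_KD.2

/-- **EC** from `B1` (`β¹` bijective) and `H³_S = 0`. -/
theorem stmt_EC_of_B1_H3S (hB1 : GWC.Stmt_B1) (hH3 : GWC.Stmt_H3S) : Stmt_EC :=
  stmt_EC_of_leaves H9.stmt_RSEC H4.stmt_LEVEL H54.stmt_GOOD
    (DESC.H92.stmt_DESC_final (H64.stmt_fin2p_of hB1) hB1 GWC.H46.stmt_UR2)
    IND.stmt_IND Fermat.Agent.S56.H92.stmt_ADDH hH3 (H64.stmt_fin2p_of hB1) H4.stmt_COMPL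
    stmt_KDT (H64.stmt_PT2lb_of hB1) stmt_KDO (H64.stmt_PT2ub_of hB1) H4.stmt_SHA0

/-- **EC** from the leaves of the S55-E4 lane. -/
theorem stmt_EC_top (hQ : Fermat.Agent.S55.Top.Stmt_TopQ0) (h1 : Fermat.Agent.S55.Top.Stmt_I1)
    (h2 : Fermat.Agent.S55.Top.Stmt_I2) (h3 : Fermat.Agent.S55.Top.Stmt_I3)
    (h4 : Fermat.Agent.S55.Top.Stmt_I4) : Stmt_EC :=
  stmt_EC_of_B1_H3S (H92T.stmt_B1_top hQ h1 h2 h3 h4)
    (H92T.stmt_H3S_of (GWC.H64.stmt_H3S_base_of h2))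

end Fermat.Agent.S56.EC
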