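import Fermat.Agent.S56.EC.Defs_DESC
import Fermat.Agent.S56.GWC.H64_INV2
import Fermat.Agent.S56.GWC.H46_DualCount
import Fermat.Agent.S55.H48_Lev

set_option autoImplicit false
set_option linter.style.haveILetI false
set_option linter.unusedSectionVars false

/-!
# EC / DESC, package DC (helper1): duality, `h⁰(ℚ_q, N') ≤ dim Cok`

Plan: `NOTES/plan/T_EC_DESC.md` (helper92), §DC.  `S' = insert q S`, `q ∉ S ∋ p`, `N` of level `S`.

For `m' ∈ (N')^{G_q}` the cone 1-cochain `y_{m'} = (0, δ_q m')` of `N'` at level `S'` is a cone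
1-cocycle (`isZ1c_at1`), and for a 2-cochain `a` of `N`
`a ∪ y_{m'} = (0, δ_q ⟨res_q a, m'⟩)` (`cupB1_at1`).  The functional
`Ψ(m') : a ↦ tr (a ∪ y_{m'})` on `Z²_{S'}(N)`

* kills `B²_{S'}(N)` (`S55.H48.tr_cupB1_dOne`);
* kills `Z²_S(N)`: `res_q a = d g` with `g` level constant (`GWC.Stmt_UR2`, `q ∉ S`), so
  `⟨res_q a, m'⟩ = d ⟨g, m'⟩` (`ev_dOneL`) and `tr (0, δ_q d ·) = 0` (`GWC.H64.invS_dOneL`);
* is zero only for `m' = 0`: by `β¹mono` (`GWC.Stmt_B1`) `y_{m'} = (d m, (m)_{q'})`, and the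
  component at `p ≠ q` gives `m = 0`.

So `Ψ : (N')^{G_q} → Cok^*` is linear and injective.
-/

open CategoryTheory groupCohomology ExtCitation Module

noncomputable section

namespace Fermat.Agent.S56.EC.DESC.H01

open Fermat.Agent.S55 Fermat.Agent.S56 Fermat.Agent.S56.GWC Fermat.Agent.S56.GWC.H64
  Fermat.Agent.S56.EC Fermat.Agent.S56.EC.DESC

variable {k : Type} [Field k] {S : Finset Nat.Primes} {χ : GQ →* kˣ}

/-! ### The cone 1-cochain `(0, δ_q m)` -/

/-- The cone 1-cochain `(0, δ_q m)`: zero global component, `m` at `q`, zero at the other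
primes. -/
def at1 (S : Finset Nat.Primes) (X : Rep.{0} k GQ) (q : ↥S) (m : X) : C1c S X :=
  (0, Pi.single q m)

lemma at1_snd_self (X : Rep.{0} k GQ) (q : ↥S) (m : X) : (at1 S X q m).2 q = m := by
  simp [at1]

lemma at1_snd_ne (X : Rep.{0} k GQ) {q q' : ↥S} (h : q' ≠ q) (m : X) :
    (at1 S X q m).2 q' = 0 := by
  simp [at1, Pi.single_eq_of_ne h]

/-- `(0, δ_q m)` is a cone 1-cocycle if `m` is invariant under `G_q`. -/
lemma isZ1c_at1 (X : Rep.{0} k GQ) (q : ↥S) (m : X)
    (hm : ∀ h : Gl q.1, X.ρ (rl q.1 h) m = m) : IsZ1c S X (at1 S X q m) := by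
  refine ⟨⟨?_, isLevelConstantS₁_const S (0 : X)⟩, fun q' => ?_⟩
  · funext t
    simp [at1, dOne]
  · by_cases h : q' = q
    · subst h
      rw [at1_snd_self]
      funext x
      simp [at1, resOne, dZeroL, hm]
    · rw [at1_snd_ne X h]
      funext x
      simp [at1, resOne, dZeroL]

/-- The local pairing `t ↦ ⟨res_q a (t), m'⟩`. -/
def locPair (χ : GQ →* kˣ) (N : Rep.{0} k GQ) (q : Nat.Primes) (a : GQ × GQ → N)
    (m' : Md χ N) : Gl q × Gl q → kχ χ :=
  fun t => ev χ N (resTwo q a t) m'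

/-- `a ∪ (0, δ_q m') = (0, δ_q ⟨res_q a, m'⟩)` for `m'` invariant under `G_q`. -/
lemma cupB1_at1 (N : Rep.{0} k GQ) (a : GQ × GQ → N) (q : ↥S) (m' : Md χ N)
    (hm : ∀ h : Gl q.1, (Md χ N).ρ (rl q.1 h) m' = m') :
    cupB1 S χ N a (at1 S (Md χ N) q m') = at3 S (kχ χ) q (locPair χ N q.1 a m') := by
  refine Prod.ext (funext fun t => ?_) (funext fun q' => ?_)
  · show ev χ N (a (t.1, t.2.1)) ((Md χ N).ρ (t.1 * t.2.1) ((0 : GQ → Md χ N) t.2.2)) = 0
    rw [Pi.zero_apply, map_zero, ev_zero_right]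
  · by_cases h : q' = q
    · subst h
      rw [at3_snd_self]
      funext t
      show ev χ N (a (rl q'.1 t.1, rl q'.1 t.2))
        ((Md χ N).ρ (rl q'.1 (t.1 * t.2)) ((at1 S (Md χ N) q' m').2 q')) = _
      rw [at1_snd_self, hm]
      rfl
    · rw [at3_snd_ne _ h]
      funext t
      show ev χ N (a (rl q'.1 t.1, rl q'.1 t.2))
        ((Md χ N).ρ (rl q'.1 (t.1 * t.2)) ((at1 S (Md χ N) q m').2 q')) = 0
      rw [at1_snd_ne _ h, map_zero, ev_zero_right]

/-- Leibniz rule against an invariant element: `⟨d g, m'⟩ = d ⟨g, m'⟩`. -/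
lemma ev_dOneL (N : Rep.{0} k GQ) (q : Nat.Primes) (g : Gl q → N) (m' : Md χ N)
    (hm : ∀ h : Gl q, (Md χ N).ρ (rl q h) m' = m') :
    (fun t => ev χ N (dOneL N q g t) m' : Gl q × Gl q → kχ χ) =
      dOneL (kχ χ) q (fun h => (ev χ N (g h) m' : k)) := by
  funext t
  have h1 : ev χ N (N.ρ (rl q t.1) (g t.2)) m' = (χ (rl q t.1) : k) * ev χ N (g t.2) m' := by
    conv_lhs => rw [← hm t.1]
    exact ev_rho χ N _ _ _
  show ev χ N (N.ρ (rl q t.1) (g t.2) - g (t.1 * t.2) + g t.1) m' = _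
  rw [ev_add_left, ev_sub_left, h1]
  rfl

/-! ### The pairing -/

section pairing

variable (tr : Trace S χ) (N : Rep.{0} k GQ) (q : ↥S)

/-- The bilinear pairing `(m', a) ↦ tr (0, δ_q ⟨res_q a, m'⟩)`. -/
def phi : Md χ N →ₗ[k] (GQ × GQ → N) →ₗ[k] k :=
  LinearMap.mk₂ k (fun m' a => invS tr q (locPair χ N q.1 a m'))
    (fun m₁ m₂ a => by
      have : locPair χ N q.1 a (m₁ + m₂) = locPair χ N q.1 a m₁ + locPair χ N q.1 a m₂ := rfl
      rw [this, map_add])
    (fun c m a => by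
      have : locPair χ N q.1 a (c • m) = c • locPair χ N q.1 a m := rfl
      rw [this, map_smul])
    (fun m a₁ a₂ => by
      have : locPair χ N q.1 (a₁ + a₂) m = locPair χ N q.1 a₁ m + locPair χ N q.1 a₂ m := by
        funext t
        show ev χ N (resTwo q.1 (a₁ + a₂) t) m = _
        exact ev_add_left χ N _ _ m
      rw [this, map_add])
    (fun c m a => by
      have : locPair χ N q.1 (c • a) m = c • locPair χ N q.1 a m := by
        funext t
        show ev χ N (resTwo q.1 (c • a) t) m = _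
        exact ev_smul_left χ N c _ m
      rw [this, map_smul])

lemma phi_apply (m' : Md χ N) (a : GQ × GQ → N) :
    phi tr N q m' a = tr.toFun (at3 S (kχ χ) q (locPair χ N q.1 a m')) := rfl

/-- For invariant `m'` the pairing is `tr (a ∪ (0, δ_q m'))`. -/
lemma phi_eq_cupB1 (m' : Md χ N) (hm : ∀ h : Gl q.1, (Md χ N).ρ (rl q.1 h) m' = m')
    (a : GQ × GQ → N) :
    phi tr N q m' a = tr.toFun (cupB1 S χ N a (at1 S (Md χ N) q m')) := by
  rw [phi_apply, cupB1_at1 N a q m' hm]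

/-- The pairing kills the coboundaries of level `S`. -/
lemma phi_dOne (hχ : LevChar S χ) (hN : Lev S N) (m' : Md χ N)
    (hm : ∀ h : Gl q.1, (Md χ N).ρ (rl q.1 h) m' = m') {f : GQ → N}
    (hf : IsLevelConstantS₁ S f) : phi tr N q m' (dOne N f) = 0 := by
  rw [phi_eq_cupB1 tr N q m' hm]
  exact H48.tr_cupB1_dOne (fun F hF => H48.exists_normal_level S F hF) hχ hN tr
    (isZ1c_at1 (Md χ N) q m' hm) hf

/-- The pairing kills the 2-cochains whose restriction to `G_q` is the coboundary of a level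
constant cochain. -/
lemma phi_of_res (m' : Md χ N) (hm : ∀ h : Gl q.1, (Md χ N).ρ (rl q.1 h) m' = m')
    {a : GQ × GQ → N} {g : Gl q.1 → N} (hg : IsLevelConstant₁ (rl q.1) g)
    (hga : dOneL N q.1 g = resTwo q.1 a) : phi tr N q m' a = 0 := by
  have h1 : locPair χ N q.1 a m' = dOneL (kχ χ) q.1 (fun h => (ev χ N (g h) m' : k)) := by
    rw [← ev_dOneL N q.1 g m' hm]
    funext t
    show ev χ N (resTwo q.1 a t) m' = ev χ N (dOneL N q.1 g t) m'
    rw [hga]
  rw [phi_apply, h1]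
  exact invS_dOneL tr q (levL₁_comp q.1 hg fun n => (ev χ N n m' : k))

end pairing

/-! ### Finiteness of the cokernel -/

/-- `Cok` is a quotient of `H²_{S'}`. -/
lemma finite_Cok2 (S S' : Finset Nat.Primes) (N : Rep.{0} k GQ)
    (h : Module.Finite k (continuousH2S S' N)) : Module.Finite k (Cok2 S S' N) := by
  have hle : (levelCoboundariesS₂ S' N).comap (levelCocyclesS₂ S' N).subtype ≤
      ((imZ2 S S' N).comap (levelCocyclesS₂ S' N).subtype).comap LinearMap.id := by
    intro a ha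
    exact Submodule.mem_sup_left ha
  let π : continuousH2S S' N →ₗ[k] Cok2 S S' N := Submodule.mapQ _ _ LinearMap.id hle
  have hπ : Function.Surjective π := by
    intro x
    obtain ⟨a, rfl⟩ := Submodule.mkQ_surjective _ x
    exact ⟨Submodule.Quotient.mk a, rfl⟩
  exact Module.Finite.of_surjective π hπ

/-! ### DC -/

/-- **Package DC**, for a character equal to `cycloChar p`. -/
theorem dc_gen (hB : GWC.Stmt_B1) (hU : GWC.Stmt_UR2) (p : ℕ) [Fact p.Prime] (hp2 : p ≠ 2)
    (S : Finset Nat.Primes) (q : Nat.Primes) (hpS : pPrime p ∈ S) (hqS : q ∉ S)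
    (N : Rep.{0} (ZMod p) GQ) [FiniteDimensional (ZMod p) N] (hN : S55.Lev S N)
    (hfin : Module.Finite (ZMod p) (continuousH2S (insert q S) N))
    (χ' : GQ →* (ZMod p)ˣ) (hχ' : χ' = cycloChar p) :
    finrank (ZMod p) (locRep (N.dualTwist χ') q).ρ.invariants ≤
      finrank (ZMod p) (Cok2 S (insert q S) N) := by
  subst hχ'
  set S' : Finset Nat.Primes := insert q S with hS'
  have hsub : S ⊆ S' := Finset.subset_insert q S
  have hpS' : pPrime p ∈ S' := hsub hpS
  have hN' : S55.Lev S' N := by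
    obtain ⟨F, hF, hfix⟩ := hN
    exact ⟨F, hF.mono hsub, hfix⟩
  have hχ : LevChar S' (cycloChar p) := H48.stmt_levChar p S' hpS'
  obtain ⟨tr, -, hM⟩ := hB p hp2 S' N hpS' hN'
  let q' : ↥S' := ⟨q, Finset.mem_insert_self q S⟩
  let p' : ↥S' := ⟨pPrime p, hpS'⟩
  have hpq : p' ≠ q' := by
    intro h
    have h1 : pPrime p = q := congrArg Subtype.val h
    exact hqS (h1 ▸ hpS)
  haveI hCok : Module.Finite (ZMod p) (Cok2 S S' N) := finite_Cok2 S S' N hfin
  -- invariance, unfolded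
  have hinv : ∀ m' : ↥(locRep (N.dualTwist (cycloChar p)) q).ρ.invariants,
      ∀ h : Gl q, (Md (cycloChar p) N).ρ (rl q h) (m' : Md (cycloChar p) N) = m' :=
    fun m' h => m'.2 h
  -- the pairing kills `B²_{S'} + Z²_S`
  have hker : ∀ m' : ↥(locRep (N.dualTwist (cycloChar p)) q).ρ.invariants,
      (imZ2 S S' N).comap (levelCocyclesS₂ S' N).subtype ≤
        LinearMap.ker ((phi tr N q' (m' : Md (cycloChar p) N)).comp
          (levelCocyclesS₂ S' N).subtype) := by
    intro m' a ha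
    rw [Submodule.mem_comap] at ha
    obtain ⟨b, hb, z, hz, hbz⟩ := Submodule.mem_sup.mp ha
    rw [LinearMap.mem_ker, LinearMap.comp_apply, ← hbz, map_add]
    have e1 : phi tr N q' (m' : Md (cycloChar p) N) b = 0 := by
      obtain ⟨f, hf, hfb⟩ := (mem_levelCoboundariesS₂_iff S' N b).1 hb
      have e : b = dOne N f := hfb.symm
      rw [e]
      exact phi_dOne tr N q' hχ hN' _ (hinv m') hf
    have e2 : phi tr N q' (m' : Md (cycloChar p) N) z = 0 := by
      have hz' : IsZ2S S N z := (H46.mem_levelCocyclesS₂_iff_isZ2S N z).1 hz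
      obtain ⟨g, hg, hgz⟩ := hU p (ZMod p) S N hN z hz' q hqS
      exact phi_of_res tr N q' _ (hinv m') hg hgz
    rw [e1, e2, add_zero]
  -- the map `Ψ`
  let Ψ : ↥(locRep (N.dualTwist (cycloChar p)) q).ρ.invariants →ₗ[ZMod p]
      Module.Dual (ZMod p) (Cok2 S S' N) :=
    { toFun := fun m' => Submodule.liftQ _ _ (hker m')
      map_add' := by
        intro m₁ m₂
        apply LinearMap.ext
        intro x
        obtain ⟨a, rfl⟩ := Submodule.mkQ_surjective _ x
        show phi tr N q' ((m₁ + m₂ : ↥(locRep (N.dualTwist (cycloChar p)) q).ρ.invariants) :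
            Md (cycloChar p) N) (a : GQ × GQ → N) =
          phi tr N q' (m₁ : Md (cycloChar p) N) (a : GQ × GQ → N) +
            phi tr N q' (m₂ : Md (cycloChar p) N) (a : GQ × GQ → N)
        rw [Submodule.coe_add, map_add, LinearMap.add_apply]
      map_smul' := by
        intro c m
        apply LinearMap.ext
        intro x
        obtain ⟨a, rfl⟩ := Submodule.mkQ_surjective _ x
        show phi tr N q' ((c • m : ↥(locRep (N.dualTwist (cycloChar p)) q).ρ.invariants) :
            Md (cycloChar p) N) (a : GQ × GQ → N) =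
          c • phi tr N q' (m : Md (cycloChar p) N) (a : GQ × GQ → N)
        rw [Submodule.coe_smul, map_smul, LinearMap.smul_apply] }
  have hΨ : Function.Injective Ψ := by
    rw [← LinearMap.ker_eq_bot, LinearMap.ker_eq_bot']
    intro m' hm'
    have h0 : ∀ a : GQ × GQ → N, IsZ2S S' N a →
        tr.toFun (cupB1 S' (cycloChar p) N a (at1 S' (Md (cycloChar p) N) q' m')) = 0 := by
      intro a ha
      have hmem : a ∈ levelCocyclesS₂ S' N := (H46.mem_levelCocyclesS₂_iff_isZ2S N a).2 ha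
      have h1 := LinearMap.congr_fun hm' (Submodule.Quotient.mk ⟨a, hmem⟩)
      rw [← phi_eq_cupB1 tr N q' _ (hinv m')]
      exact h1
    obtain ⟨m, -, hm2⟩ := hM _ (isZ1c_at1 (Md (cycloChar p) N) q' _ (hinv m')) h0
    have h1 := hm2 p'
    rw [at1_snd_ne _ hpq] at h1
    have h2 := hm2 q'
    rw [at1_snd_self, ← h1] at h2
    exact Subtype.ext h2
  calc finrank (ZMod p) (locRep (N.dualTwist (cycloChar p)) q).ρ.invariants
      ≤ finrank (ZMod p) (Module.Dual (ZMod p) (Cok2 S S' N)) :=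
        LinearMap.finrank_le_finrank_of_injective hΨ
    _ = finrank (ZMod p) (Cok2 S S' N) := Subspace.dual_finrank_eq

/-- Over `𝔽_p`, `cycloK` is `cycloChar`. -/
lemma cycloK_zmod' (p : ℕ) [Fact p.Prime] : cycloK p (ZMod p) = cycloChar p := by
  ext g
  show (ZMod.castHom (dvd_refl p) (ZMod p)) ((cycloChar p g : (ZMod p)ˣ) : ZMod p) = _
  rw [ZMod.castHom_self]
  rfl

/-- **Package DC.** -/
theorem stmt_DC_of (hB : GWC.Stmt_B1) (hU : GWC.Stmt_UR2) : Stmt_DC := by
  intro p _ hp2 S q hpS hqS N _ hN hfin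
  exact dc_gen hB hU p hp2 S q hpS hqS N hN hfin (cycloK p (ZMod p)) (cycloK_zmod' p)

end Fermat.Agent.S56.EC.DESC.H01

end
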