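/-
S56 / GW-CORE, package EC, leaf UBR-TR: two Mathlib-only leaves (helper15, for helper27).

* `stmt_PLC`     : the Galois action on the finite places is compatible with the valuations;
* `stmt_LOGSPAN` : the full logarithmic embedding of the units spans the hyperplane `∑ = 0`.
-/
import Mathlib

set_option autoImplicit false
set_option linter.unusedSectionVars false
set_option linter.style.haveILetI false
set_option linter.unusedVariables false

noncomputable section

namespace Fermat.Agent.S56.EC.H15

open NumberField IsDedekindDomain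

section plc

variable (K : Type) [Field K] [NumberField K]

/-- The place `w ∘ σ`. -/
def placeComap (σ : K ≃ₐ[ℚ] K) (w : HeightOneSpectrum (𝓞 K)) : HeightOneSpectrum (𝓞 K) where
  asIdeal := w.asIdeal.comap (NumberField.RingOfIntegers.mapRingEquiv (σ : K ≃+* K))
  isPrime := Ideal.comap_isPrime _ _
  ne_bot := by
    intro h
    apply w.ne_bot
    rw [eq_bot_iff]
    intro x hx
    have h1 : (NumberField.RingOfIntegers.mapRingEquiv (σ : K ≃+* K)).symm x
        ∈ w.asIdeal.comap (NumberField.RingOfIntegers.mapRingEquiv (σ : K ≃+* K)) := by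
      rw [Ideal.mem_comap, RingEquiv.apply_symm_apply]
      exact hx
    rw [h, Ideal.mem_bot] at h1
    rw [Ideal.mem_bot]
    have h2 := congrArg (NumberField.RingOfIntegers.mapRingEquiv (σ : K ≃+* K)) h1
    rw [RingEquiv.apply_symm_apply, map_zero] at h2
    exact h2

theorem placeComap_asIdeal (σ : K ≃ₐ[ℚ] K) (w : HeightOneSpectrum (𝓞 K)) :
    (placeComap K σ w).asIdeal
      = w.asIdeal.comap (NumberField.RingOfIntegers.mapRingEquiv (σ : K ≃+* K)) := rfl

theorem mem_placeComap_pow (σ : K ≃ₐ[ℚ] K) (w : HeightOneSpectrum (𝓞 K)) (n : ℕ) (r : 𝓞 K) :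
    r ∈ (placeComap K σ w).asIdeal ^ n ↔
      NumberField.RingOfIntegers.mapRingEquiv (σ : K ≃+* K) r ∈ w.asIdeal ^ n := by
  rw [placeComap_asIdeal, ← Ideal.map_symm, ← Ideal.map_pow, Ideal.map_symm, Ideal.mem_comap]

theorem intValuation_placeComap (σ : K ≃ₐ[ℚ] K) (w : HeightOneSpectrum (𝓞 K)) (r : 𝓞 K) :
    (placeComap K σ w).intValuation r
      = w.intValuation (NumberField.RingOfIntegers.mapRingEquiv (σ : K ≃+* K) r) := by
  set e := NumberField.RingOfIntegers.mapRingEquiv (σ : K ≃+* K) with he
  by_cases hr : r = 0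
  · rw [hr, map_zero, map_zero, map_zero]
  have her : e r ≠ 0 := fun h => hr ((map_eq_zero_iff e e.injective).1 h)
  have key : ∀ n : ℕ, (placeComap K σ w).intValuation r ≤ WithZero.exp (-(n : ℤ)) ↔
      w.intValuation (e r) ≤ WithZero.exp (-(n : ℤ)) := by
    intro n
    rw [HeightOneSpectrum.intValuation_le_pow_iff_mem,
      HeightOneSpectrum.intValuation_le_pow_iff_mem, mem_placeComap_pow]
  have h1 := (placeComap K σ w).intValuation_if_neg hr
  have h2 := w.intValuation_if_neg her
  rw [h1, h2] at key ⊢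
  set k := (Associates.mk (placeComap K σ w).asIdeal).count
    (Associates.mk (Ideal.span {r} : Ideal (𝓞 K))).factors with hk
  set m := (Associates.mk w.asIdeal).count
    (Associates.mk (Ideal.span {e r} : Ideal (𝓞 K))).factors with hm
  have h3 := (key k).1 le_rfl
  have h4 := (key m).2 le_rfl
  rw [WithZero.exp_le_exp, neg_le_neg_iff, Int.ofNat_le] at h3 h4
  rw [le_antisymm h4 h3]

/-- **PLC**: the Galois action on the finite places is compatible with the valuations. -/
theorem stmt_PLC (K : Type) [Field K] [NumberField K] (σ : K ≃ₐ[ℚ] K)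
    (w : HeightOneSpectrum (𝓞 K)) :
    ∃ w' : HeightOneSpectrum (𝓞 K), ∀ x : K, w'.valuation K x = w.valuation K (σ x) := by
  refine ⟨placeComap K σ w, fun x => ?_⟩
  obtain ⟨r, s, hs, rfl⟩ := IsFractionRing.div_surjective (A := 𝓞 K) x
  have hs0 : (algebraMap (𝓞 K) K s) ≠ 0 := by
    intro h
    have := (map_eq_zero_iff (algebraMap (𝓞 K) K) (IsFractionRing.injective (𝓞 K) K)).1 h
    exact (nonZeroDivisors.ne_zero hs) this
  have e1 : ∀ t : 𝓞 K, σ (algebraMap (𝓞 K) K t)
      = algebraMap (𝓞 K) K (NumberField.RingOfIntegers.mapRingEquiv (σ : K ≃+* K) t) :=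
    fun t => rfl
  rw [map_div₀, map_div₀, map_div₀, e1, e1, HeightOneSpectrum.valuation_of_algebraMap,
    HeightOneSpectrum.valuation_of_algebraMap, HeightOneSpectrum.valuation_of_algebraMap,
    HeightOneSpectrum.valuation_of_algebraMap, intValuation_placeComap, intValuation_placeComap]

end plc

section logspan

open NumberField.Units NumberField.Units.dirichletUnitTheorem NumberField.InfinitePlace

variable (K : Type) [Field K] [NumberField K]

/-- The full logarithmic embedding. -/
def logFull (u : (𝓞 K)ˣ) : InfinitePlace K → ℝ :=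
  fun w => (InfinitePlace.mult w : ℝ) * Real.log (w (u : K))

/-- Restriction to the places `≠ w₀`. -/
def prLog : (InfinitePlace K → ℝ) →ₗ[ℝ] logSpace K where
  toFun y := fun w => y w.1
  map_add' _ _ := rfl
  map_smul' _ _ := rfl

/-- The sum functional. -/
def sumLog : (InfinitePlace K → ℝ) →ₗ[ℝ] ℝ where
  toFun y := ∑ w, y w
  map_add' y z := by
    show ∑ w, (y w + z w) = _
    rw [Finset.sum_add_distrib]
  map_smul' c y := by
    show ∑ w, c * y w = c * ∑ w, y w
    rw [Finset.mul_sum]

theorem prLog_logFull (u : (𝓞 K)ˣ) :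
    prLog K (logFull K u) = logEmbedding K (Additive.ofMul u) := rfl

theorem sumLog_logFull (u : (𝓞 K)ˣ) : sumLog K (logFull K u) = 0 :=
  NumberField.Units.sum_mult_mul_log u

theorem sumLog_eq_zero_of_mem {z : InfinitePlace K → ℝ}
    (hz : z ∈ Submodule.span ℝ (Set.range (logFull K))) : sumLog K z = 0 := by
  have : Submodule.span ℝ (Set.range (logFull K)) ≤ LinearMap.ker (sumLog K) := by
    rw [Submodule.span_le]
    rintro _ ⟨u, rfl⟩
    exact sumLog_logFull K u
  exact this hz

theorem map_prLog_span :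
    (Submodule.span ℝ (Set.range (logFull K))).map (prLog K) = ⊤ := by
  rw [eq_top_iff, ← unitLattice_span_eq_top K, Submodule.span_le]
  rintro x hx
  obtain ⟨a, -, rfl⟩ := hx
  refine ⟨logFull K (Additive.toMul a), Submodule.subset_span ⟨_, rfl⟩, ?_⟩
  rw [prLog_logFull]
  rfl

/-- **LOGSPAN**: the full logarithmic embedding of the units spans the hyperplane `∑ = 0`. -/
theorem stmt_LOGSPAN (K : Type) [Field K] [NumberField K] (y : InfinitePlace K → ℝ)
    (hy : ∑ w, y w = 0) :
    y ∈ Submodule.span ℝ (Set.range fun u : (𝓞 K)ˣ => fun w : InfinitePlace K =>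
      (InfinitePlace.mult w : ℝ) * Real.log (w (u : K))) := by
  classical
  have h1 : prLog K y ∈ (Submodule.span ℝ (Set.range (logFull K))).map (prLog K) := by
    rw [map_prLog_span]
    exact Submodule.mem_top
  obtain ⟨z, hz, hzy⟩ := h1
  have h2 : sumLog K z = 0 := sumLog_eq_zero_of_mem K hz
  have h3 : ∀ w : InfinitePlace K, w ≠ w₀ → z w = y w := fun w hw =>
    congrFun hzy ⟨w, hw⟩
  have h4 : z = y := by
    funext w
    by_cases hw : w = w₀
    · have e1 : ∑ w, z w = 0 := h2
      rw [Fintype.sum_eq_add_sum_subtype_ne _ w₀] at e1 hy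
      have e2 : ∑ i : {i : InfinitePlace K // i ≠ w₀}, z i.1
          = ∑ i : {i : InfinitePlace K // i ≠ w₀}, y i.1 :=
        Finset.sum_congr rfl fun i _ => h3 i.1 i.2
      rw [e2] at e1
      rw [hw]
      linarith
    · exact h3 w hw
  rw [← h4]
  exact hz

end logspan

end Fermat.Agent.S56.EC.H15

end
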