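import Mathlib

set_option autoImplicit false

/-!
# EC / UBR / TR (helper27): linear algebra

* `trace_funLeft`  : the trace of `f ↦ f ∘ t` on `X → R` is the number of fixed points of `t`;
* `trace_realize`  : a `ℤ`-lattice with basis `e`, realised in a vector space `V` so that the images
                     of the basis together with one fixed vector `v₀` span `V` and
                     `#basis + 1 = dim V`:  `tr_V(π) = tr_Λ(β) + 1`.
-/

noncomputable section

namespace Fermat.Agent.S56.EC.H27

open Module

/-- The trace of `f ↦ f ∘ t` on `X → R` is the number of fixed points of `t`. -/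
theorem trace_funLeft (R : Type*) [CommRing R] {X : Type*} [Fintype X] [DecidableEq X]
    (t : X → X) :
    LinearMap.trace R (X → R) (LinearMap.funLeft R R t) =
      ((Finset.univ.filter fun x => t x = x).card : R) := by
  rw [LinearMap.trace_eq_matrix_trace R (Pi.basisFun R X), Matrix.trace]
  simp only [Matrix.diag_apply, LinearMap.toMatrix_apply, Pi.basisFun_apply, Pi.basisFun_repr,
    LinearMap.funLeft_apply]
  rw [Finset.card_filter, Nat.cast_sum]
  refine Finset.sum_congr rfl fun x _ => ?_
  by_cases h : t x = x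
  · rw [if_pos h, Nat.cast_one, h, Pi.single_eq_same]
  · rw [Pi.single_eq_of_ne h, if_neg h, Nat.cast_zero]

/-- Realisation lemma. -/
theorem trace_realize {M : Type*} [AddCommGroup M] {I : Type*} [Fintype I] [DecidableEq I]
    (e : Basis I ℤ M) (β : M →ₗ[ℤ] M) {F : Type*} [Field F] {V : Type*} [AddCommGroup V]
    [Module F V] [FiniteDimensional F V] (π : V →ₗ[F] V) (Φ : M →+ V)
    (hΦ : ∀ m, Φ (β m) = π (Φ m)) (v₀ : V) (hv₀ : π v₀ = v₀)
    (hspan : ⊤ ≤ Submodule.span F (Set.range (fun j : Option I => j.elim v₀ (fun i => Φ (e i)))))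
    (hcard : Fintype.card (Option I) = finrank F V) :
    LinearMap.trace F V π = ((LinearMap.trace ℤ M β : ℤ) : F) + 1 := by
  classical
  set f : Option I → V := fun j => j.elim v₀ (fun i => Φ (e i)) with hf
  set 𝔅 : Basis (Option I) F V := basisOfTopLeSpanOfCardEqFinrank f hspan hcard with h𝔅
  have h𝔅f : ∀ j, 𝔅 j = f j := fun j => by
    rw [h𝔅, coe_basisOfTopLeSpanOfCardEqFinrank]
  rw [LinearMap.trace_eq_matrix_trace F 𝔅, Matrix.trace,
    LinearMap.trace_eq_matrix_trace ℤ e, Matrix.trace, Fintype.sum_option]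
  simp only [Matrix.diag_apply, LinearMap.toMatrix_apply]
  have hnone : 𝔅.repr (π (𝔅 none)) none = 1 := by
    have : π (𝔅 none) = 𝔅 none := by
      rw [h𝔅f]
      exact hv₀
    rw [this, Basis.repr_self, Finsupp.single_eq_same]
  have hsome : ∀ i : I, 𝔅.repr (π (𝔅 (some i))) (some i) = ((e.repr (β (e i)) i : ℤ) : F) := by
    intro i
    have h1 : 𝔅 (some i) = Φ (e i) := (h𝔅f (some i)).trans rfl
    have h2 : π (Φ (e i)) = ∑ k, ((e.repr (β (e i)) k : ℤ) : F) • 𝔅 (some k) := by
      rw [← hΦ]
      conv_lhs => rw [← e.sum_repr (β (e i))]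
      rw [map_sum]
      refine Finset.sum_congr rfl fun k _ => ?_
      rw [map_zsmul, h𝔅f]
      show _ = ((e.repr (β (e i)) k : ℤ) : F) • Φ (e k)
      rw [Int.cast_smul_eq_zsmul]
    rw [h1, h2, map_sum, Finsupp.finsetSum_apply]
    rw [Finset.sum_eq_single i]
    · rw [map_smul, Basis.repr_self, Finsupp.smul_apply, Finsupp.single_eq_same, smul_eq_mul,
        mul_one]
    · intro k _ hk
      rw [map_smul, Basis.repr_self, Finsupp.smul_apply, Finsupp.single_eq_of_ne, smul_zero]
      exact fun h => hk (Option.some_injective _ h).symm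
    · intro h
      exact absurd (Finset.mem_univ i) h
  rw [hnone, Int.cast_sum, add_comm]
  congr 1
  exact Finset.sum_congr rfl fun i _ => hsome i

end Fermat.Agent.S56.EC.H27

end
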