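import Fermat.Agent.S56.EC.Defs_UBR
import Fermat.Agent.S56.EC.H27_TrAlg

set_option autoImplicit false
set_option linter.unusedSectionVars false
set_option linter.style.haveILetI false

/-!
# EC / UBR / TR (helper27): the equivariant Dirichlet unit theorem as a trace identity

Definitions: `ordT`, `logT`, `phiT`, `actE`, `sF`, `sInf`, `piT`, `vZero`; equivariance `phiT_actE`.
-/

noncomputable section

namespace Fermat.Agent.S56.EC.H27

open NumberField IsDedekindDomain Module Fermat.Agent.S55.CFT Fermat.Agent.S55.CFT.H12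

/-- **PLC**: the Galois action on the finite places is compatible with the valuations. -/
def Stmt_PLC : Prop :=
  ∀ (K : Type) [Field K] [NumberField K] (σ : K ≃ₐ[ℚ] K) (w : HeightOneSpectrum (𝓞 K)),
    ∃ w' : HeightOneSpectrum (𝓞 K), ∀ x : K, w'.valuation K x = w.valuation K (σ x)

/-- **LOGSPAN**: the full logarithmic embedding of the units spans the hyperplane `∑ = 0`. -/
def Stmt_LOGSPAN : Prop :=
  ∀ (K : Type) [Field K] [NumberField K] (y : InfinitePlace K → ℝ), ∑ w, y w = 0 →
    y ∈ Submodule.span ℝ (Set.range fun u : (𝓞 K)ˣ => fun w : InfinitePlace K =>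
      (InfinitePlace.mult w : ℝ) * Real.log (w (u : K)))

section general

variable (K : Type) [Field K] [NumberField K] (T : Finset Nat.Primes)

/-- The valuation vector of a `T`-unit. -/
def ordT : Additive (TUnits K T) →ₗ[ℤ] (primesT K T → ℤ) :=
  (valAdd K (primesT K T)).comp (tUnitsEquiv K T).toLinearMap

theorem ordT_apply (u : Additive (TUnits K T)) (w : primesT K T) :
    ordT K T u w =
      Multiplicative.toAdd (w.1.valuationOfNeZero ((Additive.toMul u : TUnits K T) : Kˣ)) := rfl

/-- The value of a `T`-unit in `K`. -/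
def valK (u : Additive (TUnits K T)) : K := (((Additive.toMul u : TUnits K T) : Kˣ) : K)

theorem valK_ne_zero (u : Additive (TUnits K T)) : valK K T u ≠ 0 :=
  ((Additive.toMul u : TUnits K T) : Kˣ).ne_zero

theorem valK_add (u v : Additive (TUnits K T)) : valK K T (u + v) = valK K T u * valK K T v := rfl

theorem valK_zero : valK K T 0 = 1 := rfl

theorem valuation_valK (u : Additive (TUnits K T)) (w : primesT K T) :
    w.1.valuation K (valK K T u) =
      ((Multiplicative.ofAdd (ordT K T u w) : Multiplicative ℤ) : WithZero (Multiplicative ℤ)) := by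
  rw [ordT_apply, ofAdd_toAdd, HeightOneSpectrum.valuationOfNeZero_eq]
  rfl

/-- The logarithms of the absolute values of a `T`-unit at the infinite places. -/
def logT : Additive (TUnits K T) →+ (InfinitePlace K → ℝ) where
  toFun u w := (InfinitePlace.mult w : ℝ) * Real.log (w (valK K T u))
  map_zero' := by
    funext w
    show (InfinitePlace.mult w : ℝ) * Real.log (w (valK K T 0)) = 0
    rw [valK_zero, map_one, Real.log_one, mul_zero]
  map_add' u v := by
    funext w
    show (InfinitePlace.mult w : ℝ) * Real.log (w (valK K T (u + v))) =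
      (InfinitePlace.mult w : ℝ) * Real.log (w (valK K T u)) +
        (InfinitePlace.mult w : ℝ) * Real.log (w (valK K T v))
    rw [valK_add, map_mul, Real.log_mul, mul_add]
    · exact (map_ne_zero w).2 (valK_ne_zero K T u)
    · exact (map_ne_zero w).2 (valK_ne_zero K T v)

theorem logT_apply (u : Additive (TUnits K T)) (w : InfinitePlace K) :
    logT K T u w = (InfinitePlace.mult w : ℝ) * Real.log (w (valK K T u)) := rfl

/-- The realisation space. -/
abbrev VK : Type := (primesT K T → ℝ) × (InfinitePlace K → ℝ)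

/-- The realisation `u ↦ (ord u, log |u|)`. -/
def phiT : Additive (TUnits K T) →+ VK K T where
  toFun u := (fun w => ((ordT K T u w : ℤ) : ℝ), logT K T u)
  map_zero' := by
    refine Prod.ext ?_ ?_
    · funext w
      show ((ordT K T 0 w : ℤ) : ℝ) = 0
      rw [map_zero, Pi.zero_apply, Int.cast_zero]
    · exact map_zero (logT K T)
  map_add' u v := by
    refine Prod.ext ?_ ?_
    · funext w
      show ((ordT K T (u + v) w : ℤ) : ℝ) = ((ordT K T u w : ℤ) : ℝ) + ((ordT K T v w : ℤ) : ℝ)
      rw [map_add, Pi.add_apply, Int.cast_add]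
    · exact map_add (logT K T) u v

theorem phiT_fst (u : Additive (TUnits K T)) (w : primesT K T) :
    (phiT K T u).1 w = ((ordT K T u w : ℤ) : ℝ) := rfl

theorem phiT_snd (u : Additive (TUnits K T)) : (phiT K T u).2 = logT K T u := rfl

/-- The action on the `T`-units. -/
def actE (σ : K ≃ₐ[ℚ] K) : Additive (TUnits K T) →ₗ[ℤ] Additive (TUnits K T) :=
  ((MulDistribMulAction.toMonoidHom (TUnits K T) σ).toAdditive).toIntLinearMap

theorem valK_actE (σ : K ≃ₐ[ℚ] K) (u : Additive (TUnits K T)) :
    valK K T (actE K T σ u) = σ (valK K T u) := rfl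

/-! ### The action on the places -/

theorem mem_primesT_iff_val (w : HeightOneSpectrum (𝓞 K)) :
    w ∈ primesT K T ↔ w.valuation K ((prodT T : ℕ) : K) < 1 := by
  have h : algebraMap (𝓞 K) K ((prodT T : ℕ) : 𝓞 K) = ((prodT T : ℕ) : K) :=
    map_natCast (algebraMap (𝓞 K) K) _
  rw [mem_primesT, ← HeightOneSpectrum.valuation_lt_one_iff_mem (K := K), ← h]

variable (hPLC : Stmt_PLC)

/-- The action on the primes over `T`: `w ↦ σ⁻¹ w`. -/
def sF (σ : K ≃ₐ[ℚ] K) (w : primesT K T) : primesT K T :=
  ⟨Classical.choose (hPLC K σ w.1), by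
    rw [mem_primesT_iff_val, Classical.choose_spec (hPLC K σ w.1), map_natCast σ,
      ← mem_primesT_iff_val]
    exact w.2⟩

theorem sF_spec (σ : K ≃ₐ[ℚ] K) (w : primesT K T) (x : K) :
    (sF K T hPLC σ w).1.valuation K x = w.1.valuation K (σ x) :=
  Classical.choose_spec (hPLC K σ w.1) x

/-- The action on the infinite places: `w ↦ w ∘ σ`. -/
def sInf (σ : K ≃ₐ[ℚ] K) (w : InfinitePlace K) : InfinitePlace K :=
  w.comap ((σ : K ≃+* K) : K →+* K)

theorem sInf_apply (σ : K ≃ₐ[ℚ] K) (w : InfinitePlace K) (x : K) :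
    sInf K σ w x = w (σ x) := rfl

theorem mult_sInf (σ : K ≃ₐ[ℚ] K) (w : InfinitePlace K) :
    InfinitePlace.mult (sInf K σ w) = InfinitePlace.mult w := by
  have h := InfinitePlace.isReal_comap_iff (σ : K ≃+* K) (w := w)
  unfold InfinitePlace.mult
  by_cases hw : w.IsReal
  · rw [if_pos hw, if_pos (show (sInf K σ w).IsReal from h.2 hw)]
  · rw [if_neg hw, if_neg (show ¬ (sInf K σ w).IsReal from fun h' => hw (h.1 h'))]

theorem ordT_actE (σ : K ≃ₐ[ℚ] K) (u : Additive (TUnits K T)) (w : primesT K T) :
    ordT K T (actE K T σ u) w = ordT K T u (sF K T hPLC σ w) := by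
  have h1 := valuation_valK K T (actE K T σ u) w
  have h2 := valuation_valK K T u (sF K T hPLC σ w)
  rw [valK_actE, ← sF_spec K T hPLC, h2] at h1
  exact (Multiplicative.ofAdd.injective (WithZero.coe_injective h1)).symm

theorem logT_actE (σ : K ≃ₐ[ℚ] K) (u : Additive (TUnits K T)) (w : InfinitePlace K) :
    logT K T (actE K T σ u) w = logT K T u (sInf K σ w) := by
  rw [logT_apply, logT_apply, valK_actE, mult_sInf, sInf_apply]

/-- The permutation operator on the realisation space. -/
def piT (σ : K ≃ₐ[ℚ] K) : VK K T →ₗ[ℝ] VK K T :=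
  LinearMap.prodMap (LinearMap.funLeft ℝ ℝ (sF K T hPLC σ)) (LinearMap.funLeft ℝ ℝ (sInf K σ))

theorem phiT_actE (σ : K ≃ₐ[ℚ] K) (u : Additive (TUnits K T)) :
    phiT K T (actE K T σ u) = piT K T hPLC σ (phiT K T u) := by
  refine Prod.ext ?_ ?_
  · funext w
    show ((ordT K T (actE K T σ u) w : ℤ) : ℝ) = ((ordT K T u (sF K T hPLC σ w) : ℤ) : ℝ)
    rw [ordT_actE]
  · funext w
    exact logT_actE K T σ u w

/-- The fixed vector. -/
def vZero : VK K T := (0, fun _ => 1)

theorem piT_vZero (σ : K ≃ₐ[ℚ] K) : piT K T hPLC σ (vZero K T) = vZero K T := by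
  refine Prod.ext ?_ ?_
  · funext w
    rfl
  · funext w
    rfl

end general

end Fermat.Agent.S56.EC.H27

end
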