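/-
S56 / GW-CORE, package EC, leaf UBR-TR, sub-leaf FIXPTS (helper15, for helper27):
the fixed places of `Defs_UBR` (`fixF`, `fixI`) are the fixed points of `H27.sF`, `H27.sInf`.
-/
import Fermat.Agent.S56.EC.H27_TrDefs
import Fermat.Agent.S56.EC.H15_TrLeaves

set_option autoImplicit false
set_option linter.unusedSectionVars false
set_option linter.style.haveILetI false
set_option linter.unusedVariables false

noncomputable section

namespace Fermat.Agent.S56.EC.H15

open NumberField IsDedekindDomain Module Fermat.Agent.S55.CFT Fermat.Agent.S55.CFT.H12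

section general

variable (K : Type) [Field K] [NumberField K] (T : Finset Nat.Primes) (hPLC : H27.Stmt_PLC)

/-- `sF σ w = σ⁻¹(w)` as an ideal. -/
theorem mem_sF_asIdeal (σ : K ≃ₐ[ℚ] K) (w : primesT K T) (r : 𝓞 K) :
    r ∈ (H27.sF K T hPLC σ w).1.asIdeal ↔
      NumberField.RingOfIntegers.mapRingEquiv (σ : K ≃+* K) r ∈ w.1.asIdeal := by
  rw [← HeightOneSpectrum.valuation_lt_one_iff_mem (K := K),
    ← HeightOneSpectrum.valuation_lt_one_iff_mem (K := K), H27.sF_spec]
  rfl

/-- `sF σ w = w` iff `σ` maps `w` into itself. -/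
theorem sF_eq_self_iff (σ : K ≃ₐ[ℚ] K) (w : primesT K T) :
    H27.sF K T hPLC σ w = w ↔
      ∀ x : 𝓞 K, x ∈ w.1.asIdeal → ∃ y : 𝓞 K, y ∈ w.1.asIdeal ∧ (y : K) = σ (x : K) := by
  constructor
  · intro h x hx
    refine ⟨NumberField.RingOfIntegers.mapRingEquiv (σ : K ≃+* K) x, ?_, rfl⟩
    rw [← mem_sF_asIdeal K T hPLC, h]
    exact hx
  · intro h
    apply Subtype.ext
    apply HeightOneSpectrum.ext
    symm
    have hle : w.1.asIdeal ≤ (H27.sF K T hPLC σ w).1.asIdeal := by
      intro x hx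
      rw [mem_sF_asIdeal]
      obtain ⟨y, hy, hyx⟩ := h x hx
      have : y = NumberField.RingOfIntegers.mapRingEquiv (σ : K ≃+* K) x :=
        NumberField.RingOfIntegers.ext hyx
      rw [← this]
      exact hy
    exact (w.1.isMaximal.eq_of_le (H27.sF K T hPLC σ w).1.isPrime.ne_top hle)

/-- `sInf σ w = w` iff `w ∘ σ = w`. -/
theorem sInf_eq_self_iff (σ : K ≃ₐ[ℚ] K) (w : InfinitePlace K) :
    H27.sInf K σ w = w ↔ ∀ x : K, w (σ x) = w x := by
  constructor
  · intro h x
    rw [← H27.sInf_apply, h]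
  · intro h
    apply InfinitePlace.ext
    intro x
    rw [H27.sInf_apply, h]

end general

section fix

variable (S : Finset Nat.Primes) (L : IntermediateField ℚ (AlgebraicClosure ℚ)) [Normal ℚ L]
  [FiniteDimensional ℚ L] (b : GalL L) (hPLC : H27.Stmt_PLC)

/-- The fixed primes of `Defs_UBR` are the fixed points of `sF`. -/
def fixFEquiv [NumberField ↥L] :
    ↥(fixF S L b) ≃ {w : primesT ↥L S // H27.sF ↥L S hPLC b w = w} where
  toFun w := ⟨⟨w.1, (mem_primesT_iff_exists ↥L S w.1).2 w.2.1⟩,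
    (sF_eq_self_iff ↥L S hPLC b _).2 w.2.2⟩
  invFun w := ⟨w.1.1, (mem_primesT_iff_exists ↥L S w.1.1).1 w.1.2,
    (sF_eq_self_iff ↥L S hPLC b _).1 w.2⟩
  left_inv _ := rfl
  right_inv _ := rfl

/-- The fixed infinite places of `Defs_UBR` are the fixed points of `sInf`. -/
def fixIEquiv [NumberField ↥L] :
    ↥(fixI L b) ≃ {w : InfinitePlace ↥L // H27.sInf ↥L b w = w} where
  toFun w := ⟨w.1, (sInf_eq_self_iff ↥L b w.1).2 w.2⟩
  invFun w := ⟨w.1, (sInf_eq_self_iff ↥L b w.1).1 w.2⟩
  left_inv _ := rfl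
  right_inv _ := rfl

theorem natCard_fixF [NumberField ↥L] :
    Nat.card (fixF S L b) = Nat.card {w : primesT ↥L S // H27.sF ↥L S hPLC b w = w} :=
  Nat.card_congr (fixFEquiv S L b hPLC)

theorem natCard_fixI [NumberField ↥L] :
    Nat.card (fixI L b) = Nat.card {w : InfinitePlace ↥L // H27.sInf ↥L b w = w} :=
  Nat.card_congr (fixIEquiv L b)

/-- **FIXPTS, finite places.** -/
theorem card_fixF [NumberField ↥L] [Fintype ↥(primesT ↥L S)]
    [DecidablePred fun w : primesT ↥L S => H27.sF ↥L S hPLC b w = w] :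
    Nat.card (fixF S L b) =
      (Finset.univ.filter fun w : primesT ↥L S => H27.sF ↥L S hPLC b w = w).card := by
  rw [natCard_fixF S L b hPLC, Nat.card_eq_fintype_card, Fintype.card_subtype]

/-- **FIXPTS, infinite places.** -/
theorem card_fixI [NumberField ↥L] [Fintype (InfinitePlace ↥L)]
    [DecidablePred fun w : InfinitePlace ↥L => H27.sInf ↥L b w = w] :
    Nat.card (fixI L b) =
      (Finset.univ.filter fun w : InfinitePlace ↥L => H27.sInf ↥L b w = w).card := by
  rw [natCard_fixI L b, Nat.card_eq_fintype_card, Fintype.card_subtype]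

end fix

/-- `H27.Stmt_PLC` holds. -/
theorem stmt_PLC' : H27.Stmt_PLC := fun K _ _ σ w => stmt_PLC K σ w

/-- `H27.Stmt_LOGSPAN` holds. -/
theorem stmt_LOGSPAN' : H27.Stmt_LOGSPAN := fun K _ _ y hy => stmt_LOGSPAN K y hy

end Fermat.Agent.S56.EC.H15

end
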