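import Fermat.Agent.S56.EC.H27_TrSpan

set_option autoImplicit false
set_option linter.unusedSectionVars false
set_option linter.style.haveILetI false

/-!
# EC / UBR / TR (helper27): assembly

`trace_latAct`: `tr(b | Λ) + 1 = #Fix(sF b) + #Fix(sInf b)`.
-/

noncomputable section

namespace Fermat.Agent.S56.EC.H27

open NumberField IsDedekindDomain Module Fermat.Agent.S55.CFT Fermat.Agent.S55.CFT.H12

section general

variable (K : Type) [Field K] [NumberField K] (T : Finset Nat.Primes)

/-- The lattice `Λ = E / torsion`. -/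
abbrev LatK : Type := Additive (TUnits K T) ⧸ Submodule.torsion ℤ (Additive (TUnits K T))

theorem actE_tors (σ : K ≃ₐ[ℚ] K) :
    Submodule.torsion ℤ (Additive (TUnits K T)) ≤
      (Submodule.torsion ℤ (Additive (TUnits K T))).comap (actE K T σ) := by
  intro x hx
  obtain ⟨a, ha⟩ := hx
  refine ⟨a, ?_⟩
  have ha' : (a : ℤ) • x = 0 := ha
  show (a : ℤ) • actE K T σ x = 0
  rw [← map_smul, ha', map_zero]

/-- The action on `Λ`. -/
def latActK (σ : K ≃ₐ[ℚ] K) : LatK K T →ₗ[ℤ] LatK K T :=
  (Submodule.torsion ℤ (Additive (TUnits K T))).mapQ _ (actE K T σ) (actE_tors K T σ)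

theorem phiT_tors : Submodule.torsion ℤ (Additive (TUnits K T)) ≤
    LinearMap.ker (phiT K T).toIntLinearMap := by
  intro x hx
  obtain ⟨a, ha⟩ := hx
  have ha' : (a : ℤ) • x = 0 := ha
  have ha0 : (a : ℤ) ≠ 0 := nonZeroDivisors.coe_ne_zero a
  rw [LinearMap.mem_ker]
  show phiT K T x = 0
  have h1 : (a : ℤ) • phiT K T x = 0 := by
    rw [← map_zsmul, ha', map_zero]
  have h2 : ((a : ℤ) : ℝ) • phiT K T x = 0 := by
    rw [Int.cast_smul_eq_zsmul]
    exact h1
  rcases smul_eq_zero.1 h2 with h | h
  · exact absurd (by exact_mod_cast h) ha0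
  · exact h

/-- The realisation of `Λ`. -/
def phiL : LatK K T →ₗ[ℤ] VK K T :=
  (Submodule.torsion ℤ (Additive (TUnits K T))).liftQ (phiT K T).toIntLinearMap (phiT_tors K T)

theorem phiL_mk (u : Additive (TUnits K T)) :
    phiL K T (Submodule.Quotient.mk u) = phiT K T u := rfl

variable (hPLC : Stmt_PLC)

theorem phiL_latActK (σ : K ≃ₐ[ℚ] K) (m : LatK K T) :
    phiL K T (latActK K T σ m) = piT K T hPLC σ (phiL K T m) := by
  induction m using Submodule.Quotient.induction_on with
  | H u =>
    show phiL K T (Submodule.Quotient.mk (actE K T σ u)) = _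
    rw [phiL_mk, phiL_mk, phiT_actE]

instance finite_EK : Module.Finite ℤ (Additive (TUnits K T)) := finite_tUnits K T

open Classical in
theorem trace_piT (σ : K ≃ₐ[ℚ] K) :
    LinearMap.trace ℝ (VK K T) (piT K T hPLC σ) =
      ((Finset.univ.filter fun w : primesT K T => sF K T hPLC σ w = w).card : ℝ) +
        ((Finset.univ.filter fun w : InfinitePlace K => sInf K σ w = w).card : ℝ) := by
  unfold piT
  rw [LinearMap.trace_prodMap', trace_funLeft, trace_funLeft]

theorem finrank_VK : finrank ℝ (VK K T) =
    (primesT K T).card + Fintype.card (InfinitePlace K) := by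
  rw [Module.finrank_prod, Module.finrank_fintype_fun_eq_card, Module.finrank_fintype_fun_eq_card,
    Fintype.card_coe]

theorem finrank_LatK_le : finrank ℤ (LatK K T) + 1 ≤
    (primesT K T).card + Fintype.card (InfinitePlace K) := by
  have h1 : finrank ℤ (LatK K T) ≤ finrank ℤ (Additive (TUnits K T)) :=
    Submodule.finrank_quotient_le (Submodule.torsion ℤ (Additive (TUnits K T)))
  have h2 := finrank_tUnits K T
  have h3 : 0 < Fintype.card (InfinitePlace K) := Fintype.card_pos
  have h4 : NumberField.Units.rank K = Fintype.card (InfinitePlace K) - 1 := rfl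
  omega

open Classical in
/-- **TR**, in terms of the fixed points of `sF` and `sInf`. -/
theorem trace_latActK (σ : K ≃ₐ[ℚ] K) :
    LinearMap.trace ℤ (LatK K T) (latActK K T σ) + 1 =
      ((Finset.univ.filter fun w : primesT K T => sF K T hPLC σ w = w).card : ℤ) +
        ((Finset.univ.filter fun w : InfinitePlace K => sInf K σ w = w).card : ℤ) := by
  classical
  set I := Module.Free.ChooseBasisIndex ℤ (LatK K T) with hI
  set e : Basis I ℤ (LatK K T) := Module.Free.chooseBasis ℤ (LatK K T) with he
  set f : Option I → VK K T := fun j => j.elim (vZero K T) (fun i => phiL K T (e i)) with hf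
  have hW : Submodule.span ℝ (Set.range f) = ⊤ := by
    refine span_top_of _ (fun u => ?_) ?_
    · rw [← phiL_mk, ← e.sum_repr (Submodule.Quotient.mk u), map_sum]
      refine Submodule.sum_mem _ fun i _ => ?_
      rw [map_zsmul, ← Int.cast_smul_eq_zsmul ℝ]
      exact Submodule.smul_mem _ _ (Submodule.subset_span ⟨some i, rfl⟩)
    · exact Submodule.subset_span ⟨none, rfl⟩
  have hcard : Fintype.card (Option I) = finrank ℝ (VK K T) := by
    apply le_antisymm
    · rw [Fintype.card_option, ← Module.finrank_eq_card_chooseBasisIndex, finrank_VK]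
      exact finrank_LatK_le K T
    · have h1 := finrank_range_le_card (R := ℝ) f
      rw [Set.finrank, hW, finrank_top] at h1
      exact h1
  have key := trace_realize e (latActK K T σ) (piT K T hPLC σ) (phiL K T).toAddMonoidHom
    (fun m => phiL_latActK K T hPLC σ m) (vZero K T) (piT_vZero K T hPLC σ) (le_of_eq hW.symm) hcard
  rw [trace_piT] at key
  have key' : (((LinearMap.trace ℤ (LatK K T) (latActK K T σ) + 1 : ℤ)) : ℝ) =
      ((((Finset.univ.filter fun w : primesT K T => sF K T hPLC σ w = w).card : ℤ) +
        ((Finset.univ.filter fun w : InfinitePlace K => sInf K σ w = w).card : ℤ) : ℤ) : ℝ) := by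
    push_cast
    linarith
  exact_mod_cast key'

end general

end Fermat.Agent.S56.EC.H27

end
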