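import Mathlib

/-!
# S56 / EC / UBR, leaf BRIDGE: the abstract counting lemmas (helper31)

* `card_fixed_eq` : if `Ψ : G → X` is onto with fibres the left cosets of `D`, and `C (Ψ x)` holds
  iff `x⁻¹ b x ∈ D`, then the fixed points of `b` on `G ⧸ D` are as many as the `w : X` with `C w`.
* `card_fixed_of_stabilizer` : for a transitive action of `G` on `X` and `D` the stabilizer of a
  point, the fixed points of `b` on `G ⧸ D` are as many as the fixed points of `b` on `X`.
-/

set_option autoImplicit false

namespace Fermat.Agent.S56.EC.H31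

theorem card_fixed_eq {G X : Type} [Group G] (D : Subgroup G) (Ψ : G → X) (C : X → Prop) (b : G)
    (hΨ : ∀ x x', Ψ x = Ψ x' ↔ x⁻¹ * x' ∈ D)
    (hsurj : Function.Surjective Ψ)
    (hC : ∀ x, C (Ψ x) ↔ x⁻¹ * b * x ∈ D) :
    Nat.card {c : G ⧸ D // b • c = c} = Nat.card {w : X // C w} := by
  let Φ : G ⧸ D → X := fun c => Quotient.liftOn' c Ψ (fun x x' h => by
    rw [QuotientGroup.leftRel_apply] at h
    exact (hΨ x x').mpr h)
  have hΦ : ∀ x : G, Φ (x : G ⧸ D) = Ψ x := fun x => rfl
  have hinj : Function.Injective Φ := by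
    intro c c' h
    induction c using QuotientGroup.induction_on with
    | H x =>
      induction c' using QuotientGroup.induction_on with
      | H x' =>
        rw [hΦ, hΦ] at h
        exact QuotientGroup.eq.mpr ((hΨ x x').mp h)
  have hsur : Function.Surjective Φ := by
    intro w
    obtain ⟨x, hx⟩ := hsurj w
    exact ⟨(x : G ⧸ D), hx⟩
  have hfix : ∀ c : G ⧸ D, b • c = c ↔ C (Φ c) := by
    intro c
    induction c using QuotientGroup.induction_on with
    | H x =>
      rw [hΦ, hC, MulAction.Quotient.smul_mk, QuotientGroup.eq, smul_eq_mul, mul_inv_rev]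
      constructor
      · intro h
        have := D.inv_mem h
        simpa [mul_assoc] using this
      · intro h
        have := D.inv_mem h
        simpa [mul_assoc] using this
  exact Nat.card_congr ((Equiv.ofBijective Φ ⟨hinj, hsur⟩).subtypeEquiv hfix)

theorem card_fixed_of_stabilizer {G X : Type} [Group G] [MulAction G X]
    [MulAction.IsPretransitive G X] (x₀ : X) (D : Subgroup G)
    (hD : D = MulAction.stabilizer G x₀) (b : G) :
    Nat.card {c : G ⧸ D // b • c = c} = Nat.card {x : X // b • x = x} := by
  refine card_fixed_eq D (fun g => g • x₀) (fun x => b • x = x) b ?_ ?_ ?_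
  · intro x x'
    rw [hD, MulAction.mem_stabilizer_iff, mul_smul, inv_smul_eq_iff]
    exact eq_comm
  · intro x
    exact MulAction.exists_smul_eq G x₀ x
  · intro x
    rw [hD, MulAction.mem_stabilizer_iff, mul_smul, mul_smul, inv_smul_eq_iff]

end Fermat.Agent.S56.EC.H31
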