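import Fermat.Agent.S56.EC.Defs_UBR
import Fermat.Agent.S56.EC.H31_BridgeAbs

/-!
# S56 / EC / UBR, leaf BRIDGE, infinite part (helper31)

For a finite Galois extension `L/ℚ` inside `ℚ̄` and `b ∈ G = Gal(L/ℚ)`: the infinite places of `L`
fixed by `b` are as many as the fixed points of `b` on `G ⧸ D_∞`, `D_∞ = decInf L` the subgroup
generated by the restriction of the complex conjugation.
-/

set_option autoImplicit false
set_option linter.unusedSectionVars false
set_option linter.style.haveILetI false

open scoped NumberField

noncomputable section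

namespace Fermat.Agent.S56.EC.H31

open ExtCitation NumberField

local notation "Qb" => AlgebraicClosure ℚ

variable (L : IntermediateField ℚ Qb) [Normal ℚ L] [FiniteDimensional ℚ L]

/-- The distinguished complex embedding of `L`. -/
def phi0 : ↥L →+* ℂ := (complexEmbedding : Qb →+* ℂ).comp (algebraMap ↥L Qb)

theorem phi0_apply (x : ↥L) : phi0 L x = complexEmbedding (x : Qb) := rfl

theorem phi0_injective : Function.Injective (phi0 L) := (phi0 L).injective

/-- The restriction of the complex conjugation to `L`. -/
def conjL : GalL L := resL L complexConjugation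

theorem phi0_conjL (x : ↥L) : phi0 L (conjL L x) = starRingEnd ℂ (phi0 L x) := by
  rw [phi0_apply, phi0_apply, ← complexEmbedding_complexConjugation]
  congr 1
  exact AlgEquiv.restrictNormal_commutes complexConjugation L x

theorem conjL_mul_self : conjL L * conjL L = 1 := by
  unfold conjL
  rw [← map_mul, complexConjugation_mul_self, map_one]

theorem decInf_eq : decInf L = Subgroup.zpowers (conjL L) := by
  unfold decInf conjL
  rw [← MonoidHom.map_zpowers]
  congr 1
  ext g
  constructor
  · rintro ⟨x, rfl⟩
    exact x.2
  · intro hg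
    exact ⟨⟨g, hg⟩, rfl⟩

theorem mem_zpowers_conjL (σ : GalL L) :
    σ ∈ Subgroup.zpowers (conjL L) ↔ σ = 1 ∨ σ = conjL L := by
  constructor
  · rintro ⟨n, rfl⟩
    have hc : Commute (conjL L) (conjL L) := Commute.refl _
    rcases Int.even_or_odd n with ⟨m, rfl⟩ | ⟨m, rfl⟩
    · left
      show conjL L ^ (m + m) = 1
      rw [zpow_add, ← hc.mul_zpow, conjL_mul_self, one_zpow]
    · right
      show conjL L ^ (2 * m + 1) = conjL L
      rw [zpow_add, zpow_one, two_mul, zpow_add, ← hc.mul_zpow, conjL_mul_self, one_zpow, one_mul]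
  · rintro (rfl | rfl)
    · exact Subgroup.one_mem _
    · exact Subgroup.mem_zpowers _

theorem isConj_phi0_iff (σ : GalL L) :
    ComplexEmbedding.IsConj (phi0 L) σ ↔ σ = conjL L := by
  constructor
  · intro h
    ext x
    apply congrArg Subtype.val
    apply phi0_injective L
    rw [phi0_conjL]
    exact h.eq x
  · rintro rfl
    apply RingHom.ext
    intro x
    exact (phi0_conjL L x).symm

theorem decInf_eq_stabilizer :
    decInf L = MulAction.stabilizer (GalL L) (InfinitePlace.mk (phi0 L)) := by
  ext σ
  rw [decInf_eq, mem_zpowers_conjL, InfinitePlace.mem_stabilizer_mk_iff, isConj_phi0_iff]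

attribute [local instance] numberFieldL

theorem isGaloisL : IsGalois ℚ ↥L := ⟨⟩

theorem pretransitiveL : MulAction.IsPretransitive (GalL L) (InfinitePlace ↥L) :=
  haveI := isGaloisL L
  ⟨fun _ _ => InfinitePlace.exists_smul_eq_of_comap_eq (k := ℚ) (Subsingleton.elim _ _)⟩

theorem smul_eq_iff (b : GalL L) (w : InfinitePlace ↥L) :
    b • w = w ↔ ∀ x : ↥L, w (b x) = w x := by
  constructor
  · intro h x
    have h1 := congrArg (fun v : InfinitePlace ↥L => v (b x)) h
    simp only [InfinitePlace.smul_apply, AlgEquiv.symm_apply_apply] at h1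
    exact h1.symm
  · intro h
    ext x
    rw [InfinitePlace.smul_apply]
    have h1 := h (b.symm x)
    rw [AlgEquiv.apply_symm_apply] at h1
    exact h1.symm

/-- **BRIDGE**, infinite part. -/
theorem card_fixI (b : GalL L) :
    Nat.card (fixI L b) = Nat.card {x : GalL L ⧸ decInf L // b • x = x} := by
  haveI := pretransitiveL L
  rw [card_fixed_of_stabilizer (InfinitePlace.mk (phi0 L)) (decInf L) (decInf_eq_stabilizer L) b]
  exact Nat.card_congr (Equiv.subtypeEquivRight (fun w => (smul_eq_iff L b w).symm))

end Fermat.Agent.S56.EC.H31
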