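import Fermat.Agent.S56.EC.H31_BridgeFin
import Fermat.Agent.S56.EC.H31_BridgeInf

/-!
# S56 / EC / UBR, leaf BRIDGE (helper31)

`stmt_BRIDGE : Stmt_BRIDGE`: the places of `L` fixed by `b ∈ Gal(L/ℚ)` are counted by the fixed
points of `b` on `G ⧸ D_q` (`q ∈ S`) and on `G ⧸ D_∞`.
-/

set_option autoImplicit false

namespace Fermat.Agent.S56.EC.H31

/-- **UBR-BRIDGE**. -/
theorem stmt_BRIDGE : Stmt_BRIDGE := by
  intro S L _ _ b
  exact ⟨card_fixF L S b, card_fixI L b⟩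

end Fermat.Agent.S56.EC.H31
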