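import Fermat.Agent.S56.EC.H27_Tr
import Fermat.Agent.S56.EC.H15_TrFix
import Fermat.Agent.S56.EC.H31_Bridge

set_option autoImplicit false
set_option linter.unusedSectionVars false
set_option linter.style.haveILetI false

/-!
# EC / UBR / TR (helper27): `stmt_TR : Stmt_TR`, and `stmt_UBR_of_RED : Stmt_RED → Stmt_UBR`

The equivariant Dirichlet unit theorem in trace form: for every `b ∈ Gal(L/ℚ)`,
`tr(b | O_{L,S}ˣ / torsion) + 1 = #{primes over S fixed by b} + #{infinite places fixed by b}`.
Leaves: `H15.stmt_PLC`, `H15.stmt_LOGSPAN`, `H15.card_fixF`, `H15.card_fixI` (helper15).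
-/

noncomputable section

namespace Fermat.Agent.S56.EC.H27

open NumberField IsDedekindDomain Module Fermat.Agent.S55.CFT Fermat.Agent.S55.CFT.H12

/-- **Package UBR-TR.** -/
theorem stmt_TR : Stmt_TR := by
  classical
  intro S L _ _ b
  haveI : NumberField ↥L := numberFieldL L
  have h := trace_latActK ↥L S H15.stmt_PLC' b
  rw [H15.card_fixF S L b H15.stmt_PLC', H15.card_fixI L b]
  exact h

/-- `Stmt_UBR` from `Stmt_RED`. -/
theorem stmt_UBR_of_RED (hR : Stmt_RED) : Stmt_UBR :=
  stmt_UBR_of hR stmt_TR H31.stmt_BRIDGE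

end Fermat.Agent.S56.EC.H27

end
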