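import Fermat.Agent.S56.EC.H27_TrDefs
import Fermat.Agent.S56.EC.H15_TrLeaves

set_option autoImplicit false
set_option linter.unusedSectionVars false
set_option linter.style.haveILetI false

/-!
# EC / UBR / TR (helper27): the realisation of the `T`-units spans

`span_top_of`: a subspace of `ℝ^{primes over T} × ℝ^{infinite places}` containing the realisation
`phiT u` of every `T`-unit and the vector `(0, 1)` is everything.
-/

noncomputable section

namespace Fermat.Agent.S56.EC.H27

open NumberField IsDedekindDomain Module Fermat.Agent.S55.CFT Fermat.Agent.S55.CFT.H12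

section general

variable (K : Type) [Field K] [NumberField K] (T : Finset Nat.Primes)

/-- A unit as a `T`-unit. -/
def uT (u : (𝓞 K)ˣ) : Additive (TUnits K T) :=
  (tUnitsEquiv K T).symm (unitInclAdd K (primesT K T) (Additive.ofMul u))

theorem valK_uT (u : (𝓞 K)ˣ) : valK K T (uT K T u) = (u : K) := rfl

theorem ordT_uT (u : (𝓞 K)ˣ) : ordT K T (uT K T u) = 0 := by
  have h : unitInclAdd K (primesT K T) (Additive.ofMul u) ∈
      LinearMap.ker (valAdd K (primesT K T)) := by
    rw [← range_unitInclAdd]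
    exact ⟨_, rfl⟩
  show valAdd K (primesT K T) ((tUnitsEquiv K T) ((tUnitsEquiv K T).symm _)) = 0
  rw [LinearEquiv.apply_symm_apply]
  exact h

theorem phiT_uT (u : (𝓞 K)ˣ) :
    phiT K T (uT K T u) = LinearMap.inr ℝ (primesT K T → ℝ) (InfinitePlace K → ℝ)
      (fun w : InfinitePlace K => (InfinitePlace.mult w : ℝ) * Real.log (w (u : K))) := by
  refine Prod.ext ?_ ?_
  · funext w
    show ((ordT K T (uT K T u) w : ℤ) : ℝ) = 0
    rw [ordT_uT, Pi.zero_apply, Int.cast_zero]
  · rfl

variable {K T}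

theorem inr_mem_of (W : Submodule ℝ (VK K T)) (h1 : ∀ u, phiT K T u ∈ W) (h2 : vZero K T ∈ W)
    (y : InfinitePlace K → ℝ) :
    LinearMap.inr ℝ (primesT K T → ℝ) (InfinitePlace K → ℝ) y ∈ W := by
  classical
  set W' : Submodule ℝ (InfinitePlace K → ℝ) :=
    W.comap (LinearMap.inr ℝ (primesT K T → ℝ) (InfinitePlace K → ℝ)) with hW'
  have hspan : Submodule.span ℝ (Set.range fun u : (𝓞 K)ˣ => fun w : InfinitePlace K =>
      (InfinitePlace.mult w : ℝ) * Real.log (w (u : K))) ≤ W' := by
    rw [Submodule.span_le]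
    rintro _ ⟨u, rfl⟩
    show LinearMap.inr ℝ (primesT K T → ℝ) (InfinitePlace K → ℝ) _ ∈ W
    rw [← phiT_uT K T u]
    exact h1 _
  have hone : (fun _ : InfinitePlace K => (1 : ℝ)) ∈ W' := h2
  set n : ℝ := (Fintype.card (InfinitePlace K) : ℝ) with hn
  have hn0 : n ≠ 0 := by
    rw [hn]
    exact_mod_cast Fintype.card_ne_zero
  set c : ℝ := (∑ w, y w) / n with hc
  have hy : y = (y - c • fun _ : InfinitePlace K => (1 : ℝ)) +
      c • fun _ : InfinitePlace K => (1 : ℝ) := by
    rw [sub_add_cancel]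
  have hsum : ∑ w, (y - c • fun _ : InfinitePlace K => (1 : ℝ)) w = 0 := by
    simp only [Pi.sub_apply, Pi.smul_apply, smul_eq_mul, mul_one, Finset.sum_sub_distrib,
      Finset.sum_const, Finset.card_univ, nsmul_eq_mul]
    rw [hc]
    field_simp
    ring
  have h3 : y ∈ W' := by
    rw [hy]
    exact W'.add_mem (hspan (H15.stmt_LOGSPAN K _ hsum)) (W'.smul_mem c hone)
  exact h3

open Classical in
theorem inl_single_mem_of (W : Submodule ℝ (VK K T)) (h1 : ∀ u, phiT K T u ∈ W)
    (h2 : vZero K T ∈ W) (w : primesT K T) :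
    LinearMap.inl ℝ (primesT K T → ℝ) (InfinitePlace K → ℝ) (Pi.single w 1) ∈ W := by
  classical
  obtain ⟨a, c, hc, hac⟩ := exists_sunit_single K (primesT K T) w
  set u : Additive (TUnits K T) := (tUnitsEquiv K T).symm a with hu
  have hord : ordT K T u = Pi.single w c := by
    show valAdd K (primesT K T) ((tUnitsEquiv K T) ((tUnitsEquiv K T).symm a)) = _
    rw [LinearEquiv.apply_symm_apply, hac]
  have h3 : phiT K T u = LinearMap.inl ℝ (primesT K T → ℝ) (InfinitePlace K → ℝ)
      (Pi.single w (c : ℝ)) + LinearMap.inr ℝ (primesT K T → ℝ) (InfinitePlace K → ℝ)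
      (logT K T u) := by
    refine Prod.ext ?_ ?_
    · funext w'
      show ((ordT K T u w' : ℤ) : ℝ) = (Pi.single w (c : ℝ) : primesT K T → ℝ) w' + 0
      rw [hord, add_zero]
      by_cases hw : w' = w
      · subst hw
        rw [Pi.single_eq_same, Pi.single_eq_same]
      · rw [Pi.single_eq_of_ne hw, Pi.single_eq_of_ne hw, Int.cast_zero]
    · show logT K T u = 0 + logT K T u
      rw [zero_add]
  have h4 : LinearMap.inl ℝ (primesT K T → ℝ) (InfinitePlace K → ℝ) (Pi.single w (c : ℝ)) ∈ W := by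
    have := W.sub_mem (h1 u) (inr_mem_of W h1 h2 (logT K T u))
    rw [h3, add_sub_cancel_right] at this
    exact this
  have hc' : (c : ℝ) ≠ 0 := by exact_mod_cast hc
  have h5 := W.smul_mem (c : ℝ)⁻¹ h4
  rw [← map_smul, ← Pi.single_smul, smul_eq_mul, inv_mul_cancel₀ hc'] at h5
  exact h5

/-- **Spanning.** -/
theorem span_top_of (W : Submodule ℝ (VK K T)) (h1 : ∀ u, phiT K T u ∈ W) (h2 : vZero K T ∈ W) :
    W = ⊤ := by
  classical
  rw [eq_top_iff]
  rintro ⟨x, y⟩ -
  have hxy : ((x, y) : VK K T) = LinearMap.inl ℝ (primesT K T → ℝ) (InfinitePlace K → ℝ) x +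
      LinearMap.inr ℝ (primesT K T → ℝ) (InfinitePlace K → ℝ) y := by
    refine Prod.ext ?_ ?_
    · show x = x + 0
      rw [add_zero]
    · show y = 0 + y
      rw [zero_add]
  rw [hxy]
  refine W.add_mem ?_ (inr_mem_of W h1 h2 y)
  have hx : x = ∑ w, x w • (Pi.single w 1 : primesT K T → ℝ) := by
    funext w'
    rw [Finset.sum_apply]
    simp only [Pi.smul_apply, smul_eq_mul]
    rw [Finset.sum_eq_single w']
    · rw [Pi.single_eq_same, mul_one]
    · intro b _ hb
      rw [Pi.single_eq_of_ne (Ne.symm hb), mul_zero]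
    · intro h
      exact absurd (Finset.mem_univ w') h
  rw [hx, map_sum]
  refine W.sum_mem fun w _ => ?_
  rw [map_smul]
  exact W.smul_mem _ (inl_single_mem_of W h1 h2 w)

end general

end Fermat.Agent.S56.EC.H27

end
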