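import Fermat.Agent.S56.EC.Defs_UBR
import Fermat.Agent.S55.CFT.GS.H6_UR_PL
import Fermat.Agent.S55.CFT.GS.H6_UR
import Fermat.Agent.S56.EC.H31_BridgeAbs

/-!
# S56 / EC / UBR, leaf BRIDGE, finite part (helper31)

For a finite Galois extension `L/ℚ` inside `ℚ̄`, `G = Gal(L/ℚ)`, a prime `q` and `b ∈ G`: the
primes of `L` over `q` mapped into themselves by `b` are as many as the fixed points of `b` on
`G / D_q`, `D_q = decL L q`.

* `urPl_eq_iff` : `urPl L q σ = urPl L q σ' ↔ resL (σ' σ⁻¹) ∈ D_q` (helper6's `urPl_eq`,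
  `ur_exists_local`, `urPl_mul_left/right`);
* `mem_urPl_iff` : `y ∈ urPl L q σ ↔ v₀(σ y) < 1`;
* `plMap L q : G ⧸ D_q → primes`, injective, onto the primes over `q`, and
  `b • c = c ↔ b (plMap c) ⊆ plMap c`.
-/

set_option autoImplicit false
set_option linter.unusedSectionVars false
set_option linter.style.haveILetI false

open scoped NumberField Pointwise

noncomputable section

namespace Fermat.Agent.S56.EC.H31

open Fermat.Agent.S55.CFT.GS.H6 Fermat.Agent.Lib.Minkowski IsDedekindDomain ExtCitation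
  Fermat.Agent.S55.Top

local notation "Qb" => AlgebraicClosure ℚ
local notation "rl" => Fermat.Agent.S55.rl

variable (L : IntermediateField ℚ Qb) [Normal ℚ L] [FiniteDimensional ℚ L] (q : Nat.Primes)

attribute [local instance] numberFieldL

theorem resL_eq_one_of_mem {g : GQ} (hg : g ∈ L.fixingSubgroup) : resL L g = 1 := by
  ext x
  have h := AlgEquiv.restrictNormal_commutes g L x
  have h2 : g (x : Qb) = x := (IntermediateField.mem_fixingSubgroup_iff L g).mp hg _ x.2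
  exact h.trans h2

theorem resL_mem_decL_of_smul (d : GQ) (hd : d • urA0 q = urA0 q) : resL L d ∈ decL L q := by
  obtain ⟨τ, hτ⟩ := ur_exists_local L q d 1 hd
  rw [mul_one, mul_one, QuotientGroup.eq] at hτ
  have h1 : resL L ((rl q τ)⁻¹ * d) = 1 := resL_eq_one_of_mem L hτ
  rw [map_mul, map_inv, inv_mul_eq_one] at h1
  rw [← h1]
  exact ⟨_, ⟨τ, rfl⟩, rfl⟩

theorem urPl_eq_iff (σ σ' : GQ) :
    urPl L q σ = urPl L q σ' ↔ resL L (σ' * σ⁻¹) ∈ decL L q := by
  constructor
  · intro h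
    obtain ⟨d, g, hd, hg, hσ⟩ := urPl_eq L q σ σ' h
    have h1 : resL L (σ' * σ⁻¹) = resL L d := by
      rw [hσ, map_mul, map_mul, map_mul, resL_eq_one_of_mem L hg, mul_one, map_inv,
        mul_inv_cancel_right]
    rw [h1]
    exact resL_mem_decL_of_smul L q d hd
  · rintro ⟨d, ⟨τ, rfl⟩, hd⟩
    have hg : (rl q τ)⁻¹ * (σ' * σ⁻¹) ∈ L.fixingSubgroup := by
      apply mem_fixingSubgroup_of_resL
      rw [map_mul, map_inv, inv_mul_eq_one]
      exact hd
    have hg' : σ⁻¹ * ((rl q τ)⁻¹ * (σ' * σ⁻¹)) * σ ∈ L.fixingSubgroup := by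
      apply mem_fixingSubgroup_of_resL
      rw [map_mul, map_mul, resL_eq_one_of_mem L hg, mul_one, map_inv, inv_mul_cancel]
    have h2 : σ' = rl q τ * σ * (σ⁻¹ * ((rl q τ)⁻¹ * (σ' * σ⁻¹)) * σ) := by group
    rw [h2, urPl_mul_right L q _ _ hg', urPl_mul_left L q _ _ (ur_rl_smul q τ)]

theorem mem_urPl_iff (σ : GQ) (y : 𝓞 ↥L) :
    y ∈ (urPl L q σ).asIdeal ↔ (urA0 q).valuation (σ (algebraMap (𝓞 ↥L) Qb y)) < 1 := by
  rw [urPl_asIdeal, mem_primeBelow, ur_valuation_smul_lt, inv_inv]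

/-- The image of an integer under `b ∈ Gal(L/ℚ)`, as an integer. -/
def galInt (b : GalL L) (x : 𝓞 ↥L) : 𝓞 ↥L :=
  ⟨b (x : ↥L), map_isIntegral_int (b : ↥L →ₐ[ℚ] ↥L).toRingHom.toIntAlgHom
    (NumberField.RingOfIntegers.isIntegral_coe x)⟩

theorem coe_galInt (b : GalL L) (x : 𝓞 ↥L) : ((galInt L b x : 𝓞 ↥L) : ↥L) = b (x : ↥L) := rfl

theorem algebraMap_galInt (β : GQ) (x : 𝓞 ↥L) :
    algebraMap (𝓞 ↥L) Qb (galInt L (resL L β) x) = β (algebraMap (𝓞 ↥L) Qb x) :=
  AlgEquiv.restrictNormal_commutes β L (x : ↥L)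

/-- The condition of `fixF` on a prime. -/
def IsStable (b : GalL L) (w : HeightOneSpectrum (𝓞 ↥L)) : Prop :=
  ∀ x : 𝓞 ↥L, x ∈ w.asIdeal → ∃ y : 𝓞 ↥L, y ∈ w.asIdeal ∧ (y : ↥L) = b (x : ↥L)

theorem isStable_iff (b : GalL L) (w : HeightOneSpectrum (𝓞 ↥L)) :
    IsStable L b w ↔ ∀ x : 𝓞 ↥L, x ∈ w.asIdeal → galInt L b x ∈ w.asIdeal := by
  constructor
  · intro h x hx
    obtain ⟨y, hy, hyx⟩ := h x hx
    have : y = galInt L b x := NumberField.RingOfIntegers.ext hyx
    rw [← this]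
    exact hy
  · intro h x hx
    exact ⟨galInt L b x, h x hx, rfl⟩

theorem isStable_urPl_iff (β σ : GQ) :
    IsStable L (resL L β) (urPl L q σ) ↔ resL L (σ * β * σ⁻¹) ∈ decL L q := by
  rw [← urPl_eq_iff, isStable_iff]
  constructor
  · intro h
    apply HeightOneSpectrum.ext
    have hle : (urPl L q σ).asIdeal ≤ (urPl L q (σ * β)).asIdeal := by
      intro x hx
      have h1 := h x hx
      rw [mem_urPl_iff, algebraMap_galInt] at h1
      rw [mem_urPl_iff]
      exact h1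
    have hmax : (urPl L q σ).asIdeal.IsMaximal := (urPl L q σ).isMaximal
    exact hmax.eq_of_le (urPl L q (σ * β)).isPrime.ne_top hle
  · intro h x hx
    rw [mem_urPl_iff, algebraMap_galInt]
    have h1 : x ∈ (urPl L q (σ * β)).asIdeal := by
      rw [← h]
      exact hx
    rw [mem_urPl_iff] at h1
    exact h1

/-- A lift of `x ∈ Gal(L/ℚ)` to `G_ℚ`. -/
def liftG (x : GalL L) : GQ := Function.surjInv (resL_surjective L) x

theorem resL_liftG (x : GalL L) : resL L (liftG L x) = x :=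
  Function.surjInv_eq (resL_surjective L) x

/-- The primes of `L` over `q`. -/
abbrev PrimesOver : Type := {w : HeightOneSpectrum (𝓞 ↥L) // (((q : ℕ) : 𝓞 ↥L)) ∈ w.asIdeal}

/-- `x ↦ x • w₀`, `w₀` the prime of `L` under the distinguished place over `q`. -/
def plOf (x : GalL L) : PrimesOver L q := ⟨urPl L q (liftG L x)⁻¹, urPl_mem L q _⟩

theorem plOf_eq_iff (x x' : GalL L) : plOf L q x = plOf L q x' ↔ x⁻¹ * x' ∈ decL L q := by
  unfold plOf
  rw [Subtype.mk.injEq, urPl_eq_iff, inv_inv, map_mul, map_inv, resL_liftG, resL_liftG]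
  constructor
  · intro h
    have := (decL L q).inv_mem h
    simpa using this
  · intro h
    have := (decL L q).inv_mem h
    simpa using this

theorem plOf_surjective : Function.Surjective (plOf L q) := by
  rintro ⟨v, hv⟩
  obtain ⟨σ, hσ⟩ := urPl_surj L q v hv
  refine ⟨resL L σ⁻¹, ?_⟩
  unfold plOf
  rw [Subtype.mk.injEq, ← hσ, urPl_eq_iff, inv_inv, map_mul, resL_liftG, map_inv, mul_inv_cancel]
  exact (decL L q).one_mem

theorem isStable_plOf_iff (b x : GalL L) :
    IsStable L b (plOf L q x).1 ↔ x⁻¹ * b * x ∈ decL L q := by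
  have h := isStable_urPl_iff L q (liftG L b) (liftG L x)⁻¹
  rw [resL_liftG, inv_inv, map_mul, map_mul, map_inv, resL_liftG, resL_liftG] at h
  exact h

theorem finite_primesOver : Finite (PrimesOver L q) :=
  Finite.of_surjective (plOf L q) (plOf_surjective L q)

/-- The fixed points of `b` on `G ⧸ D_q` and the `b`-stable primes over `q`. -/
theorem card_fixed_decL (b : GalL L) :
    Nat.card {c : GalL L ⧸ decL L q // b • c = c} =
      Nat.card {w : PrimesOver L q // IsStable L b w.1} :=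
  card_fixed_eq (decL L q) (plOf L q) (fun w => IsStable L b w.1) b (plOf_eq_iff L q)
    (plOf_surjective L q) (isStable_plOf_iff L q b)

/-- The `b`-stable primes over `S`, sorted by the prime under them. -/
def fixFEquiv (S : Finset Nat.Primes) (b : GalL L) :
    (Σ q : ↥S, {w : PrimesOver L q.1 // IsStable L b w.1}) ≃ fixF S L b :=
  Equiv.ofBijective (fun x => ⟨x.2.1.1, ⟨x.1.1, x.1.2, x.2.1.2⟩, x.2.2⟩) (by
    constructor
    · rintro ⟨q, ⟨⟨w, hw⟩, hst⟩⟩ ⟨q', ⟨⟨w', hw'⟩, hst'⟩⟩ h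
      have hww : w = w' := congrArg Subtype.val h
      subst hww
      have hqq : q = q' := Subtype.ext (ur_prime_unique L q.1 q'.1 w hw hw')
      subst hqq
      rfl
    · rintro ⟨w, ⟨q, hq, hw⟩, hst⟩
      exact ⟨⟨⟨q, hq⟩, ⟨⟨w, hw⟩, hst⟩⟩, rfl⟩)

/-- **BRIDGE**, finite part. -/
theorem card_fixF (S : Finset Nat.Primes) (b : GalL L) :
    Nat.card (fixF S L b) = ∑ q ∈ S, Nat.card {x : GalL L ⧸ decL L q // b • x = x} := by
  haveI : ∀ q : ↥S, Finite {w : PrimesOver L q.1 // IsStable L b w.1} := fun q => by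
    haveI := finite_primesOver L q.1
    infer_instance
  rw [← Nat.card_congr (fixFEquiv L S b), Nat.card_sigma,
    ← Finset.sum_coe_sort S (fun q => Nat.card {x : GalL L ⧸ decL L q // b • x = x})]
  refine Finset.sum_congr rfl (fun q _ => ?_)
  exact (card_fixed_decL L q.1 b).symm

end Fermat.Agent.S56.EC.H31
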