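import Fermat.Agent.S56.EC.Defs_KD
import Fermat.Agent.S56.EC.H47_IndProj

set_option autoImplicit false
set_option linter.style.haveILetI false
set_option linter.unusedSectionVars false

/-!
# Cluster T / S56, GW-CORE, package EC: Higman's criterion in norm form (helper47)

Pure algebra, generic field `k` and finite group `G`.  Let `(V, ρ)` be a representation with an
endomorphism `s₀` whose trace over `G` is the identity, `∑ g, ρ g ∘ s₀ ∘ ρ g⁻¹ = id`
(`V` is a projective `k[G]`-module; for `V` induced from a subgroup of order invertible in `k`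
see `H47.exists_relProj`, `EC/H47_IndProj.lean`), `ω : G →* kˣ` a character, `D ≤ G` ANY subgroup.
Then with `N_D = ∑_{d ∈ D} ω(d)⁻¹ ρ(d)`:

* `eigSub_eq_range`     : `{v | ρ d v = ω d • v ∀ d ∈ D} = range N_D`;
* `dualFixSub_eq_range` : `{φ ∈ V* | ω d • ρ.dual d φ = φ ∀ d ∈ D} = range N_Dᵀ`;
* `higman`              : the two spaces have the same dimension.

Bridge to `EC/Defs_KD.lean`: `higman_dualTwist` (`k = ZMod p`, `G = Gal(L/ℚ)`, `ω = omegaL`):
`dim {v | ρ d v = ω d • v ∀ d ∈ D} = dim fixedSub D (dualTwistOp p L ρ)`;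
`higman_induced`: the same for `V` induced from a subgroup `B` with `p ∤ #B`.
-/

noncomputable section

namespace Fermat.Agent.S56.EC.H47

open Fermat.Agent.S56 Module
open scoped Classical

section Higman

variable {k : Type} [Field k] {G : Type} [Group G]
variable {V : Type} [AddCommGroup V] [Module k V]

section defs

variable (ρ : Representation k G V) (ω : G →* kˣ)

/-- The `ω`-eigenvectors of `D`: `ρ d v = ω d • v` for all `d ∈ D`. -/
def eigSub (D : Set G) : Submodule k V where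
  carrier := {v | ∀ d ∈ D, ρ d v = ((ω d : kˣ) : k) • v}
  add_mem' := fun {x y} hx hy d hd => by rw [map_add, hx d hd, hy d hd, smul_add]
  zero_mem' := fun d _ => by rw [map_zero, smul_zero]
  smul_mem' := fun c x hx d hd => by rw [map_smul, hx d hd, smul_comm]

/-- The vectors of the dual fixed by the Tate-twisted dual operators `ω d • ρ.dual d`,
`d ∈ D`. -/
def dualFixSub (D : Set G) : Submodule k (Module.Dual k V) where
  carrier := {φ | ∀ d ∈ D, ((ω d : kˣ) : k) • ρ.dual d φ = φ}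
  add_mem' := fun {x y} hx hy d hd => by rw [map_add, smul_add, hx d hd, hy d hd]
  zero_mem' := fun d _ => by rw [map_zero, smul_zero]
  smul_mem' := fun c x hx d hd => by rw [map_smul, smul_comm, hx d hd]

theorem mem_eigSub {D : Set G} {v : V} :
    v ∈ eigSub ρ ω D ↔ ∀ d ∈ D, ρ d v = ((ω d : kˣ) : k) • v := Iff.rfl

theorem mem_dualFixSub {D : Set G} {φ : Module.Dual k V} :
    φ ∈ dualFixSub ρ ω D ↔ ∀ d ∈ D, ((ω d : kˣ) : k) • ρ.dual d φ = φ := Iff.rfl

/-- The twisted operators `ω(g)⁻¹ ρ(g)`. -/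
def tw (g : G) : V →ₗ[k] V := (((ω g)⁻¹ : kˣ) : k) • ρ g

theorem tw_apply (g : G) (v : V) : tw ρ ω g v = (((ω g)⁻¹ : kˣ) : k) • ρ g v := rfl

theorem tw_mul (a b : G) : tw ρ ω (a * b) = tw ρ ω a ∘ₗ tw ρ ω b := by
  apply LinearMap.ext
  intro v
  rw [LinearMap.comp_apply, tw_apply, tw_apply, tw_apply, map_smul, smul_smul,
    show ρ (a * b) v = ρ a (ρ b v) by rw [map_mul, Module.End.mul_apply],
    show (ω (a * b))⁻¹ = (ω a)⁻¹ * (ω b)⁻¹ by rw [map_mul, mul_inv], Units.val_mul]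

theorem tw_one : tw ρ ω 1 = LinearMap.id := by
  apply LinearMap.ext
  intro v
  rw [tw_apply, map_one, map_one, inv_one, Units.val_one, one_smul]
  rfl

theorem tw_inv_tw (g : G) (v : V) : tw ρ ω g⁻¹ (tw ρ ω g v) = v := by
  rw [← LinearMap.comp_apply, ← tw_mul, inv_mul_cancel, tw_one]
  rfl

theorem rho_eq_smul_tw (g : G) (v : V) : ρ g v = ((ω g : kˣ) : k) • tw ρ ω g v := by
  rw [tw_apply, smul_smul, ← Units.val_mul, mul_inv_cancel, Units.val_one, one_smul]

/-- Conjugation by `tw` is conjugation by `ρ`. -/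
theorem tw_conj (g : G) (s : V →ₗ[k] V) (v : V) :
    tw ρ ω g⁻¹ (s (tw ρ ω g v)) = ρ g⁻¹ (s (ρ g v)) := by
  rw [tw_apply, tw_apply, map_smul, map_smul, smul_smul, ← Units.val_mul,
    show (ω g⁻¹)⁻¹ * (ω g)⁻¹ = 1 by rw [map_inv, inv_inv, mul_inv_cancel],
    Units.val_one, one_smul]

theorem mem_eigSub_iff_tw {D : Set G} {v : V} :
    v ∈ eigSub ρ ω D ↔ ∀ d ∈ D, tw ρ ω d v = v := by
  constructor
  · intro h d hd
    rw [tw_apply, h d hd, smul_smul, ← Units.val_mul, inv_mul_cancel, Units.val_one, one_smul]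
  · intro h d hd
    rw [rho_eq_smul_tw ρ ω d v, h d hd]

theorem dual_smul_eq (g : G) (φ : Module.Dual k V) :
    ((ω g : kˣ) : k) • ρ.dual g φ = φ ∘ₗ tw ρ ω g⁻¹ := by
  apply LinearMap.ext
  intro v
  rw [LinearMap.smul_apply, Representation.dual_apply, Module.Dual.transpose_apply,
    LinearMap.comp_apply, LinearMap.comp_apply, tw_apply, map_smul,
    show (ω g⁻¹)⁻¹ = ω g by rw [map_inv, inv_inv]]

theorem mem_dualFixSub_iff_tw {D : Subgroup G} {φ : Module.Dual k V} :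
    φ ∈ dualFixSub ρ ω (D : Set G) ↔ ∀ d ∈ D, φ ∘ₗ tw ρ ω d = φ := by
  constructor
  · intro h d hd
    have h1 := h d⁻¹ (D.inv_mem hd)
    rw [dual_smul_eq, inv_inv] at h1
    exact h1
  · intro h d hd
    rw [dual_smul_eq]
    exact h d⁻¹ (D.inv_mem hd)

end defs

variable [Fintype G]
variable (ρ : Representation k G V) (ω : G →* kˣ) (D : Subgroup G)

/-- The twisted norm `N_D = ∑_{d ∈ D} ω(d)⁻¹ ρ(d)`. -/
def normD : V →ₗ[k] V := ∑ d : D, tw ρ ω (d : G)

theorem normD_apply (v : V) : normD ρ ω D v = ∑ d : D, tw ρ ω (d : G) v := by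
  simp [normD]

theorem tw_normD {d : G} (hd : d ∈ D) (v : V) : tw ρ ω d (normD ρ ω D v) = normD ρ ω D v := by
  rw [normD_apply, map_sum]
  refine Fintype.sum_equiv (Equiv.mulLeft (⟨d, hd⟩ : D)) _ _ (fun x => ?_)
  rw [← LinearMap.comp_apply, ← tw_mul]
  rfl

theorem normD_tw {d : G} (hd : d ∈ D) (v : V) : normD ρ ω D (tw ρ ω d v) = normD ρ ω D v := by
  rw [normD_apply, normD_apply]
  refine Fintype.sum_equiv (Equiv.mulRight (⟨d, hd⟩ : D)) _ _ (fun x => ?_)
  rw [← LinearMap.comp_apply, ← tw_mul]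
  rfl

/-- The relative trace of `s₀` from the trivial group to the cosets of `D`. -/
def sD (s₀ : V →ₗ[k] V) : V →ₗ[k] V :=
  ∑ r : G ⧸ D, (ρ (Quotient.out r)⁻¹ ∘ₗ s₀) ∘ₗ ρ (Quotient.out r)

theorem sD_apply (s₀ : V →ₗ[k] V) (v : V) :
    sD ρ D s₀ v = ∑ r : G ⧸ D, ρ (Quotient.out r)⁻¹ (s₀ (ρ (Quotient.out r) v)) := by
  simp [sD]

/-- `(r, d) ↦ out r * d` is a bijection `G/D × D → G`. -/
theorem bijective_out_mul :
    Function.Bijective (fun x : (G ⧸ D) × D => Quotient.out x.1 * (x.2 : G)) := by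
  constructor
  · rintro ⟨r, d⟩ ⟨r', d'⟩ h
    have h' : Quotient.out r * (d : G) = Quotient.out r' * (d' : G) := h
    have h1 : ((Quotient.out r * (d : G) : G) : G ⧸ D) = r := by
      rw [QuotientGroup.mk_mul_of_mem _ d.2]
      exact QuotientGroup.out_eq' r
    have h2 : ((Quotient.out r' * (d' : G) : G) : G ⧸ D) = r' := by
      rw [QuotientGroup.mk_mul_of_mem _ d'.2]
      exact QuotientGroup.out_eq' r'
    have h3 : r = r' := by rw [← h1, ← h2, h']
    subst h3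
    have h4 : (d : G) = (d' : G) := mul_left_cancel h'
    rw [Subtype.ext h4]
  · intro g
    refine ⟨((g : G ⧸ D), ⟨(Quotient.out (g : G ⧸ D))⁻¹ * g, ?_⟩), ?_⟩
    · rw [← QuotientGroup.eq]
      exact QuotientGroup.out_eq' _
    · show Quotient.out (g : G ⧸ D) * ((Quotient.out (g : G ⧸ D))⁻¹ * g) = g
      rw [mul_inv_cancel_left]

variable {ρ}

/-- The trace of `sD` over `D` is the trace of `s₀` over `G`. -/
theorem sum_conj_sD {s₀ : V →ₗ[k] V} (hs₀ : ∀ v, ∑ g : G, ρ g (s₀ (ρ g⁻¹ v)) = v) (v : V) :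
    ∑ d : D, ρ (d : G)⁻¹ (sD ρ D s₀ (ρ (d : G) v)) = v := by
  have h1 : ∀ d : D, ρ (d : G)⁻¹ (sD ρ D s₀ (ρ (d : G) v)) =
      ∑ r : G ⧸ D, ρ (Quotient.out r * (d : G))⁻¹ (s₀ (ρ (Quotient.out r * (d : G)) v)) := by
    intro d
    rw [sD_apply, map_sum]
    refine Finset.sum_congr rfl (fun r _ => ?_)
    rw [mul_inv_rev, map_mul, map_mul, Module.End.mul_apply, Module.End.mul_apply]
  rw [Finset.sum_congr rfl (fun d _ => h1 d), Finset.sum_comm, ← Finset.sum_product',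
    Finset.univ_product_univ]
  have h2 : ∑ x : (G ⧸ D) × D, ρ (Quotient.out x.1 * (x.2 : G))⁻¹
        (s₀ (ρ (Quotient.out x.1 * (x.2 : G)) v)) = ∑ g : G, ρ g⁻¹ (s₀ (ρ g v)) :=
    Fintype.sum_bijective _ (bijective_out_mul D) _ _ (fun _ => rfl)
  rw [h2]
  have h3 : ∑ g : G, ρ g⁻¹ (s₀ (ρ g v)) = ∑ g : G, ρ g (s₀ (ρ g⁻¹ v)) :=
    Fintype.sum_equiv (Equiv.inv G) _ _ (fun g => by
      show ρ g⁻¹ (s₀ (ρ g v)) = ρ g⁻¹ (s₀ (ρ g⁻¹⁻¹ v))
      rw [inv_inv])
  rw [h3, hs₀]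

/-- The same for the twisted operators. -/
theorem sum_tw_conj_sD {s₀ : V →ₗ[k] V} (hs₀ : ∀ v, ∑ g : G, ρ g (s₀ (ρ g⁻¹ v)) = v) (v : V) :
    ∑ d : D, tw ρ ω (d : G)⁻¹ (sD ρ D s₀ (tw ρ ω (d : G) v)) = v := by
  have h1 : ∀ d : D, tw ρ ω (d : G)⁻¹ (sD ρ D s₀ (tw ρ ω (d : G) v)) =
      ρ (d : G)⁻¹ (sD ρ D s₀ (ρ (d : G) v)) := fun d => tw_conj ρ ω (d : G) (sD ρ D s₀) v
  rw [Finset.sum_congr rfl (fun d _ => h1 d)]
  exact sum_conj_sD D hs₀ v

/-- The `ω`-eigenvectors of `D` are the image of the twisted norm. -/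
theorem eigSub_eq_range {s₀ : V →ₗ[k] V} (hs₀ : ∀ v, ∑ g : G, ρ g (s₀ (ρ g⁻¹ v)) = v) :
    eigSub ρ ω (D : Set G) = LinearMap.range (normD ρ ω D) := by
  apply le_antisymm
  · intro v hv
    rw [mem_eigSub_iff_tw] at hv
    refine ⟨sD ρ D s₀ v, ?_⟩
    have h1 := sum_tw_conj_sD ω D hs₀ v
    rw [normD_apply]
    refine Eq.trans ?_ h1
    refine Fintype.sum_equiv (Equiv.inv D) _ _ (fun d => ?_)
    show tw ρ ω (d : G) (sD ρ D s₀ v) =
      tw ρ ω ((d : G)⁻¹)⁻¹ (sD ρ D s₀ (tw ρ ω ((d : G)⁻¹) v))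
    rw [hv ((d : G)⁻¹) (D.inv_mem d.2), inv_inv]
  · rintro _ ⟨u, rfl⟩
    rw [mem_eigSub_iff_tw]
    intro d hd
    exact tw_normD ρ ω D hd u

/-- The fixed vectors of the Tate-twisted dual are the image of the transpose of the twisted
norm. -/
theorem dualFixSub_eq_range {s₀ : V →ₗ[k] V} (hs₀ : ∀ v, ∑ g : G, ρ g (s₀ (ρ g⁻¹ v)) = v) :
    dualFixSub ρ ω (D : Set G) = LinearMap.range (normD ρ ω D).dualMap := by
  apply le_antisymm
  · intro φ hφ
    rw [mem_dualFixSub_iff_tw] at hφ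
    refine ⟨φ ∘ₗ sD ρ D s₀, ?_⟩
    apply LinearMap.ext
    intro v
    rw [LinearMap.dualMap_apply, LinearMap.comp_apply, normD_apply, map_sum, map_sum]
    have h1 := sum_tw_conj_sD ω D hs₀ v
    conv_rhs => rw [← h1]
    rw [map_sum]
    refine Finset.sum_congr rfl (fun d _ => ?_)
    have h2 := LinearMap.congr_fun (hφ ((d : G)⁻¹) (D.inv_mem d.2))
      (sD ρ D s₀ (tw ρ ω (d : G) v))
    rw [LinearMap.comp_apply] at h2
    rw [h2]
  · rintro _ ⟨ψ, rfl⟩
    rw [mem_dualFixSub_iff_tw]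
    intro d hd
    apply LinearMap.ext
    intro v
    rw [LinearMap.comp_apply, LinearMap.dualMap_apply, LinearMap.dualMap_apply,
      normD_tw ρ ω D hd v]

/-- **Higman's criterion, norm form**: on a projective module the `ω`-eigenspace of any
subgroup `D` and the fixed space of the Tate-twisted dual have the same dimension. -/
theorem higman [FiniteDimensional k V] {s₀ : V →ₗ[k] V}
    (hs₀ : ∀ v, ∑ g : G, ρ g (s₀ (ρ g⁻¹ v)) = v) :
    finrank k (eigSub ρ ω (D : Set G)) = finrank k (dualFixSub ρ ω (D : Set G)) := by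
  rw [eigSub_eq_range ω D hs₀, dualFixSub_eq_range ω D hs₀,
    LinearMap.finrank_range_dualMap_eq_finrank_range]

end Higman

/-! ### Bridge to `EC/Defs_KD.lean` -/

section Bridge

variable {p : ℕ} [Fact p.Prime] {S : Finset Nat.Primes}
  {L : IntermediateField ℚ (AlgebraicClosure ℚ)} [Normal ℚ L]

/-- On a Galois level `omegaL` is a character of `Gal(L/ℚ)`. -/
def omegaHom (hL : IsGalLevel p S L) : GalL L →* (ZMod p)ˣ :=
  MonoidHom.mk' (omegaL p L) (fun a b => by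
    obtain ⟨g, rfl⟩ := resL_surjective L a
    obtain ⟨g', rfl⟩ := resL_surjective L b
    rw [← map_mul, omegaL_resL hL, omegaL_resL hL, omegaL_resL hL, map_mul])

theorem omegaHom_apply (hL : IsGalLevel p S L) (b : GalL L) :
    omegaHom hL b = omegaL p L b := rfl

/-- `dualFixSub` for `omegaL` is `fixedSub` of `dualTwistOp`. -/
theorem dualFixSub_eq_fixedSub (hL : IsGalLevel p S L) {V : Type} [AddCommGroup V]
    [Module (ZMod p) V] (ρ : Representation (ZMod p) (GalL L) V) (D : Set (GalL L)) :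
    dualFixSub ρ (omegaHom hL) D = fixedSub p D (dualTwistOp p L ρ) := rfl

/-- **Higman, for `Defs_KD`**: if `V` is projective (witness `s₀`), then for every subgroup
`D` of `Gal(L/ℚ)` the `ω`-eigenspace of `D` in `V` has the dimension of the `D`-invariants of
the Tate dual. -/
theorem higman_dualTwist (hL : IsGalLevel p S L) [FiniteDimensional ℚ L] {V : Type}
    [AddCommGroup V] [Module (ZMod p) V] [FiniteDimensional (ZMod p) V]
    (ρ : Representation (ZMod p) (GalL L) V) (D : Subgroup (GalL L)) {s₀ : V →ₗ[ZMod p] V}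
    (hs₀ : ∀ [Fintype (GalL L)], ∀ v, ∑ g : GalL L, ρ g (s₀ (ρ g⁻¹ v)) = v) :
    finrank (ZMod p) (eigSub ρ (omegaHom hL) (D : Set (GalL L))) =
      finrank (ZMod p) (fixedSub p (D : Set (GalL L)) (dualTwistOp p L ρ)) := by
  haveI : Finite (GalL L) := inferInstance
  letI : Fintype (GalL L) := Fintype.ofFinite _
  rw [← dualFixSub_eq_fixedSub hL ρ (D : Set (GalL L))]
  exact higman (omegaHom hL) D (fun v => hs₀ v)

/-- **Higman for induced modules**: `V = Ind_B^G W`, `p ∤ #B`, `D ≤ Gal(L/ℚ)` any subgroup. -/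
theorem higman_induced (hL : IsGalLevel p S L) [FiniteDimensional ℚ L] {V : Type}
    [AddCommGroup V] [Module (ZMod p) V] [FiniteDimensional (ZMod p) V]
    (ρ : Representation (ZMod p) (GalL L) V) (B : Subgroup (GalL L)) (W : Submodule (ZMod p) V)
    (hB : ¬ p ∣ Nat.card B) (h : IND.IsInducedFrom ρ B W) (D : Subgroup (GalL L)) :
    finrank (ZMod p) (eigSub ρ (omegaHom hL) (D : Set (GalL L))) =
      finrank (ZMod p) (fixedSub p (D : Set (GalL L)) (dualTwistOp p L ρ)) := by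
  haveI : Finite (GalL L) := inferInstance
  have hB' : ((Nat.card B : ℕ) : ZMod p) ≠ 0 := fun h0 =>
    hB ((ZMod.natCast_eq_zero_iff _ _).1 h0)
  obtain ⟨s₀, hs₀⟩ := exists_relProj ρ B W h hB'
  exact higman_dualTwist hL ρ D (fun v => hs₀ v)

end Bridge

end Fermat.Agent.S56.EC.H47

end
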