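/-
S56 / GW-CORE, package EC, leaf COMPL (helper4), part 1: additive functions on short exact
sequences, and `f (Fun(G, U)) = dim U · f (k[G])`.
-/
import Fermat.Agent.S56.IND.Defs

set_option autoImplicit false

noncomputable section

namespace Fermat.Agent.S56.EC.H4

open Fermat.Agent.S56.IND Module

variable {k : Type} [Field k] {G : Type} [Group G]

/-! ### Generalities on additive functions -/

section additive

variable {f : Rep.{0} k G → ℤ} (hf : IsAdditiveFn k G f)

include hf

/-- An additive function vanishes on the zero representations. -/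
lemma f_eq_zero_of_subsingleton {V : Type} [AddCommGroup V] [Module k V] [Subsingleton V]
    (ρ : Representation k G V) : f (Rep.of ρ) = 0 := by
  have hst : ∀ g, (⊥ : Submodule k V) ≤ (⊥ : Submodule k V).comap (ρ g) := fun g => bot_le
  have h1 := hf.add ρ ⊥ hst
  have h2 : f (Rep.of ρ) = f (Rep.of (ρ.subrepresentation ⊥ hst)) := by
    refine hf.iso ρ (ρ.subrepresentation ⊥ hst) ⟨⟨⟨fun _ => 0, ?_⟩, ?_⟩, fun _ => 0, ?_, ?_⟩ ?_
    · intro x y; simp
    · intro c x; simp
    · intro x; exact Subsingleton.elim _ _
    · intro x; exact Subsingleton.elim _ _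
    · intro g v; exact Subsingleton.elim _ _
  have h3 : f (Rep.of ρ) = f (Rep.of (ρ.quotient ⊥ hst)) := by
    refine hf.iso ρ (ρ.quotient ⊥ hst) ⟨⟨⟨fun _ => 0, ?_⟩, ?_⟩, fun _ => 0, ?_, ?_⟩ ?_
    · intro x y; simp
    · intro c x; simp
    · intro x; exact Subsingleton.elim _ _
    · intro x; exact Subsingleton.elim _ _
    · intro g v; exact Subsingleton.elim _ _
  rw [← h2, ← h3] at h1
  linarith

/-- Additivity on short exact sequences. -/
lemma f_ses {V₁ V V₂ : Type} [AddCommGroup V₁] [Module k V₁] [AddCommGroup V] [Module k V]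
    [AddCommGroup V₂] [Module k V₂] [FiniteDimensional k V]
    (ρ₁ : Representation k G V₁) (ρ : Representation k G V) (ρ₂ : Representation k G V₂)
    (i : V₁ →ₗ[k] V) (π : V →ₗ[k] V₂) (hi : Function.Injective i) (hπ : Function.Surjective π)
    (hex : LinearMap.range i = LinearMap.ker π)
    (hic : ∀ g v, i (ρ₁ g v) = ρ g (i v)) (hπc : ∀ g v, π (ρ g v) = ρ₂ g (π v)) :
    f (Rep.of ρ) = f (Rep.of ρ₁) + f (Rep.of ρ₂) := by
  have hst : ∀ g, LinearMap.ker π ≤ (LinearMap.ker π).comap (ρ g) := by
    intro g v hv
    rw [Submodule.mem_comap, LinearMap.mem_ker, hπc, LinearMap.mem_ker.1 hv, map_zero]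
  have h1 := hf.add ρ (LinearMap.ker π) hst
  have h2 : f (Rep.of (ρ.subrepresentation (LinearMap.ker π) hst)) = f (Rep.of ρ₁) := by
    let e : V₁ ≃ₗ[k] LinearMap.ker π :=
      (LinearEquiv.ofInjective i hi).trans (LinearEquiv.ofEq _ _ hex)
    have he : ∀ v, ((e v : LinearMap.ker π) : V) = i v := fun v => rfl
    refine hf.iso _ _ e.symm ?_
    intro g w
    apply hi
    rw [hic, ← he, ← he, LinearEquiv.apply_symm_apply, LinearEquiv.apply_symm_apply]
    rfl
  have h3 : f (Rep.of (ρ.quotient (LinearMap.ker π) hst)) = f (Rep.of ρ₂) := by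
    refine hf.iso _ _ (π.quotKerEquivOfSurjective hπ) ?_
    intro g v
    obtain ⟨v, rfl⟩ := Submodule.Quotient.mk_surjective _ v
    exact hπc g v
  rw [h1, h2, h3]

end additive

/-! ### The representation on functions `G → U` -/

/-- The representation of `G` on the functions `G → U`: `(g • φ) x = φ (g⁻¹ * x)`. -/
def funRep (k : Type) [Field k] (G : Type) [Group G] (U : Type) [AddCommGroup U] [Module k U] :
    Representation k G (G → U) where
  toFun g :=
    { toFun := fun φ x => φ (g⁻¹ * x)
      map_add' := fun _ _ => rfl
      map_smul' := fun _ _ => rfl }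
  map_one' := by
    ext φ x
    simp
  map_mul' g h := by
    ext φ x
    simp [mul_assoc]

@[simp] lemma funRep_apply {U : Type} [AddCommGroup U] [Module k U] (g : G) (φ : G → U) (x : G) :
    funRep k G U g φ x = φ (g⁻¹ * x) := rfl

section funRep

variable [Finite G] {f : Rep.{0} k G → ℤ} (hf : IsAdditiveFn k G f)

include hf

/-- `f (Fun(G, U)) = dim U · f (k[G])`. -/
lemma f_funRep : ∀ (n : ℕ) (U : Type) [AddCommGroup U] [Module k U] [FiniteDimensional k U],
    finrank k U = n →
    f (Rep.of (funRep k G U)) = n * f (Rep.of (permRep k G G)) := by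
  intro n
  induction n with
  | zero =>
    intro U _ _ _ hU
    have : Subsingleton U := Module.finrank_zero_iff.1 hU
    rw [f_eq_zero_of_subsingleton hf]
    simp
  | succ n ih =>
    intro U _ _ _ hU
    have hpos : 0 < finrank k U := by omega
    obtain ⟨u, hu⟩ := Module.finrank_pos_iff_exists_ne_zero.1 hpos
    -- the exact sequence `0 → Fun(G, k) → Fun(G, U) → Fun(G, U / k u) → 0`
    let L : Submodule k U := k ∙ u
    let i : (G → k) →ₗ[k] (G → U) := (LinearMap.toSpanSingleton k U u).compLeft G
    let π : (G → U) →ₗ[k] (G → U ⧸ L) := (L.mkQ).compLeft G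
    have hi : Function.Injective i := by
      intro a b hab
      funext x
      have := congrFun hab x
      simp only [i, LinearMap.compLeft_apply, Function.comp_apply,
        LinearMap.toSpanSingleton_apply] at this
      exact smul_left_injective k hu this
    have hπ : Function.Surjective π := by
      intro ψ
      refine ⟨fun x => (Submodule.Quotient.mk_surjective L (ψ x)).choose, ?_⟩
      funext x
      exact (Submodule.Quotient.mk_surjective L (ψ x)).choose_spec
    have hex : LinearMap.range i = LinearMap.ker π := by
      ext φ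
      simp only [LinearMap.mem_range, LinearMap.mem_ker]
      constructor
      · rintro ⟨a, rfl⟩
        funext x
        simp only [π, i, LinearMap.compLeft_apply, Function.comp_apply,
          LinearMap.toSpanSingleton_apply, Submodule.mkQ_apply, Pi.zero_apply,
          Submodule.Quotient.mk_eq_zero]
        exact Submodule.smul_mem _ _ (Submodule.mem_span_singleton_self u)
      · intro h
        have h' : ∀ x, φ x ∈ L := by
          intro x
          have := congrFun h x
          simpa [π] using this
        refine ⟨fun x => (Submodule.mem_span_singleton.1 (h' x)).choose, ?_⟩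
        funext x
        exact (Submodule.mem_span_singleton.1 (h' x)).choose_spec
    have hdim : finrank k (U ⧸ L) = n := by
      have h1 := Submodule.finrank_quotient_add_finrank L
      have h2 : finrank k L = 1 := finrank_span_singleton hu
      omega
    have h1 := f_ses hf (funRep k G k) (funRep k G U) (funRep k G (U ⧸ L)) i π hi hπ hex
      (fun g v => rfl) (fun g v => rfl)
    have h2 := ih (U ⧸ L) hdim
    have h3 : f (Rep.of (funRep k G k)) = f (Rep.of (permRep k G G)) :=
      hf.iso _ _ (LinearEquiv.refl k (G → k)) (fun g v => rfl)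
    rw [h1, h2, h3]
    push_cast
    ring

end funRep

end Fermat.Agent.S56.EC.H4
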