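/-
S56 / GW-CORE, package EC, sub-package DESC, leaf DA (helper54): `stmt_DA : Stmt_DA`.

The five-term sequence of `G_{S'} → G_S` in cochain form, as a dimension count:
`0 → H¹_S → H¹_{S'} → Ẽ → H²_S → H²_{S'} → Cok → 0` is exact, hence
`h¹_{S'} + h²_S + dim Cok = h¹_S + h²_{S'} + dim Ẽ`.
-/
import Fermat.Agent.S56.EC.Defs_DESC
import Fermat.Agent.S56.EC.H92_LES

set_option autoImplicit false
set_option linter.unusedSectionVars false
set_option linter.style.haveILetI false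
set_option linter.unusedVariables false

noncomputable section

namespace Fermat.Agent.S56.EC.DESC.H54

open CategoryTheory groupCohomology ExtCitation Module Fermat.Agent.S55
  Fermat.Agent.S56.H92.Snake Fermat.Agent.S56.H92.LES

variable {k : Type} [Field k] {S S' : Finset Nat.Primes} (N : Rep.{0} k GQ)
  (hSS : S ⊆ S') (hN : Lev S N) (hN' : Lev S' N)

/-! ### The level-`T` cohomology in terms of functions -/

section mk

variable (T : Finset Nat.Primes) (hT : Lev T N)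

/-- The class in `H¹_T` of a level-`T` cocycle. -/
def mkH1 (f : GQ → N) (hf : IsLevelConstantS₁ T f) (hd : dOne N f = 0) :
    Hmid (d0 T N hT) (d1 T N hT) :=
  Hmid.mk _ _ ⟨⟨f, hf⟩, LinearMap.mem_ker.2 (Subtype.ext hd)⟩

theorem exists_mkH1 (x : Hmid (d0 T N hT) (d1 T N hT)) :
    ∃ (f : GQ → N) (hf : IsLevelConstantS₁ T f) (hd : dOne N f = 0), mkH1 N T hT f hf hd = x := by
  obtain ⟨z, rfl⟩ := Hmid.mk_surjective _ _ x
  exact ⟨_, (z : ↥(levelCochainsS₁ T N)).2, congrArg Subtype.val (LinearMap.mem_ker.1 z.2), rfl⟩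

theorem mkH1_eq_zero_iff (f : GQ → N) (hf : IsLevelConstantS₁ T f) (hd : dOne N f = 0) :
    mkH1 N T hT f hf hd = 0 ↔ ∃ m : N, dZero N m = f := by
  unfold mkH1
  rw [Hmid.mk_eq_zero_iff]
  constructor
  · rintro ⟨m, hm⟩
    exact ⟨m, congrArg Subtype.val hm⟩
  · rintro ⟨m, hm⟩
    exact ⟨m, Subtype.ext hm⟩

/-- The class in `H²_T` of a level-`T` 2-cocycle. -/
def mkH2 (a : GQ × GQ → N) (ha : IsLevelConstantS₂ T a) (hd : dTwo N a = 0) :
    Hmid (d1 T N hT) (d2 T N) :=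
  Hmid.mk _ _ ⟨⟨a, ha⟩, LinearMap.mem_ker.2 hd⟩

theorem exists_mkH2 (x : Hmid (d1 T N hT) (d2 T N)) :
    ∃ (a : GQ × GQ → N) (ha : IsLevelConstantS₂ T a) (hd : dTwo N a = 0),
      mkH2 N T hT a ha hd = x := by
  obtain ⟨z, rfl⟩ := Hmid.mk_surjective _ _ x
  exact ⟨_, (z : ↥(levelCochainsS₂ T N)).2, LinearMap.mem_ker.1 z.2, rfl⟩

theorem mkH2_eq_zero_iff (a : GQ × GQ → N) (ha : IsLevelConstantS₂ T a) (hd : dTwo N a = 0) :
    mkH2 N T hT a ha hd = 0 ↔ ∃ f : GQ → N, IsLevelConstantS₁ T f ∧ dOne N f = a := by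
  unfold mkH2
  rw [Hmid.mk_eq_zero_iff]
  constructor
  · rintro ⟨f, hf⟩
    exact ⟨f, f.2, congrArg Subtype.val hf⟩
  · rintro ⟨f, hf, hfa⟩
    exact ⟨⟨f, hf⟩, Subtype.ext hfa⟩

end mk


/-! ### `Ẽ` and `Cok` in terms of functions -/

section mkE

/-- The class in `Ẽ` of a level-`S'` cochain whose coboundary has level `S`. -/
def mkE (f : GQ → N) (hf : IsLevelConstantS₁ S' f) (hd : IsLevelConstantS₂ S (dOne N f)) :
    Etil S S' N :=
  Submodule.Quotient.mk ⟨f, ⟨hf, hd⟩⟩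

theorem exists_mkE (x : Etil S S' N) :
    ∃ (f : GQ → N) (hf : IsLevelConstantS₁ S' f) (hd : IsLevelConstantS₂ S (dOne N f)),
      mkE N f hf hd = x := by
  obtain ⟨z, rfl⟩ := Submodule.Quotient.mk_surjective _ x
  exact ⟨_, z.2.1, z.2.2, rfl⟩

theorem mkE_eq_zero_iff (f : GQ → N) (hf : IsLevelConstantS₁ S' f)
    (hd : IsLevelConstantS₂ S (dOne N f)) :
    mkE N f hf hd = 0 ↔ IsLevelConstantS₁ S f := by
  unfold mkE
  rw [Submodule.Quotient.mk_eq_zero, Submodule.mem_comap]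
  rfl

/-- The class in `Cok` of a level-`S'` 2-cocycle. -/
def mkC (a : GQ × GQ → N) (ha : IsLevelConstantS₂ S' a) (hd : dTwo N a = 0) : Cok2 S S' N :=
  Submodule.Quotient.mk ⟨a, ⟨LinearMap.mem_ker.2 hd, ha⟩⟩

theorem exists_mkC (x : Cok2 S S' N) :
    ∃ (a : GQ × GQ → N) (ha : IsLevelConstantS₂ S' a) (hd : dTwo N a = 0),
      mkC (S := S) N a ha hd = x := by
  obtain ⟨z, rfl⟩ := Submodule.Quotient.mk_surjective _ x
  exact ⟨_, z.2.2, LinearMap.mem_ker.1 z.2.1, rfl⟩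

theorem mkC_eq_zero_iff (a : GQ × GQ → N) (ha : IsLevelConstantS₂ S' a) (hd : dTwo N a = 0) :
    mkC (S := S) N a ha hd = 0 ↔
      ∃ (f : GQ → N) (b : GQ × GQ → N), IsLevelConstantS₁ S' f ∧ IsLevelConstantS₂ S b ∧
        dTwo N b = 0 ∧ a = dOne N f + b := by
  unfold mkC
  rw [Submodule.Quotient.mk_eq_zero, Submodule.mem_comap]
  show a ∈ imZ2 S S' N ↔ _
  unfold imZ2
  rw [Submodule.mem_sup]
  constructor
  · rintro ⟨y, hy, z, hz, hyz⟩
    obtain ⟨f, hf, rfl⟩ := (mem_levelCoboundariesS₂_iff S' N y).1 hy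
    exact ⟨f, z, hf, hz.2, LinearMap.mem_ker.1 hz.1, hyz.symm⟩
  · rintro ⟨f, b, hf, hb, hdb, rfl⟩
    exact ⟨_, (mem_levelCoboundariesS₂_iff S' N _).2 ⟨f, hf, rfl⟩, b,
      ⟨LinearMap.mem_ker.2 hdb, hb⟩, rfl⟩

end mkE


/-! ### The maps of the five-term sequence -/

section maps

theorem levelConst₂_of_eq_zero (T : Finset Nat.Primes) (a : GQ × GQ → N) (ha : a = 0) :
    IsLevelConstantS₂ T a := by
  rw [ha]
  exact isLevelConstantS₂_const T (0 : N)

/-- `H¹_S → H¹_{S'}`. -/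
def a1 : Hmid (d0 S N hN) (d1 S N hN) →ₗ[k] Hmid (d0 S' N hN') (d1 S' N hN') :=
  Hmid.map LinearMap.id
    (Submodule.inclusion (fun f hf => IsLevelConstantS₁.mono hSS hf :
      levelCochainsS₁ S N ≤ levelCochainsS₁ S' N))
    (Submodule.inclusion (fun f hf => IsLevelConstantS₂.mono hSS hf :
      levelCochainsS₂ S N ≤ levelCochainsS₂ S' N))
    (fun _ => rfl) (fun _ => rfl)

theorem a1_mk (f : GQ → N) (hf : IsLevelConstantS₁ S f) (hd : dOne N f = 0) :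
    a1 N hSS hN hN' (mkH1 N S hN f hf hd) = mkH1 N S' hN' f (hf.mono hSS) hd :=
  Hmid.map_mk _ _ _ _ _ _ _ rfl

/-- `H²_S → H²_{S'}`. -/
def i2 : Hmid (d1 S N hN) (d2 S N) →ₗ[k] Hmid (d1 S' N hN') (d2 S' N) :=
  Hmid.map
    (Submodule.inclusion (fun f hf => IsLevelConstantS₁.mono hSS hf :
      levelCochainsS₁ S N ≤ levelCochainsS₁ S' N))
    (Submodule.inclusion (fun f hf => IsLevelConstantS₂.mono hSS hf :
      levelCochainsS₂ S N ≤ levelCochainsS₂ S' N))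
    LinearMap.id
    (fun _ => rfl) (fun _ => rfl)

theorem i2_mk (a : GQ × GQ → N) (ha : IsLevelConstantS₂ S a) (hd : dTwo N a = 0) :
    i2 N hSS hN hN' (mkH2 N S hN a ha hd) = mkH2 N S' hN' a (ha.mono hSS) hd :=
  Hmid.map_mk _ _ _ _ _ _ _ rfl

/-- `ker d¹_{S'} → Ẽ`. -/
def α₀ : ↥(LinearMap.ker (d1 S' N hN')) →ₗ[k] Etil S S' N :=
  (Submodule.mkQ _) ∘ₗ
    LinearMap.codRestrict (preE S S' N)
      ((levelCochainsS₁ S' N).subtype ∘ₗ (LinearMap.ker (d1 S' N hN')).subtype)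
      (fun z => ⟨(z : ↥(levelCochainsS₁ S' N)).2,
        levelConst₂_of_eq_zero N S _ (congrArg Subtype.val (LinearMap.mem_ker.1 z.2))⟩)

/-- `H¹_{S'} → Ẽ`. -/
def α : Hmid (d0 S' N hN') (d1 S' N hN') →ₗ[k] Etil S S' N :=
  Submodule.liftQ _ (α₀ (S := S) N hN') (fun z hz => by
    rw [Submodule.mem_comap] at hz
    obtain ⟨m, hm⟩ := hz
    rw [LinearMap.mem_ker]
    show Submodule.Quotient.mk _ = 0
    rw [Submodule.Quotient.mk_eq_zero, Submodule.mem_comap]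
    show IsLevelConstantS₁ S ((z : ↥(levelCochainsS₁ S' N)) : GQ → N)
    have h1 : ((z : ↥(levelCochainsS₁ S' N)) : GQ → N) = dZero N m :=
      (congrArg Subtype.val hm).symm
    rw [h1]
    exact isLevelConstantS₁_dZero N hN m)

theorem α_mk (f : GQ → N) (hf : IsLevelConstantS₁ S' f) (hd : dOne N f = 0) :
    α N hN hN' (mkH1 N S' hN' f hf hd) = mkE N f hf (levelConst₂_of_eq_zero N S _ hd) := rfl

/-- `preE → H²_S`. -/
def β₀ : ↥(preE S S' N) →ₗ[k] Hmid (d1 S N hN) (d2 S N) :=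
  (Hmid.mk _ _) ∘ₗ
    LinearMap.codRestrict (LinearMap.ker (d2 S N))
      (LinearMap.codRestrict (levelCochainsS₂ S N)
        ((d₁₂ N).hom ∘ₗ (preE S S' N).subtype) (fun z => z.2.2))
      (fun z => LinearMap.mem_ker.2 (dTwo_dOne N _))

/-- `Ẽ → H²_S`. -/
def β : Etil S S' N →ₗ[k] Hmid (d1 S N hN) (d2 S N) :=
  Submodule.liftQ _ (β₀ (S' := S') N hN) (fun z hz => by
    rw [Submodule.mem_comap] at hz
    rw [LinearMap.mem_ker]
    show Hmid.mk _ _ _ = 0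
    rw [Hmid.mk_eq_zero_iff]
    exact ⟨⟨_, hz⟩, rfl⟩)

theorem β_mk (f : GQ → N) (hf : IsLevelConstantS₁ S' f) (hd : IsLevelConstantS₂ S (dOne N f)) :
    β N hN (mkE N f hf hd) = mkH2 N S hN (dOne N f) hd (dTwo_dOne N f) := rfl

/-- `ker d²_{S'} → Cok`. -/
def π₀ : ↥(LinearMap.ker (d2 S' N)) →ₗ[k] Cok2 S S' N :=
  (Submodule.mkQ _) ∘ₗ (equivZ2 S' N : ↥(LinearMap.ker (d2 S' N)) →ₗ[k] ↥(levelCocyclesS₂ S' N))

/-- `H²_{S'} → Cok`. -/
def π : Hmid (d1 S' N hN') (d2 S' N) →ₗ[k] Cok2 S S' N :=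
  Submodule.liftQ _ (π₀ (S := S) N) (fun z hz => by
    rw [Submodule.mem_comap] at hz
    obtain ⟨f, hf⟩ := hz
    rw [LinearMap.mem_ker]
    show Submodule.Quotient.mk _ = 0
    rw [Submodule.Quotient.mk_eq_zero, Submodule.mem_comap]
    show ((z : ↥(levelCochainsS₂ S' N)) : GQ × GQ → N) ∈ imZ2 S S' N
    refine Submodule.mem_sup_left ((mem_levelCoboundariesS₂_iff S' N _).2 ⟨f, f.2, ?_⟩)
    exact congrArg Subtype.val hf)

theorem π_mk (a : GQ × GQ → N) (ha : IsLevelConstantS₂ S' a) (hd : dTwo N a = 0) :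
    π N hN' (mkH2 N S' hN' a ha hd) = mkC (S := S) N a ha hd := rfl

end maps


/-! ### Exactness -/

section exact

theorem lc1_sub (T : Finset Nat.Primes) {f g : GQ → N} (hf : IsLevelConstantS₁ T f)
    (hg : IsLevelConstantS₁ T g) : IsLevelConstantS₁ T (f - g) :=
  (levelCochainsS₁ T N).sub_mem hf hg

theorem lc1_add (T : Finset Nat.Primes) {f g : GQ → N} (hf : IsLevelConstantS₁ T f)
    (hg : IsLevelConstantS₁ T g) : IsLevelConstantS₁ T (f + g) :=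
  (levelCochainsS₁ T N).add_mem hf hg

theorem lc1_neg (T : Finset Nat.Primes) {f : GQ → N} (hf : IsLevelConstantS₁ T f) :
    IsLevelConstantS₁ T (- f) :=
  (levelCochainsS₁ T N).neg_mem hf

theorem lc2_sub (T : Finset Nat.Primes) {f g : GQ × GQ → N} (hf : IsLevelConstantS₂ T f)
    (hg : IsLevelConstantS₂ T g) : IsLevelConstantS₂ T (f - g) :=
  (levelCochainsS₂ T N).sub_mem hf hg

theorem mkE_eq_mkE (f f' : GQ → N) (hf : IsLevelConstantS₁ S' f)
    (hd : IsLevelConstantS₂ S (dOne N f)) (hf' : IsLevelConstantS₁ S' f')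
    (hd' : IsLevelConstantS₂ S (dOne N f')) (h : IsLevelConstantS₁ S (f - f')) :
    mkE N f hf hd = mkE N f' hf' hd' := by
  unfold mkE
  rw [Submodule.Quotient.eq, Submodule.mem_comap]
  exact h

theorem mkH2_eq_mkH2 (T : Finset Nat.Primes) (hT : Lev T N) (a a' : GQ × GQ → N)
    (ha : IsLevelConstantS₂ T a) (hd : dTwo N a = 0) (ha' : IsLevelConstantS₂ T a')
    (hd' : dTwo N a' = 0) (f : GQ → N) (hf : IsLevelConstantS₁ T f) (hfa : dOne N f = a - a') :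
    mkH2 N T hT a ha hd = mkH2 N T hT a' ha' hd' := by
  unfold mkH2
  rw [Hmid.mk_eq_mk_iff]
  exact ⟨⟨f, hf⟩, Subtype.ext hfa⟩

theorem a1_injective : Function.Injective (a1 N hSS hN hN') := by
  rw [injective_iff_map_eq_zero]
  intro u hu
  obtain ⟨f, hf, hd, rfl⟩ := exists_mkH1 N S hN u
  rw [a1_mk, mkH1_eq_zero_iff] at hu
  exact (mkH1_eq_zero_iff N S hN f hf hd).2 hu

theorem exact_H1 (v : Hmid (d0 S' N hN') (d1 S' N hN')) :
    α N hN hN' v = 0 ↔ ∃ u, a1 N hSS hN hN' u = v := by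
  obtain ⟨f, hf, hd, rfl⟩ := exists_mkH1 N S' hN' v
  rw [α_mk, mkE_eq_zero_iff]
  constructor
  · intro h
    exact ⟨mkH1 N S hN f h hd, a1_mk N hSS hN hN' f h hd⟩
  · rintro ⟨u, hu⟩
    obtain ⟨g, hg, hdg, rfl⟩ := exists_mkH1 N S hN u
    rw [a1_mk] at hu
    have h0 : mkH1 N S' hN' (f - g) (lc1_sub N S' hf (hg.mono hSS))
        (by rw [dOne_sub, hd, hdg, sub_self]) = 0 := by
      have h1 : mkH1 N S' hN' (f - g) (lc1_sub N S' hf (hg.mono hSS))
          (by rw [dOne_sub, hd, hdg, sub_self])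
          = mkH1 N S' hN' f hf hd - mkH1 N S' hN' g (hg.mono hSS) hdg := rfl
      rw [h1, hu, sub_self]
    obtain ⟨m, hm⟩ := (mkH1_eq_zero_iff N S' hN' _ _ _).1 h0
    have hfg : f = dZero N m + g := by rw [hm]; abel
    rw [hfg]
    exact lc1_add N S (isLevelConstantS₁_dZero N hN m) hg

include hSS in
theorem exact_E (e : Etil S S' N) :
    β N hN e = 0 ↔ ∃ v, α N hN hN' v = e := by
  obtain ⟨f, hf, hd, rfl⟩ := exists_mkE N e
  rw [β_mk, mkH2_eq_zero_iff]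
  constructor
  · rintro ⟨g, hg, hgf⟩
    refine ⟨mkH1 N S' hN' (f - g) (lc1_sub N S' hf (hg.mono hSS))
      (by rw [dOne_sub, hgf, sub_self]), ?_⟩
    rw [α_mk]
    refine mkE_eq_mkE N _ _ _ _ _ _ ?_
    have : f - g - f = - g := by abel
    rw [this]
    exact lc1_neg N S hg
  · rintro ⟨v, hv⟩
    obtain ⟨g, hg, hdg, rfl⟩ := exists_mkH1 N S' hN' v
    rw [α_mk] at hv
    have h0 : mkE N (f - g) (lc1_sub N S' hf hg)
        (by rw [dOne_sub, hdg, sub_zero]; exact hd) = 0 := by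
      have h1 : mkE N (f - g) (lc1_sub N S' hf hg)
          (by rw [dOne_sub, hdg, sub_zero]; exact hd)
          = mkE N f hf hd - mkE N g hg (levelConst₂_of_eq_zero N S _ hdg) := rfl
      rw [h1, hv, sub_self]
    have h2 := (mkE_eq_zero_iff N _ _ _).1 h0
    exact ⟨f - g, h2, by rw [dOne_sub, hdg, sub_zero]⟩

theorem exact_H2 (h : Hmid (d1 S N hN) (d2 S N)) :
    i2 N hSS hN hN' h = 0 ↔ ∃ e, β (S' := S') N hN e = h := by
  obtain ⟨a, ha, hd, rfl⟩ := exists_mkH2 N S hN h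
  rw [i2_mk, mkH2_eq_zero_iff]
  constructor
  · rintro ⟨f, hf, hfa⟩
    refine ⟨mkE N f hf (by rw [hfa]; exact ha), ?_⟩
    rw [β_mk]
    refine mkH2_eq_mkH2 N S hN _ _ _ _ _ _ 0 (isLevelConstantS₁_const S (0 : N)) ?_
    rw [hfa, sub_self]
    exact dOne_zero N
  · rintro ⟨e, he⟩
    obtain ⟨f, hf, hdf, rfl⟩ := exists_mkE N e
    rw [β_mk] at he
    have h0 : mkH2 N S hN (dOne N f - a) (lc2_sub N S hdf ha)
        (by rw [dTwo_sub, dTwo_dOne, hd, sub_self]) = 0 := by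
      have h1 : mkH2 N S hN (dOne N f - a) (lc2_sub N S hdf ha)
          (by rw [dTwo_sub, dTwo_dOne, hd, sub_self])
          = mkH2 N S hN (dOne N f) hdf (dTwo_dOne N f) - mkH2 N S hN a ha hd := rfl
      rw [h1, he, sub_self]
    obtain ⟨g, hg, hga⟩ := (mkH2_eq_zero_iff N S hN _ _ _).1 h0
    refine ⟨f - g, lc1_sub N S' hf (hg.mono hSS), ?_⟩
    rw [dOne_sub, hga]
    abel

theorem exact_H2' (h' : Hmid (d1 S' N hN') (d2 S' N)) :
    π (S := S) N hN' h' = 0 ↔ ∃ h, i2 N hSS hN hN' h = h' := by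
  obtain ⟨a, ha, hd, rfl⟩ := exists_mkH2 N S' hN' h'
  rw [π_mk, mkC_eq_zero_iff]
  constructor
  · rintro ⟨f, b, hf, hb, hdb, rfl⟩
    refine ⟨mkH2 N S hN b hb hdb, ?_⟩
    rw [i2_mk]
    refine mkH2_eq_mkH2 N S' hN' _ _ _ _ _ _ (- f) (lc1_neg N S' hf) ?_
    have h1 : dOne N (- f) = - dOne N f := by
      have := dOne_sub N 0 f
      rw [zero_sub, dOne_zero, zero_sub] at this
      exact this
    rw [h1]
    abel
  · rintro ⟨h, hh⟩
    obtain ⟨b, hb, hdb, rfl⟩ := exists_mkH2 N S hN h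
    rw [i2_mk] at hh
    have h0 : mkH2 N S' hN' (a - b) (lc2_sub N S' ha (hb.mono hSS))
        (by rw [dTwo_sub, hd, hdb, sub_self]) = 0 := by
      have h1 : mkH2 N S' hN' (a - b) (lc2_sub N S' ha (hb.mono hSS))
          (by rw [dTwo_sub, hd, hdb, sub_self])
          = mkH2 N S' hN' a ha hd - mkH2 N S' hN' b (hb.mono hSS) hdb := rfl
      rw [h1, hh, sub_self]
    obtain ⟨f, hf, hfa⟩ := (mkH2_eq_zero_iff N S' hN' _ _ _).1 h0
    exact ⟨f, b, hf, hb, hdb, by rw [hfa]; abel⟩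

theorem π_surjective : Function.Surjective (π (S := S) N hN') := by
  intro x
  obtain ⟨a, ha, hd, rfl⟩ := exists_mkC N x
  exact ⟨mkH2 N S' hN' a ha hd, π_mk N hN' a ha hd⟩

end exact


/-! ### The count -/

theorem count_aux (x1 x2 x3 x4 x5 x6 y1 y2 y3 y4 y5 X1 X2 X3 X4 : ℕ) (e1 : x1 = y1 + y2)
    (e2 : x5 = y2 + y3) (e3 : x3 = y3 + y4) (e4 : x4 = y4 + y5) (r1 : y1 = x2) (r5 : y5 = x6)
    (g1 : x1 = X1) (g2 : x2 = X2) (g3 : x3 = X3) (g4 : x4 = X4) :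
    X1 + X3 + x6 = X2 + X4 + x5 := by
  omega

/-- **Package DA.** -/
theorem stmt_DA : Stmt_DA := by
  intro k _ S S' N hSS hN hf1 hf2 hf2' hfE
  haveI := hf1
  haveI := hf2
  haveI := hf2'
  haveI := hfE
  have hN' : Lev S' N := by
    obtain ⟨F, hF, hfix⟩ := hN
    exact ⟨F, hF.mono hSS, hfix⟩
  haveI : Module.Finite k (Hmid (d0 S' N hN') (d1 S' N hN')) :=
    Module.Finite.equiv (equivH1 S' N hN').symm
  haveI : Module.Finite k (Hmid (d1 S N hN) (d2 S N)) :=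
    Module.Finite.equiv (equivH2 S N hN).symm
  haveI : Module.Finite k (Hmid (d1 S' N hN') (d2 S' N)) :=
    Module.Finite.equiv (equivH2 S' N hN').symm
  have e1 := finrank_eq_of_exact (a1 N hSS hN hN') (α N hN hN') (exact_H1 N hSS hN hN')
  have e2 := finrank_eq_of_exact (α N hN hN') (β (S' := S') N hN) (exact_E N hSS hN hN')
  have e3 := finrank_eq_of_exact (β (S' := S') N hN) (i2 N hSS hN hN') (exact_H2 N hSS hN hN')
  have e4 := finrank_eq_of_exact (i2 N hSS hN hN') (π (S := S) N hN') (exact_H2' N hSS hN hN')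
  have r1 := finrank_range_of_injective (a1 N hSS hN hN') (a1_injective N hSS hN hN')
  have r5 : finrank k (LinearMap.range (π (S := S) N hN')) = finrank k (Cok2 S S' N) := by
    rw [LinearMap.range_eq_top.2 (π_surjective N hN'), finrank_top]
  exact count_aux _ _ _ _ _ _ _ _ _ _ _ _ _ _ _ e1 e2 e3 e4 r1 r5
    (finrank_H1 S' N hN') (finrank_H1 S N hN) (finrank_H2 S N hN) (finrank_H2 S' N hN')

end Fermat.Agent.S56.EC.DESC.H54

end
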