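/-
S56 / GW-CORE / EC (helper64): the duality inputs of the EC plan, exported from the PT2 lane.
`GWC.Stmt_B1` (β¹ bijective) gives `Stmt_PT2ub`, `Stmt_PT2lb`, `Stmt_fin2p`:
`#H²_S(N) · #H⁰(N') = #Ш¹_S(N') · ∏_q #H⁰(ℚ_q, N')`.
-/
import Fermat.Agent.S56.EC.Defs
import Fermat.Agent.S56.GWC.H64_Glue
import Fermat.Agent.S56.GWC.H01_Cone1
import Fermat.Agent.S56.GWC.H46_DualCount

set_option autoImplicit false

open CategoryTheory Module groupCohomology ExtCitation

noncomputable section

namespace Fermat.Agent.S56.EC.H64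

open Fermat.Agent.S55 Fermat.Agent.S56 Fermat.Agent.S56.GWC Fermat.Agent.S56.EC

/-- Over `𝔽_p`, `cycloK` is `cycloChar`. -/
lemma cycloK_zmod (p : ℕ) [Fact p.Prime] : cycloK p (ZMod p) = cycloChar p := by
  ext g
  show (ZMod.castHom (dvd_refl p) (ZMod p)) ((cycloChar p g : (ZMod p)ˣ) : ZMod p) = _
  rw [ZMod.castHom_self]
  rfl

section card

variable {p : ℕ} [Fact p.Prime]

/-- `#V = p ^ dim V` for a finite `𝔽_p`-vector space. -/
lemma card_eq_pow (V : Type) [AddCommGroup V] [Module (ZMod p) V] [Finite V] :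
    Nat.card V = p ^ finrank (ZMod p) V := by
  haveI : Module.Finite (ZMod p) V := Module.Finite.of_finite
  rw [Module.natCard_eq_pow_finrank (K := ZMod p) (V := V), Nat.card_zmod]

end card

set_option maxHeartbeats 1600000 in
/-- The counting identity behind PT2ub, PT2lb and FIN2. -/
theorem pt2_count_gen (hB : GWC.Stmt_B1) (p : ℕ) [Fact p.Prime] (hp2 : p ≠ 2)
    (S : Finset Nat.Primes) (hpS : pPrime p ∈ S)
    (N : Rep.{0} (ZMod p) GQ) [FiniteDimensional (ZMod p) N] (hlev : S55.Lev S N)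
    (χ' : GQ →* (ZMod p)ˣ) (hχ' : χ' = cycloChar p) :
    Module.Finite (ZMod p) (continuousH2S S N) ∧
      finrank (ZMod p) (continuousH2S S N) + finrank (ZMod p) (N.dualTwist χ').ρ.invariants =
        finrank (ZMod p) (sha₁ S (N.dualTwist χ')) +
          ∑ q ∈ S, finrank (ZMod p) (locRep (N.dualTwist χ') q).ρ.invariants := by
  subst hχ'
  have hχ : LevChar S (cycloChar p) := H48.stmt_levChar p S hpS
  set X : Rep.{0} (ZMod p) GQ := Md (cycloChar p) N with hX
  have hXl : Lev S X := lev_Md N hχ hlev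
  haveI : FiniteDimensional (ZMod p) X := by
    show FiniteDimensional (ZMod p) (Module.Dual (ZMod p) N)
    infer_instance
  obtain ⟨tr, hE, hM⟩ := hB p hp2 S N hpS hlev
  have h2 : (2 : ZMod p) ≠ 0 := H48.two_ne_zero_zmod p hp2
  haveI : Finite X := Module.finite_of_finite (ZMod p)
  have hne : S.Nonempty := ⟨_, hpS⟩
  have hcone := GWC.H01.stmt_CONE1 (ZMod p) h2 S X inferInstance hne
  have hsm : IsSmoothRep X := GWC.H64.isSmoothRep_of_lev hXl
  haveI : Module.Finite (ZMod p) (continuousH1S S X) := H92.stmt_fin_glob (ZMod p) X hsm S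
  haveI : Finite (continuousH1S S X) := Module.finite_of_finite (ZMod p)
  haveI : Finite (sha₁ S X) :=
    Finite.of_injective (Submodule.inclusion (inf_le_left : sha₁ S X ≤ continuousH1S S X))
      (Submodule.inclusion_injective _)
  haveI hfq : ∀ q : Nat.Primes, Finite (locRep X q).ρ.invariants := fun q => by
    haveI : Finite (locRep X q) := (inferInstance : Finite X)
    infer_instance
  have hpos : Nat.card (sha₁ S X) * ∏ q ∈ S, Nat.card (locRep X q).ρ.invariants ≠ 0 :=
    mul_ne_zero Nat.card_pos.ne' (Finset.prod_ne_zero_iff.2 fun q _ => Nat.card_pos.ne')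
  have hc1 : cardH1c S X ≠ 0 := by
    intro h
    rw [h, zero_mul] at hcone
    exact hpos hcone.symm
  obtain ⟨hfin, hcard⟩ :=
    GWC.H46.stmt_DUALCOUNT (ZMod p) S (cycloChar p) tr hχ N hlev hE hM hc1
  haveI := hfin
  refine ⟨Module.Finite.of_finite, ?_⟩
  -- cardinalities to dimensions
  have hp1 : 1 < p := (Fact.out : p.Prime).one_lt
  have e : Nat.card (continuousH2S S N) * Nat.card X.ρ.invariants =
      Nat.card (sha₁ S X) * ∏ q ∈ S, Nat.card (locRep X q).ρ.invariants := by
    rw [hcard, hcone]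
  rw [card_eq_pow (p := p) (continuousH2S S N), card_eq_pow (p := p) X.ρ.invariants,
    card_eq_pow (p := p) (sha₁ S X),
    Finset.prod_congr rfl (fun q _ => card_eq_pow (p := p) (locRep X q).ρ.invariants),
    Finset.prod_pow_eq_pow_sum, ← pow_add, ← pow_add] at e
  exact Nat.pow_right_injective hp1 e

/-- The counting identity in the vocabulary of `S56`. -/
theorem pt2_count (hB : GWC.Stmt_B1) (p : ℕ) [Fact p.Prime] (hp2 : p ≠ 2)
    (S : Finset Nat.Primes) (hpS : pPrime p ∈ S)
    (N : Rep.{0} (ZMod p) GQ) [FiniteDimensional (ZMod p) N] (hlev : S55.Lev S N) :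
    Module.Finite (ZMod p) (continuousH2S S N) ∧
      finrank (ZMod p) (continuousH2S S N) + finrank (ZMod p) (tateDual p N).ρ.invariants =
        finrank (ZMod p) (sha₁ S (tateDual p N)) +
          ∑ q ∈ S, finrank (ZMod p) (locRep (tateDual p N) q).ρ.invariants :=
  pt2_count_gen hB p hp2 S hpS N hlev (cycloK p (ZMod p)) (cycloK_zmod p)

/-- **PT2ub**. -/
theorem stmt_PT2ub_of (hB : GWC.Stmt_B1) : Stmt_PT2ub := by
  intro p _ hp2 S hpS N _ hlev
  exact le_of_eq (pt2_count hB p hp2 S hpS N hlev).2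

/-- **PT2lb**. -/
theorem stmt_PT2lb_of (hB : GWC.Stmt_B1) : Stmt_PT2lb := by
  intro p _ hp2 S hpS N _ hlev
  exact le_of_eq (pt2_count hB p hp2 S hpS N hlev).2.symm

/-- **FIN2**. -/
theorem stmt_fin2p_of (hB : GWC.Stmt_B1) : Stmt_fin2p := by
  intro p _ hp2 S hpS N _ hlev
  exact (pt2_count hB p hp2 S hpS N hlev).1

end Fermat.Agent.S56.EC.H64

end
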