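import Fermat.Agent.S56.EC.Defs_DESC
import Fermat.Agent.S56.GW.H92_FinGlobFinal

set_option autoImplicit false
set_option linter.style.haveILetI false

/-!
# EC / DESC: the assembly (helper92)

* `lev_mono`           : `Lev S N → S ⊆ S' → Lev S' N`;
* `stmt_DESC1_of`      : `Stmt_DA → Stmt_DB → Stmt_DC → Stmt_fin2p → Stmt_DESC1`;
* `stmt_DESC_of_DESC1` : `Stmt_DESC1 → Stmt_DESC` (induction on `S' \ S`);
* `stmt_DESC_of`       : `Stmt_DA → Stmt_DB → Stmt_DC → Stmt_fin2p → Stmt_DESC`.
-/

noncomputable section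

namespace Fermat.Agent.S56.EC.DESC.H92

open CategoryTheory groupCohomology ExtCitation Module Fermat.Agent.S56.EC
  Fermat.Agent.S56.EC.DESC

theorem lev_mono {k : Type} [Field k] {S S' : Finset Nat.Primes} (h : S ⊆ S')
    {N : Rep.{0} k GQ} (hN : S55.Lev S N) : S55.Lev S' N := by
  obtain ⟨F, hF, hfix⟩ := hN
  exact ⟨F, hF.mono h, hfix⟩

theorem smooth_of_lev' {k : Type} [Field k] {S : Finset Nat.Primes} {M : Rep.{0} k GQ}
    (h : S55.Lev S M) : IsSmoothRep M := by
  obtain ⟨F, hF, hfix⟩ := h
  exact fun m => ⟨F, hF.1, fun s hs => hfix s hs m⟩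

/-- The step `S → insert q S` from the three packages. -/
theorem stmt_DESC1_of (hA : Stmt_DA) (hB : Stmt_DB) (hC : Stmt_DC) (hF2 : Stmt_fin2p) :
    Stmt_DESC1 := by
  intro p _ hp2 S q hpS hqS N _ hN
  have hsub : S ⊆ insert q S := Finset.subset_insert q S
  have hN' : S55.Lev (insert q S) N := lev_mono hsub hN
  have hpS' : pPrime p ∈ insert q S := hsub hpS
  have hsm : IsSmoothRep N := smooth_of_lev' hN
  have f1' : Module.Finite (ZMod p) (continuousH1S (insert q S) N) :=
    Fermat.Agent.S56.H92.stmt_fin_glob (ZMod p) N hsm (insert q S)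
  have f2 : Module.Finite (ZMod p) (continuousH2S S N) := hF2 p hp2 S hpS N hN
  have f2' : Module.Finite (ZMod p) (continuousH2S (insert q S) N) :=
    hF2 p hp2 (insert q S) hpS' N hN'
  obtain ⟨fE, hE⟩ := hB p S q hpS hqS N hN
  have hCk := hC p hp2 S q hpS hqS N hN f2'
  have hcount := hA (ZMod p) S (insert q S) N hsub hN f1' f2 f2' fE
  unfold ecDefect
  have key : (finrank (ZMod p) (continuousH1S (insert q S) N) : ℤ)
      + finrank (ZMod p) (continuousH2S S N)
      ≤ finrank (ZMod p) (continuousH1S S N) + finrank (ZMod p) (continuousH2S (insert q S) N) := by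
    have : finrank (ZMod p) (continuousH1S (insert q S) N) + finrank (ZMod p) (continuousH2S S N)
      ≤ finrank (ZMod p) (continuousH1S S N)
        + finrank (ZMod p) (continuousH2S (insert q S) N) := by
      omega
    exact_mod_cast this
  linarith

/-- Induction on the set of new primes. -/
theorem stmt_DESC_of_DESC1 (h1 : Stmt_DESC1) : Stmt_DESC := by
  intro p _ hp2 S S' hpS hSS' N _ hN
  classical
  have key : ∀ T : Finset Nat.Primes, ecDefect (S ∪ T) N ≤ ecDefect S N := by
    intro T
    induction T using Finset.induction_on with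
    | empty => rw [Finset.union_empty]
    | insert q T hqT ih =>
      by_cases hq : q ∈ S ∪ T
      · have : S ∪ insert q T = S ∪ T := by
          rw [Finset.union_insert, Finset.insert_eq_of_mem hq]
        rw [this]
        exact ih
      · have : S ∪ insert q T = insert q (S ∪ T) := Finset.union_insert q S T
        rw [this]
        have hsub : S ⊆ S ∪ T := Finset.subset_union_left
        exact (h1 p hp2 (S ∪ T) q (hsub hpS) hq N (lev_mono hsub hN)).trans ih
  have := key S'
  rwa [Finset.union_eq_right.2 hSS'] at this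

theorem stmt_DESC_of (hA : Stmt_DA) (hB : Stmt_DB) (hC : Stmt_DC) (hF2 : Stmt_fin2p) :
    Stmt_DESC :=
  stmt_DESC_of_DESC1 (stmt_DESC1_of hA hB hC hF2)

end Fermat.Agent.S56.EC.DESC.H92

end
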