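import Fermat.Agent.S56.EC.H92_DescTame
import Fermat.Agent.S56.GW.H9_PerfRoots
import Fermat.Agent.S56.H47_Basic
import Fermat.Agent.S56.TWS.H27_Tr
import Fermat.Agent.Lib.FrobExists

set_option autoImplicit false
set_option linter.style.haveILetI false
set_option linter.unusedSectionVars false

/-!
# EC / DESC / DB, part 3 (helper92): the Frobenius eigenspace and `h⁰(ℚ_q, N')`; `Stmt_DB`

* `cycloK_frob`  : `χ(φ) = q` for a Frobenius element `φ` at `q ≠ p`;
* `finrank_eigQ_le` : `dim ker (φ - q | N) ≤ h⁰(ℚ_q, N')`;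
* `stmt_DB : Stmt_DB`.
-/

noncomputable section

namespace Fermat.Agent.S56.EC.DESC.H92

open CategoryTheory groupCohomology ExtCitation Module Fermat.Agent.S56.EC
  Fermat.Agent.S56.EC.DESC

local notation "Qbar" => AlgebraicClosure ℚ

section cyclo

variable (p : ℕ) [Fact p.Prime] (k : Type) [Field k] [CharP k p] (q : Nat.Primes)

/-- The cyclotomic character of a Frobenius element at `q ≠ p` is `q`. -/
theorem cycloK_frob (hqp : (q : ℕ) ≠ p) (φ : GQ)
    (hφ : (primeLocalPlace q).IsFrobeniusAt φ (q : ℕ)) :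
    (cycloK p k φ : k) = ((q : ℕ) : k) := by
  have hp : p.Prime := Fact.out
  obtain ⟨ζ, hζ⟩ := S55.H48.exists_primitiveRoot p
  have hndvd : ¬ (q : ℕ) ∣ p := fun h =>
    hqp ((Nat.prime_dvd_prime_iff_eq q.2 hp).1 h)
  have h1 := Fermat.Agent.S56.H9.frob_root_general φ hφ hndvd hζ.pow_eq_one
  have h2 := Fermat.Agent.S56.TWS.H27.map_root_eq_pow p φ ζ hζ.pow_eq_one
  have h3 : ζ ^ ((q : ℕ) % p) = ζ ^ (cycloExp p φ % p) := by
    rw [← pow_eq_pow_mod _ hζ.pow_eq_one, ← pow_eq_pow_mod _ hζ.pow_eq_one, ← h1, ← h2]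
  have h4 : (q : ℕ) % p = cycloExp p φ % p :=
    hζ.pow_inj (Nat.mod_lt _ hp.pos) (Nat.mod_lt _ hp.pos) h3
  rw [Fermat.Agent.S56.TWS.H27.cycloK_val]
  exact ((CharP.natCast_eq_natCast k p).2 h4).symm

end cyclo

section inv

variable {p : ℕ} [Fact p.Prime] {k : Type} [Field k] [CharP k p] {N : Rep.{0} k GQ}
  [FiniteDimensional k N] {S : Finset Nat.Primes} {q : Nat.Primes}

/-- A functional `λ` with `λ ∘ φ = q λ` is fixed by `φ` in the Tate dual. -/
lemma tateDual_frob_fix (hqp : (q : ℕ) ≠ p) (φ : GQ)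
    (hφ : (primeLocalPlace q).IsFrobeniusAt φ (q : ℕ)) (lam : Module.Dual k N)
    (hlam : lam ∘ₗ N.ρ φ = ((q : ℕ) : k) • lam) :
    (tateDual p N).ρ φ lam = lam := by
  rw [Fermat.Agent.S56.H47.tateDual_ρ_apply, cycloK_frob p k q hqp φ hφ]
  apply LinearMap.ext
  intro m
  have h1 := LinearMap.congr_fun hlam (N.ρ φ⁻¹ m)
  have h2 : N.ρ φ (N.ρ φ⁻¹ m) = m := by
    rw [← Module.End.mul_apply, ← map_mul, mul_inv_cancel, map_one, Module.End.one_apply]
  rw [LinearMap.comp_apply, h2] at h1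
  rw [LinearMap.smul_apply, LinearMap.comp_apply]
  exact h1.symm

/-- Functionals `λ` with `λ ∘ φ = q λ` are `G_q`-invariant elements of `N'`. -/
theorem tateDual_local_fix (hq : q ∉ S) (hqp : (q : ℕ) ≠ p) (hN : S55.Lev S N) (φ : GQ)
    (hφ : (primeLocalPlace q).IsFrobeniusAt φ (q : ℕ)) (lam : Module.Dual k N)
    (hlam : lam ∘ₗ N.ρ φ = ((q : ℕ) : k) • lam) (g : primeLocalGaloisGroup q) :
    (tateDual p N).ρ (primeLocalToGlobal q g) lam = lam := by
  have hp : p.Prime := Fact.out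
  obtain ⟨FN, hFN, hNtriv⟩ := hN
  haveI := hFN.1
  obtain ⟨ζ, hζ⟩ := S55.H48.exists_primitiveRoot p
  have hζint : IsIntegral ℚ ζ := hζ.isIntegral hp.pos |>.tower_top (R := ℤ)
  haveI : FiniteDimensional ℚ (IntermediateField.adjoin ℚ {ζ}) :=
    IntermediateField.adjoin.finiteDimensional hζint
  have hEfd : FiniteDimensional ℚ (FN ⊔ IntermediateField.adjoin ℚ {ζ} :
      IntermediateField ℚ Qbar) := IntermediateField.finiteDimensional_sup _ _
  have hρ1 : ∀ s ∈ FN.fixingSubgroup, N.ρ s = 1 := fun s hs =>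
    LinearMap.ext fun m => hNtriv s hs m
  have hE : ∀ s ∈ (FN ⊔ IntermediateField.adjoin ℚ {ζ} :
      IntermediateField ℚ Qbar).fixingSubgroup, (tateDual p N).ρ s = 1 := by
    intro s hs
    have hs1 : s ∈ FN.fixingSubgroup := IntermediateField.fixingSubgroup_antitone le_sup_left hs
    have hs2 : s ∈ (IntermediateField.adjoin ℚ {ζ}).fixingSubgroup :=
      IntermediateField.fixingSubgroup_antitone le_sup_right hs
    have hsζ : s ζ = ζ := (IntermediateField.mem_fixingSubgroup_iff _ s).1 hs2 ζ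
      (IntermediateField.mem_adjoin_simple_self ℚ ζ)
    have hχ : cycloK p k s = 1 := by
      refine Fermat.Agent.S56.H47.cycloK_eq_one_of_fix p k s fun t ht => ?_
      obtain ⟨i, -, rfl⟩ := hζ.eq_pow_of_pow_eq_one ht
      rw [map_pow, hsζ]
    exact Fermat.Agent.S56.H47.tateDual_ρ_eq_one p N s (hρ1 s hs1) hχ
  have hA₀ := Fermat.Agent.S56.H9.primeLocalPlace_liesOver q
  obtain ⟨τ₀, -, -, -, hgen⟩ :=
    Fermat.Agent.S59.TWGal.H59.stmt_TAME (q : ℕ) q.2 (primeLocalPlace q) hA₀ φ hφ _ hEfd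
  obtain ⟨n, σ, hσ, hu⟩ := hgen (primeLocalToGlobal q g)
    (Fermat.Agent.S56.H9.primeLocalToGlobal_mem_decomposition q g)
  have hσ1 : (tateDual p N).ρ σ = 1 := by
    refine Fermat.Agent.S56.H47.tateDual_ρ_eq_one p N σ
      (hρ1 σ (hFN.2 q hq _ hA₀ hσ)) ?_
    exact Fermat.Agent.S56.H47.cycloK_eq_one_of_fix p k σ fun t ht =>
      Fermat.Agent.S56.H47.inertia_fix_root hp q.2 hqp _ hA₀ σ hσ t ht
  have e : primeLocalToGlobal q g = φ ^ n * σ * ((φ ^ n * σ)⁻¹ * primeLocalToGlobal q g) := by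
    group
  have hφn : ∀ n : ℕ, ((tateDual p N).ρ φ ^ n) lam = lam := by
    intro n
    induction n with
    | zero => rfl
    | succ n ih =>
      rw [pow_succ, Module.End.mul_apply, tateDual_frob_fix hqp φ hφ lam hlam, ih]
  rw [e, map_mul, map_mul, hE _ hu, hσ1, mul_one, mul_one, map_pow]
  exact hφn n

/-- `dim ker (φ - q | N) ≤ h⁰(ℚ_q, N')`. -/
theorem finrank_eigQ_le (hq : q ∉ S) (hqp : (q : ℕ) ≠ p) (hN : S55.Lev S N) (φ : GQ)
    (hφ : (primeLocalPlace q).IsFrobeniusAt φ (q : ℕ)) :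
    finrank k (eigQ N φ q) ≤ finrank k (locRep (tateDual p N) q).ρ.invariants := by
  set T : Module.End k N := N.ρ φ - ((q : ℕ) : k) • (1 : Module.End k N) with hT
  have h1 := LinearMap.finrank_range_add_finrank_ker T
  have h2 := LinearMap.finrank_range_add_finrank_ker T.dualMap
  have h3 := LinearMap.finrank_range_dualMap_eq_finrank_range T
  have h4 : finrank k (Module.Dual k N) = finrank k N := Subspace.dual_finrank_eq
  have h5 : finrank k (eigQ N φ q) = finrank k (LinearMap.ker T.dualMap) := by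
    have : finrank k (eigQ N φ q) = finrank k (LinearMap.ker T) := rfl
    omega
  rw [h5]
  have hmem : ∀ lam : ↥(LinearMap.ker T.dualMap),
      (lam : Module.Dual k N) ∈ (locRep (tateDual p N) q).ρ.invariants := by
    intro lam g
    have h0 : T.dualMap (lam : Module.Dual k N) = 0 := lam.2
    have hlam : (lam : Module.Dual k N) ∘ₗ N.ρ φ = ((q : ℕ) : k) • (lam : Module.Dual k N) := by
      apply LinearMap.ext
      intro m
      have := LinearMap.congr_fun h0 m
      have hTm : T m = N.ρ φ m - ((q : ℕ) : k) • m := rfl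
      rw [LinearMap.dualMap_apply, hTm, map_sub, map_smul, LinearMap.zero_apply,
        sub_eq_zero] at this
      rw [LinearMap.comp_apply, LinearMap.smul_apply]
      exact this
    exact tateDual_local_fix hq hqp hN φ hφ _ hlam g
  haveI : FiniteDimensional k (locRep (tateDual p N) q) :=
    (inferInstance : FiniteDimensional k (Module.Dual k N))
  let Φ : ↥(LinearMap.ker T.dualMap) →ₗ[k] ↥((locRep (tateDual p N) q).ρ.invariants) :=
    LinearMap.codRestrict _ (LinearMap.ker T.dualMap).subtype hmem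
  have hinj : Function.Injective Φ := by
    intro a b hab
    have h := congrArg Subtype.val hab
    exact Subtype.ext h
  exact LinearMap.finrank_le_finrank_of_injective hinj

end inv

/-- **Package DB.** -/
theorem stmt_DB : Stmt_DB := by
  intro p _ S q hpS hqS N _ hN
  have hqp : (q : ℕ) ≠ p := by
    intro h
    apply hqS
    have : q = pPrime p := Subtype.ext h
    rw [this]
    exact hpS
  have hqk : (((q : ℕ)) : ZMod p) ≠ 0 := by
    rw [Ne, ZMod.natCast_eq_zero_iff]
    intro h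
    exact hqp ((Nat.prime_dvd_prime_iff_eq (Fact.out : p.Prime) q.2).1 h).symm
  have hA₀ := Fermat.Agent.S56.H9.primeLocalPlace_liesOver q
  obtain ⟨φ, hφ⟩ := Fermat.Agent.Lib.FrobExists.exists_isFrobeniusAt (q : ℕ) q.2
    (primeLocalPlace q) hA₀
  obtain ⟨hfin, hle⟩ := finrank_Etil_le_eigQ (N := N) hqS hqk (primeLocalPlace q) hA₀ φ hφ hN
  exact ⟨hfin, hle.trans (finrank_eigQ_le hqS hqp hN φ hφ)⟩

end Fermat.Agent.S56.EC.DESC.H92

end
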