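import Fermat.Agent.S56.EC.H92_DescAsm
import Fermat.Agent.S56.EC.H92_DescDB
import Fermat.Agent.S56.EC.H54_DescDA
import Fermat.Agent.S56.EC.H01_DescDC

set_option autoImplicit false

/-!
# EC / DESC: final assembly (helper92)

`stmt_DESC_final : Stmt_fin2p → GWC.Stmt_B1 → GWC.Stmt_UR2 → Stmt_DESC`, from
`H54.stmt_DA` (helper54), `H92.stmt_DB` (helper92), `H01.stmt_DC_of` (helper1).
-/

namespace Fermat.Agent.S56.EC.DESC.H92

open Fermat.Agent.S56.EC Fermat.Agent.S56.EC.DESC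

/-- **Package DESC**, from the three external inputs `FIN2`, `B1`, `UR2`. -/
theorem stmt_DESC_final (hF2 : Stmt_fin2p) (hB : GWC.Stmt_B1) (hU : GWC.Stmt_UR2) :
    Stmt_DESC :=
  stmt_DESC_of Fermat.Agent.S56.EC.DESC.H54.stmt_DA stmt_DB
    (Fermat.Agent.S56.EC.DESC.H01.stmt_DC_of hB hU) hF2

end Fermat.Agent.S56.EC.DESC.H92
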