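import Fermat.Agent.S56.EC.Defs_DESC
import Fermat.Agent.S56.EC.H92_LES
import Fermat.Agent.Lib.InertiaConj

set_option autoImplicit false
set_option linter.style.haveILetI false
set_option linter.unusedSectionVars false

/-!
# EC / DESC / DB, part 1 (helper92): cochain algebra and level lowering

`f : G_ℚ → N` with `d f` constant modulo a subgroup `H` acting trivially on `N`.
`f₀ = f - f 1` satisfies `f₀ (g h) = f₀ g + g f₀ h`, `f₀ (h g) = f₀ h + f₀ g` (`h ∈ H`).
Level lowering: if `f` has level `insert q S`, `d f` has level `S`, `N` has level `S`, and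
`f = f 1` on one inertia group over `q`, then `f` has level `S`.
-/

noncomputable section

namespace Fermat.Agent.S56.EC.DESC.H92

open CategoryTheory groupCohomology ExtCitation Module Fermat.Agent.S56.EC
  Fermat.Agent.S56.EC.DESC

variable {k : Type} [Field k] (N : Rep.{0} k GQ)

/-- `f₀ = f - f 1`. -/
def nrm (f : GQ → N) : GQ → N := fun g => f g - f 1

lemma nrm_one (f : GQ → N) : nrm N f 1 = 0 := sub_self _

lemma nrm_add (f f' : GQ → N) (g : GQ) : nrm N (f + f') g = nrm N f g + nrm N f' g := by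
  simp only [nrm, Pi.add_apply]; abel

lemma nrm_smul (c : k) (f : GQ → N) (g : GQ) : nrm N (c • f) g = c • nrm N f g := by
  simp only [nrm, Pi.smul_apply, smul_sub]

/-- The hypotheses on `(f, H)`: `H` acts trivially and `d f` is constant modulo `H`. -/
structure Adm (H : Subgroup GQ) (f : GQ → N) : Prop where
  triv : ∀ h ∈ H, ∀ n : N, N.ρ h n = n
  lev : ∀ g g' s s' : GQ, s ∈ H → s' ∈ H →
    S55.dOne N f (g * s, g' * s') = S55.dOne N f (g, g')

variable {N} {H : Subgroup GQ} {f : GQ → N}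

lemma Adm.nrm_mul_right (h : Adm N H f) (g : GQ) {s : GQ} (hs : s ∈ H) :
    nrm N f (g * s) = nrm N f g + N.ρ g (nrm N f s) := by
  have h1 := h.lev g 1 1 s (one_mem H) hs
  simp only [S55.dOne, mul_one, one_mul] at h1
  simp only [nrm, map_sub]
  have h2 : f (g * s) = N.ρ g (f s) + f g - (N.ρ g (f 1) - f g + f g) := by
    rw [← h1]; abel
  rw [h2]; abel

lemma Adm.nrm_mul_left (h : Adm N H f) {s : GQ} (hs : s ∈ H) (g : GQ) :
    nrm N f (s * g) = nrm N f s + nrm N f g := by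
  have h1 := h.lev 1 g s 1 hs (one_mem H)
  simp only [S55.dOne, mul_one, one_mul, map_one, Module.End.one_apply] at h1
  rw [h.triv s hs] at h1
  simp only [nrm]
  have h2 : f (s * g) = f g + f s - (f g - f g + f 1) := by
    rw [← h1]; abel
  rw [h2]; abel

lemma Adm.nrm_pow (h : Adm N H f) {s : GQ} (hs : s ∈ H) (n : ℕ) :
    nrm N f (s ^ n) = n • nrm N f s := by
  induction n with
  | zero => rw [pow_zero, zero_smul]; exact nrm_one N f
  | succ n ih =>
    rw [pow_succ, h.nrm_mul_left (pow_mem hs n), ih, succ_nsmul]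

lemma Adm.nrm_inv (h : Adm N H f) {s : GQ} (hs : s ∈ H) :
    nrm N f s⁻¹ = - nrm N f s := by
  have h1 := h.nrm_mul_left hs s⁻¹
  rw [mul_inv_cancel, nrm_one] at h1
  exact eq_neg_of_add_eq_zero_right h1.symm

lemma Adm.nrm_conj (h : Adm N H f) (g : GQ) {s : GQ} (hs : s ∈ H) (hc : g * s * g⁻¹ ∈ H) :
    nrm N f (g * s * g⁻¹) = N.ρ g (nrm N f s) := by
  have h1 := h.nrm_mul_left hc g
  rw [inv_mul_cancel_right, h.nrm_mul_right g hs] at h1
  exact (add_right_cancel (h1.symm.trans (add_comm _ _))).symm ▸ rfl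

/-- The elements of `H` on which `f₀` vanishes. -/
def zeroSub (h : Adm N H f) : Subgroup GQ where
  carrier := {s | s ∈ H ∧ nrm N f s = 0}
  one_mem' := ⟨one_mem H, nrm_one N f⟩
  mul_mem' := by
    rintro a b ⟨ha, ha0⟩ ⟨hb, hb0⟩
    exact ⟨mul_mem ha hb, by rw [h.nrm_mul_left ha b, ha0, hb0, add_zero]⟩
  inv_mem' := by
    rintro a ⟨ha, ha0⟩
    exact ⟨inv_mem ha, by rw [h.nrm_inv ha, ha0, neg_zero]⟩

lemma mem_zeroSub (h : Adm N H f) {s : GQ} : s ∈ zeroSub h ↔ s ∈ H ∧ nrm N f s = 0 := Iff.rfl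

lemma Adm.apply_mul_of_mem_zeroSub (h : Adm N H f) (g : GQ) {s : GQ} (hs : s ∈ zeroSub h) :
    f (g * s) = f g := by
  have h1 := h.nrm_mul_right g hs.1
  rw [hs.2, map_zero, add_zero] at h1
  simpa [nrm] using h1

/-- `Adm` is inherited by smaller subgroups. -/
lemma Adm.mono (h : Adm N H f) {H' : Subgroup GQ} (hle : H' ≤ H) : Adm N H' f :=
  ⟨fun s hs => h.triv s (hle hs), fun g g' s s' hs hs' => h.lev g g' s s' (hle hs) (hle hs')⟩

lemma Adm.add {f' : GQ → N} (h : Adm N H f) (h' : Adm N H f') : Adm N H (f + f') :=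
  ⟨h.triv, fun g g' s s' hs hs' => by
    rw [S55.dOne_add, Pi.add_apply, Pi.add_apply, h.lev g g' s s' hs hs', h'.lev g g' s s' hs hs']⟩

lemma Adm.smul (c : k) (h : Adm N H f) : Adm N H (c • f) :=
  ⟨h.triv, fun g g' s s' hs hs' => by
    rw [S55.dOne_smul, Pi.smul_apply, Pi.smul_apply, h.lev g g' s s' hs hs']⟩

/-! ### Level lowering -/

section lower

attribute [local instance] S55.h49_qbar_isAlgebraic S55.h49_qbar_isAlgClosure
  S55.h49_qbar_normal S55.h49_qbar_isGalois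

variable {S : Finset Nat.Primes} {q : Nat.Primes}

/-- The admissible pair attached to level fields of `N` and `d f`. -/
lemma adm_of_fields {FN Fd : IntermediateField ℚ (AlgebraicClosure ℚ)}
    (hNtriv : ∀ s ∈ FN.fixingSubgroup, ∀ m : N, N.ρ s m = m)
    (hd : ∀ g g' s s' : GQ, s ∈ Fd.fixingSubgroup → s' ∈ Fd.fixingSubgroup →
      S55.dOne N f (g * s, g' * s') = S55.dOne N f (g, g')) :
    Adm N (FN ⊔ Fd).fixingSubgroup f :=
  ⟨fun s hs n => hNtriv s (S55.mem_fix_of_le le_sup_left hs) n,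
   fun g g' s s' hs hs' => hd g g' s s' (S55.mem_fix_of_le le_sup_right hs)
     (S55.mem_fix_of_le le_sup_right hs')⟩

/-- If `f₀` vanishes on one inertia group over `q`, it vanishes on all of them. -/
lemma Adm.nrm_eq_zero_of_inertia (h : Adm N H f)
    (hH : ∀ A : ValuationSubring (AlgebraicClosure ℚ), A.LiesOverPrime (q : ℕ) →
      A.inertiaSubgroupIn ℚ ≤ H)
    (A₀ : ValuationSubring (AlgebraicClosure ℚ)) (hA₀ : A₀.LiesOverPrime (q : ℕ))
    (hI : ∀ σ ∈ A₀.inertiaSubgroupIn ℚ, nrm N f σ = 0)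
    (A : ValuationSubring (AlgebraicClosure ℚ)) (hA : A.LiesOverPrime (q : ℕ))
    {σ : GQ} (hσ : σ ∈ A.inertiaSubgroupIn ℚ) : nrm N f σ = 0 := by
  obtain ⟨g, hg⟩ := Fermat.Agent.Lib.InertiaConj.exists_conj_mem_inertia (q : ℕ) q.2 A₀ A hA₀ hA
  have ht : g⁻¹ * σ * g ∈ A₀.inertiaSubgroupIn ℚ := (hg σ).1 hσ
  have e : σ = g * (g⁻¹ * σ * g) * g⁻¹ := by group
  have hc : g * (g⁻¹ * σ * g) * g⁻¹ ∈ H := by
    rw [← e]; exact hH A hA hσ
  rw [e, h.nrm_conj g (hH A₀ hA₀ ht) hc, hI _ ht, map_zero]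

/-- **Level lowering.** -/
theorem level_lower (hq : q ∉ S) (hN : S55.Lev S N)
    (hf : IsLevelConstantS₁ (insert q S) f) (hdf : IsLevelConstantS₂ S (S55.dOne N f))
    (A₀ : ValuationSubring (AlgebraicClosure ℚ)) (hA₀ : A₀.LiesOverPrime (q : ℕ))
    (hI : ∀ σ ∈ A₀.inertiaSubgroupIn ℚ, f σ = f 1) :
    IsLevelConstantS₁ S f := by
  obtain ⟨FN, hFN, hNtriv⟩ := hN
  obtain ⟨Fd, hFd, hd⟩ := hdf
  obtain ⟨Ff, hFf, hfc⟩ := hf
  have hF : (FN ⊔ Fd).IsUnramifiedOutside S := hFN.sup hFd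
  have hAdm : Adm N (FN ⊔ Fd).fixingSubgroup f := adm_of_fields hNtriv hd
  have hF' : (Ff ⊔ (FN ⊔ Fd)).IsUnramifiedOutside (insert q S) :=
    hFf.sup (hF.mono (Finset.subset_insert q S))
  haveI : FiniteDimensional ℚ (Ff ⊔ (FN ⊔ Fd) : IntermediateField ℚ (AlgebraicClosure ℚ)) :=
    hF'.1
  -- inertia over `q` lies in `H`
  have hH : ∀ A : ValuationSubring (AlgebraicClosure ℚ), A.LiesOverPrime (q : ℕ) →
      A.inertiaSubgroupIn ℚ ≤ (FN ⊔ Fd).fixingSubgroup := fun A hA => hF.2 q hq A hA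
  have hI0 : ∀ σ ∈ A₀.inertiaSubgroupIn ℚ, nrm N f σ = 0 := fun σ hσ => by
    rw [nrm, hI σ hσ, sub_self]
  -- `U ≤ Z`
  have hUZ : (Ff ⊔ (FN ⊔ Fd)).fixingSubgroup ≤ zeroSub hAdm := by
    intro u hu
    refine ⟨S55.mem_fix_of_le le_sup_right hu, ?_⟩
    have := hfc 1 u (S55.mem_fix_of_le le_sup_left hu)
    rw [one_mul] at this
    rw [nrm, this, sub_self]
  have hZopen : IsOpen ((zeroSub hAdm : Subgroup GQ) : Set GQ) :=
    Subgroup.isOpen_mono hUZ (IntermediateField.fixingSubgroup_isOpen _)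
  have hZclosed : IsClosed ((zeroSub hAdm : Subgroup GQ) : Set GQ) :=
    Subgroup.isClosed_of_isOpen _ hZopen
  have hfix : (IntermediateField.fixedField (zeroSub hAdm)).fixingSubgroup = zeroSub hAdm :=
    InfiniteGalois.fixingSubgroup_fixedField ⟨zeroSub hAdm, hZclosed⟩
  have hle : IntermediateField.fixedField (zeroSub hAdm) ≤ Ff ⊔ (FN ⊔ Fd) := by
    rw [← InfiniteGalois.fixedField_fixingSubgroup (Ff ⊔ (FN ⊔ Fd))]
    refine (IntermediateField.le_iff_le _ _).2 ?_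
    rw [hfix]
    exact hUZ
  refine ⟨IntermediateField.fixedField (zeroSub hAdm), ⟨(hF'.of_le hle).1, ?_⟩, ?_⟩
  · intro q' hq' A hA σ hσ
    rw [hfix]
    by_cases hqq : q' = q
    · subst hqq
      exact ⟨hH A hA hσ, hAdm.nrm_eq_zero_of_inertia hH A₀ hA₀ hI0 A hA hσ⟩
    · have hq'' : q' ∉ insert q S := by
        rw [Finset.mem_insert]
        rintro (h | h)
        · exact hqq h
        · exact hq' h
      exact hUZ (hF'.2 q' hq'' A hA hσ)
  · intro g s hs
    rw [hfix] at hs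
    exact hAdm.apply_mul_of_mem_zeroSub g hs

/-- Conversely, a cochain of level `S` is constant on the inertia groups over `q ∉ S`. -/
theorem apply_eq_of_level (hq : q ∉ S) (hf : IsLevelConstantS₁ S f)
    (A : ValuationSubring (AlgebraicClosure ℚ)) (hA : A.LiesOverPrime (q : ℕ))
    {σ : GQ} (hσ : σ ∈ A.inertiaSubgroupIn ℚ) : f σ = f 1 := by
  obtain ⟨F, hF, hc⟩ := hf
  have := hc 1 σ (hF.2 q hq A hA hσ)
  rwa [one_mul] at this

end lower

end Fermat.Agent.S56.EC.DESC.H92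

end
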