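import Fermat.Agent.S56.EC.H92_DescLower
import Fermat.Agent.S59.TWGal.H59_Tame
import Fermat.Agent.S56.H9_H1Bound

set_option autoImplicit false
set_option linter.style.haveILetI false
set_option linter.unusedSectionVars false

/-!
# EC / DESC / DB, part 2 (helper92): the tame bound at a finite level

`lvl N F' Fd` = cochains constant modulo `G_{F'}` with `d f` constant modulo `G_{Fd}`.
For `FN ≤ Fd ≤ F'` (`N` trivial on `G_{FN}`), `Fd` unramified outside `S`, `F'` unramified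
outside `insert q S`: the image of `lvl N F' Fd` in `Ẽ` is finite-dimensional of dimension at
most `dim ker (φ - q | N)`, `φ` a Frobenius element at `q`.
-/

noncomputable section

namespace Fermat.Agent.S56.EC.DESC.H92

open CategoryTheory groupCohomology ExtCitation Module Fermat.Agent.S56.EC
  Fermat.Agent.S56.EC.DESC

local notation "Qbar" => AlgebraicClosure ℚ

section tame

variable {k : Type} [Field k] {N : Rep.{0} k GQ} {H : Subgroup GQ} {f : GQ → N}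

/-- Elements of `q`-power order modulo the zero subgroup are killed (`q` invertible in `k`). -/
lemma Adm.nrm_eq_zero_of_pow (h : Adm N H f) {q : ℕ} (hq : (q : k) ≠ 0) {w : GQ} (hw : w ∈ H)
    {e : ℕ} (hwe : w ^ (q ^ e) ∈ zeroSub h) : nrm N f w = 0 := by
  have h1 := h.nrm_pow hw (q ^ e)
  rw [hwe.2] at h1
  have h2 : ((q ^ e : ℕ) : k) • nrm N f w = 0 := by
    rw [Nat.cast_smul_eq_nsmul]; exact h1.symm
  have h3 : ((q ^ e : ℕ) : k) ≠ 0 := by rw [Nat.cast_pow]; exact pow_ne_zero _ hq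
  exact (smul_eq_zero.1 h2).resolve_left h3

/-- `f₀ τ₀ = 0` implies `f₀ = 0` on the inertia group. -/
lemma Adm.nrm_inertia_eq_zero (h : Adm N H f) {q : ℕ} (hq : (q : k) ≠ 0) (I : Subgroup GQ)
    (hIH : I ≤ H) {τ₀ : GQ} (hτ₀ : τ₀ ∈ I) (U : Subgroup GQ) (hU : U ≤ zeroSub h)
    (hcyc : ∀ σ ∈ I, ∃ j e : ℕ, ((τ₀ ^ j)⁻¹ * σ) ^ (q ^ e) ∈ U)
    (h0 : nrm N f τ₀ = 0) : ∀ σ ∈ I, nrm N f σ = 0 := by
  intro σ hσ
  obtain ⟨j, e, hje⟩ := hcyc σ hσ
  have hw : (τ₀ ^ j)⁻¹ * σ ∈ H := hIH (mul_mem (inv_mem (pow_mem hτ₀ j)) hσ)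
  have h1 := h.nrm_eq_zero_of_pow hq hw (hU hje)
  have e1 : σ = τ₀ ^ j * ((τ₀ ^ j)⁻¹ * σ) := by group
  rw [e1, h.nrm_mul_left (hIH (pow_mem hτ₀ j)), h1, add_zero, h.nrm_pow (hIH hτ₀), h0,
    smul_zero]

/-- The tame relation: `φ f₀(τ₀) = q f₀(τ₀)`. -/
lemma Adm.rho_frob_nrm (h : Adm N H f) {q : ℕ} (hq : (q : k) ≠ 0) (I : Subgroup GQ)
    (hIH : I ≤ H) {τ₀ φ : GQ} (hτ₀ : τ₀ ∈ I) (hφ : φ * τ₀ * φ⁻¹ ∈ I) (U : Subgroup GQ)
    (hU : U ≤ zeroSub h)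
    (hconj : ∃ e : ℕ, ((τ₀ ^ q)⁻¹ * (φ * τ₀ * φ⁻¹)) ^ (q ^ e) ∈ U) :
    N.ρ φ (nrm N f τ₀) = (q : k) • nrm N f τ₀ := by
  obtain ⟨e, he⟩ := hconj
  have hw : (τ₀ ^ q)⁻¹ * (φ * τ₀ * φ⁻¹) ∈ H :=
    hIH (mul_mem (inv_mem (pow_mem hτ₀ q)) hφ)
  have h1 := h.nrm_eq_zero_of_pow hq hw (hU he)
  have e1 : φ * τ₀ * φ⁻¹ = τ₀ ^ q * ((τ₀ ^ q)⁻¹ * (φ * τ₀ * φ⁻¹)) := by group
  have h2 := h.nrm_conj φ (hIH hτ₀) (hIH hφ)
  have h3 : nrm N f (φ * τ₀ * φ⁻¹) = q • nrm N f τ₀ := by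
    rw [e1, h.nrm_mul_left (hIH (pow_mem hτ₀ q)), h1, add_zero, h.nrm_pow (hIH hτ₀)]
  rw [← h2, h3, Nat.cast_smul_eq_nsmul]

end tame

section level

variable {k : Type} [Field k] (N : Rep.{0} k GQ)

/-- Cochains constant modulo `G_{F'}` whose coboundary is constant modulo `G_{Fd}`. -/
def lvl (F' Fd : IntermediateField ℚ Qbar) : Submodule k (GQ → N) where
  carrier := {f | (∀ g s : GQ, s ∈ F'.fixingSubgroup → f (g * s) = f g) ∧
    ∀ g g' s s' : GQ, s ∈ Fd.fixingSubgroup → s' ∈ Fd.fixingSubgroup →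
      S55.dOne N f (g * s, g' * s') = S55.dOne N f (g, g')}
  add_mem' := by
    rintro f f' ⟨h1, h2⟩ ⟨h1', h2'⟩
    refine ⟨fun g s hs => ?_, fun g g' s s' hs hs' => ?_⟩
    · rw [Pi.add_apply, Pi.add_apply, h1 g s hs, h1' g s hs]
    · rw [S55.dOne_add, Pi.add_apply, Pi.add_apply, h2 g g' s s' hs hs', h2' g g' s s' hs hs']
  zero_mem' := by
    refine ⟨fun g s _ => rfl, fun g g' s s' _ _ => ?_⟩
    simp [S55.dOne]
  smul_mem' := by
    rintro c f ⟨h1, h2⟩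
    refine ⟨fun g s hs => ?_, fun g g' s s' hs hs' => ?_⟩
    · rw [Pi.smul_apply, Pi.smul_apply, h1 g s hs]
    · rw [S55.dOne_smul, Pi.smul_apply, Pi.smul_apply, h2 g g' s s' hs hs']

variable {N}

lemma mem_lvl {F' Fd : IntermediateField ℚ Qbar} {f : GQ → N} :
    f ∈ lvl N F' Fd ↔ (∀ g s : GQ, s ∈ F'.fixingSubgroup → f (g * s) = f g) ∧
      ∀ g g' s s' : GQ, s ∈ Fd.fixingSubgroup → s' ∈ Fd.fixingSubgroup →
        S55.dOne N f (g * s, g' * s') = S55.dOne N f (g, g') := Iff.rfl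

lemma lvl_mono {F₁ F₂ D₁ D₂ : IntermediateField ℚ Qbar} (hF : F₁ ≤ F₂) (hD : D₁ ≤ D₂) :
    lvl N F₁ D₁ ≤ lvl N F₂ D₂ := by
  rintro f ⟨h1, h2⟩
  exact ⟨fun g s hs => h1 g s (S55.mem_fix_of_le hF hs),
    fun g g' s s' hs hs' => h2 g g' s s' (S55.mem_fix_of_le hD hs) (S55.mem_fix_of_le hD hs')⟩

lemma lvl_le_preE {S S' : Finset Nat.Primes} {F' Fd : IntermediateField ℚ Qbar}
    (hF' : F'.IsUnramifiedOutside S') (hFd : Fd.IsUnramifiedOutside S) :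
    lvl N F' Fd ≤ preE S S' N := by
  rintro f ⟨h1, h2⟩
  exact ⟨⟨F', hF', h1⟩, ⟨Fd, hFd, h2⟩⟩

/-- Every element of `preE` lies in some `lvl`. -/
lemma exists_lvl_of_mem_preE {S S' : Finset Nat.Primes} {f : GQ → N} (hf : f ∈ preE S S' N) :
    ∃ F' Fd : IntermediateField ℚ Qbar, F'.IsUnramifiedOutside S' ∧
      Fd.IsUnramifiedOutside S ∧ f ∈ lvl N F' Fd := by
  obtain ⟨⟨F', hF', h1⟩, ⟨Fd, hFd, h2⟩⟩ := hf
  exact ⟨F', Fd, hF', hFd, h1, h2⟩

/-- The evaluation `f ↦ f τ - f 1`. -/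
def evN (N : Rep.{0} k GQ) (τ : GQ) : (GQ → N) →ₗ[k] N where
  toFun f := nrm N f τ
  map_add' f f' := nrm_add N f f' τ
  map_smul' c f := nrm_smul N c f τ

lemma evN_apply (τ : GQ) (f : GQ → N) : evN N τ f = nrm N f τ := rfl

/-- The `q`-eigenspace of `φ` on `N`. -/
def eigQ (N : Rep.{0} k GQ) (φ : GQ) (q : ℕ) : Submodule k N :=
  LinearMap.ker (N.ρ φ - (q : k) • (1 : Module.End k N))

lemma mem_eigQ {φ : GQ} {q : ℕ} {n : N} : n ∈ eigQ N φ q ↔ N.ρ φ n = (q : k) • n := by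
  rw [eigQ, LinearMap.mem_ker, LinearMap.sub_apply, LinearMap.smul_apply, Module.End.one_apply,
    sub_eq_zero]

end level

section bound

/-- Inertia is normal in the decomposition group. -/
lemma conj_mem_inertiaSubgroupIn (A : ValuationSubring Qbar) {d τ : GQ}
    (hd : d ∈ A.decompositionSubgroup ℚ) (hτ : τ ∈ A.inertiaSubgroupIn ℚ) :
    d * τ * d⁻¹ ∈ A.inertiaSubgroupIn ℚ := by
  obtain ⟨t, ht, rfl⟩ := hτ
  refine ⟨⟨d, hd⟩ * t * ⟨d, hd⟩⁻¹, ?_, rfl⟩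
  have hn : (A.inertiaSubgroup ℚ).Normal := by
    unfold ValuationSubring.inertiaSubgroup
    infer_instance
  exact hn.conj_mem t ht ⟨d, hd⟩

variable {k : Type} [Field k] {N : Rep.{0} k GQ} [FiniteDimensional k N]
  {S : Finset Nat.Primes} {q : Nat.Primes}

/-- The map from a finite level to `Ẽ`. -/
def toE {F' Fd : IntermediateField ℚ Qbar} (hF' : F'.IsUnramifiedOutside (insert q S))
    (hFd : Fd.IsUnramifiedOutside S) : ↥(lvl N F' Fd) →ₗ[k] Etil S (insert q S) N :=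
  (Submodule.mkQ _).comp (Submodule.inclusion (lvl_le_preE hF' hFd))

lemma toE_eq_zero_iff {F' Fd : IntermediateField ℚ Qbar}
    (hF' : F'.IsUnramifiedOutside (insert q S)) (hFd : Fd.IsUnramifiedOutside S)
    (f : ↥(lvl N F' Fd)) :
    toE hF' hFd f = 0 ↔ IsLevelConstantS₁ S (f : GQ → N) := by
  rw [toE, LinearMap.comp_apply, Submodule.mkQ_apply, Submodule.Quotient.mk_eq_zero,
    Submodule.mem_comap]
  rfl

/-- **The bound at a finite level.** -/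
theorem finrank_range_toE_le (hq : q ∉ S) (hqk : ((q : ℕ) : k) ≠ 0)
    (A₀ : ValuationSubring Qbar) (hA₀ : A₀.LiesOverPrime (q : ℕ)) (φ : GQ)
    (hφ : A₀.IsFrobeniusAt φ (q : ℕ))
    {FN Fd F' : IntermediateField ℚ Qbar}
    (hNtriv : ∀ s ∈ FN.fixingSubgroup, ∀ m : N, N.ρ s m = m)
    (hFN : FN ≤ Fd) (hFdF' : Fd ≤ F') (hFd : Fd.IsUnramifiedOutside S)
    (hF' : F'.IsUnramifiedOutside (insert q S)) :
    Module.Finite k (LinearMap.range (toE (N := N) hF' hFd)) ∧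
      finrank k (LinearMap.range (toE (N := N) hF' hFd)) ≤ finrank k (eigQ N φ q) := by
  obtain ⟨τ₀, hτ₀, hcyc, hconj, -⟩ :=
    Fermat.Agent.S59.TWGal.H59.stmt_TAME (q : ℕ) q.2 A₀ hA₀ φ hφ F' hF'.1
  have hN : S55.Lev S N := ⟨FN, hFd.of_le hFN, hNtriv⟩
  have hAdm : ∀ f : ↥(lvl N F' Fd), Adm N Fd.fixingSubgroup (f : GQ → N) := fun f =>
    ⟨fun s hs n => hNtriv s (S55.mem_fix_of_le hFN hs) n, f.2.2⟩
  have hIH : A₀.inertiaSubgroupIn ℚ ≤ Fd.fixingSubgroup := hFd.2 q hq A₀ hA₀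
  have hU : ∀ f : ↥(lvl N F' Fd), F'.fixingSubgroup ≤ zeroSub (hAdm f) := by
    intro f u hu
    refine ⟨S55.mem_fix_of_le hFdF' hu, ?_⟩
    have := f.2.1 1 u hu
    rw [one_mul] at this
    rw [nrm, this, sub_self]
  have hφτ : φ * τ₀ * φ⁻¹ ∈ A₀.inertiaSubgroupIn ℚ :=
    conj_mem_inertiaSubgroupIn A₀ hφ.mem_decompositionSubgroup hτ₀
  let Λ : ↥(lvl N F' Fd) →ₗ[k] ↥(eigQ N φ q) :=
    LinearMap.codRestrict (eigQ N φ q) ((evN N τ₀).comp (lvl N F' Fd).subtype)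
      (fun f => mem_eigQ.2
        ((hAdm f).rho_frob_nrm hqk _ hIH hτ₀ hφτ _ (hU f) hconj))
  have hker : LinearMap.ker Λ ≤ LinearMap.ker (toE (N := N) hF' hFd) := by
    intro f hf
    rw [LinearMap.mem_ker] at hf ⊢
    have h0 : nrm N (f : GQ → N) τ₀ = 0 := congrArg Subtype.val hf
    have hI := (hAdm f).nrm_inertia_eq_zero hqk _ hIH hτ₀ _ (hU f) hcyc h0
    rw [toE_eq_zero_iff]
    refine level_lower hq hN ⟨F', hF', f.2.1⟩ ⟨Fd, hFd, f.2.2⟩ A₀ hA₀ (fun σ hσ => ?_)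
    have := hI σ hσ
    rw [nrm, sub_eq_zero] at this
    exact this
  exact Fermat.Agent.S56.H9.finrank_range_le_of_ker_le _ Λ hker

/-- Finitely many elements of `preE` have a common level. -/
lemma exists_common_lvl (FN : IntermediateField ℚ Qbar) (hFN : FN.IsUnramifiedOutside S)
    (s : Finset ↥(preE S (insert q S) N)) :
    ∃ F' Fd : IntermediateField ℚ Qbar, FN ≤ Fd ∧ Fd ≤ F' ∧ Fd.IsUnramifiedOutside S ∧
      F'.IsUnramifiedOutside (insert q S) ∧ ∀ f ∈ s, (f : GQ → N) ∈ lvl N F' Fd := by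
  classical
  induction s using Finset.induction_on with
  | empty =>
    exact ⟨FN, FN, le_rfl, le_rfl, hFN, hFN.mono (Finset.subset_insert q S),
      fun f hf => absurd hf (Finset.notMem_empty f)⟩
  | insert f s _ ih =>
    obtain ⟨F', Fd, h1, h2, h3, h4, h5⟩ := ih
    obtain ⟨Ff, Fdf, hFf, hFdf, hmem⟩ := exists_lvl_of_mem_preE f.2
    refine ⟨F' ⊔ (Ff ⊔ Fdf), Fd ⊔ Fdf, h1.trans le_sup_left, ?_, h3.sup hFdf,
      h4.sup (hFf.sup (hFdf.mono (Finset.subset_insert q S))), ?_⟩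
    · exact sup_le (h2.trans le_sup_left) (le_sup_right.trans le_sup_right)
    · intro g hg
      rcases Finset.mem_insert.1 hg with rfl | hg
      · exact lvl_mono (le_sup_left.trans le_sup_right) le_sup_right hmem
      · exact lvl_mono le_sup_left le_sup_left (h5 g hg)

/-- **The tame bound in terms of the Frobenius eigenspace.** -/
theorem finrank_Etil_le_eigQ (hq : q ∉ S) (hqk : ((q : ℕ) : k) ≠ 0)
    (A₀ : ValuationSubring Qbar) (hA₀ : A₀.LiesOverPrime (q : ℕ)) (φ : GQ)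
    (hφ : A₀.IsFrobeniusAt φ (q : ℕ)) (hN : S55.Lev S N) :
    Module.Finite k (Etil S (insert q S) N) ∧
      finrank k (Etil S (insert q S) N) ≤ finrank k (eigQ N φ q) := by
  classical
  obtain ⟨FN, hFNu, hNtriv⟩ := hN
  have hrank : Module.rank k (Etil S (insert q S) N) ≤ (finrank k (eigQ N φ q) : ℕ) := by
    apply rank_le
    intro s hs
    have hsurj : ∀ x : Etil S (insert q S) N, ∃ f : ↥(preE S (insert q S) N),
        Submodule.Quotient.mk f = x := fun x => Submodule.Quotient.mk_surjective _ x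
    choose lift hlift using hsurj
    obtain ⟨F', Fd, h1, h2, h3, h4, h5⟩ := exists_common_lvl (N := N) FN hFNu (s.image lift)
    obtain ⟨hfin, hle⟩ := finrank_range_toE_le (N := N) hq hqk A₀ hA₀ φ hφ hNtriv h1 h2 h3 h4
    have hmem : ∀ x ∈ s, x ∈ LinearMap.range (toE (N := N) h4 h3) := by
      intro x hx
      refine ⟨⟨(lift x : GQ → N), h5 _ (Finset.mem_image_of_mem lift hx)⟩, ?_⟩
      exact (hlift x)
    let v' : s → ↥(LinearMap.range (toE (N := N) h4 h3)) := fun i => ⟨i.1, hmem i.1 i.2⟩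
    have hv' : LinearIndependent k v' :=
      LinearIndependent.of_comp (LinearMap.range (toE (N := N) h4 h3)).subtype hs
    have := hv'.fintype_card_le_finrank
    rw [Fintype.card_coe] at this
    exact this.trans hle
  have hfin : Module.Finite k (Etil S (insert q S) N) :=
    Module.rank_lt_aleph0_iff.1 (lt_of_le_of_lt hrank (Cardinal.natCast_lt_aleph0))
  exact ⟨hfin, finrank_le_of_rank_le hrank⟩

end bound

end Fermat.Agent.S56.EC.DESC.H92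

end
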