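import Mathlib

set_option autoImplicit false
set_option linter.style.haveILetI false

/-!
# Abstract long exact sequence (six terms) and the dimension count

Pure linear algebra over a field `k`.  For a complex `W →u X →d Y` put
`Hmid u d = ker d ⧸ range u`.  Given three complexes `W →u X →d Y →e Z` (indices `A`, `B`, `C`)
and a degreewise short exact sequence `A → B → C` between them, there is the six-term exact
sequence
`H^X(A) → H^X(B) → H^X(C) →δ H^Y(A) → H^Y(B) → H^Y(C)`.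
We prove exactness at the four inner terms and deduce the dimension count
`dim H^X(B) + dim H^Y(A) + rk(β_Y) = rk(α_X) + dim H^X(C) + dim H^Y(B)`.
-/

noncomputable section

namespace Fermat.Agent.S56.H92.Snake

open LinearMap

variable {k : Type*} [Field k]

section Hmid

variable {W X Y : Type*} [AddCommGroup W] [Module k W] [AddCommGroup X] [Module k X]
  [AddCommGroup Y] [Module k Y]

/-- The cohomology of `W →u X →d Y` at `X`: `ker d ⧸ range u`. -/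
abbrev Hmid (u : W →ₗ[k] X) (d : X →ₗ[k] Y) : Type _ :=
  ↥(LinearMap.ker d) ⧸ (LinearMap.range u).comap (LinearMap.ker d).subtype

/-- The class of a cocycle. -/
def Hmid.mk (u : W →ₗ[k] X) (d : X →ₗ[k] Y) : ↥(LinearMap.ker d) →ₗ[k] Hmid u d :=
  Submodule.mkQ _

theorem Hmid.mk_surjective (u : W →ₗ[k] X) (d : X →ₗ[k] Y) :
    Function.Surjective (Hmid.mk u d) :=
  Submodule.mkQ_surjective _

theorem Hmid.mk_eq_zero_iff (u : W →ₗ[k] X) (d : X →ₗ[k] Y) (z : ↥(LinearMap.ker d)) :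
    Hmid.mk u d z = 0 ↔ ∃ w : W, u w = (z : X) := by
  unfold Hmid.mk
  rw [Submodule.mkQ_apply, Submodule.Quotient.mk_eq_zero, Submodule.mem_comap]
  exact LinearMap.mem_range

theorem Hmid.mk_eq_mk_iff (u : W →ₗ[k] X) (d : X →ₗ[k] Y) (z z' : ↥(LinearMap.ker d)) :
    Hmid.mk u d z = Hmid.mk u d z' ↔ ∃ w : W, u w = (z : X) - (z' : X) := by
  rw [← sub_eq_zero, ← map_sub, Hmid.mk_eq_zero_iff]
  rfl

end Hmid

section map

variable {W X Y W' X' Y' : Type*} [AddCommGroup W] [Module k W] [AddCommGroup X] [Module k X]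
  [AddCommGroup Y] [Module k Y] [AddCommGroup W'] [Module k W'] [AddCommGroup X'] [Module k X']
  [AddCommGroup Y'] [Module k Y']

/-- Functoriality of `Hmid`. -/
def Hmid.map {u : W →ₗ[k] X} {d : X →ₗ[k] Y} {u' : W' →ₗ[k] X'} {d' : X' →ₗ[k] Y'}
    (fW : W →ₗ[k] W') (fX : X →ₗ[k] X') (fY : Y →ₗ[k] Y')
    (hu : ∀ w, fX (u w) = u' (fW w)) (hd : ∀ x, fY (d x) = d' (fX x)) :
    Hmid u d →ₗ[k] Hmid u' d' :=
  Submodule.mapQ _ _
    (fX.restrict (p := LinearMap.ker d) (q := LinearMap.ker d') (fun x hx => by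
      rw [LinearMap.mem_ker] at hx ⊢
      rw [← hd, hx, map_zero]))
    (fun z hz => by
      rw [Submodule.mem_comap] at hz
      obtain ⟨w, hw⟩ := hz
      rw [Submodule.mem_comap, Submodule.mem_comap]
      exact ⟨fW w, by rw [← hu, hw]; rfl⟩)

theorem Hmid.map_mk {u : W →ₗ[k] X} {d : X →ₗ[k] Y} {u' : W' →ₗ[k] X'} {d' : X' →ₗ[k] Y'}
    (fW : W →ₗ[k] W') (fX : X →ₗ[k] X') (fY : Y →ₗ[k] Y')
    (hu : ∀ w, fX (u w) = u' (fW w)) (hd : ∀ x, fY (d x) = d' (fX x))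
    (z : ↥(LinearMap.ker d)) (z' : ↥(LinearMap.ker d')) (h : (z' : X') = fX z) :
    Hmid.map fW fX fY hu hd (Hmid.mk u d z) = Hmid.mk u' d' z' := by
  unfold Hmid.map Hmid.mk
  rw [Submodule.mkQ_apply, Submodule.mapQ_apply, Submodule.mkQ_apply]
  congr 1
  exact Subtype.ext h.symm

end map

section six

variable {WA XA YA ZA WB XB YB ZB WC XC YC ZC : Type*}
  [AddCommGroup WA] [Module k WA] [AddCommGroup XA] [Module k XA]
  [AddCommGroup YA] [Module k YA] [AddCommGroup ZA] [Module k ZA]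
  [AddCommGroup WB] [Module k WB] [AddCommGroup XB] [Module k XB]
  [AddCommGroup YB] [Module k YB] [AddCommGroup ZB] [Module k ZB]
  [AddCommGroup WC] [Module k WC] [AddCommGroup XC] [Module k XC]
  [AddCommGroup YC] [Module k YC] [AddCommGroup ZC] [Module k ZC]
  (uA : WA →ₗ[k] XA) (dA : XA →ₗ[k] YA) (eA : YA →ₗ[k] ZA)
  (uB : WB →ₗ[k] XB) (dB : XB →ₗ[k] YB) (eB : YB →ₗ[k] ZB)
  (uC : WC →ₗ[k] XC) (dC : XC →ₗ[k] YC) (eC : YC →ₗ[k] ZC)
  (iW : WA →ₗ[k] WB) (iX : XA →ₗ[k] XB) (iY : YA →ₗ[k] YB) (iZ : ZA →ₗ[k] ZB)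
  (pW : WB →ₗ[k] WC) (pX : XB →ₗ[k] XC) (pY : YB →ₗ[k] YC) (pZ : ZB →ₗ[k] ZC)

/-- The hypotheses of the six-term exact sequence: three complexes `W → X → Y → Z` and a
degreewise (partially) short exact sequence between them. -/
structure SixHyp : Prop where
  dB_uB : ∀ w, dB (uB w) = 0
  eB_dB : ∀ x, eB (dB x) = 0
  iX_uA : ∀ w, iX (uA w) = uB (iW w)
  iY_dA : ∀ x, iY (dA x) = dB (iX x)
  iZ_eA : ∀ y, iZ (eA y) = eB (iY y)
  pX_uB : ∀ w, pX (uB w) = uC (pW w)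
  pY_dB : ∀ x, pY (dB x) = dC (pX x)
  pZ_eB : ∀ y, pZ (eB y) = eC (pY y)
  pW_surj : Function.Surjective pW
  pX_surj : Function.Surjective pX
  exX : ∀ x, pX x = 0 ↔ ∃ a, iX a = x
  iY_inj : Function.Injective iY
  exY : ∀ y, pY y = 0 ↔ ∃ a, iY a = y
  iZ_inj : Function.Injective iZ

variable {uA dA eA uB dB eB uC dC eC iW iX iY iZ pW pX pY pZ}
variable (h : SixHyp uA dA eA uB dB eB uC dC eC iW iX iY iZ pW pX pY pZ)

include h

/-- `H^X(A) → H^X(B)`. -/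
def SixHyp.αX : Hmid uA dA →ₗ[k] Hmid uB dB := Hmid.map iW iX iY h.iX_uA h.iY_dA

/-- `H^X(B) → H^X(C)`. -/
def SixHyp.βX : Hmid uB dB →ₗ[k] Hmid uC dC := Hmid.map pW pX pY h.pX_uB h.pY_dB

/-- `H^Y(A) → H^Y(B)`. -/
def SixHyp.αY : Hmid dA eA →ₗ[k] Hmid dB eB := Hmid.map iX iY iZ h.iY_dA h.iZ_eA

/-- `H^Y(B) → H^Y(C)`. -/
def SixHyp.βY : Hmid dB eB →ₗ[k] Hmid dC eC := Hmid.map pX pY pZ h.pY_dB h.pZ_eB

/-- A linear section of `pX`. -/
def SixHyp.sec : XC →ₗ[k] XB :=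
  Classical.choose (LinearMap.exists_rightInverse_of_surjective pX
    (LinearMap.range_eq_top.2 h.pX_surj))

theorem SixHyp.pX_sec (x : XC) : pX (h.sec x) = x := by
  have := Classical.choose_spec (LinearMap.exists_rightInverse_of_surjective pX
    (LinearMap.range_eq_top.2 h.pX_surj))
  exact LinearMap.congr_fun this x

/-- A linear retraction of `iY`. -/
def SixHyp.ret : YB →ₗ[k] YA :=
  Classical.choose (LinearMap.exists_leftInverse_of_injective iY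
    (LinearMap.ker_eq_bot.2 h.iY_inj))

theorem SixHyp.ret_iY (y : YA) : h.ret (iY y) = y := by
  have := Classical.choose_spec (LinearMap.exists_leftInverse_of_injective iY
    (LinearMap.ker_eq_bot.2 h.iY_inj))
  exact LinearMap.congr_fun this y

/-- If `x` lifts a cocycle of `C`, then `d x` comes from a cocycle of `A`. -/
theorem SixHyp.exists_of_lift (x : XB) (hx : dC (pX x) = 0) :
    ∃ y : YA, iY y = dB x ∧ eA y = 0 := by
  have h1 : pY (dB x) = 0 := by rw [h.pY_dB, hx]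
  obtain ⟨y, hy⟩ := (h.exY _).1 h1
  refine ⟨y, hy, h.iZ_inj ?_⟩
  rw [h.iZ_eA, hy, h.eB_dB, map_zero]

/-- The connecting map on cocycles. -/
def SixHyp.δ₀ : ↥(LinearMap.ker dC) →ₗ[k] ↥(LinearMap.ker eA) :=
  LinearMap.codRestrict (LinearMap.ker eA)
    (h.ret.comp (dB.comp (h.sec.comp (LinearMap.ker dC).subtype)))
    (fun z => by
      have hz : dC (pX (h.sec (z : XC))) = 0 := by
        rw [h.pX_sec]; exact z.2
      obtain ⟨y, hy, hy0⟩ := h.exists_of_lift (h.sec (z : XC)) hz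
      rw [LinearMap.mem_ker]
      show eA (h.ret (dB (h.sec (z : XC)))) = 0
      rw [← hy, h.ret_iY, hy0])

theorem SixHyp.iY_δ₀ (z : ↥(LinearMap.ker dC)) :
    iY ((h.δ₀ z : ↥(LinearMap.ker eA)) : YA) = dB (h.sec (z : XC)) := by
  have hz : dC (pX (h.sec (z : XC))) = 0 := by
    rw [h.pX_sec]; exact z.2
  obtain ⟨y, hy, -⟩ := h.exists_of_lift (h.sec (z : XC)) hz
  show iY (h.ret (dB (h.sec (z : XC)))) = _
  rw [← hy, h.ret_iY]

/-- The connecting homomorphism `H^X(C) → H^Y(A)`. -/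
def SixHyp.δ : Hmid uC dC →ₗ[k] Hmid dA eA :=
  Submodule.liftQ _ ((Hmid.mk dA eA).comp h.δ₀) (fun z hz => by
    rw [Submodule.mem_comap] at hz
    obtain ⟨w, hw⟩ := hz
    rw [LinearMap.mem_ker, LinearMap.comp_apply, Hmid.mk_eq_zero_iff]
    obtain ⟨wB, hwB⟩ := h.pW_surj w
    have h1 : pX (h.sec (z : XC) - uB wB) = 0 := by
      rw [map_sub, h.pX_sec, h.pX_uB, hwB]
      exact sub_eq_zero.2 hw.symm
    obtain ⟨a, ha⟩ := (h.exX _).1 h1
    refine ⟨a, h.iY_inj ?_⟩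
    rw [h.iY_dA, ha, map_sub, h.dB_uB, sub_zero, h.iY_δ₀])

theorem SixHyp.δ_mk (z : ↥(LinearMap.ker dC)) :
    h.δ (Hmid.mk uC dC z) = Hmid.mk dA eA (h.δ₀ z) := rfl

/-- The connecting homomorphism, computed with any lift. -/
theorem SixHyp.δ_spec (z : ↥(LinearMap.ker dC)) (x : XB) (hx : pX x = (z : XC))
    (y : ↥(LinearMap.ker eA)) (hy : iY (y : YA) = dB x) :
    h.δ (Hmid.mk uC dC z) = Hmid.mk dA eA y := by
  rw [h.δ_mk, Hmid.mk_eq_mk_iff]
  have h1 : pX (h.sec (z : XC) - x) = 0 := by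
    rw [map_sub, h.pX_sec, hx, sub_self]
  obtain ⟨a, ha⟩ := (h.exX _).1 h1
  refine ⟨a, h.iY_inj ?_⟩
  rw [h.iY_dA, ha, map_sub, map_sub, h.iY_δ₀, hy]

/-- Exactness at `H^X(B)`. -/
theorem SixHyp.exact_XB (b : Hmid uB dB) : h.βX b = 0 ↔ ∃ a, h.αX a = b := by
  obtain ⟨z, rfl⟩ := Hmid.mk_surjective uB dB b
  have hz0 : dB (z : XB) = 0 := z.2
  constructor
  · intro hb
    have hpz : pX (z : XB) ∈ LinearMap.ker dC := by
      rw [LinearMap.mem_ker, ← h.pY_dB, hz0, map_zero]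
    have e1 : h.βX (Hmid.mk uB dB z) = Hmid.mk uC dC ⟨pX (z : XB), hpz⟩ :=
      Hmid.map_mk pW pX pY h.pX_uB h.pY_dB z _ rfl
    rw [e1, Hmid.mk_eq_zero_iff] at hb
    obtain ⟨w, hw⟩ := hb
    obtain ⟨wB, hwB⟩ := h.pW_surj w
    have h1 : pX ((z : XB) - uB wB) = 0 := by
      rw [map_sub, h.pX_uB, hwB, hw]
      exact sub_self _
    obtain ⟨a, ha⟩ := (h.exX _).1 h1
    have ha0 : a ∈ LinearMap.ker dA := by
      rw [LinearMap.mem_ker]
      apply h.iY_inj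
      rw [h.iY_dA, ha, map_sub, hz0, h.dB_uB, sub_zero, map_zero]
    refine ⟨Hmid.mk uA dA ⟨a, ha0⟩, ?_⟩
    have e2 : h.αX (Hmid.mk uA dA ⟨a, ha0⟩) = Hmid.mk uB dB ⟨iX a, by
        rw [LinearMap.mem_ker, ← h.iY_dA, LinearMap.mem_ker.1 ha0, map_zero]⟩ :=
      Hmid.map_mk iW iX iY h.iX_uA h.iY_dA _ _ rfl
    rw [e2, Hmid.mk_eq_mk_iff]
    refine ⟨-wB, ?_⟩
    show uB (-wB) = iX a - (z : XB)
    rw [ha, map_neg]
    abel
  · rintro ⟨a, ha⟩
    obtain ⟨za, rfl⟩ := Hmid.mk_surjective uA dA a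
    have hiz : iX (za : XA) ∈ LinearMap.ker dB := by
      rw [LinearMap.mem_ker, ← h.iY_dA, LinearMap.mem_ker.1 za.2, map_zero]
    have e2 : h.αX (Hmid.mk uA dA za) = Hmid.mk uB dB ⟨iX (za : XA), hiz⟩ :=
      Hmid.map_mk iW iX iY h.iX_uA h.iY_dA _ _ rfl
    rw [← ha, e2]
    have hpz : pX (iX (za : XA)) ∈ LinearMap.ker dC := by
      rw [LinearMap.mem_ker, ← h.pY_dB, LinearMap.mem_ker.1 hiz, map_zero]
    have e1 : h.βX (Hmid.mk uB dB ⟨iX (za : XA), hiz⟩) =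
        Hmid.mk uC dC ⟨pX (iX (za : XA)), hpz⟩ :=
      Hmid.map_mk pW pX pY h.pX_uB h.pY_dB _ _ rfl
    rw [e1, Hmid.mk_eq_zero_iff]
    refine ⟨0, ?_⟩
    rw [map_zero]
    exact ((h.exX _).2 ⟨_, rfl⟩).symm

/-- Exactness at `H^X(C)`. -/
theorem SixHyp.exact_XC (c : Hmid uC dC) : h.δ c = 0 ↔ ∃ b, h.βX b = c := by
  obtain ⟨z, rfl⟩ := Hmid.mk_surjective uC dC c
  constructor
  · intro hc
    rw [h.δ_mk, Hmid.mk_eq_zero_iff] at hc
    obtain ⟨a, ha⟩ := hc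
    have hx : h.sec (z : XC) - iX a ∈ LinearMap.ker dB := by
      rw [LinearMap.mem_ker, map_sub, ← h.iY_dA, ha, h.iY_δ₀, sub_self]
    refine ⟨Hmid.mk uB dB ⟨_, hx⟩, ?_⟩
    refine Hmid.map_mk pW pX pY h.pX_uB h.pY_dB _ _ ?_
    show (z : XC) = pX (h.sec (z : XC) - iX a)
    rw [map_sub, h.pX_sec, (h.exX _).2 ⟨a, rfl⟩, sub_zero]
  · rintro ⟨b, hb⟩
    obtain ⟨zb, rfl⟩ := Hmid.mk_surjective uB dB b
    have hpz : pX (zb : XB) ∈ LinearMap.ker dC := by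
      rw [LinearMap.mem_ker, ← h.pY_dB, LinearMap.mem_ker.1 zb.2, map_zero]
    have e1 : h.βX (Hmid.mk uB dB zb) = Hmid.mk uC dC ⟨pX (zb : XB), hpz⟩ :=
      Hmid.map_mk pW pX pY h.pX_uB h.pY_dB _ _ rfl
    rw [← hb, e1]
    have := h.δ_spec ⟨pX (zb : XB), hpz⟩ (zb : XB) rfl (0 : ↥(LinearMap.ker eA)) (by
      show iY 0 = dB (zb : XB)
      rw [map_zero, LinearMap.mem_ker.1 zb.2])
    rw [this, map_zero]

/-- Exactness at `H^Y(A)`. -/
theorem SixHyp.exact_YA (a : Hmid dA eA) : h.αY a = 0 ↔ ∃ c, h.δ c = a := by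
  obtain ⟨y, rfl⟩ := Hmid.mk_surjective dA eA a
  have hiy : iY (y : YA) ∈ LinearMap.ker eB := by
    rw [LinearMap.mem_ker, ← h.iZ_eA, LinearMap.mem_ker.1 y.2, map_zero]
  have e1 : h.αY (Hmid.mk dA eA y) = Hmid.mk dB eB ⟨iY (y : YA), hiy⟩ :=
    Hmid.map_mk iX iY iZ h.iY_dA h.iZ_eA _ _ rfl
  constructor
  · intro ha
    rw [e1, Hmid.mk_eq_zero_iff] at ha
    obtain ⟨x, hx⟩ := ha
    have hx' : dB x = iY (y : YA) := hx
    have hpx : pX x ∈ LinearMap.ker dC := by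
      rw [LinearMap.mem_ker, ← h.pY_dB, hx']
      exact (h.exY _).2 ⟨_, rfl⟩
    refine ⟨Hmid.mk uC dC ⟨pX x, hpx⟩, ?_⟩
    exact h.δ_spec ⟨pX x, hpx⟩ x rfl y hx'.symm
  · rintro ⟨c, hc⟩
    obtain ⟨z, rfl⟩ := Hmid.mk_surjective uC dC c
    rw [h.δ_mk] at hc
    rw [← hc]
    have hiy' : iY ((h.δ₀ z : ↥(LinearMap.ker eA)) : YA) ∈ LinearMap.ker eB := by
      rw [LinearMap.mem_ker, ← h.iZ_eA, LinearMap.mem_ker.1 (h.δ₀ z).2, map_zero]
    have e2 : h.αY (Hmid.mk dA eA (h.δ₀ z)) = Hmid.mk dB eB ⟨_, hiy'⟩ :=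
      Hmid.map_mk iX iY iZ h.iY_dA h.iZ_eA _ _ rfl
    rw [e2, Hmid.mk_eq_zero_iff]
    exact ⟨h.sec (z : XC), (h.iY_δ₀ z).symm⟩

/-- Exactness at `H^Y(B)`. -/
theorem SixHyp.exact_YB (b : Hmid dB eB) : h.βY b = 0 ↔ ∃ a, h.αY a = b := by
  obtain ⟨y, rfl⟩ := Hmid.mk_surjective dB eB b
  have hy0 : eB (y : YB) = 0 := y.2
  constructor
  · intro hb
    have hpy : pY (y : YB) ∈ LinearMap.ker eC := by
      rw [LinearMap.mem_ker, ← h.pZ_eB, hy0, map_zero]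
    have e1 : h.βY (Hmid.mk dB eB y) = Hmid.mk dC eC ⟨pY (y : YB), hpy⟩ :=
      Hmid.map_mk pX pY pZ h.pY_dB h.pZ_eB _ _ rfl
    rw [e1, Hmid.mk_eq_zero_iff] at hb
    obtain ⟨x, hx⟩ := hb
    obtain ⟨xB, hxB⟩ := h.pX_surj x
    have h1 : pY ((y : YB) - dB xB) = 0 := by
      rw [map_sub, h.pY_dB, hxB, hx]
      exact sub_self _
    obtain ⟨a, ha⟩ := (h.exY _).1 h1
    have ha0 : a ∈ LinearMap.ker eA := by
      rw [LinearMap.mem_ker]
      apply h.iZ_inj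
      rw [h.iZ_eA, ha, map_sub, hy0, h.eB_dB, sub_zero, map_zero]
    refine ⟨Hmid.mk dA eA ⟨a, ha0⟩, ?_⟩
    have e2 : h.αY (Hmid.mk dA eA ⟨a, ha0⟩) = Hmid.mk dB eB ⟨iY a, by
        rw [LinearMap.mem_ker, ← h.iZ_eA, LinearMap.mem_ker.1 ha0, map_zero]⟩ :=
      Hmid.map_mk iX iY iZ h.iY_dA h.iZ_eA _ _ rfl
    rw [e2, Hmid.mk_eq_mk_iff]
    refine ⟨-xB, ?_⟩
    show dB (-xB) = iY a - (y : YB)
    rw [ha, map_neg]
    abel
  · rintro ⟨a, ha⟩
    obtain ⟨za, rfl⟩ := Hmid.mk_surjective dA eA a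
    have hiz : iY (za : YA) ∈ LinearMap.ker eB := by
      rw [LinearMap.mem_ker, ← h.iZ_eA, LinearMap.mem_ker.1 za.2, map_zero]
    have e2 : h.αY (Hmid.mk dA eA za) = Hmid.mk dB eB ⟨iY (za : YA), hiz⟩ :=
      Hmid.map_mk iX iY iZ h.iY_dA h.iZ_eA _ _ rfl
    rw [← ha, e2]
    have hpz : pY (iY (za : YA)) ∈ LinearMap.ker eC := by
      rw [LinearMap.mem_ker, ← h.pZ_eB, LinearMap.mem_ker.1 hiz, map_zero]
    have e1 : h.βY (Hmid.mk dB eB ⟨iY (za : YA), hiz⟩) =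
        Hmid.mk dC eC ⟨pY (iY (za : YA)), hpz⟩ :=
      Hmid.map_mk pX pY pZ h.pY_dB h.pZ_eB _ _ rfl
    rw [e1, Hmid.mk_eq_zero_iff]
    refine ⟨0, ?_⟩
    rw [map_zero]
    exact ((h.exY _).2 ⟨_, rfl⟩).symm

end six

section count

/-- Rank-nullity at an exact spot `U →f V →g T`. -/
theorem finrank_eq_of_exact {U V T : Type*} [AddCommGroup U] [Module k U]
    [AddCommGroup V] [Module k V] [AddCommGroup T] [Module k T] [Module.Finite k V]
    (f : U →ₗ[k] V) (g : V →ₗ[k] T) (hex : ∀ v, g v = 0 ↔ ∃ u, f u = v) :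
    Module.finrank k V =
      Module.finrank k (LinearMap.range f) + Module.finrank k (LinearMap.range g) := by
  have h1 := LinearMap.finrank_range_add_finrank_ker g
  have h2 : LinearMap.ker g = LinearMap.range f := by
    ext v
    rw [LinearMap.mem_ker, LinearMap.mem_range]
    exact hex v
  rw [h2] at h1
  omega

/-- Rank of an injective map. -/
theorem finrank_range_of_injective {U V : Type*} [AddCommGroup U] [Module k U]
    [AddCommGroup V] [Module k V] (f : U →ₗ[k] V) (hf : Function.Injective f) :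
    Module.finrank k (LinearMap.range f) = Module.finrank k U :=
  LinearMap.finrank_range_of_inj hf

variable {WA XA YA ZA WB XB YB ZB WC XC YC ZC : Type*}
  [AddCommGroup WA] [Module k WA] [AddCommGroup XA] [Module k XA]
  [AddCommGroup YA] [Module k YA] [AddCommGroup ZA] [Module k ZA]
  [AddCommGroup WB] [Module k WB] [AddCommGroup XB] [Module k XB]
  [AddCommGroup YB] [Module k YB] [AddCommGroup ZB] [Module k ZB]
  [AddCommGroup WC] [Module k WC] [AddCommGroup XC] [Module k XC]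
  [AddCommGroup YC] [Module k YC] [AddCommGroup ZC] [Module k ZC]
  {uA : WA →ₗ[k] XA} {dA : XA →ₗ[k] YA} {eA : YA →ₗ[k] ZA}
  {uB : WB →ₗ[k] XB} {dB : XB →ₗ[k] YB} {eB : YB →ₗ[k] ZB}
  {uC : WC →ₗ[k] XC} {dC : XC →ₗ[k] YC} {eC : YC →ₗ[k] ZC}
  {iW : WA →ₗ[k] WB} {iX : XA →ₗ[k] XB} {iY : YA →ₗ[k] YB} {iZ : ZA →ₗ[k] ZB}
  {pW : WB →ₗ[k] WC} {pX : XB →ₗ[k] XC} {pY : YB →ₗ[k] YC} {pZ : ZB →ₗ[k] ZC}
  (h : SixHyp uA dA eA uB dB eB uC dC eC iW iX iY iZ pW pX pY pZ)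

include h

/-- `dim H^X(B) = rk α_X + rk β_X`. -/
theorem SixHyp.finrank_XB [Module.Finite k (Hmid uB dB)] :
    Module.finrank k (Hmid uB dB) =
      Module.finrank k (LinearMap.range h.αX) + Module.finrank k (LinearMap.range h.βX) :=
  finrank_eq_of_exact h.αX h.βX h.exact_XB

/-- `dim H^Y(B) = rk α_Y + rk β_Y`. -/
theorem SixHyp.finrank_YB [Module.Finite k (Hmid dB eB)] :
    Module.finrank k (Hmid dB eB) =
      Module.finrank k (LinearMap.range h.αY) + Module.finrank k (LinearMap.range h.βY) :=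
  finrank_eq_of_exact h.αY h.βY h.exact_YB

/-- The dimension count of the six-term exact sequence. -/
theorem SixHyp.count [Module.Finite k (Hmid uB dB)] [Module.Finite k (Hmid uC dC)]
    [Module.Finite k (Hmid dA eA)] [Module.Finite k (Hmid dB eB)] :
    Module.finrank k (Hmid uB dB) + Module.finrank k (Hmid dA eA) +
        Module.finrank k (LinearMap.range h.βY) =
      Module.finrank k (LinearMap.range h.αX) + Module.finrank k (Hmid uC dC) +
        Module.finrank k (Hmid dB eB) := by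
  have h1 := h.finrank_XB
  have h2 := finrank_eq_of_exact h.βX h.δ h.exact_XC
  have h3 := finrank_eq_of_exact h.δ h.αY h.exact_YA
  have h4 := h.finrank_YB
  omega

end count

section nine

variable {X0A X1A X2A X3A X0B X1B X2B X3B X0C X1C X2C X3C : Type*}
  [AddCommGroup X0A] [Module k X0A] [AddCommGroup X1A] [Module k X1A]
  [AddCommGroup X2A] [Module k X2A] [AddCommGroup X3A] [Module k X3A]
  [AddCommGroup X0B] [Module k X0B] [AddCommGroup X1B] [Module k X1B]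
  [AddCommGroup X2B] [Module k X2B] [AddCommGroup X3B] [Module k X3B]
  [AddCommGroup X0C] [Module k X0C] [AddCommGroup X1C] [Module k X1C]
  [AddCommGroup X2C] [Module k X2C] [AddCommGroup X3C] [Module k X3C]
  (d0A : X0A →ₗ[k] X1A) (d1A : X1A →ₗ[k] X2A) (d2A : X2A →ₗ[k] X3A)
  (d0B : X0B →ₗ[k] X1B) (d1B : X1B →ₗ[k] X2B) (d2B : X2B →ₗ[k] X3B)
  (d0C : X0C →ₗ[k] X1C) (d1C : X1C →ₗ[k] X2C) (d2C : X2C →ₗ[k] X3C)
  (i0 : X0A →ₗ[k] X0B) (i1 : X1A →ₗ[k] X1B) (i2 : X2A →ₗ[k] X2B) (i3 : X3A →ₗ[k] X3B)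
  (p0 : X0B →ₗ[k] X0C) (p1 : X1B →ₗ[k] X1C) (p2 : X2B →ₗ[k] X2C) (p3 : X3B →ₗ[k] X3C)

/-- The hypotheses of the nine-term exact sequence `H⁰(A) → … → H²(C)`: three complexes
`X0 → X1 → X2 → X3` and a degreewise short exact sequence `A → B → C` (no surjectivity needed in
degrees `2`, `3`, no exactness in degree `3`). -/
structure NineHyp : Prop where
  d1B_d0B : ∀ x, d1B (d0B x) = 0
  d2B_d1B : ∀ x, d2B (d1B x) = 0
  i1_d0A : ∀ x, i1 (d0A x) = d0B (i0 x)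
  i2_d1A : ∀ x, i2 (d1A x) = d1B (i1 x)
  i3_d2A : ∀ x, i3 (d2A x) = d2B (i2 x)
  p1_d0B : ∀ x, p1 (d0B x) = d0C (p0 x)
  p2_d1B : ∀ x, p2 (d1B x) = d1C (p1 x)
  p3_d2B : ∀ x, p3 (d2B x) = d2C (p2 x)
  i0_inj : Function.Injective i0
  ex0 : ∀ x, p0 x = 0 ↔ ∃ a, i0 a = x
  p0_surj : Function.Surjective p0
  i1_inj : Function.Injective i1
  ex1 : ∀ x, p1 x = 0 ↔ ∃ a, i1 a = x
  p1_surj : Function.Surjective p1
  i2_inj : Function.Injective i2
  ex2 : ∀ x, p2 x = 0 ↔ ∃ a, i2 a = x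
  i3_inj : Function.Injective i3

variable {d0A d1A d2A d0B d1B d2B d0C d1C d2C i0 i1 i2 i3 p0 p1 p2 p3}
variable (h : NineHyp d0A d1A d2A d0B d1B d2B d0C d1C d2C i0 i1 i2 i3 p0 p1 p2 p3)

include h

/-- The six-term hypotheses in degrees `0, 1` (with `W = 0`). -/
theorem NineHyp.six0 :
    SixHyp (0 : PUnit.{1} →ₗ[k] X0A) d0A d1A (0 : PUnit.{1} →ₗ[k] X0B) d0B d1B
      (0 : PUnit.{1} →ₗ[k] X0C) d0C d1C (LinearMap.id : PUnit.{1} →ₗ[k] PUnit.{1}) i0 i1 i2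
      (LinearMap.id : PUnit.{1} →ₗ[k] PUnit.{1}) p0 p1 p2 where
  dB_uB := fun _ => by simp
  eB_dB := h.d1B_d0B
  iX_uA := fun _ => by simp
  iY_dA := h.i1_d0A
  iZ_eA := h.i2_d1A
  pX_uB := fun _ => by simp
  pY_dB := h.p1_d0B
  pZ_eB := h.p2_d1B
  pW_surj := fun w => ⟨w, rfl⟩
  pX_surj := h.p0_surj
  exX := h.ex0
  iY_inj := h.i1_inj
  exY := h.ex1
  iZ_inj := h.i2_inj

/-- The six-term hypotheses in degrees `1, 2`. -/
theorem NineHyp.six1 :
    SixHyp d0A d1A d2A d0B d1B d2B d0C d1C d2C i0 i1 i2 i3 p0 p1 p2 p3 where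
  dB_uB := h.d1B_d0B
  eB_dB := h.d2B_d1B
  iX_uA := h.i1_d0A
  iY_dA := h.i2_d1A
  iZ_eA := h.i3_d2A
  pX_uB := h.p1_d0B
  pY_dB := h.p2_d1B
  pZ_eB := h.p3_d2B
  pW_surj := h.p0_surj
  pX_surj := h.p1_surj
  exX := h.ex1
  iY_inj := h.i2_inj
  exY := h.ex2
  iZ_inj := h.i3_inj

end nine

section H0

variable {X Y : Type*} [AddCommGroup X] [Module k X] [AddCommGroup Y] [Module k Y]

/-- `Hmid 0 d` is `ker d`. -/
def hmidZeroEquiv (d : X →ₗ[k] Y) :
    Hmid (0 : PUnit.{1} →ₗ[k] X) d ≃ₗ[k] ↥(LinearMap.ker d) :=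
  Submodule.quotEquivOfEqBot _ (by
    rw [LinearMap.range_zero, eq_bot_iff]
    intro x hx
    rw [Submodule.mem_comap, Submodule.mem_bot] at hx
    rw [Submodule.mem_bot]
    exact Subtype.ext hx)

theorem finrank_hmidZero (d : X →ₗ[k] Y) :
    Module.finrank k (Hmid (0 : PUnit.{1} →ₗ[k] X) d) = Module.finrank k ↥(LinearMap.ker d) :=
  (hmidZeroEquiv d).finrank_eq

theorem finite_hmidZero (d : X →ₗ[k] Y) [Module.Finite k ↥(LinearMap.ker d)] :
    Module.Finite k (Hmid (0 : PUnit.{1} →ₗ[k] X) d) :=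
  Module.Finite.equiv (hmidZeroEquiv d).symm

end H0

section nineCount

variable {X0A X1A X2A X3A X0B X1B X2B X3B X0C X1C X2C X3C : Type*}
  [AddCommGroup X0A] [Module k X0A] [AddCommGroup X1A] [Module k X1A]
  [AddCommGroup X2A] [Module k X2A] [AddCommGroup X3A] [Module k X3A]
  [AddCommGroup X0B] [Module k X0B] [AddCommGroup X1B] [Module k X1B]
  [AddCommGroup X2B] [Module k X2B] [AddCommGroup X3B] [Module k X3B]
  [AddCommGroup X0C] [Module k X0C] [AddCommGroup X1C] [Module k X1C]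
  [AddCommGroup X2C] [Module k X2C] [AddCommGroup X3C] [Module k X3C]
  {d0A : X0A →ₗ[k] X1A} {d1A : X1A →ₗ[k] X2A} {d2A : X2A →ₗ[k] X3A}
  {d0B : X0B →ₗ[k] X1B} {d1B : X1B →ₗ[k] X2B} {d2B : X2B →ₗ[k] X3B}
  {d0C : X0C →ₗ[k] X1C} {d1C : X1C →ₗ[k] X2C} {d2C : X2C →ₗ[k] X3C}
  {i0 : X0A →ₗ[k] X0B} {i1 : X1A →ₗ[k] X1B} {i2 : X2A →ₗ[k] X2B} {i3 : X3A →ₗ[k] X3B}
  {p0 : X0B →ₗ[k] X0C} {p1 : X1B →ₗ[k] X1C} {p2 : X2B →ₗ[k] X2C} {p3 : X3B →ₗ[k] X3C}
  (h : NineHyp d0A d1A d2A d0B d1B d2B d0C d1C d2C i0 i1 i2 i3 p0 p1 p2 p3)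

include h

/-- The map `H²(B) → H²(C)`. -/
def NineHyp.β2 : Hmid d1B d2B →ₗ[k] Hmid d1C d2C := h.six1.βY

/-- `H⁰(A) → H⁰(B)` is injective. -/
theorem NineHyp.α0_injective : Function.Injective h.six0.αX := by
  rw [← LinearMap.ker_eq_bot, eq_bot_iff]
  intro a ha
  rw [LinearMap.mem_ker] at ha
  obtain ⟨z, rfl⟩ := Hmid.mk_surjective (0 : PUnit.{1} →ₗ[k] X0A) d0A a
  have hiz : i0 (z : X0A) ∈ LinearMap.ker d0B := by
    rw [LinearMap.mem_ker, ← h.i1_d0A, LinearMap.mem_ker.1 z.2, map_zero]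
  have e : h.six0.αX (Hmid.mk (0 : PUnit.{1} →ₗ[k] X0A) d0A z) =
      Hmid.mk (0 : PUnit.{1} →ₗ[k] X0B) d0B ⟨i0 (z : X0A), hiz⟩ :=
    Hmid.map_mk _ i0 i1 _ _ _ _ rfl
  rw [e, Hmid.mk_eq_zero_iff] at ha
  obtain ⟨w, hw⟩ := ha
  rw [Submodule.mem_bot, Hmid.mk_eq_zero_iff]
  refine ⟨w, ?_⟩
  apply h.i0_inj
  rw [LinearMap.zero_apply, map_zero]
  rw [LinearMap.zero_apply] at hw
  exact hw

/-- **The dimension count of the nine-term exact sequence.** -/
theorem NineHyp.count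
    [Module.Finite k ↥(LinearMap.ker d0B)] [Module.Finite k ↥(LinearMap.ker d0C)]
    [Module.Finite k (Hmid d0A d1A)] [Module.Finite k (Hmid d0B d1B)]
    [Module.Finite k (Hmid d0C d1C)] [Module.Finite k (Hmid d1A d2A)]
    [Module.Finite k (Hmid d1B d2B)] :
    Module.finrank k ↥(LinearMap.ker d0A) + Module.finrank k ↥(LinearMap.ker d0C) +
        Module.finrank k (Hmid d0B d1B) + Module.finrank k (Hmid d1A d2A) +
        Module.finrank k (LinearMap.range h.β2) =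
      Module.finrank k ↥(LinearMap.ker d0B) + Module.finrank k (Hmid d0A d1A) +
        Module.finrank k (Hmid d0C d1C) + Module.finrank k (Hmid d1B d2B) := by
  haveI := finite_hmidZero (k := k) d0B
  haveI := finite_hmidZero (k := k) d0C
  have c0 := h.six0.count
  have c1 := h.six1.count
  have e1 := h.six0.finrank_YB
  have r0 : Module.finrank k (LinearMap.range h.six0.αX) =
      Module.finrank k (Hmid (0 : PUnit.{1} →ₗ[k] X0A) d0A) :=
    LinearMap.finrank_range_of_inj h.α0_injective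
  have eq1 : Module.finrank k (LinearMap.range h.six0.αY) =
      Module.finrank k (LinearMap.range h.six1.αX) := rfl
  have eq2 : Module.finrank k (LinearMap.range h.six1.βY) =
      Module.finrank k (LinearMap.range h.β2) := rfl
  rw [finrank_hmidZero] at r0
  rw [finrank_hmidZero, finrank_hmidZero] at c0
  omega

/-- **Superadditivity** of `h¹ - h⁰ - h²` (the Euler characteristic inequality). -/
theorem NineHyp.superadd
    [Module.Finite k ↥(LinearMap.ker d0B)] [Module.Finite k ↥(LinearMap.ker d0C)]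
    [Module.Finite k (Hmid d0A d1A)] [Module.Finite k (Hmid d0B d1B)]
    [Module.Finite k (Hmid d0C d1C)] [Module.Finite k (Hmid d1A d2A)]
    [Module.Finite k (Hmid d1B d2B)] [Module.Finite k (Hmid d1C d2C)] :
    Module.finrank k ↥(LinearMap.ker d0B) + Module.finrank k (Hmid d0A d1A) +
        Module.finrank k (Hmid d0C d1C) + Module.finrank k (Hmid d1B d2B) ≤
      Module.finrank k ↥(LinearMap.ker d0A) + Module.finrank k ↥(LinearMap.ker d0C) +
        Module.finrank k (Hmid d0B d1B) + Module.finrank k (Hmid d1A d2A) +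
        Module.finrank k (Hmid d1C d2C) := by
  have c := h.count
  have hle : Module.finrank k (LinearMap.range h.β2) ≤ Module.finrank k (Hmid d1C d2C) :=
    Submodule.finrank_le _
  omega

/-- **Additivity** when `H²(B) → H²(C)` is onto. -/
theorem NineHyp.add_of_surjective
    [Module.Finite k ↥(LinearMap.ker d0B)] [Module.Finite k ↥(LinearMap.ker d0C)]
    [Module.Finite k (Hmid d0A d1A)] [Module.Finite k (Hmid d0B d1B)]
    [Module.Finite k (Hmid d0C d1C)] [Module.Finite k (Hmid d1A d2A)]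
    [Module.Finite k (Hmid d1B d2B)] (hs : Function.Surjective h.β2) :
    Module.finrank k ↥(LinearMap.ker d0B) + Module.finrank k (Hmid d0A d1A) +
        Module.finrank k (Hmid d0C d1C) + Module.finrank k (Hmid d1B d2B) =
      Module.finrank k ↥(LinearMap.ker d0A) + Module.finrank k ↥(LinearMap.ker d0C) +
        Module.finrank k (Hmid d0B d1B) + Module.finrank k (Hmid d1A d2A) +
        Module.finrank k (Hmid d1C d2C) := by
  have c := h.count
  have hr : Module.finrank k (LinearMap.range h.β2) = Module.finrank k (Hmid d1C d2C) := by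
    rw [LinearMap.range_eq_top.2 hs, finrank_top]
  omega

/-- `H²(B)` is finite-dimensional if `H²(A)` and `H²(C)` are. -/
theorem NineHyp.finite_H2B [Module.Finite k (Hmid d1A d2A)] [Module.Finite k (Hmid d1C d2C)] :
    Module.Finite k (Hmid d1B d2B) := by
  have hker : LinearMap.ker h.six1.βY = LinearMap.range h.six1.αY := by
    ext v
    rw [LinearMap.mem_ker, LinearMap.mem_range]
    exact h.six1.exact_YB v
  haveI : Module.Finite k ↥(LinearMap.ker h.six1.βY) := by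
    rw [hker]
    infer_instance
  haveI : Module.Finite k ↥(LinearMap.range h.six1.βY) := inferInstance
  haveI : Module.Finite k (Hmid d1B d2B ⧸ LinearMap.ker h.six1.βY) :=
    Module.Finite.equiv (h.six1.βY.quotKerEquivRange).symm
  exact Module.Finite.of_submodule_quotient (LinearMap.ker h.six1.βY)

end nineCount

end Fermat.Agent.S56.H92.Snake

end
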