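import Fermat.Agent.S56.EC.Defs
import Fermat.Agent.S56.EC.H92_LES
import Fermat.Agent.S56.GW.H27_Arch

set_option autoImplicit false
set_option linter.style.haveILetI false

/-!
# Cluster T / S56, package EC: `Stmt_superadd` and `Stmt_ADDH`

From the long exact sequence of level-`S` cohomology (`EC/H92_LES.lean`) and the exactness of
the invariants of complex conjugation (`2` invertible).
-/

noncomputable section

namespace Fermat.Agent.S56.H92

open CategoryTheory groupCohomology ExtCitation Module Fermat.Agent.S56 Fermat.Agent.S56.EC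

section dims

variable {k : Type} [Field k] {A B C : Rep.{0} k GQ} (i : A ⟶ B) (π : B ⟶ C)
  (hi : Function.Injective i.hom) (hπ : Function.Surjective π.hom)
  (hex : ∀ b : B, π.hom b = 0 ↔ ∃ a : A, i.hom a = b)

include hi hπ hex

/-- `dim B = dim A + dim C`. -/
theorem finrank_ses [FiniteDimensional k B] :
    finrank k B = finrank k A + finrank k C := by
  have h1 := LinearMap.finrank_range_add_finrank_ker π.hom.toLinearMap
  have h2 : LinearMap.range π.hom.toLinearMap = ⊤ := LinearMap.range_eq_top.2 hπ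
  have h3 : LinearMap.ker π.hom.toLinearMap = LinearMap.range i.hom.toLinearMap := by
    ext b
    rw [LinearMap.mem_ker, LinearMap.mem_range]
    exact hex b
  have h4 : finrank k ↥(LinearMap.range i.hom.toLinearMap) = finrank k A :=
    LinearMap.finrank_range_of_inj hi
  rw [h2, h3, h4, finrank_top] at h1
  omega

/-- The invariants of complex conjugation, as a submodule of `N`. -/
def archInv (N : Rep.{0} k GQ) : Submodule k N where
  carrier := {m | N.ρ complexConjugation m = m}
  add_mem' := by
    intro a b ha hb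
    simp only [Set.mem_ofPred_eq] at ha hb ⊢
    rw [map_add, ha, hb]
  zero_mem' := by
    simp only [Set.mem_ofPred_eq]
    exact map_zero _
  smul_mem' := by
    intro c a ha
    simp only [Set.mem_ofPred_eq] at ha ⊢
    rw [map_smul, ha]

omit hi hπ hex in
theorem mem_archInv (N : Rep.{0} k GQ) (m : N) :
    m ∈ archInv N ↔ N.ρ complexConjugation m = m := Iff.rfl

omit hi hπ hex in
theorem finrank_archInv (N : Rep.{0} k GQ) :
    finrank k ↥(archInv N) = finrank k ↥(Rep.res archimedeanLoc N).ρ.invariants := by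
  let e : ↥(archInv N) ≃ₗ[k] ↥(Rep.res archimedeanLoc N).ρ.invariants :=
    { toFun := fun m => ⟨(m : N), (H27.mem_invariants_arch N (m : N)).2 m.2⟩
      invFun := fun m => ⟨(m : N), (H27.mem_invariants_arch N (m : N)).1 m.2⟩
      map_add' := fun _ _ => rfl
      map_smul' := fun _ _ => rfl
      left_inv := fun _ => rfl
      right_inv := fun _ => rfl }
  exact e.finrank_eq

omit hi hπ hex in
theorem rho_conj_conj (N : Rep.{0} k GQ) (m : N) :
    N.ρ complexConjugation (N.ρ complexConjugation m) = m := by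
  rw [← Module.End.mul_apply, ← map_mul, complexConjugation_mul_self, map_one,
    Module.End.one_apply]

/-- `h⁰(ℝ, B) = h⁰(ℝ, A) + h⁰(ℝ, C)` when `2` is invertible. -/
theorem finrank_archInv_ses (h2 : (2 : k) ≠ 0) [FiniteDimensional k B] :
    finrank k ↥(archInv B) = finrank k ↥(archInv A) + finrank k ↥(archInv C) := by
  let πc : ↥(archInv B) →ₗ[k] ↥(archInv C) :=
    LinearMap.restrict π.hom.toLinearMap (p := archInv B) (q := archInv C) (fun m hm => by
      rw [mem_archInv] at hm ⊢
      show C.ρ complexConjugation (π.hom m) = π.hom m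
      rw [← Rep.hom_comm_apply, hm])
  let ιc : ↥(archInv A) →ₗ[k] ↥(archInv B) :=
    LinearMap.restrict i.hom.toLinearMap (p := archInv A) (q := archInv B) (fun m hm => by
      rw [mem_archInv] at hm ⊢
      show B.ρ complexConjugation (i.hom m) = i.hom m
      rw [← Rep.hom_comm_apply, hm])
  have hsurj : Function.Surjective πc := by
    intro y
    obtain ⟨b, hb⟩ := hπ (y : C)
    have hy : C.ρ complexConjugation (y : C) = (y : C) := y.2
    have hm : (2 : k)⁻¹ • (b + B.ρ complexConjugation b) ∈ archInv B := by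
      rw [mem_archInv, map_smul, map_add, rho_conj_conj, add_comm]
    refine ⟨⟨_, hm⟩, Subtype.ext ?_⟩
    show π.hom ((2 : k)⁻¹ • (b + B.ρ complexConjugation b)) = (y : C)
    rw [map_smul, map_add, Rep.hom_comm_apply, hb, hy, ← two_smul k (y : C), smul_smul,
      inv_mul_cancel₀ h2, one_smul]
  have hinj : Function.Injective ιc := by
    intro a a' haa
    apply Subtype.ext
    apply hi
    exact congrArg Subtype.val haa
  have hker : LinearMap.ker πc = LinearMap.range ιc := by
    ext m
    rw [LinearMap.mem_ker, LinearMap.mem_range]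
    constructor
    · intro hm
      have hm0 : π.hom (m : B) = 0 := congrArg Subtype.val hm
      obtain ⟨a, ha⟩ := (hex _).1 hm0
      have hmc : B.ρ complexConjugation (m : B) = (m : B) := m.2
      have hac : a ∈ archInv A := by
        rw [mem_archInv]
        apply hi
        rw [Rep.hom_comm_apply, ha, hmc]
      exact ⟨⟨a, hac⟩, Subtype.ext ha⟩
    · rintro ⟨a, rfl⟩
      apply Subtype.ext
      exact (hex _).2 ⟨(a : A), rfl⟩
  have h1 := LinearMap.finrank_range_add_finrank_ker πc
  have h3 : finrank k ↥(LinearMap.range ιc) = finrank k ↥(archInv A) :=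
    LinearMap.finrank_range_of_inj hinj
  rw [LinearMap.range_eq_top.2 hsurj, hker, h3, finrank_top] at h1
  omega

/-- `archDefect` is additive on short exact sequences when `2` is invertible. -/
theorem archDefect_ses (h2 : (2 : k) ≠ 0) [FiniteDimensional k B] :
    archDefect B = archDefect A + archDefect C := by
  have e1 := finrank_ses i π hi hπ hex
  have e2 := finrank_archInv_ses i π hi hπ hex h2
  rw [finrank_archInv, finrank_archInv, finrank_archInv] at e2
  unfold archDefect
  omega

end dims

/-- **Package SUPERADD.** -/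
theorem stmt_superadd : Stmt_superadd := by
  intro k _ h2 S N₁ N N₂ _ _ _ i π hses hL₁ hL hL₂ f1A f1B f1C f2A f2B f2C
  obtain ⟨hi, hπ, hex⟩ := hses
  haveI := f1A
  haveI := f1B
  haveI := f1C
  haveI := f2A
  haveI := f2B
  haveI := f2C
  have key := LES.superadd S i π hi hπ hex hL₁ hL hL₂
  have harch := archDefect_ses i π hi hπ hex h2
  unfold ecDefect
  rw [harch]
  omega

/-- With `H³_S(N₁) = 0`, every level-`S` 2-cocycle of `N₂` lifts to a level-`S` 2-cocycle of
`N`. -/
theorem exists_lift_of_H3S {k : Type} [Field k] (S : Finset Nat.Primes)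
    {N₁ N N₂ : Rep.{0} k GQ} (i : N₁ ⟶ N) (π : N ⟶ N₂)
    (hi : Function.Injective i.hom) (hπ : Function.Surjective π.hom)
    (hex : ∀ b : N, π.hom b = 0 ↔ ∃ a : N₁, i.hom a = b)
    (hL : S55.Lev S N) (h3 : GWC.H3S S N₁)
    (c : GQ × GQ → N₂) (hc : S55.dTwo N₂ c = 0) (hcl : IsLevelConstantS₂ S c) :
    ∃ b : GQ × GQ → N, S55.dTwo N b = 0 ∧ IsLevelConstantS₂ S b ∧
      ∃ f : GQ → N₂, IsLevelConstantS₁ S f ∧ (fun x => π.hom (b x)) = c + S55.dOne N₂ f := by
  -- a level-`S` lift of `c`
  let b0 : GQ × GQ → N := Function.surjInv hπ ∘ c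
  have hb0l : IsLevelConstantS₂ S b0 := hcl.comp _
  have hπb0 : (fun x => π.hom (b0 x)) = c := by
    funext x
    exact Function.surjInv_eq hπ _
  -- its coboundary comes from `N₁`
  have hz0 : ∀ x, π.hom (S55.dTwo N b0 x) = 0 := by
    intro x
    have := congrFun (S55.dTwo_comp π b0) x
    rw [← this, hπb0, hc]
    rfl
  let a : GQ × GQ × GQ → N₁ := Function.invFun i.hom ∘ S55.dTwo N b0
  have hia : (fun x => i.hom (a x)) = S55.dTwo N b0 := by
    funext x
    obtain ⟨y, hy⟩ := (hex _).1 (hz0 x)
    show i.hom (Function.invFun i.hom (S55.dTwo N b0 x)) = _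
    rw [← hy, Function.leftInverse_invFun hi y]
  have hal : S55.IsLevS₃ S a :=
    S55.levS₃_comp (S55.isLevS₃_dTwo N (LES.nc S) hL hb0l) _
  have had : S55.dThree N₁ a = 0 := by
    funext x
    apply hi
    have h1 := congrFun (S55.dThree_comp i a) x
    rw [hia, S55.dThree_dTwo] at h1
    show i.hom (S55.dThree N₁ a x) = i.hom 0
    rw [map_zero, ← h1]
    rfl
  obtain ⟨a', ha'l, ha'⟩ := h3 a had hal
  refine ⟨b0 - fun x => i.hom (a' x), ?_, ?_, 0, ?_, ?_⟩
  · rw [S55.dTwo_sub, S55.dTwo_comp i a', ha', hia, sub_self]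
  · exact S55.levS₂_sub hb0l (ha'l.comp _)
  · exact isLevelConstantS₁_const S (0 : N₂)
  · funext x
    show π.hom (b0 x - i.hom (a' x)) = c x + S55.dOne N₂ 0 x
    have h0 : S55.dOne N₂ (0 : GQ → N₂) x = 0 := by
      simp [S55.dOne]
    rw [map_sub, (hex _).2 ⟨_, rfl⟩, sub_zero, h0, add_zero]
    exact congrFun hπb0 x

/-- **Package ADDH.** -/
theorem stmt_ADDH : Stmt_ADDH := by
  intro k _ h2 S N₁ N N₂ _ _ _ i π hses hL₁ hL hL₂ h3 f1A f1B f1C f2A f2B f2C
  obtain ⟨hi, hπ, hex⟩ := hses
  haveI := f1A
  haveI := f1B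
  haveI := f1C
  haveI := f2A
  haveI := f2B
  haveI := f2C
  have hs : Function.Surjective (LES.β2 S i π hi hπ hex hL₁ hL hL₂) :=
    LES.β2_surjective_of_lift S i π hi hπ hex hL₁ hL hL₂
      (fun c hc hcl => exists_lift_of_H3S S i π hi hπ hex hL h3 c hc hcl)
  have key := LES.add_of_surjective S i π hi hπ hex hL₁ hL hL₂ hs
  have harch := archDefect_ses i π hi hπ hex h2
  unfold ecDefect
  rw [harch]
  omega

end Fermat.Agent.S56.H92

end
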