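import Fermat.Agent.S56.EC.H92_DescFinal
import Fermat.Agent.S56.EC.H92_Superadd
import Fermat.Agent.S56.EC.H64_PT2ex
import Fermat.Agent.S56.GWC.H64_FinalTop
import Fermat.Agent.S56.GWC.H46_UR2
import Fermat.Agent.S55.Top.G1K_Main
import Fermat.Agent.S56.EC.Asm

set_option autoImplicit false

/-!
# EC: `H³_S = 0` for all modules, `ADD` and `DESC` from the leaves of the E4 lane (helper92)

* `stmt_H3S_of`   : `GWC.Stmt_H3S_base → GWC.Stmt_H3S`  (dévissage: `H3-ext`, `H3-ret`, `E3`);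
* `stmt_B1_top`   : `GWC.Stmt_B1` from `TopQ0`, `I1..I4`;
* `stmt_ADD_top`  : `EC.Stmt_ADD` from `TopQ0`, `I1..I4`;
* `stmt_DESC_top` : `EC.Stmt_DESC` from `TopQ0`, `I1..I4`.
-/

noncomputable section

namespace Fermat.Agent.S56.EC.H92T

open CategoryTheory groupCohomology ExtCitation Module Fermat.Agent.S55 Fermat.Agent.S56
  Fermat.Agent.S56.GWC Fermat.Agent.S56.EC

variable {k : Type} [Field k] {S : Finset Nat.Primes}

/-- `H³_S = 0` for the zero module. -/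
lemma h3S_of_subsingleton (M : Rep.{0} k GQ) [Subsingleton M] : H3S S M := by
  intro z _ _
  refine ⟨fun _ => 0, isLevelConstantS₂_const S (0 : M), ?_⟩
  funext t
  exact Subsingleton.elim _ _

/-- Dévissage of `H³_S = 0`. -/
theorem h3S_of_devL (K : IntermediateField ℚ (AlgebraicClosure ℚ))
    (hK3 : H3S S (permRep k K)) (N : Rep.{0} k GQ) (hN : DevL k S K N) : H3S S N := by
  induction hN with
  | zero M hM => exact h3S_of_subsingleton M
  | ext M₁ M M₂ i π hses hiso h₁ h h₂ _ ih =>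
    obtain ⟨e⟩ := hiso
    have hr : IsRetract M₁ (permRep k K) := isRetract_of_iso e
    exact GWC.H64.stmt_H3S_ext k S M₁ M M₂ i π hses h₁ h h₂
      (GWC.H64.stmt_H3S_ret k S M₁ (permRep k K) hr hK3) ih

/-- **Package H3** from the base case. -/
theorem stmt_H3S_of (h3 : Stmt_H3S_base) : Stmt_H3S := by
  intro p _ hp2 S X _ hpS hlev
  obtain ⟨K, hK, hidx, N, hret, hL, -⟩ := H13.stmt_E3_index p (ZMod p) S X hpS hlev
  exact GWC.H64.stmt_H3S_ret (ZMod p) S X N hret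
    (h3S_of_devL K (h3 p hp2 S hpS K hK hidx) N hL)

/-- **B1** from the leaves of the E4 lane. -/
theorem stmt_B1_top (hQ : Top.Stmt_TopQ0) (h1 : Top.Stmt_I1) (h2 : Top.Stmt_I2)
    (h3 : Top.Stmt_I3) (h4 : Top.Stmt_I4) : Stmt_B1 :=
  GWC.H64.stmt_B1_of
    (GWC.H64.stmt_B1M_base_of hQ
      (Top.H48.stmt_TopK_of h1 h2 h3 h4 (Top.stmt_G1K_of h2 h4))
      (Top.H48.stmt_TopK_cone_of h1 h2 h3 h4 (Top.stmt_G1K_of h2 h4)))
    (GWC.H64.stmt_H3S_base_of h2)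

/-- **ADD** from the leaves of the E4 lane. -/
theorem stmt_ADD_top (hQ : Top.Stmt_TopQ0) (h1 : Top.Stmt_I1) (h2 : Top.Stmt_I2)
    (h3 : Top.Stmt_I3) (h4 : Top.Stmt_I4) : Stmt_ADD :=
  stmt_ADD_of Fermat.Agent.S56.H92.stmt_ADDH (stmt_H3S_of (GWC.H64.stmt_H3S_base_of h2))
    (EC.H64.stmt_fin2p_of (stmt_B1_top hQ h1 h2 h3 h4)) Fermat.Agent.S56.H92.stmt_fin_glob

/-- **DESC** from the leaves of the E4 lane. -/
theorem stmt_DESC_top (hQ : Top.Stmt_TopQ0) (h1 : Top.Stmt_I1) (h2 : Top.Stmt_I2)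
    (h3 : Top.Stmt_I3) (h4 : Top.Stmt_I4) : Stmt_DESC :=
  DESC.H92.stmt_DESC_final (EC.H64.stmt_fin2p_of (stmt_B1_top hQ h1 h2 h3 h4))
    (stmt_B1_top hQ h1 h2 h3 h4) GWC.H46.stmt_UR2

end Fermat.Agent.S56.EC.H92T

end
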